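import Fermat.Agent.Lifting.Models.Families
import Fermat.Agent.RT.Systems.Push

/-!
# The degeneracy maps and transfers at two distinct primes commute

For `q, t ∤ M` distinct the corestriction and the involution at `q` commute with restriction, the
degeneracy map `diag (t, 1)`, corestriction and involution at `t`, between the levels `M`, `M q`,
`M t` and `M q t`.
-/

set_option autoImplicit false

noncomputable section

namespace Fermat.Agent.RT.TW

open scoped MatrixGroups
open CongruenceSubgroup Periods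
open Systems (levelCast levelCast_rfl)

variable {A : Type} [CommRing A] {N M q t : ℕ} {Φ : MulChar (ZMod N) A}

/-- Two composites of families agree when the cosets of the first are among those of the second. -/
theorem square_of_cover {R R' S S' U U' T T' : ℕ} {hR : N ∣ R} {hR' : N ∣ R'} {hS : N ∣ S}
    {hS' : N ∣ S'} {hU : N ∣ U} {hU' : N ∣ U'} {hT : N ∣ T} {hT' : N ∣ T'} (eR : R = R')
    (eS : S = S') (eU : U = U') (eT : T = T') {α β γ δ : Type} [Fintype α] [Fintype β] [Fintype γ]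
    [Fintype δ] (F₁ : CosetFamily (level0 Φ R hR) (level0 Φ S hS) α)
    (F₂ : CosetFamily (level0 Φ S' hS') (level0 Φ T hT) β)
    (G₁ : CosetFamily (level0 Φ R' hR') (level0 Φ U hU) γ)
    (G₂ : CosetFamily (level0 Φ U' hU') (level0 Φ T' hT') δ)
    (hcard : Fintype.card γ * Fintype.card δ = Fintype.card α * Fintype.card β)
    (hcov : ∀ a b, ∃ c d, ∃ g : Gamma0 R', (F₁.mat a : IntMat) * (F₂.mat b : IntMat) =
      gammaMat g * ((G₁.mat c : IntMat) * (G₂.mat d : IntMat)))
    (hsep : ∀ a b a' b', ∀ g : Gamma0 R, (F₁.mat a : IntMat) * (F₂.mat b : IntMat) =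
      gammaMat g * ((F₁.mat a' : IntMat) * (F₂.mat b' : IntMat)) → a = a' ∧ b = b')
    (x : heckeH1 Φ R hR) :
    levelCast Φ eT hT hT' (F₂.opH1 (levelCast Φ eS hS hS' (F₁.opH1 x))) =
      G₂.opH1 (levelCast Φ eU hU hU' (G₁.opH1 (levelCast Φ eR hR hR' x))) := by
  subst eR eS eU eT
  rw [levelCast_rfl, levelCast_rfl, levelCast_rfl, levelCast_rfl]
  have key := CosetFamily.opH1_eq_of_cover (G₁.comp G₂) (F₁.comp F₂)
    (by rw [Fintype.card_prod, Fintype.card_prod, hcard])
    (fun ⟨a, b⟩ => by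
      obtain ⟨c, d, g, hg⟩ := hcov a b
      exact ⟨(c, d), g, hg⟩)
    (fun ⟨a, b⟩ ⟨a', b'⟩ g hg => by
      obtain ⟨h1, h2⟩ := hsep a b a' b' g hg
      exact Prod.ext h1 h2)
  rw [← CosetFamily.opH1_comp, ← CosetFamily.opH1_comp] at key
  exact LinearMap.congr_fun key x

theorem levelCast_levelCast {R R' : ℕ} (e : R = R') (e' : R' = R) (h : N ∣ R) (h' : N ∣ R')
    (y : heckeH1 Φ R' h') : levelCast Φ e h h' (levelCast Φ e' h' h y) = y := by
  subst e; rfl

/-- A matrix `(r a, b; M r c, r d)` of determinant `r`. -/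
def IsALMat (M r : ℕ) (X : IntMat) : Prop :=
  ∃ a b c d : ℤ, X = !![(r : ℤ) * a, b; (M : ℤ) * r * c, (r : ℤ) * d] ∧
    (r : ℤ) * a * d - b * M * c = 1

theorem IsALMat.eq_gamma0_mul {r : ℕ} {X Y : IntMat} (hX : IsALMat M r X) (hY : IsALMat M r Y) :
    ∃ g : Gamma0 (M * r), X = gammaMat g * Y := by
  obtain ⟨a, b, c, d, rfl, hd⟩ := hX
  obtain ⟨a', b', c', d', rfl, hd'⟩ := hY
  obtain ⟨g, hg⟩ := exists_gamma0_of_entries (N := M * r)
    (a := (r : ℤ) * a * d' - b * M * c') (b := b * a' - a * b')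
    (c := (M : ℤ) * r * (c * d' - d * c')) (d := (r : ℤ) * d * a' - M * c * b')
    (by linear_combination ((r : ℤ) * a' * d' - b' * M * c') * hd + hd')
    ⟨c * d' - d * c', by push_cast; ring⟩
  refine ⟨g, ?_⟩
  rw [hg, Matrix.mul_fin_two]
  congrm !![?_, ?_; ?_, ?_]
  · linear_combination -((r : ℤ) * a) * hd'
  · linear_combination -b * hd'
  · linear_combination -((M : ℤ) * r * c) * hd'
  · linear_combination -((r : ℤ) * d) * hd'

theorem IsALMat.eq_mul_gamma0 {r : ℕ} {X Y : IntMat} (hX : IsALMat M r X) (hY : IsALMat M r Y) :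
    ∃ g : Gamma0 (M * r), X = Y * gammaMat g := by
  obtain ⟨a, b, c, d, rfl, hd⟩ := hX
  obtain ⟨a', b', c', d', rfl, hd'⟩ := hY
  obtain ⟨g, hg⟩ := exists_gamma0_of_entries (N := M * r)
    (a := (r : ℤ) * d' * a - b' * M * c) (b := d' * b - b' * d)
    (c := (M : ℤ) * r * (a' * c - c' * a)) (d := (r : ℤ) * a' * d - M * c' * b)
    (by linear_combination ((r : ℤ) * a' * d' - b' * M * c') * hd + hd')
    ⟨a' * c - c' * a, by push_cast; ring⟩
  refine ⟨g, ?_⟩
  rw [hg, Matrix.mul_fin_two]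
  congrm !![?_, ?_; ?_, ?_]
  · linear_combination -((r : ℤ) * a) * hd'
  · linear_combination -b * hd'
  · linear_combination -((M : ℤ) * r * c) * hd'
  · linear_combination -((r : ℤ) * d) * hd'

theorem isALMat_invol (h : N ∣ M) (hq : q.Prime) (B : AddPrimeBezout M q) :
    IsALMat M q ((degInvol Φ h hq B).mat ()) :=
  ⟨B.x, B.y, 1, 1, by show (!![(q : ℤ) * B.x, B.y; (q : ℤ) * M, (q : ℤ)] : IntMat) = _
                      congrm !![?_, ?_; ?_, ?_] <;> ring, by linear_combination B.eq⟩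

/-- A matrix at a multiple of the level is one at the level. -/
theorem IsALMat.mono {r : ℕ} {X : IntMat} (hX : IsALMat (M * t) r X) : IsALMat M r X := by
  obtain ⟨a, b, c, d, rfl, hd⟩ := hX
  refine ⟨a, b, t * c, d, ?_, by push_cast at hd; linear_combination hd⟩
  push_cast
  congrm !![?_, ?_; ?_, ?_] <;> ring

theorem IsALMat.gamma0_mul {r : ℕ} {X : IntMat} (hX : IsALMat M r X) (γ : Gamma0 (M * r)) :
    IsALMat M r (gammaMat γ * X) := by
  obtain ⟨a, b, c, d, rfl, hd⟩ := hX
  obtain ⟨u, v, w, z, hγ, hdet, s, hs⟩ := gammaMat_entries γ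
  refine ⟨u * a + v * M * c, u * b + v * r * d, s * r * a + z * c, M * s * b + z * d, ?_, ?_⟩
  · rw [hγ, Matrix.mul_fin_two]
    push_cast at hs
    congrm !![?_, ?_; ?_, ?_]
    · ring
    · ring
    · linear_combination (r : ℤ) * a * hs
    · linear_combination b * hs
  · push_cast at hs
    linear_combination (u * z - v * w) * hd + hdet + v * ((r : ℤ) * a * d - b * M * c) * hs

theorem isALMat_mul_invol {X Y : IntMat} (hX : IsALMat (M * t) q X) (hY : IsALMat (M * q) t Y) :
    IsALMat M (q * t) (X * Y) := by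
  obtain ⟨a, b, c, d, rfl, hd⟩ := hX
  obtain ⟨a', b', c', d', rfl, hd'⟩ := hY
  push_cast at hd hd'
  refine ⟨a * a' + b * M * c', (q : ℤ) * a * b' + b * t * d', c * t * a' + q * d * c',
    M * c * b' + d * d', ?_, ?_⟩
  · rw [Matrix.mul_fin_two]
    push_cast
    congrm !![?_, ?_; ?_, ?_] <;> ring
  · push_cast
    linear_combination ((t : ℤ) * a' * d' - b' * (M * q) * c') * hd + hd'

theorem exists_gamma0_cores [NeZero M] (h : N ∣ M) (hq : q.Prime) (hqM : ¬ q ∣ M)
    (B : AddPrimeBezout M q) (i : Option (Fin q)) :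
    ∃ g : Gamma0 M, ((degCores Φ h hq hqM B).mat i : IntMat) = gammaMat g := by
  obtain ⟨g, hg⟩ := Fermat.Agent.LevelRaise.Degeneracy.exists_gamma0_eq (N := M)
    (det_coresMat B i) (by cases i <;> simp [coresMat])
  exact ⟨g, hg.symm⟩

theorem not_dvd_mul_of_ne (hq : q.Prime) (ht : t.Prime) (hqt : q ≠ t) (hqM : ¬ q ∣ M) : ¬ q ∣ M * t := fun hd =>
  (hq.dvd_mul.1 hd).elim hqM fun e => hqt ((Nat.prime_dvd_prime_iff_eq hq ht).1 e)

variable {hq : q.Prime} {ht : t.Prime} [NeZero M] (h : N ∣ M) (hqt : q ≠ t) (hqM : ¬ q ∣ M) (htM : ¬ t ∣ M)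
  [NeZero (M * t)] [NeZero (M * q)]

include hqt

/-- Corestrictions at two primes. -/
theorem degCores_degCores (Bq : AddPrimeBezout M q) (Bt : AddPrimeBezout M t)
    (Bq' : AddPrimeBezout (M * t) q) (Bt' : AddPrimeBezout (M * q) t)
    (x : heckeH1 Φ (M * t * q) ((h.mul_right t).mul_right q)) :
    (degCores Φ h ht htM Bt).opH1
        ((degCores Φ (h.mul_right t) hq (not_dvd_mul_of_ne hq ht hqt hqM) Bq').opH1 x) =
      (degCores Φ h hq hqM Bq).opH1
        ((degCores Φ (h.mul_right q) ht (not_dvd_mul_of_ne ht hq hqt.symm htM) Bt').opH1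
          (levelCast Φ (mul_right_comm M t q) ((h.mul_right t).mul_right q)
            ((h.mul_right q).mul_right t) x)) := by
  have key := square_of_cover (mul_right_comm M t q) rfl rfl rfl
      (degCores Φ (h.mul_right t) hq (not_dvd_mul_of_ne hq ht hqt hqM) Bq')
      (degCores Φ h ht htM Bt)
      (degCores Φ (h.mul_right q) ht (not_dvd_mul_of_ne ht hq hqt.symm htM) Bt')
      (degCores Φ h hq hqM Bq) (by simp [mul_comm]) (fun a b => ?_) (fun a b a' b' g hg => ?_) x
  · rw [levelCast_rfl, levelCast_rfl, levelCast_rfl] at key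
    exact key
  · obtain ⟨ga, hga⟩ := exists_gamma0_cores (Φ := Φ) (h.mul_right t) hq
      (not_dvd_mul_of_ne hq ht hqt hqM) Bq' a
    obtain ⟨gb, hgb⟩ := exists_gamma0_cores (Φ := Φ) h ht htM Bt b
    obtain ⟨ga', hga'⟩ := Fermat.Agent.LevelRaise.Degeneracy.exists_gamma0_eq (N := M)
      (gammaMat_det ga) ((Int.natCast_dvd_natCast.2 (dvd_mul_right M t)).trans
        (Fermat.Agent.LevelRaise.Degeneracy.inS_gammaMat ga).1)
    obtain ⟨σ, g, hg⟩ := ((degCores Φ (h.mul_right q) ht (not_dvd_mul_of_ne ht hq hqt.symm htM)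
      Bt').comp (degCores Φ h hq hqM Bq)).exists_step (ga' * gb)
    refine ⟨(σ (none, none)).1, (σ (none, none)).2, g (none, none), ?_⟩
    rw [hga, hgb, ← hga', ← gammaMat_mul]
    refine Eq.trans ?_ (hg (none, none))
    show _ = ((1 : IntMat) * 1) * _
    rw [Matrix.one_mul, Matrix.one_mul]
  · obtain ⟨ga, hga⟩ := exists_gamma0_cores (Φ := Φ) (h.mul_right t) hq
      (not_dvd_mul_of_ne hq ht hqt hqM) Bq' a
    obtain ⟨ga', hga'⟩ := exists_gamma0_cores (Φ := Φ) (h.mul_right t) hq
      (not_dvd_mul_of_ne hq ht hqt hqM) Bq' a'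
    obtain ⟨g', hg'⟩ := Fermat.Agent.LevelRaise.Degeneracy.exists_gamma0_eq (N := M * t)
      (gammaMat_det g) ((Int.natCast_dvd_natCast.2 (dvd_mul_right (M * t) q)).trans
        (Fermat.Agent.LevelRaise.Degeneracy.inS_gammaMat g).1)
    have hb : b = b' := coresMat_separated ht htM Bt b b' (ga⁻¹ * (g' * ga')) (by
      rw [gammaMat_mul, gammaMat_mul, hg', Matrix.mul_assoc, Matrix.mul_assoc, ← hga']
      refine Eq.trans ?_ (congrArg (gammaMat ga⁻¹ * ·) hg)
      rw [hga, ← Matrix.mul_assoc, ← gammaMat_mul, inv_mul_cancel, gammaMat_one, Matrix.one_mul]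
      rfl)
    subst hb
    refine ⟨coresMat_separated hq (not_dvd_mul_of_ne hq ht hqt hqM) Bq' a a' g (intMat_mul_right_cancel
      (M := coresMat Bt b) (by rw [det_coresMat]; exact one_ne_zero) ?_), rfl⟩
    rw [Matrix.mul_assoc]
    exact hg

/-- Corestriction at `q` and restriction at `t`. -/
theorem degCores_degRes_cross (Bq : AddPrimeBezout M q) (Bq' : AddPrimeBezout (M * t) q)
    (x : heckeH1 Φ (M * q) (h.mul_right q)) :
    (degCores Φ (h.mul_right t) hq (not_dvd_mul_of_ne hq ht hqt hqM) Bq').opH1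
        (levelCast Φ (mul_right_comm M q t) ((h.mul_right q).mul_right t)
          ((h.mul_right t).mul_right q) ((degRes t Φ (h.mul_right q)).opH1 x)) =
      (degRes t Φ h).opH1 ((degCores Φ h hq hqM Bq).opH1 x) := by
  have key := square_of_cover rfl
    (mul_right_comm M q t) rfl rfl (degRes t Φ (h.mul_right q))
    (degCores Φ (h.mul_right t) hq (not_dvd_mul_of_ne hq ht hqt hqM) Bq')
    (degCores Φ h hq hqM Bq) (degRes t Φ h) (by simp) (fun a b => ?_)
    (fun a b a' b' g hg => ?_) x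
  · rw [levelCast_rfl, levelCast_rfl, levelCast_rfl] at key
    exact key
  · obtain ⟨gb, hgb⟩ := exists_gamma0_cores (Φ := Φ) (h.mul_right t) hq
      (not_dvd_mul_of_ne hq ht hqt hqM) Bq' b
    obtain ⟨σ, g, hg⟩ := ((degCores Φ h hq hqM Bq).comp (degRes t Φ h)).exists_step gb
    refine ⟨(σ (none, ())).1, (σ (none, ())).2, g (none, ()), ?_⟩
    rw [hgb]
    refine Eq.trans ?_ (hg (none, ()))
    show (1 : IntMat) * _ = ((1 : IntMat) * 1) * _
    rw [Matrix.one_mul, Matrix.one_mul, Matrix.one_mul]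
  · obtain ⟨gb, hgb⟩ := exists_gamma0_cores (Φ := Φ) (h.mul_right t) hq
      (not_dvd_mul_of_ne hq ht hqt hqM) Bq' b
    obtain ⟨gb', hgb'⟩ := exists_gamma0_cores (Φ := Φ) (h.mul_right t) hq
      (not_dvd_mul_of_ne hq ht hqt hqM) Bq' b'
    have hg' : gammaMat g = gammaMat (gb * gb'⁻¹) := by
      rw [hgb, hgb'] at hg
      change (1 : IntMat) * gammaMat gb = gammaMat g * ((1 : IntMat) * gammaMat gb') at hg
      rw [Matrix.one_mul, Matrix.one_mul] at hg
      rw [gammaMat_mul, hg, Matrix.mul_assoc, ← gammaMat_mul, mul_inv_cancel, gammaMat_one,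
        Matrix.mul_one]
    obtain ⟨g₂, hg₂⟩ := Fermat.Agent.LevelRaise.Degeneracy.exists_gamma0_eq (N := M * t * q)
      (gammaMat_det g) (natCast_mul_dvd_of_dvd hq (not_dvd_mul_of_ne hq ht hqt hqM)
        (hg' ▸ (Fermat.Agent.LevelRaise.Degeneracy.inS_gammaMat (gb * gb'⁻¹)).1)
        ((Int.natCast_dvd_natCast.2 (dvd_mul_left q M)).trans
          (Fermat.Agent.LevelRaise.Degeneracy.inS_gammaMat g).1))
    refine ⟨Subsingleton.elim _ _, coresMat_separated hq (not_dvd_mul_of_ne hq ht hqt hqM) Bq' b b' g₂ ?_⟩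
    rw [hg₂]
    exact (Matrix.one_mul _).symm.trans (hg.trans (congrArg _ (Matrix.one_mul _)))

/-- Corestriction at `q` and `diag (t, 1)`. -/
theorem degCores_degDiag_cross (Bq : AddPrimeBezout M q) (Bq' : AddPrimeBezout (M * t) q)
    (x : heckeH1 Φ (M * q) (h.mul_right q)) :
    (degCores Φ (h.mul_right t) hq (not_dvd_mul_of_ne hq ht hqt hqM) Bq').opH1
        (levelCast Φ (mul_right_comm M q t) ((h.mul_right q).mul_right t)
          ((h.mul_right t).mul_right q) ((degDiag Φ (h.mul_right q) ht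
            (not_dvd_mul_of_ne ht hq hqt.symm htM)).opH1 x)) =
      (degDiag Φ h ht htM).opH1 ((degCores Φ h hq hqM Bq).opH1 x) := by
  have key := square_of_cover rfl
    (mul_right_comm M q t) rfl rfl (degDiag Φ (h.mul_right q) ht
      (not_dvd_mul_of_ne ht hq hqt.symm htM))
    (degCores Φ (h.mul_right t) hq (not_dvd_mul_of_ne hq ht hqt hqM) Bq')
    (degCores Φ h hq hqM Bq) (degDiag Φ h ht htM) (by simp) (fun a b => ?_)
    (fun a b a' b' g hg => ?_) x
  · rw [levelCast_rfl, levelCast_rfl, levelCast_rfl] at key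
    exact key
  · obtain ⟨gb, hgb⟩ := exists_gamma0_cores (Φ := Φ) (h.mul_right t) hq
      (not_dvd_mul_of_ne hq ht hqt hqM) Bq' b
    obtain ⟨σ, g, hg⟩ := ((degCores Φ h hq hqM Bq).comp (degDiag Φ h ht htM)).exists_step gb
    refine ⟨(σ (none, ())).1, (σ (none, ())).2, g (none, ()), ?_⟩
    rw [hgb]
    refine Eq.trans ?_ (hg (none, ()))
    show (!![(t : ℤ), 0; 0, 1] : IntMat) * _ = ((1 : IntMat) * !![(t : ℤ), 0; 0, 1]) * _
    rw [Matrix.one_mul]
  · obtain ⟨gb, hgb⟩ := exists_gamma0_cores (Φ := Φ) (h.mul_right t) hq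
      (not_dvd_mul_of_ne hq ht hqt hqM) Bq' b
    obtain ⟨gb', hgb'⟩ := exists_gamma0_cores (Φ := Φ) (h.mul_right t) hq
      (not_dvd_mul_of_ne hq ht hqt hqM) Bq' b'
    obtain ⟨u, v, w, z, hk, hdet, -⟩ := gammaMat_entries (gb * gb'⁻¹)
    obtain ⟨u', v', w', z', hg1, -, hw'⟩ := gammaMat_entries g
    have e : (!![(t : ℤ), 0; 0, 1] : IntMat) * gammaMat (gb * gb'⁻¹) =
        gammaMat g * !![(t : ℤ), 0; 0, 1] := by
      rw [hgb, hgb'] at hg
      rw [gammaMat_mul, ← Matrix.mul_assoc]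
      refine (congrArg (· * gammaMat gb'⁻¹) hg).trans ?_
      rw [Matrix.mul_assoc, Matrix.mul_assoc, ← gammaMat_mul, mul_inv_cancel, gammaMat_one,
        Matrix.mul_one]
      rfl
    rw [hk, hg1, Matrix.mul_fin_two, Matrix.mul_fin_two] at e
    have e10 := congrFun (congrFun e 1) 0
    simp at e10
    obtain ⟨g₂, hg₂⟩ := exists_gamma0_of_entries (N := M * t * q) hdet (c := w) (by
      rw [e10]
      obtain ⟨s, rfl⟩ := hw'
      exact ⟨s, by push_cast; ring⟩)
    refine ⟨Subsingleton.elim _ _, coresMat_separated hq (not_dvd_mul_of_ne hq ht hqt hqM) Bq' b b'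
      g₂ ?_⟩
    rw [hg₂, ← hk, gammaMat_mul, Matrix.mul_assoc]
    refine (show coresMat Bq' b = gammaMat gb from hgb).trans ?_
    rw [show coresMat Bq' b' = gammaMat gb' from hgb', ← gammaMat_mul, inv_mul_cancel, gammaMat_one,
      Matrix.mul_one]

omit [NeZero M] [NeZero (M * t)] [NeZero (M * q)] in
/-- The involution at `q` and restriction at `t`. -/
theorem degInvol_degRes_cross (Bq : AddPrimeBezout M q) (Bq' : AddPrimeBezout (M * t) q)
    (x : heckeH1 Φ (M * q) (h.mul_right q)) :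
    (degInvol Φ (h.mul_right t) hq Bq').opH1
        (levelCast Φ (mul_right_comm M q t) ((h.mul_right q).mul_right t)
          ((h.mul_right t).mul_right q) ((degRes t Φ (h.mul_right q)).opH1 x)) =
      levelCast Φ (mul_right_comm M q t) ((h.mul_right q).mul_right t)
        ((h.mul_right t).mul_right q)
        ((degRes t Φ (h.mul_right q)).opH1 ((degInvol Φ h hq Bq).opH1 x)) := by
  have key := square_of_cover rfl (mul_right_comm M q t) rfl (mul_right_comm M t q)
    (degRes t Φ (h.mul_right q)) (degInvol Φ (h.mul_right t) hq Bq')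
    (degInvol Φ h hq Bq) (degRes t Φ (h.mul_right q)) (by simp) (fun a b => by
      obtain ⟨g, hg⟩ := ((isALMat_invol (Φ := Φ) (h.mul_right t) hq Bq').mono).eq_gamma0_mul
        (isALMat_invol (Φ := Φ) h hq Bq)
      refine ⟨(), (), g, ?_⟩
      show (1 : IntMat) * _ = _ * (_ * (1 : IntMat))
      rw [Matrix.one_mul, Matrix.mul_one]
      exact hg)
    (fun _ _ _ _ _ _ => ⟨Subsingleton.elim _ _, Subsingleton.elim _ _⟩) x
  rw [levelCast_rfl, levelCast_rfl] at key
  rw [← key, levelCast_levelCast]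

omit [NeZero M] [NeZero (M * t)] [NeZero (M * q)] in
/-- The involution at `q` and `diag (t, 1)`. -/
theorem degInvol_degDiag_cross (Bq : AddPrimeBezout M q) (Bq' : AddPrimeBezout (M * t) q)
    (x : heckeH1 Φ (M * q) (h.mul_right q)) :
    (degInvol Φ (h.mul_right t) hq Bq').opH1
        (levelCast Φ (mul_right_comm M q t) ((h.mul_right q).mul_right t)
          ((h.mul_right t).mul_right q) ((degDiag Φ (h.mul_right q) ht
            (not_dvd_mul_of_ne ht hq hqt.symm htM)).opH1 x)) =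
      levelCast Φ (mul_right_comm M q t) ((h.mul_right q).mul_right t)
        ((h.mul_right t).mul_right q)
        ((degDiag Φ (h.mul_right q) ht (not_dvd_mul_of_ne ht hq hqt.symm htM)).opH1
          ((degInvol Φ h hq Bq).opH1 x)) := by
  have key := square_of_cover rfl (mul_right_comm M q t) rfl (mul_right_comm M t q)
    (degDiag Φ (h.mul_right q) ht (not_dvd_mul_of_ne ht hq hqt.symm htM))
    (degInvol Φ (h.mul_right t) hq Bq') (degInvol Φ h hq Bq)
    (degDiag Φ (h.mul_right q) ht (not_dvd_mul_of_ne ht hq hqt.symm htM)) (by simp) (fun a b => by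
      obtain ⟨g, hg⟩ := (show IsALMat M q
          !![(q : ℤ) * Bq'.x, (t : ℤ) * Bq'.y; (q : ℤ) * M, (q : ℤ)] from
        ⟨Bq'.x, (t : ℤ) * Bq'.y, 1, 1, by congrm !![?_, ?_; ?_, ?_] <;> ring,
          by have e := Bq'.eq; push_cast at e; linear_combination e⟩).eq_gamma0_mul
        (isALMat_invol (Φ := Φ) h hq Bq)
      refine ⟨(), (), g, ?_⟩
      show (!![(t : ℤ), 0; 0, 1] : IntMat) *
          !![(q : ℤ) * Bq'.x, Bq'.y; (q : ℤ) * (M * t : ℕ), (q : ℤ)] =
        _ * (_ * (!![(t : ℤ), 0; 0, 1] : IntMat))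
      rw [← Matrix.mul_assoc, ← hg, Matrix.mul_fin_two, Matrix.mul_fin_two]
      congrm !![?_, ?_; ?_, ?_] <;> push_cast <;> ring)
    (fun _ _ _ _ _ _ => ⟨Subsingleton.elim _ _, Subsingleton.elim _ _⟩) x
  rw [levelCast_rfl, levelCast_rfl] at key
  rw [← key, levelCast_levelCast]

omit [NeZero M] [NeZero (M * t)] in
/-- The involution at `q` and corestriction at `t`. -/
theorem degInvol_degCores_cross (Bq : AddPrimeBezout M q) (Bq' : AddPrimeBezout (M * t) q)
    (Bt' : AddPrimeBezout (M * q) t) (x : heckeH1 Φ (M * q * t) ((h.mul_right q).mul_right t)) :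
    (degInvol Φ h hq Bq).opH1
        ((degCores Φ (h.mul_right q) ht (not_dvd_mul_of_ne ht hq hqt.symm htM) Bt').opH1 x) =
      (degCores Φ (h.mul_right q) ht (not_dvd_mul_of_ne ht hq hqt.symm htM) Bt').opH1
        (levelCast Φ (mul_right_comm M t q) ((h.mul_right t).mul_right q)
          ((h.mul_right q).mul_right t) ((degInvol Φ (h.mul_right t) hq Bq').opH1
            (levelCast Φ (mul_right_comm M q t) ((h.mul_right q).mul_right t)
              ((h.mul_right t).mul_right q) x))) := by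
  have key := square_of_cover (mul_right_comm M q t) rfl (mul_right_comm M t q) rfl
    (degCores Φ (h.mul_right q) ht (not_dvd_mul_of_ne ht hq hqt.symm htM) Bt')
    (degInvol Φ h hq Bq) (degInvol Φ (h.mul_right t) hq Bq')
    (degCores Φ (h.mul_right q) ht (not_dvd_mul_of_ne ht hq hqt.symm htM) Bt')
    (by simp) (fun a b => by
      obtain ⟨ga, hga⟩ := exists_gamma0_cores (Φ := Φ) (h.mul_right q) ht
        (not_dvd_mul_of_ne ht hq hqt.symm htM) Bt' a
      obtain ⟨γ, hγ⟩ := ((isALMat_invol (Φ := Φ) h hq Bq).gamma0_mul ga).eq_mul_gamma0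
        ((isALMat_invol (Φ := Φ) (h.mul_right t) hq Bq').mono)
      obtain ⟨σ, g, hg⟩ :=
        (degCores Φ (h.mul_right q) ht (not_dvd_mul_of_ne ht hq hqt.symm htM) Bt').exists_step γ
      obtain ⟨g₁, hg₁⟩ := Fermat.Agent.LevelRaise.Degeneracy.exists_gamma0_eq (N := M * t * q)
        (gammaMat_det (g none)) (by
          rw [mul_right_comm M t q]
          exact (Fermat.Agent.LevelRaise.Degeneracy.inS_gammaMat (g none)).1)
      obtain ⟨g₂, hg₂⟩ := exists_invol_step (Φ := Φ) (h.mul_right t) hq Bq' g₁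
      refine ⟨(), σ none, g₂, ?_⟩
      rw [hga]
      refine hγ.trans ?_
      rw [← Matrix.mul_assoc, ← hg₂, hg₁, Matrix.mul_assoc]
      exact congrArg _ ((Matrix.one_mul _).symm.trans (hg none)))
    (fun a b a' b' g hg => ⟨coresMat_separated ht (not_dvd_mul_of_ne ht hq hqt.symm htM) Bt' a a' g
      (intMat_mul_right_cancel (M := ((degInvol Φ h hq Bq).mat () : IntMat))
        ((degInvol Φ h hq Bq).det_ne_zero ()) (by rw [Matrix.mul_assoc]; exact hg)),
      Subsingleton.elim _ _⟩) x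
  rw [levelCast_rfl, levelCast_rfl] at key
  exact key

omit [NeZero M] [NeZero (M * t)] [NeZero (M * q)] in
/-- The involutions at two primes. -/
theorem degInvol_degInvol_cross (Bq' : AddPrimeBezout (M * t) q) (Bt' : AddPrimeBezout (M * q) t)
    (x : heckeH1 Φ (M * t * q) ((h.mul_right t).mul_right q)) :
    levelCast Φ (mul_right_comm M q t) ((h.mul_right q).mul_right t)
        ((h.mul_right t).mul_right q)
        ((degInvol Φ (h.mul_right q) ht Bt').opH1
          (levelCast Φ (mul_right_comm M t q) ((h.mul_right t).mul_right q)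
            ((h.mul_right q).mul_right t) ((degInvol Φ (h.mul_right t) hq Bq').opH1 x))) =
      (degInvol Φ (h.mul_right t) hq Bq').opH1
        (levelCast Φ (mul_right_comm M q t) ((h.mul_right q).mul_right t)
          ((h.mul_right t).mul_right q) ((degInvol Φ (h.mul_right q) ht Bt').opH1
            (levelCast Φ (mul_right_comm M t q) ((h.mul_right t).mul_right q)
              ((h.mul_right q).mul_right t) x))) := by
  refine square_of_cover (mul_right_comm M t q) (mul_right_comm M t q) (mul_right_comm M q t)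
    (mul_right_comm M q t) (degInvol Φ (h.mul_right t) hq Bq') (degInvol Φ (h.mul_right q) ht Bt')
    (degInvol Φ (h.mul_right q) ht Bt') (degInvol Φ (h.mul_right t) hq Bq') (by simp)
    (fun a b => ?_) (fun _ _ _ _ _ _ => ⟨Subsingleton.elim _ _, Subsingleton.elim _ _⟩) x
  have h1 := isALMat_mul_invol (M := M) (q := q) (t := t)
    (isALMat_invol (Φ := Φ) (h.mul_right t) hq Bq') (isALMat_invol (Φ := Φ) (h.mul_right q) ht Bt')
  have h2 := isALMat_mul_invol (M := M) (q := t) (t := q)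
    (isALMat_invol (Φ := Φ) (h.mul_right q) ht Bt') (isALMat_invol (Φ := Φ) (h.mul_right t) hq Bq')
  rw [mul_comm t q] at h2
  obtain ⟨g, hg⟩ := h1.eq_gamma0_mul h2
  obtain ⟨g', hg'⟩ := Fermat.Agent.LevelRaise.Degeneracy.exists_gamma0_eq (N := M * q * t)
    (gammaMat_det g) (by
      rw [mul_assoc]
      exact (Fermat.Agent.LevelRaise.Degeneracy.inS_gammaMat g).1)
  exact ⟨(), (), g', by rw [hg']; exact hg⟩

end Fermat.Agent.RT.TW

end
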