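import Fermat.Agent.Lifting.Models.EdgesPart
import Fermat.Agent.Lifting.Models.CrossPrime

/-!
# Transfers and maps up at two primes of a node

For nodes below `B` at `t` and at `q` and one below both (`NodeBelow.swap`), the transfers at `q`
commute with the transfers at `t` (`NodeBelow.tr_tr`) and with the maps up at `t`
(`NodeBelow.tr_deg`); `dnPart_mem_pNew` and `upPart_mem_pNew` follow on the parts.
-/

set_option autoImplicit false
set_option linter.style.haveILetI false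

noncomputable section

open IsLocalRing

namespace Fermat.Agent.Lifting.Models

open RT.Diamond RT.TW RT.Assembly
open RT.Systems (levelCast levelCast_rfl)

section Cross

variable {A : Type} [CommRing A] {N M L Lt Lq q t : ℕ} (Φ : MulChar (ZMod N) A)

/-- The two transfers from a level equal to `M * q`. -/
def transfer [NeZero M] (h : N ∣ M) (hq : q.Prime) (hqM : ¬ q ∣ M) (Bz : AddPrimeBezout M q)
    (e : M * q = L) (hL : N ∣ L) : Fin 2 → (heckeH1 Φ L hL →ₗ[A] heckeH1 Φ M h) :=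
  ![(degCores Φ h hq hqM Bz).opH1 ∘ₗ (levelCast Φ e.symm hL (h.mul_right q)).toLinearMap,
    degCores' Φ h hq hqM Bz ∘ₗ (levelCast Φ e.symm hL (h.mul_right q)).toLinearMap]

variable [NeZero M] [NeZero Lt] [NeZero Lq] (h : N ∣ M) {hT : N ∣ Lt} {hQ : N ∣ Lq} (hL : N ∣ L)
  (hq : q.Prime) (ht : t.Prime) (hqM : ¬ q ∣ M) (htM : ¬ t ∣ M) (hqt : q ≠ t)

include hqt

/-- Transfers at two primes commute. -/
theorem transfer_transfer (htT : ¬ t ∣ Lt) (hqQ : ¬ q ∣ Lq) (eT : M * q = Lt) (eQ : M * t = Lq)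
    (e : Lt * t = L) (e' : Lq * q = L) (Bq : AddPrimeBezout M q) (Bt : AddPrimeBezout M t)
    (Bt' : AddPrimeBezout Lt t) (Bq' : AddPrimeBezout Lq q) (i j : Fin 2) (x : heckeH1 Φ L hL) :
    transfer Φ h hq hqM Bq eT hT j (transfer Φ hT ht htT Bt' e hL i x) =
      transfer Φ h ht htM Bt eQ hQ i (transfer Φ hQ hq hqQ Bq' e' hL j x) := by
  subst eT eQ e
  set y := levelCast Φ e'.symm hL (hQ.mul_right q) x with hy
  have hxy : levelCast Φ e' ((h.mul_right t).mul_right q) ((h.mul_right q).mul_right t) y = x :=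
    levelCast_levelCast e' e'.symm _ _ x
  have h00 := degCores_degCores (Φ := Φ) (hq := hq) (ht := ht) h hqt hqM htM Bq Bt Bq' Bt' y
  rw [hxy] at h00
  fin_cases i <;> fin_cases j
  · exact h00.symm
  · show (degCores Φ h hq hqM Bq).opH1 ((degInvol Φ h hq Bq).opH1
      ((degCores Φ hT ht htT Bt').opH1 x)) = (degCores Φ h ht htM Bt).opH1
        ((degCores Φ hQ hq hqQ Bq').opH1 ((degInvol Φ hQ hq Bq').opH1 y))
    have := degCores_degCores (Φ := Φ) (hq := hq) (ht := ht) h hqt hqM htM Bq Bt Bq' Bt'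
      ((degInvol Φ hQ hq Bq').opH1 y)
    rw [this, degInvol_degCores_cross (Φ := Φ) (hq := hq) (ht := ht) h hqt htM Bq Bq' Bt' x]
  · show (degCores Φ h hq hqM Bq).opH1
      ((degCores Φ hT ht htT Bt').opH1 ((degInvol Φ hT ht Bt').opH1 x)) =
        (degCores Φ h ht htM Bt).opH1 ((degInvol Φ h ht Bt).opH1
          ((degCores Φ hQ hq hqQ Bq').opH1 y))
    rw [degInvol_degCores_cross (Φ := Φ) (hq := ht) (ht := hq) h hqt.symm hqM Bt Bt' Bq' y,
      hxy, degCores_degCores (Φ := Φ) (hq := hq) (ht := ht) h hqt hqM htM Bq Bt Bq' Bt',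
      levelCast_levelCast]
  · show (degCores Φ h hq hqM Bq).opH1 ((degInvol Φ h hq Bq).opH1
      ((degCores Φ hT ht htT Bt').opH1 ((degInvol Φ hT ht Bt').opH1 x))) =
        (degCores Φ h ht htM Bt).opH1 ((degInvol Φ h ht Bt).opH1
          ((degCores Φ hQ hq hqQ Bq').opH1 ((degInvol Φ hQ hq Bq').opH1 y)))
    rw [degInvol_degCores_cross (Φ := Φ) (hq := hq) (ht := ht) h hqt htM Bq Bq' Bt',
      degInvol_degCores_cross (Φ := Φ) (hq := ht) (ht := hq) h hqt.symm hqM Bt Bt' Bq',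
      degCores_degCores (Φ := Φ) (hq := hq) (ht := ht) h hqt hqM htM Bq Bt Bq' Bt',
      levelCast_levelCast]
    have hii := degInvol_degInvol_cross (Φ := Φ) (hq := hq) (ht := ht) h hqt Bq' Bt' y
    rw [hxy] at hii
    rw [← hii, levelCast_levelCast]

end Cross

section CrossUp

variable {A : Type} [CommRing A] {N M L Lt Lq q t : ℕ} (θ : MulChar (ZMod N) A)
  [NeZero M] [NeZero Lt] [NeZero Lq] (h : N ∣ M) {hT : N ∣ Lt} {hQ : N ∣ Lq} (hL : N ∣ L)
  (hq : q.Prime) (ht : t.Prime) (hqM : ¬ q ∣ M) (htM : ¬ t ∣ M) (hqt : q ≠ t)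

include hqt

/-- Transfers at one prime commute with the maps up at another. -/
theorem transfer_upCast (htT : ¬ t ∣ Lt) (hqQ : ¬ q ∣ Lq) (eT : M * q = Lt) (eQ : M * t = Lq)
    (e : Lt * t = L) (e' : Lq * q = L) (Bq : AddPrimeBezout M q) (Bq' : AddPrimeBezout Lq q)
    (i j : Fin 2) (y : heckeH1 (neben θ) Lt hT) :
    transfer (neben θ) hQ hq hqQ Bq' e' hL j (upCast θ hT ht htT e hL i y) =
      upCast θ h ht htM eQ hQ i (transfer (neben θ) h hq hqM Bq eT hT j y) := by
  subst eT eQ e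
  fin_cases i <;> fin_cases j
  · exact degCores_degRes_cross (Φ := neben θ) (hq := hq) (ht := ht) h hqt hqM Bq Bq' y
  · show (degCores (neben θ) hQ hq hqQ Bq').opH1 ((degInvol (neben θ) hQ hq Bq').opH1
      (levelCast (neben θ) e'.symm hL (hQ.mul_right q) ((degRes t (neben θ) hT).opH1 y))) =
        (degRes t (neben θ) h).opH1 ((degCores (neben θ) h hq hqM Bq).opH1
          ((degInvol (neben θ) h hq Bq).opH1 y))
    rw [degInvol_degRes_cross (Φ := neben θ) (hq := hq) h hqt Bq Bq' y]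
    exact degCores_degRes_cross (Φ := neben θ) (hq := hq) (ht := ht) h hqt hqM Bq Bq' _
  · show (degCores (neben θ) hQ hq hqQ Bq').opH1 (levelCast (neben θ) e'.symm hL (hQ.mul_right q)
      (Ring.inverse (θ (t : ZMod N)) • (degDiag (neben θ) hT ht htT).opH1 y)) =
        Ring.inverse (θ (t : ZMod N)) • (degDiag (neben θ) h ht htM).opH1
          ((degCores (neben θ) h hq hqM Bq).opH1 y)
    rw [map_smul, map_smul]
    exact congrArg _ (degCores_degDiag_cross (Φ := neben θ) (hq := hq) (ht := ht) h hqt hqM htM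
      Bq Bq' y)
  · show (degCores (neben θ) hQ hq hqQ Bq').opH1 ((degInvol (neben θ) hQ hq Bq').opH1
      (levelCast (neben θ) e'.symm hL (hQ.mul_right q)
        (Ring.inverse (θ (t : ZMod N)) • (degDiag (neben θ) hT ht htT).opH1 y))) =
        Ring.inverse (θ (t : ZMod N)) • (degDiag (neben θ) h ht htM).opH1
          ((degCores (neben θ) h hq hqM Bq).opH1 ((degInvol (neben θ) h hq Bq).opH1 y))
    rw [map_smul, map_smul, map_smul,
      degInvol_degDiag_cross (Φ := neben θ) (hq := hq) (ht := ht) h hqt htM Bq Bq' y]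
    exact congrArg _ (degCores_degDiag_cross (Φ := neben θ) (hq := hq) (ht := ht) h hqt hqM htM
      Bq Bq' _)

end CrossUp

variable {O : Type} [CommRing O] [IsDomain O] [IsDiscreteValuationRing O]
  [IsAdicComplete (maximalIdeal O) O] [Finite (ResidueField O)] [CharZero O]
  {p : ℕ} [Fact p.Prime] {B : NodeBase O p} {q t : ℕ}

namespace NodeBelow

/-- The node below both, seen below the node without `q`. -/
def swap (Bt : NodeBelow B t) (Bq : NodeBelow B q) (Btq : NodeBelow Bt.base q) :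
    NodeBelow Bq.base t where
  base := Btq.base
  prime := Bt.prime
  level_eq := mul_right_cancel₀ Bq.prime.ne_zero
    (by rw [mul_right_comm, Btq.level_eq, Bt.level_eq, Bq.level_eq])
  omitted_eq := by rw [Btq.omitted_eq, Bt.omitted_eq, Bq.omitted_eq]
  S_omitted := Btq.S_omitted
  a_eq := by rw [Btq.a_eq, Bt.a_eq, Bq.a_eq]
  mem_omitted := Bq.omitted_eq ▸ Bt.mem_omitted

variable (Bl : NodeBelow B q) {r n : ℕ} (Lv : NodeLevel B r n)

/-- The maps up on the classes. -/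
def deg (i : Fin 2) : (Bl.level Lv).H1 →ₗ[Lv.Λ] Lv.H1 :=
  upCast Lv.θ (Bl.level Lv).N_dvd_L Bl.prime (Bl.not_dvd_level Lv) (Bl.level_L Lv) Lv.N_dvd_L i

theorem coe_upPart_eq_deg (i : Fin 2) (x : (Bl.level Lv).part) :
    (Bl.upPart Lv i x : Lv.H1) = Bl.deg Lv i x := rfl

theorem tr_eq_transfer (j : Fin 2) :
    Bl.tr Lv j = transfer (neben Lv.θ) (Bl.level Lv).N_dvd_L Bl.prime (Bl.not_dvd_level Lv)
      (Bl.bezout Lv) (Bl.level_L Lv) Lv.N_dvd_L j := rfl

variable (Bt : NodeBelow B t) (Bq : NodeBelow B q) (Btq : NodeBelow Bt.base q)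

/-- The transfers at two primes commute. -/
theorem tr_tr (hqt : q ≠ t) (i j : Fin 2) (x : Lv.H1) :
    Btq.tr (Bt.level Lv) j (Bt.tr Lv i x) =
      (Bt.swap Bq Btq).tr (Bq.level Lv) i (Bq.tr Lv j x) :=
  transfer_transfer (neben Lv.θ) (Btq.level (Bt.level Lv)).N_dvd_L Lv.N_dvd_L Bq.prime Bt.prime
    (Btq.not_dvd_level (Bt.level Lv)) ((Bt.swap Bq Btq).not_dvd_level (Bq.level Lv)) hqt
    (Bt.not_dvd_level Lv) (Bq.not_dvd_level Lv) (Btq.level_L (Bt.level Lv))
    ((Bt.swap Bq Btq).level_L (Bq.level Lv)) (Bt.level_L Lv) (Bq.level_L Lv)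
    (Btq.bezout (Bt.level Lv)) ((Bt.swap Bq Btq).bezout (Bq.level Lv)) (Bt.bezout Lv)
    (Bq.bezout Lv) i j x

/-- The transfers at `q` commute with the maps up at `t`. -/
theorem tr_deg (hqt : q ≠ t) (i j : Fin 2) (y : (Bt.level Lv).H1) :
    Bq.tr Lv j (Bt.deg Lv i y) =
      (Bt.swap Bq Btq).deg (Bq.level Lv) i (Btq.tr (Bt.level Lv) j y) :=
  transfer_upCast Lv.θ (Btq.level (Bt.level Lv)).N_dvd_L Lv.N_dvd_L Bq.prime Bt.prime
    (Btq.not_dvd_level (Bt.level Lv)) ((Bt.swap Bq Btq).not_dvd_level (Bq.level Lv)) hqt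
    (Bt.not_dvd_level Lv) (Bq.not_dvd_level Lv) (Btq.level_L (Bt.level Lv))
    ((Bt.swap Bq Btq).level_L (Bq.level Lv)) (Bt.level_L Lv) (Bq.level_L Lv)
    (Btq.bezout (Bt.level Lv)) (Bq.bezout Lv) i j y

/-- The transfers at `q` commute with the maps down at `t` on the parts. -/
theorem trPart_dnPart (hqt : q ≠ t) (i j : Fin 2) (x : Lv.part) :
    Btq.trPart (Bt.level Lv) j (Bt.dnPart Lv i x) =
      (Bt.swap Bq Btq).dnPart (Bq.level Lv) i (Bq.trPart Lv j x) := by
  revert i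
  rw [Fin.forall_fin_two]
  refine ⟨?_, ?_⟩
  · rw [dnPart_zero, dnPart_zero]
    exact Subtype.ext (tr_tr Lv Bt Bq Btq hqt 0 j (x : Lv.H1))
  · rw [dnPart_one, dnPart_one, map_smul]
    exact congrArg _ (Subtype.ext (tr_tr Lv Bt Bq Btq hqt 1 j (x : Lv.H1)))

/-- The transfers at `q` commute with the maps up at `t` on the parts. -/
theorem trPart_upPart (hqt : q ≠ t) (i j : Fin 2) (y : (Bt.level Lv).part) :
    Bq.trPart Lv j (Bt.upPart Lv i y) =
      (Bt.swap Bq Btq).upPart (Bq.level Lv) i (Btq.trPart (Bt.level Lv) j y) :=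
  Subtype.ext (tr_deg Lv Bt Bq Btq hqt i j (y : (Bt.level Lv).H1))

include Bq in
/-- The maps down at `t` map the kernel of the transfers at `q` to the one below. -/
theorem dnPart_mem_pNew (hqt : q ≠ t) (i : Fin 2) {x : Lv.part} (hx : x ∈ Bq.pNew Lv) :
    Bt.dnPart Lv i x ∈ Btq.pNew (Bt.level Lv) := by
  rw [mem_pNew] at hx ⊢
  intro j
  rw [trPart_dnPart Lv Bt Bq Btq hqt i j x, hx j, map_zero]
  rfl

include Bq in
/-- The maps up at `t` map the kernel of the transfers at `q` to the one above. -/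
theorem upPart_mem_pNew (hqt : q ≠ t) (i : Fin 2) {y : (Bt.level Lv).part}
    (hy : y ∈ Btq.pNew (Bt.level Lv)) : Bt.upPart Lv i y ∈ Bq.pNew Lv := by
  rw [mem_pNew] at hy ⊢
  intro j
  rw [trPart_upPart Lv Bt Bq Btq hqt i j y]
  exact (congrArg _ (hy j)).trans (map_zero _)

end NodeBelow

end Fermat.Agent.Lifting.Models

end
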