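import Mathlib.LinearAlgebra.Matrix.ToLin
import Mathlib.Data.Fintype.Pi
import Mathlib.RingTheory.Adjoin.Basic

/-!
# The maps down on kernels

`K₁` is the common kernel of maps `π a : P₁ → P'`, `K₀ ⊆ P₀`, and the maps `D i : P₁ → P₀` are
jointly surjective. A pair `(X, 0)` in the algebra of pairs of matrices of operators on `K₀` and on
`P'` then gives preimages: `d i * Z j` is `X` on the diagonal and `0` elsewhere, for the matrices
`d i` of the restrictions `K₁ → K₀`.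
-/

set_option autoImplicit false

namespace Fermat.Agent.Lifting.Models.KernelDown

variable {A : Type*} [CommRing A] {P₀ P₁ P' : Type*} [AddCommGroup P₀] [Module A P₀]
  [AddCommGroup P₁] [Module A P₁] [AddCommGroup P'] [Module A P'] {β α : Type*}
  (D : β → P₁ →ₗ[A] P₀) (π : α → P₁ →ₗ[A] P') {K₀ : Submodule A P₀} {n₀ n' : ℕ}
  (b₀ : Module.Basis (Fin n₀) A K₀) (b' : Module.Basis (Fin n') A P')

/-- `E` induces the pair of matrices through `D` on `K₀` and through `π` on `P'`. -/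
def Covers (XY : Matrix (Fin n₀) (Fin n₀) A × Matrix (Fin n') (Fin n') A)
    (E : Module.End A P₁) : Prop :=
  (∀ i x (y : K₀), D i x = y →
    ∃ y' : K₀, D i (E x) = y' ∧ b₀.equivFun y' = XY.1.mulVec (b₀.equivFun y)) ∧
  ∀ a x, b'.equivFun (π a (E x)) = XY.2.mulVec (b'.equivFun (π a x))

theorem exists_covers {σ : Type*} {G : Set σ}
    {M₀ : σ → Matrix (Fin n₀) (Fin n₀) A} {M' : σ → Matrix (Fin n') (Fin n') A}
    (hop : ∀ s ∈ G, ∃ E, Covers D π b₀ b' (M₀ s, M' s) E)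
    {XY : Matrix (Fin n₀) (Fin n₀) A × Matrix (Fin n') (Fin n') A}
    (h : XY ∈ Algebra.adjoin A ((fun s => (M₀ s, M' s)) '' G)) :
    ∃ E, Covers D π b₀ b' XY E := by
  induction h using Algebra.adjoin_induction with
  | mem XY hXY =>
    obtain ⟨s, hs, rfl⟩ := hXY
    exact hop s hs
  | algebraMap c =>
    refine ⟨c • 1, fun i x y hy => ⟨c • y, ?_, ?_⟩, fun a x => ?_⟩
    · rw [LinearMap.smul_apply, Module.End.one_apply, map_smul, hy, Submodule.coe_smul]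
    · rw [map_smul, Algebra.algebraMap_eq_smul_one, Prod.smul_fst, Prod.fst_one,
        Matrix.smul_mulVec, Matrix.one_mulVec]
    · rw [LinearMap.smul_apply, Module.End.one_apply, map_smul, map_smul,
        Algebra.algebraMap_eq_smul_one, Prod.smul_snd, Prod.snd_one, Matrix.smul_mulVec,
        Matrix.one_mulVec]
  | add XY XY' _ _ h h' =>
    obtain ⟨E, hE, hE'⟩ := h
    obtain ⟨F, hF, hF'⟩ := h'
    refine ⟨E + F, fun i x y hy => ?_, fun a x => ?_⟩
    · obtain ⟨u, hu, hu'⟩ := hE i x y hy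
      obtain ⟨v, hv, hv'⟩ := hF i x y hy
      exact ⟨u + v, by rw [LinearMap.add_apply, map_add, hu, hv, Submodule.coe_add],
        by rw [map_add, hu', hv', Prod.fst_add, Matrix.add_mulVec]⟩
    · rw [LinearMap.add_apply, map_add, map_add, hE', hF', Prod.snd_add, Matrix.add_mulVec]
  | mul XY XY' _ _ h h' =>
    obtain ⟨E, hE, hE'⟩ := h
    obtain ⟨F, hF, hF'⟩ := h'
    refine ⟨E * F, fun i x y hy => ?_, fun a x => ?_⟩
    · obtain ⟨v, hv, hv'⟩ := hF i x y hy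
      obtain ⟨u, hu, hu'⟩ := hE i (F x) v hv
      exact ⟨u, hu, by rw [hu', hv', Prod.fst_mul, Matrix.mulVec_mulVec]⟩
    · rw [Module.End.mul_apply, hE', hF', Prod.snd_mul, Matrix.mulVec_mulVec]

variable {D π b₀ b'}

/-- **The maps down on kernels.** -/
theorem exists_preimages [DecidableEq β] {K₁ : Submodule A P₁} {n₁ : ℕ} {σ : Type*} {G : Set σ}
    {M₀ : σ → Matrix (Fin n₀) (Fin n₀) A} {M' : σ → Matrix (Fin n') (Fin n') A}
    (hop : ∀ s ∈ G, ∃ E, Covers D π b₀ b' (M₀ s, M' s) E)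
    (hK₁ : ∀ x, (∀ a, π a x = 0) → x ∈ K₁) (hsurj : ∀ y : β → P₀, ∃ z, ∀ i, D i z = y i)
    (b₁ : Module.Basis (Fin n₁) A K₁) (d : β → Matrix (Fin n₀) (Fin n₁) A)
    (hd : ∀ i (x : K₁), ∃ y : K₀, D i x = y ∧ b₀.equivFun y = (d i).mulVec (b₁.equivFun x))
    {X : Matrix (Fin n₀) (Fin n₀) A}
    (hX : (X, (0 : Matrix (Fin n') (Fin n') A)) ∈
      Algebra.adjoin A ((fun s => (M₀ s, M' s)) '' G)) :
    ∃ Z : β → Matrix (Fin n₁) (Fin n₀) A, ∀ i j, d i * Z j = if i = j then X else 0 := by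
  classical
  obtain ⟨E, hE, hE'⟩ := exists_covers D π b₀ b' hop hX
  have hmem : ∀ x, E x ∈ K₁ := fun x => hK₁ _ fun a =>
    b'.equivFun.injective (by rw [hE', Matrix.zero_mulVec, map_zero])
  have hz : ∀ j (c : Fin n₀), ∃ z, ∀ i, D i z = if i = j then (b₀ c : P₀) else 0 := fun j c =>
    hsurj _
  choose z hz using hz
  refine ⟨fun j => Matrix.of fun r c => b₁.equivFun ⟨E (z j c), hmem _⟩ r, fun i j => ?_⟩
  refine Matrix.ext_of_mulVec_single fun c => ?_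
  obtain ⟨y, hy, hy'⟩ := hd i ⟨E (z j c), hmem _⟩
  obtain ⟨y', hy1, hy2⟩ := hE i (z j c) (if i = j then b₀ c else 0) (by rw [hz]; split_ifs <;> rfl)
  obtain rfl : y = y' := Subtype.ext (hy.symm.trans hy1)
  rw [← Matrix.mulVec_mulVec, Matrix.mulVec_single_one]
  refine hy'.symm.trans (hy2.trans ?_)
  split_ifs
  · refine congrArg X.mulVec (funext fun r => ?_)
    simp [Pi.single_apply, eq_comm]
  · rw [map_zero, Matrix.mulVec_zero, Matrix.zero_mulVec]

/-- The maps down on kernels, from operators intertwined by `D` and `π`. -/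
theorem exists_preimages_of_intertwine [DecidableEq β] {K₁ : Submodule A P₁} {n₁ : ℕ} {σ : Type*}
    {G : Set σ} {M₀ : σ → Matrix (Fin n₀) (Fin n₀) A} {M' : σ → Matrix (Fin n') (Fin n') A}
    (T₀ : σ → Module.End A P₀) (T₁ : σ → Module.End A P₁) (T' : σ → Module.End A P')
    (hD : ∀ s ∈ G, ∀ i x, D i (T₁ s x) = T₀ s (D i x))
    (hπ : ∀ s ∈ G, ∀ a x, π a (T₁ s x) = T' s (π a x))
    (hM₀ : ∀ s ∈ G, ∀ y : K₀, ∃ y' : K₀,
      T₀ s (y : P₀) = (y' : P₀) ∧ b₀.equivFun y' = (M₀ s).mulVec (b₀.equivFun y))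
    (hM' : ∀ s ∈ G, ∀ z, b'.equivFun (T' s z) = (M' s).mulVec (b'.equivFun z))
    (hK₁ : ∀ x, (∀ a, π a x = 0) → x ∈ K₁) (hsurj : ∀ y : β → P₀, ∃ z, ∀ i, D i z = y i)
    (b₁ : Module.Basis (Fin n₁) A K₁) (d : β → Matrix (Fin n₀) (Fin n₁) A)
    (hd : ∀ i (x : K₁), ∃ y : K₀, D i x = y ∧ b₀.equivFun y = (d i).mulVec (b₁.equivFun x))
    {X : Matrix (Fin n₀) (Fin n₀) A}
    (hX : (X, (0 : Matrix (Fin n') (Fin n') A)) ∈
      Algebra.adjoin A ((fun s => (M₀ s, M' s)) '' G)) :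
    ∃ Z : β → Matrix (Fin n₁) (Fin n₀) A, ∀ i j, d i * Z j = if i = j then X else 0 :=
  exists_preimages (fun s hs => ⟨T₁ s, fun i x y hy => by rw [hD s hs, hy]; exact hM₀ s hs y,
    fun a x => by rw [hπ s hs, hM' s hs]⟩) hK₁ hsurj b₁ d hd hX

end Fermat.Agent.Lifting.Models.KernelDown
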