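import Fermat.Agent.Lifting.Models.EdgesPart
import Fermat.Agent.Lifting.Models.PNewCoker

/-!
# The maps down on the kernels of the transfers at a second prime

For a node with two primes `t` and `s` of the level left out of the localisation, the maps down at
`t` are jointly surjective on the full parts, so on the classes killed by the transfers at `s`
their cokernel is killed by what kills the part of the level without `s`.
-/

set_option autoImplicit false
set_option linter.style.haveILetI false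

noncomputable section

open IsLocalRing MvPolynomial

namespace Fermat.Agent.Lifting.Models

open RT.Diamond RT.TW RT.Assembly

variable {O : Type} [CommRing O] [IsDomain O] [IsDiscreteValuationRing O]
  [IsAdicComplete (maximalIdeal O) O] [Finite (ResidueField O)] [CharZero O]
  {p : ℕ} [Fact p.Prime]

namespace NodeBelow

variable {B : NodeBase O p} {t s : ℕ}

theorem trPart_twPart (Bs : NodeBelow B s) {r n : ℕ} (Lv : NodeLevel B r n) (ℓ : Nat.Primes)
    (hℓ : (ℓ : ℕ) ≠ s) (a : Fin 2) (x : Lv.part) :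
    Bs.trPart Lv a (twPart Lv ℓ x) = twPart (Bs.level Lv) ℓ (Bs.trPart Lv a x) := by
  refine Subtype.ext ?_
  rw [coe_trPart, coe_twPart, coe_twPart, coe_trPart]
  exact Bs.tr_twOp Lv a hℓ _

/-- **The cokernel of the maps down at `t` on the classes killed by the transfers at `s` is killed
by what kills the part of the level without `s`.** -/
theorem down_coker (Bt : NodeBelow B t) (Bs : NodeBelow B s) (Bs₀ : NodeBelow Bt.base s)
    {r n : ℕ} (Lv : NodeLevel B r n) {G : Set Nat.Primes}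
    (hGt : ∀ ℓ ∈ G, (ℓ : ℕ) ≠ t) (hGs : ∀ ℓ ∈ G, (ℓ : ℕ) ≠ s) {D₀ D₁ D' : ℕ}
    (b₀ : Module.Basis (Fin D₀) Lv.Λ (Bs₀.pNew (Bt.level Lv)))
    (b₁ : Module.Basis (Fin D₁) Lv.Λ (Bs.pNew Lv))
    (b' : Module.Basis (Fin D') Lv.Λ (Bs.level Lv).part)
    (op₀ : Nat.Primes → Matrix (Fin D₀) (Fin D₀) Lv.Λ)
    (hop₀ : ∀ ℓ ∈ G, ∀ y : Bs₀.pNew (Bt.level Lv), ∃ y' : Bs₀.pNew (Bt.level Lv),
      twPart (Bt.level Lv) ℓ (y : (Bt.level Lv).part) = y' ∧
        b₀.equivFun y' = (op₀ ℓ).mulVec (b₀.equivFun y))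
    (d : Fin 2 → Matrix (Fin D₀) (Fin D₁) Lv.Λ)
    (hd : ∀ i (x : Bs.pNew Lv), ∃ y : Bs₀.pNew (Bt.level Lv),
      Bt.dnPart Lv i x = y ∧ b₀.equivFun y = (d i).mulVec (b₁.equivFun x))
    (X : Matrix (Fin D₀) (Fin D₀) Lv.Λ)
    (hX : (X, (0 : Matrix (Fin D') (Fin D') Lv.Λ)) ∈ Algebra.adjoin Lv.Λ
      ((fun ℓ : Nat.Primes => (op₀ ℓ, (Bs.level Lv).opMat b' ℓ)) '' G)) :
    ∃ Z : Fin 2 → Matrix (Fin D₁) (Fin D₀) Lv.Λ, ∀ i j, d i * Z j = if i = j then X else 0 :=
  KernelDown.exists_preimages_of_intertwine (D := Bt.dnPart Lv) (π := Bs.trPart Lv)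
    (fun ℓ => twPart (Bt.level Lv) ℓ) (fun ℓ => twPart Lv ℓ) (fun ℓ => twPart (Bs.level Lv) ℓ)
    (fun ℓ hℓ i x => Bt.dnPart_twPart Lv ℓ (hGt ℓ hℓ) i x)
    (fun ℓ hℓ a x => Bs.trPart_twPart Lv ℓ (hGs ℓ hℓ) a x) hop₀
    (fun ℓ _ z => (LinearMap.toMatrix_mulVec_repr b' b' (twPart (Bs.level Lv) ℓ) z).symm)
    (fun x hx => (Bs.mem_pNew Lv).2 hx) (Bt.dnPart_surjective Lv) b₁ d hd hX

end NodeBelow

end Fermat.Agent.Lifting.Models

end
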