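import Fermat.Agent.Lifting.Models.Down
import Fermat.Agent.Lifting.Models.CrossPrime

/-!
# Corestriction through Taylor–Wiles primes commutes with the transfers at another prime
-/

set_option autoImplicit false
set_option linter.style.haveILetI false
set_option maxHeartbeats 400000

noncomputable section

namespace Fermat.Agent.Lifting.Models

open scoped MatrixGroups
open CongruenceSubgroup Periods RT.TW
open RT.Systems (levelCast levelCast_rfl)

variable {A : Type} [CommRing A] {N q : ℕ} {Φ : MulChar (ZMod N) A}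

theorem levelCast_trans {R R' R'' : ℕ} (e : R = R') (e' : R' = R'') (h : N ∣ R) (h' : N ∣ R')
    (h'' : N ∣ R'') (y : heckeH1 Φ R h) :
    levelCast Φ e' h' h'' (levelCast Φ e h h' y) = levelCast Φ (e.trans e') h h'' y := by
  subst e e'; rfl

/-- Corestriction does not depend on the choice of representatives. -/
theorem degCores_indep {M : ℕ} [NeZero M] (h : N ∣ M) (hq : q.Prime) (hqM : ¬ q ∣ M)
    (B B' : AddPrimeBezout M q) :
    (degCores Φ h hq hqM B').opH1 = (degCores Φ h hq hqM B).opH1 :=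
  CosetFamily.opH1_eq_of_cover _ _ rfl (fun j => by
      obtain ⟨g, hg⟩ := exists_gamma0_cores (Φ := Φ) h hq hqM B' j
      obtain ⟨σ, gs, hgs⟩ := (degCores Φ h hq hqM B).exists_step g
      exact ⟨σ none, gs none, hg.trans ((Matrix.one_mul _).symm.trans (hgs none))⟩)
    fun j j' g hg => coresMat_separated hq hqM B' j j' g hg

/-- The involution does not depend on the choice of the matrix. -/
theorem degInvol_indep {M : ℕ} (h : N ∣ M) (hq : q.Prime) (B B' : AddPrimeBezout M q) :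
    (degInvol Φ h hq B').opH1 = (degInvol Φ h hq B).opH1 :=
  CosetFamily.opH1_eq_of_cover _ _ rfl (fun _ => by
      obtain ⟨g, hg⟩ := (isALMat_invol (Φ := Φ) h hq B').eq_gamma0_mul
        (isALMat_invol (Φ := Φ) h hq B)
      exact ⟨(), g, hg⟩)
    fun _ _ _ _ => Subsingleton.elim _ _

theorem levelCast_degCores {R R' : ℕ} [NeZero R] [NeZero R'] (e : R = R') (h : N ∣ R) (h' : N ∣ R')
    (hq : q.Prime) (hqR : ¬ q ∣ R) (hqR' : ¬ q ∣ R') (B : AddPrimeBezout R q)
    (B' : AddPrimeBezout R' q) (y : heckeH1 Φ (R * q) (h.mul_right q)) :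
    levelCast Φ e h h' ((degCores Φ h hq hqR B).opH1 y) =
      (degCores Φ h' hq hqR' B').opH1
        (levelCast Φ (congrArg (· * q) e) (h.mul_right q) (h'.mul_right q) y) := by
  subst e
  exact LinearMap.congr_fun (degCores_indep h hq hqR B' B) y

theorem levelCast_degInvol {R R' : ℕ} (e : R = R') (h : N ∣ R) (h' : N ∣ R') (hq : q.Prime)
    (B : AddPrimeBezout R q) (B' : AddPrimeBezout R' q) (y : heckeH1 Φ (R * q) (h.mul_right q)) :
    levelCast Φ (congrArg (· * q) e) (h.mul_right q) (h'.mul_right q)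
        ((degInvol Φ h hq B).opH1 y) =
      (degInvol Φ h' hq B').opH1
        (levelCast Φ (congrArg (· * q) e) (h.mul_right q) (h'.mul_right q) y) := by
  subst e
  exact LinearMap.congr_fun (degInvol_indep h hq B' B) y

theorem not_dvd_mul_prod {r : ℕ} {qv : Fin r → Nat.Primes} {M : ℕ} (hq : q.Prime) (hqM : ¬ q ∣ M)
    (hne : ∀ i, (qv i : ℕ) ≠ q) : ¬ q ∣ M * ∏ i, (qv i : ℕ) := fun hd =>
  (hq.dvd_mul.1 hd).elim hqM fun h => by
    obtain ⟨i, -, hi⟩ := (Prime.dvd_finsetProd_iff hq.prime _).1 h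
    exact hne i ((Nat.prime_dvd_prime_iff_eq hq (qv i).2).1 hi).symm

/-- Corestriction through `qv` commutes with corestriction at `q`. -/
theorem multiDownMap_degCores {r : ℕ} (qv : Fin r → Nat.Primes) (hinj : Function.Injective qv) {M : ℕ}
    [NeZero M] (h : N ∣ M) (hqM : ∀ i, ¬ (qv i : ℕ) ∣ M) (hq : q.Prime) (hqM₀ : ¬ q ∣ M)
    (hne : ∀ i, (qv i : ℕ) ≠ q) {M' : ℕ} [NeZero M'] (eM : M' = M * q) (h' : N ∣ M')
    (hqM' : ∀ i, ¬ (qv i : ℕ) ∣ M') [NeZero (M * ∏ i, (qv i : ℕ))]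
    (B : AddPrimeBezout M q) (B' : AddPrimeBezout (M * ∏ i, (qv i : ℕ)) q)
    (e : M' * ∏ i, (qv i : ℕ) = M * (∏ i, (qv i : ℕ)) * q)
    (z : heckeH1 Φ (M' * ∏ i, (qv i : ℕ)) (h'.mul_right _)) :
    multiDownMap Φ qv hinj M h hqM
        ((degCores Φ (h.mul_right _) hq (not_dvd_mul_prod hq hqM₀ hne) B').opH1
          (levelCast Φ e (h'.mul_right _) ((h.mul_right _).mul_right q) z)) =
      (degCores Φ h hq hqM₀ B).opH1
        (levelCast Φ eM h' (h.mul_right q) (multiDownMap Φ qv hinj M' h' hqM' z)) := by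
  induction r generalizing M M' with
  | zero =>
    rw [multiDownMap, multiDownMap, LinearEquiv.coe_coe, LinearEquiv.coe_coe, levelCast_degCores _ _ _ hq _
      hqM₀ B' B, levelCast_trans, levelCast_trans]
  | succ r ih =>
    subst eM
    haveI : NeZero (M * (qv 0 : ℕ)) := ⟨mul_ne_zero (NeZero.ne M) (qv 0).2.ne_zero⟩
    haveI : NeZero (M * q * (qv 0 : ℕ)) := ⟨mul_ne_zero (NeZero.ne _) (qv 0).2.ne_zero⟩
    haveI : NeZero (M * (qv 0 : ℕ) * ∏ i : Fin r, (qv i.succ : ℕ)) :=
      ⟨mul_ne_zero (NeZero.ne _) (Finset.prod_ne_zero_iff.2 fun i _ => (qv i.succ).2.ne_zero)⟩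
    have hqt : q ≠ (qv 0 : ℕ) := (hne 0).symm
    have hq0 : ¬ q ∣ M * (qv 0 : ℕ) := not_dvd_mul_of_ne hq (qv 0).2 hqt hqM₀
    obtain ⟨Bq'⟩ := exists_addPrimeBezout hq hq0
    obtain ⟨B''⟩ := exists_addPrimeBezout hq
      (not_dvd_mul_prod (qv := fun i => qv i.succ) hq hq0 fun i => hne i.succ)
    rw [multiDownMap, multiDownMap, LinearMap.comp_apply, LinearMap.comp_apply, LinearMap.comp_apply,
      LinearMap.comp_apply, LinearEquiv.coe_coe, LinearEquiv.coe_coe,
      levelCast_degCores _ _ _ hq _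
        (not_dvd_mul_prod (qv := fun i => qv i.succ) hq hq0 fun i => hne i.succ) B' B'',
      levelCast_trans, levelCast_rfl,
      ← levelCast_trans (show M * q * ∏ i, (qv i : ℕ) = M * q * qv 0 * ∏ i : Fin r, (qv i.succ : ℕ)
          by rw [Fin.prod_univ_succ]; ring)
        (show M * q * qv 0 * ∏ i : Fin r, (qv i.succ : ℕ) =
            M * qv 0 * (∏ i : Fin r, (qv i.succ : ℕ)) * q by ring)
        _ (((h.mul_right q).mul_right _).mul_right _) _ z,
      ih (fun i => qv i.succ) _ (h.mul_right _) _ hq0 (fun i => hne i.succ)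
        (mul_right_comm M q (qv 0 : ℕ)) _ _ Bq' B'',
      degCores_degCores h hqt hqM₀ (hqM 0) B (exists_addPrimeBezout (qv 0).2 (hqM 0)).some Bq'
        (exists_addPrimeBezout (qv 0).2 (hqM' 0)).some, levelCast_trans, levelCast_rfl]

/-- Corestriction through `qv` commutes with the involution at `q`. -/
theorem multiDownMap_degInvol {r : ℕ} (qv : Fin r → Nat.Primes) (hinj : Function.Injective qv) {M : ℕ}
    [NeZero M] (h : N ∣ M) (hqM : ∀ i, ¬ (qv i : ℕ) ∣ M) (hq : q.Prime) (hqM₀ : ¬ q ∣ M)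
    (hne : ∀ i, (qv i : ℕ) ≠ q) {M' : ℕ} [NeZero M'] (eM : M' = M * q) (h' : N ∣ M')
    (hqM' : ∀ i, ¬ (qv i : ℕ) ∣ M')
    (B : AddPrimeBezout M q) (B' : AddPrimeBezout (M * ∏ i, (qv i : ℕ)) q)
    (e : M' * ∏ i, (qv i : ℕ) = M * (∏ i, (qv i : ℕ)) * q)
    (z : heckeH1 Φ (M' * ∏ i, (qv i : ℕ)) (h'.mul_right _)) :
    multiDownMap Φ qv hinj M' h' hqM' (levelCast Φ e.symm ((h.mul_right _).mul_right q) (h'.mul_right _)
        ((degInvol Φ (h.mul_right _) hq B').opH1
          (levelCast Φ e (h'.mul_right _) ((h.mul_right _).mul_right q) z))) =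
      levelCast Φ eM.symm (h.mul_right q) h' ((degInvol Φ h hq B).opH1
        (levelCast Φ eM h' (h.mul_right q) (multiDownMap Φ qv hinj M' h' hqM' z))) := by
  induction r generalizing M M' with
  | zero =>
    subst eM
    rw [multiDownMap, LinearEquiv.coe_coe, levelCast_trans, levelCast_rfl, levelCast_rfl]
    refine (levelCast_degInvol (show M * ∏ i, (qv i : ℕ) = M by
      rw [Fin.prod_univ_zero, mul_one]) (h.mul_right _) h hq B' B _).trans ?_
    rw [levelCast_trans]
  | succ r ih =>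
    subst eM
    haveI : NeZero (M * (qv 0 : ℕ)) := ⟨mul_ne_zero (NeZero.ne M) (qv 0).2.ne_zero⟩
    haveI : NeZero (M * q * (qv 0 : ℕ)) := ⟨mul_ne_zero (NeZero.ne _) (qv 0).2.ne_zero⟩
    have hqt : q ≠ (qv 0 : ℕ) := (hne 0).symm
    have hq0 : ¬ q ∣ M * (qv 0 : ℕ) := not_dvd_mul_of_ne hq (qv 0).2 hqt hqM₀
    obtain ⟨Bq'⟩ := exists_addPrimeBezout hq hq0
    obtain ⟨B''⟩ := exists_addPrimeBezout hq
      (not_dvd_mul_prod (qv := fun i => qv i.succ) hq hq0 fun i => hne i.succ)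
    rw [levelCast_rfl, levelCast_rfl, multiDownMap, LinearMap.comp_apply, LinearMap.comp_apply,
      LinearMap.comp_apply, LinearMap.comp_apply, LinearEquiv.coe_coe, levelCast_trans,
      degInvol_degCores_cross h hqt (hqM 0) B Bq']
    refine congrArg _ ?_
    rw [← ih (fun i => qv i.succ) _ (h.mul_right _) (fun i hd => ((qv i.succ).2.dvd_mul.1 hd).elim
        (hqM _) fun hd' => Fin.succ_ne_zero i (hinj (Subtype.ext
          ((Nat.prime_dvd_prime_iff_eq (qv i.succ).2 (qv 0).2).1 hd')))) hq0 (fun i => hne i.succ)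
      (mul_right_comm M q (qv 0 : ℕ)) _ _ Bq' B'' (by ring), levelCast_trans]
    refine congrArg _ ?_
    rw [← levelCast_trans
      (show M * (∏ i, (qv i : ℕ)) * q = M * qv 0 * (∏ i : Fin r, (qv i.succ : ℕ)) * q by
        rw [Fin.prod_univ_succ]; ring)
      (show M * qv 0 * (∏ i : Fin r, (qv i.succ : ℕ)) * q =
          M * q * qv 0 * ∏ i : Fin r, (qv i.succ : ℕ) by ring)
      _ (((h.mul_right _).mul_right _).mul_right q),
      levelCast_degInvol (show M * ∏ i, (qv i : ℕ) = M * qv 0 * ∏ i : Fin r, (qv i.succ : ℕ) by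
        rw [Fin.prod_univ_succ, mul_assoc]) _ _ hq B' B'', levelCast_trans]

end Fermat.Agent.Lifting.Models

end
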