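import Fermat.Agent.Lifting.Models.PNewRank
import Fermat.Agent.Lifting.Models.DownCross

/-!
# The classes killed by the transfers at the augmentation

The classes of a part killed by the two transfers at `q` map onto those of the part over `O` at the
level of the node (`baseNew`), with kernel `ker aug`; so their rank and the matrices of the good
operators at the augmentation (`newOp`) do not depend on the Taylor–Wiles level.
-/

set_option autoImplicit false
set_option linter.style.haveILetI false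
set_option maxHeartbeats 400000

noncomputable section

open IsLocalRing MvPolynomial

namespace Fermat.Agent.Lifting.Models

open RT.Diamond RT.TW RT.Assembly
open RT.Systems (levelCast levelCast_rfl)

variable {O : Type} [CommRing O] [IsDomain O] [IsDiscreteValuationRing O]
  [IsAdicComplete (maximalIdeal O) O] [Finite (ResidueField O)] [CharZero O]
  {p : ℕ} [Fact p.Prime]

/-- A matrix at the coordinates of a vector. -/
theorem toMatrix_mulVec_equivFun {R P : Type*} [CommRing R] [AddCommGroup P] [Module R P] {D : ℕ}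
    (b : Module.Basis (Fin D) R P) (T : Module.End R P) (x : P) :
    (LinearMap.toMatrix b b T).mulVec (b.equivFun x) = b.equivFun (T x) :=
  LinearMap.toMatrix_mulVec_repr b b T x

/-- An eigenvector of a matrix is one of the endomorphism. -/
theorem eigen_of_mulVec {R P : Type*} [CommRing R] [AddCommGroup P] [Module R P] {D : ℕ}
    (b : Module.Basis (Fin D) R P) (T : Module.End R P) (w : Fin D → R) (c : R)
    (h : (LinearMap.toMatrix b b T).mulVec w = c • w) :
    T (b.equivFun.symm w) = c • b.equivFun.symm w := by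
  refine b.equivFun.injective ?_
  rw [← toMatrix_mulVec_equivFun, map_smul, LinearEquiv.apply_symm_apply, h]

theorem equivFun_coe_ne_zero {R P : Type*} [CommRing R] [AddCommGroup P] [Module R P] {D D' : ℕ}
    (b : Module.Basis (Fin D) R P) (N : Submodule R P) (b' : Module.Basis (Fin D') R N)
    {w : Fin D' → R} (hw : w ≠ 0) : b.equivFun (b'.equivFun.symm w : P) ≠ 0 := fun h =>
  hw ((LinearEquiv.map_eq_zero_iff _).1
    (Submodule.coe_eq_zero.1 ((LinearEquiv.map_eq_zero_iff _).1 h)))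

/-- An eigenvector of a restriction is one of the endomorphism. -/
theorem mulVec_coe_of_eigen {R P : Type*} [CommRing R] [AddCommGroup P] [Module R P] {D D' : ℕ}
    (b : Module.Basis (Fin D) R P) (N : Submodule R P) (b' : Module.Basis (Fin D') R N)
    (T : Module.End R P) (T' : Module.End R N) (hT : ∀ x : N, (T' x : P) = T x)
    (w : Fin D' → R) (c : R) (h : (LinearMap.toMatrix b' b' T').mulVec w = c • w) :
    (LinearMap.toMatrix b b T).mulVec (b.equivFun (b'.equivFun.symm w : P)) =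
      c • b.equivFun (b'.equivFun.symm w : P) := by
  rw [toMatrix_mulVec_equivFun, ← hT, eigen_of_mulVec b' T' w c h, Submodule.coe_smul, map_smul]

section Kernels

variable {R R₀ : Type*} [CommRing R] [CommRing R₀] {σ : R →+* R₀} {P Q P₀ Q₀ : Type*}
  [AddCommGroup P] [Module R P] [AddCommGroup Q] [Module R Q] [AddCommGroup P₀] [Module R₀ P₀]
  [AddCommGroup Q₀] [Module R₀ Q₀]

theorem map_eq_zero_of_mem_ker_smul (u : P →ₛₗ[σ] P₀) {x : P}
    (hx : x ∈ RingHom.ker σ • (⊤ : Submodule R P)) : u x = 0 := by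
  refine Submodule.smul_induction_on hx (fun a ha z _ => ?_) fun y z hy hz => ?_
  · rw [LinearMap.map_smulₛₗ, RingHom.mem_ker.1 ha, zero_smul]
  · rw [map_add, hy, hz, add_zero]

/-- A jointly surjective family over a family: the common kernel maps onto the common kernel. -/
theorem exists_kernel_lift {m : ℕ} (u : P →ₛₗ[σ] P₀) (u' : Q →ₛₗ[σ] Q₀)
    (hu : Function.Surjective u)
    (hu' : ∀ y, u' y = 0 → y ∈ RingHom.ker σ • (⊤ : Submodule R Q)) (T : Fin m → P →ₗ[R] Q)
    (hT : ∀ z : Fin m → Q, ∃ x, ∀ j, T j x = z j) (T₀ : Fin m → P₀ → Q₀)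
    (hcomm : ∀ j x, u' (T j x) = T₀ j (u x)) {y : P₀} (hy : ∀ j, T₀ j y = 0) :
    ∃ x, (∀ j, T j x = 0) ∧ u x = y := by
  obtain ⟨x, hx⟩ := hu y
  let F : P →ₗ[R] (Fin m → Q) := LinearMap.pi T
  have hF : LinearMap.range F = ⊤ := LinearMap.range_eq_top.2 fun z => by
    obtain ⟨w, hw⟩ := hT z
    exact ⟨w, funext hw⟩
  have h1 : F x ∈ (RingHom.ker σ • (⊤ : Submodule R P)).map F := by
    rw [Submodule.map_smul'', Submodule.map_top, hF, ← Finset.univ_sum_single (F x)]
    refine Submodule.sum_mem _ fun j _ => ?_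
    have h2 := Submodule.mem_map_of_mem (f := LinearMap.single R (fun _ : Fin m => Q) j)
      (hu' (T j x) (by rw [hcomm, hx, hy]))
    rw [Submodule.map_smul''] at h2
    exact Submodule.smul_mono le_rfl le_top h2
  obtain ⟨x', hx', hF'⟩ := h1
  refine ⟨x - x', fun j => ?_, by rw [map_sub, map_eq_zero_of_mem_ker_smul u hx', sub_zero, hx]⟩
  rw [map_sub, sub_eq_zero]
  exact (congrFun hF' j).symm

/-- The kernel of a surjection onto a projective module meets `I P` in `I` times itself. -/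
theorem mem_smul_ker_of_mem_smul {P Q : Type*} [AddCommGroup P] [Module R P] [AddCommGroup Q]
    [Module R Q] [Module.Projective R Q] (T : P →ₗ[R] Q) (hT : Function.Surjective T) (I : Ideal R)
    (x : LinearMap.ker T) (hx : (x : P) ∈ I • (⊤ : Submodule R P)) :
    x ∈ I • (⊤ : Submodule R (LinearMap.ker T)) := by
  obtain ⟨g, hg⟩ := Module.projective_lifting_property T LinearMap.id hT
  let π : P →ₗ[R] LinearMap.ker T := (LinearMap.id - g ∘ₗ T).codRestrict _ fun z => by
    show T (z - g (T z)) = 0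
    rw [map_sub, show T (g (T z)) = T z from LinearMap.congr_fun hg (T z), sub_self]
  have hπ : π (x : P) = x := Subtype.ext (by
    show (x : P) - g (T x) = x
    rw [show T (x : P) = 0 from x.2, map_zero, sub_zero])
  have h1 := Submodule.mem_map_of_mem (f := π) hx
  rw [Submodule.map_smul'', hπ] at h1
  exact Submodule.smul_mono le_rfl le_top h1

/-- The matrix of an operator after a change of coefficients. -/
theorem map_eq_toMatrix_of_lift (u : P →ₛₗ[σ] P₀) {D : ℕ} (b : Fin D → P)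
    (b₀ : Module.Basis (Fin D) R₀ P₀) (hb : ∀ i, u (b i) = b₀ i) (T₀ : Module.End R₀ P₀)
    (M : Matrix (Fin D) (Fin D) R) (h : ∀ j, u (∑ i, M i j • b i) = T₀ (b₀ j)) :
    M.map σ = LinearMap.toMatrix b₀ b₀ T₀ := by
  refine Matrix.ext fun i j => ?_
  rw [Matrix.map_apply, LinearMap.toMatrix_apply, ← h j, map_sum,
    Finset.sum_congr rfl (g := fun k => σ (M k j) • b₀ k) fun k _ => by
      rw [LinearMap.map_smulₛₗ, hb], b₀.repr_sum_self]

theorem coe_coe_sum_smul {R H ι : Type*} [CommRing R] [AddCommGroup H] [Module R H] [Fintype ι]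
    {P : Submodule R H} {N : Submodule R P} (c : ι → R) (x : ι → N) :
    (((∑ i, c i • x i : N) : P) : H) = ∑ i, c i • ((x i : P) : H) := by
  simp

/-- `exists_basis_lift` for submodules of submodules. -/
theorem exists_basis_lift_sub [IsLocalRing R] [Nontrivial R₀] {H H₀ : Type*} [AddCommGroup H]
    [Module R H] [AddCommGroup H₀] [Module R₀ H₀] {P : Submodule R H} {N : Submodule R P}
    {P₀ : Submodule R₀ H₀} {N₀ : Submodule R₀ P₀} (hσ : Function.Surjective σ)
    (u : N →ₛₗ[σ] N₀) (hu : Function.Surjective u)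
    (hker : ∀ x, u x = 0 → x ∈ RingHom.ker σ • (⊤ : Submodule R N))
    (hfree : Module.Free R N) (hfin : Module.Finite R N) {D : ℕ}
    (b₀ : Module.Basis (Fin D) R₀ N₀) :
    ∃ b : Module.Basis (Fin D) R N, ∀ i, u (b i) = b₀ i :=
  exists_basis_lift u hσ hu hker b₀

/-- `map_eq_toMatrix_of_lift` for submodules of submodules. -/
theorem map_eq_toMatrix_of_lift_sub {H H₀ : Type*} [AddCommGroup H] [Module R H] [AddCommGroup H₀]
    [Module R₀ H₀] {P : Submodule R H} {N : Submodule R P} {P₀ : Submodule R₀ H₀}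
    {N₀ : Submodule R₀ P₀} (u : N →ₛₗ[σ] N₀) {D : ℕ} (b : Fin D → N)
    (b₀ : Module.Basis (Fin D) R₀ N₀) (hb : ∀ i, u (b i) = b₀ i) (T₀ : Module.End R₀ N₀)
    (t : H → H) (M : Matrix (Fin D) (Fin D) R)
    (hT : ∀ x y : N, ((y : P) : H) = t ((x : P) : H) → u y = T₀ (u x))
    (h : ∀ j, t ((b j : P) : H) = ∑ i, M i j • ((b i : P) : H)) :
    M.map σ = LinearMap.toMatrix b₀ b₀ T₀ :=
  map_eq_toMatrix_of_lift u b b₀ hb T₀ M fun j => by
    rw [← hb j]
    exact hT _ _ ((coe_coe_sum_smul (fun i => M i j) b).trans (h j).symm)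

end Kernels

/-- No Taylor–Wiles primes. -/
def NodeBase.level0 (B : NodeBase O p) : NodeLevel B 0 0 where
  qv := Fin.elim0
  inj i := i.elim0
  not_mem i := i.elim0
  not_omitted i := i.elim0
  e := Fin.elim0
  le_e i := i.elim0
  pos_e i := i.elim0
  dvd_sub i := i.elim0
  e_max i := i.elim0
  α := Fin.elim0
  root i := i.elim0
  distinct i := i.elim0

variable {B : NodeBase O p} {q : ℕ}

namespace NodeBelow

variable (Bl : NodeBelow B q)

theorem not_dvd_base : ¬ q ∣ Bl.base.M := fun hd => Bl.prime.ne_one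
  (Nat.isUnit_iff.1 (B.squarefree q (Bl.level_eq ▸ mul_dvd_mul_right hd q)))

/-- Bezout data at the level of the node below. -/
def baseBezout : AddPrimeBezout Bl.base.M q :=
  (exists_addPrimeBezout Bl.prime Bl.not_dvd_base).some

/-- The classes of the node in product form. -/
def baseCast : B.H0 ≃ₗ[O]
    heckeH1 (1 : MulChar (ZMod 1) O) (Bl.base.M * q) ((one_dvd Bl.base.M).mul_right q) :=
  levelCast (1 : MulChar (ZMod 1) O) Bl.level_eq.symm (one_dvd B.M)
    ((one_dvd Bl.base.M).mul_right q)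

/-- The two transfers with trivial coefficients. -/
def baseTr : Fin 2 → (B.H0 →ₗ[O] Bl.base.H0) :=
  ![(degCores (1 : MulChar (ZMod 1) O) (one_dvd Bl.base.M) Bl.prime Bl.not_dvd_base
        Bl.baseBezout).opH1 ∘ₗ Bl.baseCast.toLinearMap,
    degCores' (1 : MulChar (ZMod 1) O) (one_dvd Bl.base.M) Bl.prime Bl.not_dvd_base
        Bl.baseBezout ∘ₗ Bl.baseCast.toLinearMap]

theorem baseTr_heckeOp (j : Fin 2) {ℓ : Nat.Primes} (hℓ : (ℓ : ℕ) ≠ q) (x : B.H0) :
    Bl.baseTr j (heckeOp (1 : MulChar (ZMod 1) O) (one_dvd B.M) ℓ x) =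
      heckeOp (1 : MulChar (ZMod 1) O) (one_dvd Bl.base.M) ℓ (Bl.baseTr j x) := by
  fin_cases j
  · show (degCores (1 : MulChar (ZMod 1) O) _ _ _ _).opH1 (Bl.baseCast _) = _
    rw [baseCast, RT.Systems.levelCast_heckeOp]
    exact degCores_comm _ Bl.prime Bl.not_dvd_base _ ℓ hℓ _
  · show degCores' (1 : MulChar (ZMod 1) O) _ _ _ _ (Bl.baseCast _) = _
    rw [baseCast, RT.Systems.levelCast_heckeOp]
    exact degCores'_comm _ Bl.prime Bl.not_dvd_base _ ℓ hℓ _

/-- The classes of the part killed by both transfers. -/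
def baseNew : Submodule O B.basePart :=
  LinearMap.ker (LinearMap.pi fun j => (Bl.baseTr j).comp B.basePart.subtype)

theorem mem_baseNew {x : B.basePart} : x ∈ Bl.baseNew ↔ ∀ j, Bl.baseTr j (x : B.H0) = 0 := by
  rw [baseNew, LinearMap.mem_ker, funext_iff]
  rfl

/-- Their rank. -/
def newRank : ℕ := Module.finrank O Bl.baseNew

/-- A basis of the classes killed by both transfers. -/
def newBasis : Module.Basis (Fin Bl.newRank) O Bl.baseNew :=
  haveI := B.free_basePart.1
  haveI := B.free_basePart.2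
  haveI : Module.Free O Bl.baseNew :=
    Module.Free.of_basis (Submodule.basisOfPid B.baseBasis Bl.baseNew).2
  Module.finBasis O Bl.baseNew

/-- A good operator on the classes killed by both transfers. -/
def newHecke {ℓ : Nat.Primes} (hℓ : (ℓ : ℕ) ≠ q) : Module.End O Bl.baseNew :=
  (B.baseHecke ℓ).restrict fun x hx => by
    rw [mem_baseNew] at hx ⊢
    intro j
    rw [B.coe_baseHecke, Bl.baseTr_heckeOp j hℓ, hx j, map_zero]

/-- The matrices of the operators on the classes killed by both transfers. -/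
def newOp (ℓ : Nat.Primes) : Matrix (Fin Bl.newRank) (Fin Bl.newRank) O :=
  if hℓ : (ℓ : ℕ) = q then 0 else LinearMap.toMatrix Bl.newBasis Bl.newBasis (Bl.newHecke hℓ)

/-- An eigenvector of `newOp` gives one of the operators on the whole part. -/
theorem exists_eigen_of_new (X₀ : Finset ℕ) (c : Nat.Primes → O) (w : Fin Bl.newRank → O)
    (hw : w ≠ 0) (hq : q ∈ X₀)
    (h : ∀ ℓ : Nat.Primes, (ℓ : ℕ) ∉ X₀ → (Bl.newOp ℓ).mulVec w = c ℓ • w) :
    ∃ w' : Fin B.baseRank → O, w' ≠ 0 ∧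
      ∀ ℓ : Nat.Primes, (ℓ : ℕ) ∉ X₀ → (B.baseOp ℓ).mulVec w' = c ℓ • w' := by
  refine ⟨_, equivFun_coe_ne_zero B.baseBasis Bl.baseNew Bl.newBasis hw, fun ℓ hℓ => ?_⟩
  have hne : (ℓ : ℕ) ≠ q := fun e => hℓ (e ▸ hq)
  have e := h ℓ hℓ
  rw [newOp, dif_neg hne] at e
  exact mulVec_coe_of_eigen B.baseBasis Bl.baseNew Bl.newBasis (B.baseHecke ℓ)
    (Bl.newHecke hne) (fun _ => rfl) w (c ℓ) e

variable {r n : ℕ} (Lv : NodeLevel B r n)

include Bl in
theorem qv_ne (i : Fin r) : (Lv.qv i : ℕ) ≠ q := Bl.ne_of_mem_G (Lv.mem_G_qv i)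

theorem augRed_tr_zero (x : Lv.H1) :
    (Bl.level Lv).augRed (Bl.tr Lv 0 x) =
      (degCores (1 : MulChar (ZMod 1) O) (one_dvd (Bl.level Lv).L) Bl.prime
        (Bl.not_dvd_level Lv) (Bl.bezout Lv)).opH1
        (levelCast (1 : MulChar (ZMod 1) O) (Bl.level_L Lv).symm (one_dvd Lv.L)
          ((one_dvd (Bl.level Lv).L).mul_right q) (Lv.augRed x)) := by
  refine (red_opH1 (Bl.level Lv).aug_neben _
    (degCores ((neben Lv.θ).ringHomComp Lv.augHom)
      (Bl.level Lv).N_dvd_L Bl.prime (Bl.not_dvd_level Lv) (Bl.bezout Lv))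
    (degCores (1 : MulChar (ZMod 1) O) (one_dvd (Bl.level Lv).L) Bl.prime
      (Bl.not_dvd_level Lv) (Bl.bezout Lv))
    (fun _ => rfl) (fun _ => rfl) (Bl.cast Lv x)).trans ?_
  exact congrArg _ (red_levelCast Lv.aug_neben (Bl.level_L Lv).symm Lv.N_dvd_L _ _ _ x)

theorem augRed_tr_one (x : Lv.H1) :
    (Bl.level Lv).augRed (Bl.tr Lv 1 x) =
      degCores' (1 : MulChar (ZMod 1) O) (one_dvd (Bl.level Lv).L) Bl.prime
        (Bl.not_dvd_level Lv) (Bl.bezout Lv)
        (levelCast (1 : MulChar (ZMod 1) O) (Bl.level_L Lv).symm (one_dvd Lv.L)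
          ((one_dvd (Bl.level Lv).L).mul_right q) (Lv.augRed x)) := by
  refine (red_opH1 (Bl.level Lv).aug_neben _
    (degCores ((neben Lv.θ).ringHomComp Lv.augHom)
      (Bl.level Lv).N_dvd_L Bl.prime (Bl.not_dvd_level Lv) (Bl.bezout Lv))
    (degCores (1 : MulChar (ZMod 1) O) (one_dvd (Bl.level Lv).L) Bl.prime
      (Bl.not_dvd_level Lv) (Bl.bezout Lv))
    (fun _ => rfl) (fun _ => rfl) _).trans (congrArg _ ?_)
  refine (red_opH1 Lv.aug_neben _ (degInvol ((neben Lv.θ).ringHomComp Lv.augHom)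
    (Bl.level Lv).N_dvd_L Bl.prime (Bl.bezout Lv))
    (degInvol (1 : MulChar (ZMod 1) O) (one_dvd (Bl.level Lv).L) Bl.prime (Bl.bezout Lv))
    (fun _ => rfl) (fun _ => rfl) (Bl.cast Lv x)).trans ?_
  exact congrArg _ (red_levelCast Lv.aug_neben (Bl.level_L Lv).symm Lv.N_dvd_L _ _ _ x)

/-- The transfers commute with reduction at the augmentation followed by corestriction. -/
theorem augDown_tr (j : Fin 2) (x : Lv.H1) :
    (Bl.level Lv).augDown (Bl.tr Lv j x) = Bl.baseTr j (Lv.augDown x) := by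
  haveI : NeZero (Bl.base.M * ∏ i, (Lv.qv i : ℕ)) := ⟨(Bl.level Lv).L_ne_zero⟩
  have hstep : ∀ w, multiDownMap (1 : MulChar (ZMod 1) O) Lv.qv Lv.inj Bl.base.M (one_dvd Bl.base.M)
      (Bl.level Lv).qv_not_dvd ((degCores (1 : MulChar (ZMod 1) O)
        (one_dvd (Bl.level Lv).L) Bl.prime (Bl.not_dvd_level Lv) (Bl.bezout Lv)).opH1
          (levelCast (1 : MulChar (ZMod 1) O) (Bl.level_L Lv).symm (one_dvd Lv.L)
            ((one_dvd (Bl.level Lv).L).mul_right q) w)) =
      (degCores (1 : MulChar (ZMod 1) O) (one_dvd Bl.base.M) Bl.prime Bl.not_dvd_base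
        Bl.baseBezout).opH1 (Bl.baseCast
          (multiDownMap (1 : MulChar (ZMod 1) O) Lv.qv Lv.inj B.M (one_dvd B.M) Lv.qv_not_dvd w)) :=
    fun w => multiDownMap_degCores Lv.qv Lv.inj (one_dvd Bl.base.M) (Bl.level Lv).qv_not_dvd Bl.prime
      Bl.not_dvd_base (Bl.qv_ne Lv) Bl.level_eq.symm (one_dvd B.M) Lv.qv_not_dvd Bl.baseBezout
      (Bl.bezout Lv) (Bl.level_L Lv).symm w
  fin_cases j
  · exact (congrArg _ (Bl.augRed_tr_zero Lv x)).trans (hstep (Lv.augRed x))
  · refine (congrArg _ (Bl.augRed_tr_one Lv x)).trans ?_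
    let w := levelCast (1 : MulChar (ZMod 1) O) (Bl.level_L Lv)
      ((one_dvd (Bl.level Lv).L).mul_right q) (one_dvd Lv.L)
      ((degInvol (1 : MulChar (ZMod 1) O) (one_dvd (Bl.level Lv).L) Bl.prime
        (Bl.bezout Lv)).opH1 (levelCast (1 : MulChar (ZMod 1) O) (Bl.level_L Lv).symm
          (one_dvd Lv.L) ((one_dvd (Bl.level Lv).L).mul_right q) (Lv.augRed x)))
    refine Eq.trans (congrArg _ ?_) ((hstep w).trans (congrArg _ ?_))
    · refine congrArg (fun v => (degCores (1 : MulChar (ZMod 1) O) (one_dvd (Bl.level Lv).L) Bl.prime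
        (Bl.not_dvd_level Lv) (Bl.bezout Lv)).opH1 v) ?_
      exact (levelCast_levelCast (Φ := (1 : MulChar (ZMod 1) O)) (Bl.level_L Lv).symm
        (Bl.level_L Lv) _ _ _).symm
    · exact (congrArg _ (multiDownMap_degInvol Lv.qv Lv.inj (one_dvd Bl.base.M)
        (Bl.level Lv).qv_not_dvd Bl.prime Bl.not_dvd_base (Bl.qv_ne Lv) Bl.level_eq.symm
        (one_dvd B.M) Lv.qv_not_dvd Bl.baseBezout (Bl.bezout Lv) (Bl.level_L Lv).symm
        (Lv.augRed x))).trans (levelCast_levelCast Bl.level_eq.symm Bl.level_eq _ _ _)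

theorem augPart_mem_baseNew (x : Bl.pNew Lv) : Lv.augPart (x : Lv.part) ∈ Bl.baseNew := by
  refine Bl.mem_baseNew.2 fun j => ((Bl.augDown_tr Lv j _).symm.trans ?_)
  exact (congrArg (Bl.level Lv).augDown
    (congrArg Subtype.val ((Bl.mem_pNew Lv).1 x.2 j))).trans (map_zero (Bl.level Lv).augDown)

/-- The classes killed by the transfers onto those at the level of the node. -/
def augNew : Bl.pNew Lv →ₛₗ[Lv.augHom] Bl.baseNew where
  toFun x := ⟨Lv.augPart x, Bl.augPart_mem_baseNew Lv x⟩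
  map_add' x y := Subtype.ext (map_add Lv.augPart (x : Lv.part) y)
  map_smul' c x := Subtype.ext (LinearMap.map_smulₛₗ Lv.augPart c (x : Lv.part))

theorem baseTr_mem (j : Fin 2) (z : B.basePart) : Bl.baseTr j (z : B.H0) ∈ Bl.base.basePart := by
  obtain ⟨x, rfl⟩ := B.level0.augPart_surjective z
  exact (Bl.augDown_tr B.level0 j x) ▸ (Bl.level B.level0).augDown_facts.1 (Bl.trPart B.level0 j x)

theorem augNew_surjective : Function.Surjective (Bl.augNew Lv) := fun y => by
  obtain ⟨x, hx, hxy⟩ := exists_kernel_lift Lv.augPart (Bl.level Lv).augPart Lv.augPart_surjective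
    (fun _ => (Bl.level Lv).augPart_eq_zero) (Bl.trPart Lv) (Bl.trPart_surjective Lv)
    (fun j z => (⟨_, Bl.baseTr_mem j z⟩ : Bl.base.basePart))
    (fun j z => Subtype.ext (Bl.augDown_tr Lv j z)) (y := (y : B.basePart))
    fun j => Subtype.ext (Bl.mem_baseNew.1 y.2 j)
  exact ⟨⟨x, (Bl.mem_pNew Lv).2 hx⟩, Subtype.ext hxy⟩

theorem augNew_eq_zero {x : Bl.pNew Lv} (hx : Bl.augNew Lv x = 0) :
    x ∈ RingHom.ker Lv.augHom • (⊤ : Submodule Lv.Λ (Bl.pNew Lv)) := by
  haveI := (Bl.level Lv).free_part.1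
  haveI := (Bl.level Lv).free_part.2
  exact mem_smul_ker_of_mem_smul (LinearMap.pi (Bl.trPart Lv))
    (fun z => by
      obtain ⟨w, hw⟩ := Bl.trPart_surjective Lv z
      exact ⟨w, funext hw⟩) _ x (Lv.augPart_eq_zero (congrArg Subtype.val hx))

/-- A basis of the classes killed by the transfers lifting the fixed one. -/
theorem exists_liftBasis :
    ∃ b : Module.Basis (Fin Bl.newRank) Lv.Λ (Bl.pNew Lv),
      ∀ i, Bl.augNew Lv (b i) = Bl.newBasis i :=
  exists_basis_lift_sub Lv.augHom_surjective (Bl.augNew Lv) (Bl.augNew_surjective Lv)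
    (fun _ => Bl.augNew_eq_zero Lv) (Bl.free_pNew Lv).1 (Bl.free_pNew Lv).2.1 Bl.newBasis

theorem augNew_eq_newHecke {ℓ : Nat.Primes} (hℓ : (ℓ : ℕ) ∉ Lv.S') (hne : (ℓ : ℕ) ≠ q)
    (x y : Bl.pNew Lv)
    (h : ((y : Lv.part) : Lv.H1) = twOp Lv.θ Lv.N_dvd_L ℓ ((x : Lv.part) : Lv.H1)) :
    Bl.augNew Lv y = Bl.newHecke hne (Bl.augNew Lv x) :=
  Subtype.ext (Subtype.ext ((congrArg Lv.augDown h).trans (Lv.augDown_twOp hℓ _)))

/-- In a basis over the fixed one the good operators reduce to `newOp`. -/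
theorem map_eq_newOp {b : Fin Bl.newRank → Bl.pNew Lv}
    (hb : ∀ i, Bl.augNew Lv (b i) = Bl.newBasis i) {ℓ : Nat.Primes} (hℓ : (ℓ : ℕ) ∉ Lv.S')
    (hne : (ℓ : ℕ) ≠ q) (M : Matrix (Fin Bl.newRank) (Fin Bl.newRank) Lv.Λ)
    (hM : ∀ j, twOp Lv.θ Lv.N_dvd_L ℓ ((b j : Lv.part) : Lv.H1) =
      ∑ i, M i j • ((b i : Lv.part) : Lv.H1)) :
    M.map (aug O (ppow p Lv.e)) = Bl.newOp ℓ := by
  rw [newOp, dif_neg hne]
  exact map_eq_toMatrix_of_lift_sub (σ := Lv.augHom) (Bl.augNew Lv) b Bl.newBasis hb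
    (Bl.newHecke hne) (fun z => twOp Lv.θ Lv.N_dvd_L ℓ z) M
    (fun x y h => Bl.augNew_eq_newHecke Lv hℓ hne x y h) hM

/-- A basis of the classes killed by the transfers over the fixed one. -/
theorem exists_newBasis :
    ∃ b : Module.Basis (Fin Bl.newRank) Lv.Λ (Bl.pNew Lv),
      (∀ i, Bl.augNew Lv (b i) = Bl.newBasis i) ∧
      ∀ ℓ : Nat.Primes, (ℓ : ℕ) ∉ Lv.S' → (ℓ : ℕ) ≠ q →
        ∀ M : Matrix (Fin Bl.newRank) (Fin Bl.newRank) Lv.Λ,
          (∀ j, twOp Lv.θ Lv.N_dvd_L ℓ ((b j : Lv.part) : Lv.H1) =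
            ∑ i, M i j • ((b i : Lv.part) : Lv.H1)) →
          M.map (aug O (ppow p Lv.e)) = Bl.newOp ℓ :=
  (Bl.exists_liftBasis Lv).imp fun _ hb =>
    ⟨hb, fun _ hℓ hne M hM => Bl.map_eq_newOp Lv hb hℓ hne M hM⟩

theorem finrank_pNew_eq : Module.finrank Lv.Λ (Bl.pNew Lv) = Bl.newRank := by
  obtain ⟨b, -⟩ := Bl.exists_newBasis Lv
  rw [Module.finrank_eq_card_basis b, Fintype.card_fin]

/-- The rank of the classes killed by the transfers. -/
theorem newRank_add : Bl.newRank + 2 * Bl.base.baseRank = B.baseRank := by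
  rw [← Bl.finrank_pNew_eq B.level0]
  exact Bl.finrank_pNew_add B.level0

end NodeBelow

end Fermat.Agent.Lifting.Models

end
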