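import Fermat.Agent.Lifting.Models.Families
import Fermat.Agent.RT.Systems.ExactNewform
import Fermat.Agent.RT.Assembly.Points
import Fermat.Agent.Periods.Integral
import Mathlib.RingTheory.Ideal.GoingUp
import Mathlib.RingTheory.Localization.FractionRing

/-!
# Classes killed by the two transfers at `q` have systems of level divisible by `q`

* `transfers_twOp_pow`: the joint kernel of the transfers is stable by `U_q`;
* `push_levelCast_eq_degCores`: the push forward of `RT.Systems` is corestriction;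
* `dvd_level_of_transfers`: so the newform of exact level of a system on the joint kernel has
  level divisible by `q`.
-/

set_option autoImplicit false
set_option linter.style.haveILetI false

noncomputable section

namespace Fermat.Agent.Lifting.Models

open scoped MatrixGroups
open IsLocalRing CongruenceSubgroup ModularFormClass
open RT.TW RT.Systems RT.Assembly Periods

section Kernel

variable {A : Type} [CommRing A] {N M q : ℕ} [NeZero M] {θ : MulChar (ZMod N) A} (h : N ∣ M)

theorem transfers_twOp_pow (hq : q.Prime) (hqM : ¬ q ∣ M) (B : AddPrimeBezout M q)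
    {y : heckeH1 (neben θ) (M * q) (h.mul_right q)}
    (h1 : (degCores (neben θ) h hq hqM B).opH1 y = 0) (h2 : degCores' (neben θ) h hq hqM B y = 0)
    (n : ℕ) :
    (degCores (neben θ) h hq hqM B).opH1 ((twOp θ (h.mul_right q) ⟨q, hq⟩ ^ n) y) = 0 ∧
      degCores' (neben θ) h hq hqM B ((twOp θ (h.mul_right q) ⟨q, hq⟩ ^ n) y) = 0 := by
  induction n with
  | zero => exact ⟨h1, h2⟩
  | succ n ih =>
    rw [pow_succ', Module.End.mul_apply]
    generalize (twOp θ (h.mul_right q) ⟨q, hq⟩ ^ n) y = z at ih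
    obtain ⟨z1, z2⟩ := ih
    simp only [degCores', LinearMap.comp_apply] at z2 ⊢
    have e : heckeOp (neben θ) (h.mul_right q) ⟨q, hq⟩ z =
        -(degInvol (neben θ) h hq B).opH1 z := by
      rw [eq_neg_iff_add_eq_zero, opU_add_degInvol h hq hqM B, z2, map_zero]
    constructor
    · rw [show twOp θ (h.mul_right q) ⟨q, hq⟩ z = Ring.inverse (θ ((q : ℕ) : ZMod N)) •
        heckeOp (neben θ) (h.mul_right q) ⟨q, hq⟩ z from rfl, map_smul, e, map_neg, z2, neg_zero,
        smul_zero]
    · rw [show twOp θ (h.mul_right q) ⟨q, hq⟩ z = Ring.inverse (θ ((q : ℕ) : ZMod N)) •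
        heckeOp (neben θ) (h.mul_right q) ⟨q, hq⟩ z from rfl, map_smul, map_smul, e, map_neg,
        map_neg,
        degInvol_degInvol h hq B z hqM, map_smul, z1, smul_zero, neg_zero, smul_zero]

end Kernel

section Push

variable {A : Type} [CommRing A] {N M q : ℕ} [Fact q.Prime] [NeZero M] {Φ : MulChar (ZMod N) A}

omit [NeZero M] in
/-- A separated family of representatives of determinant one is the push forward. -/
theorem push_eq_of_family {R : ℕ} (hR : R = q * M) {h : N ∣ M} (hX : ¬ q ∣ M) (hN : N ∣ R)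
    (D : CosetFamily (level0 Φ R hN) (level0 Φ M h) (Option (Fin q)))
    (hsep : IsSepFamily (level0 Φ R hN).grp fun i => (D.mat i : IntMat))
    (hdet : ∀ i, (D.mat i : IntMat).det = 1) (hmem : ∀ i, ((M : ℕ) : ℤ) ∣ (D.mat i : IntMat) 1 0)
    (hwt : ∀ i, D.weight i * Φ (((D.mat i : IntMat) 1 1 : ℤ) : ZMod N) = 1)
    (y : heckeH1 Φ R hN) :
    push Φ h hX (levelCast Φ hR hN _ y) = D.opH1 y := by
  subst hR
  rw [levelCast_rfl, ← CosetFamily.toMixed_opH1 D hsep]
  have h1 : ¬ q ∣ M * 1 := by rwa [mul_one]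
  let g : Option (Fin q) → SL(2, ℤ) := fun i => ⟨(D.mat i : IntMat), hdet i⟩
  let f : Option (Fin q) → Option (ZMod q) := fun i => rowClass (g i)
  have hq0 : ∀ i, ((((g i) * (pushRep (M * 1) (f i))⁻¹).1 1 0 : ℤ) : ZMod q) = 0 := fun i =>
    (rowClass_eq_iff _ _).1 (rowClass_pushRep h1 _).symm
  have hΓ : ∀ i, pushRep (M * 1) (f i) ∈ Gamma M := fun i => by
    simpa using pushRep_mem (q := q) (M * 1) (f i)
  have hg : ∀ i, g i ∈ Gamma0 M := fun i => mem_gamma0_iff_dvd.2 (hmem i)
  let δ : Option (Fin q) → Gamma0 (q * M) := fun i => ⟨g i * (pushRep (M * 1) (f i))⁻¹,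
    mem_gamma0_mul hX (Subgroup.mul_mem _ (hg i)
      (Subgroup.inv_mem _ (gamma0_of_gamma dvd_rfl (hΓ i)))) (hq0 i)⟩
  have hmat : ∀ i, (D.mat i : IntMat) = gammaMat (δ i) * (pushRep (M * 1) (f i)).1 := fun i => by
    show (g i).1 = (g i * (pushRep (M * 1) (f i))⁻¹ * pushRep (M * 1) (f i)).1
    rw [inv_mul_cancel_right]
  have hf : Function.Injective f := fun i j hij => by
    have := (rowClass_eq_iff _ _).1 hij
    refine hsep.2 i j ⟨g i * (g j)⁻¹, mem_gamma0_mul hX
      (Subgroup.mul_mem _ (hg i) (Subgroup.inv_mem _ (hg j))) this⟩ ?_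
    show (g i).1 = (g i * (g j)⁻¹ * g j).1
    rw [inv_mul_cancel_right]
  haveI : NeZero q := ⟨(Fact.out : q.Prime).ne_zero⟩
  have hfb : Function.Bijective f :=
    (Fintype.bijective_iff_injective_and_card f).2 ⟨hf, by simp [ZMod.card]⟩
  refine (LinearMap.congr_fun (MixedFamily.opH1_eq_of_collapse (D.toMixed hsep)
    (pushFamily Φ h hX (K := 1) (Fact.out : q.Prime).not_dvd_one)
    (isSepFamily_pushRep hX (Fact.out : q.Prime).not_dvd_one) f δ hmat fun k => ?_) y).symm
  obtain ⟨i, rfl⟩ := hfb.2 k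
  rw [show Finset.univ.filter (fun j => f j = f i) = {i} from by ext; simp [hf.eq_iff],
    Finset.sum_singleton]
  show D.weight i * _ = 1
  refine Eq.trans ?_ (hwt i)
  congr 1
  let P : Gamma0 M := ⟨pushRep (M * 1) (f i), gamma0_of_gamma dvd_rfl (hΓ i)⟩
  let G : Gamma0 M := ⟨g i, hg i⟩
  have e1 : (level0 Φ (q * M) hN).char (δ i) = (level0 Φ M h).char (G * P⁻¹) :=
    char_congr Φ hN h rfl
  have e2 : (level0 Φ M h).char P = 1 := char_of_gamma Φ h h (hΓ i)
  refine (congrArg Units.val e1).trans ?_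
  let χ : Gamma0 M →* Aˣ := (level0 Φ M h).char
  have e3 : χ (G * P⁻¹) = χ G := by
    rw [map_mul, map_inv, show χ P = 1 from e2, inv_one, mul_one]
  exact (congrArg Units.val e3).trans (level0_char_apply h G)

/-- The push forward is corestriction. -/
theorem push_levelCast_eq_degCores (h : N ∣ M) (hqM : ¬ q ∣ M) (B : AddPrimeBezout M q)
    (e : M * q = q * M) (y : heckeH1 Φ (M * q) (h.mul_right q)) :
    push Φ h hqM (levelCast Φ e (h.mul_right q) _ y) =
      (degCores Φ h (Fact.out : q.Prime) hqM B).opH1 y := by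
  refine push_eq_of_family e hqM _ _ ⟨fun i => ?_, fun i j g hg => ?_⟩ (fun i => ?_) (fun i => ?_)
    (fun i => ?_) y
  · show (RT.TW.coresMat B i).det ≠ 0
    rw [det_coresMat]; exact one_ne_zero
  · exact coresMat_separated Fact.out hqM B i j g hg
  · exact det_coresMat B i
  · cases i <;> simp [degCores, CosetFamily.ofSeparated, RT.TW.coresMat]
  · obtain ⟨hx, hqx⟩ := B.isUnit_x h
    have hM : ((M : ℕ) : ZMod N) = 0 := (ZMod.natCast_eq_zero_iff _ _).2 h
    rw [CosetFamily.weight]
    cases i with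
    | none => simp [degCores, CosetFamily.ofSeparated, gamma0Weighting_ψ, RT.TW.coresMat]
    | some j =>
      simp [degCores, CosetFamily.ofSeparated, gamma0Weighting_ψ, RT.TW.coresMat, hM]
      rw [← map_mul, mul_comm, hqx, map_one]

end Push

section Level

/-- An embedding of the eigenvalue ring of a newform into a domain of characteristic zero gives a
semilinear map to `ℂ`. -/
theorem exists_semilinear {A : Type} [CommRing A] [IsDomain A] [CharZero A] (R : Subring ℂ)
    [Algebra.IsIntegral ℤ R] (emb : R →+* A) :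
    ∃ lam : A →+ ℂ, lam ≠ 0 ∧ ∀ (b : R) x, lam (emb b * x) = (b : ℂ) * lam x := by
  have hinj : Function.Injective emb := by
    rw [RingHom.injective_iff_ker_eq_bot]
    haveI : (RingHom.ker emb).IsPrime := RingHom.ker_isPrime emb
    refine Ideal.eq_bot_of_comap_eq_bot (R := ℤ) ?_
    rw [eq_bot_iff]
    intro z hz
    rw [Ideal.mem_comap, RingHom.mem_ker, eq_intCast, map_intCast, Int.cast_eq_zero] at hz
    simp [hz]
  let F := FractionRing A
  let K := FractionRing R
  let ι : R →+* F := (algebraMap A F).comp emb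
  have hι : Function.Injective ι := (IsFractionRing.injective A F).comp hinj
  letI : Algebra K F := (IsFractionRing.lift (K := K) hι).toAlgebra
  let τ : K →+* ℂ := IsFractionRing.lift (g := R.subtype) Subtype.val_injective
  obtain ⟨φ, hφ⟩ : ∃ φ : F →ₗ[K] K, φ 1 ≠ 0 := by
    obtain ⟨φ, hφ⟩ := Submodule.exists_le_ker_of_notMem (p := (⊥ : Submodule K F)) (v := (1 : F))
      (by simp)
    exact ⟨φ, hφ.1⟩
  refine ⟨((τ.toAddMonoidHom).comp φ.toAddMonoidHom).comp (algebraMap A F).toAddMonoidHom,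
    fun h0 => hφ ?_, fun b x => ?_⟩
  · have h1 : τ (φ (algebraMap A F 1)) = 0 := DFunLike.congr_fun h0 1
    rw [map_one] at h1
    exact τ.injective (h1.trans (map_zero τ).symm)
  · show τ (φ (algebraMap A F (emb b * x))) = _
    have e : algebraMap A F (emb b * x) = (algebraMap R K b) • algebraMap A F x := by
      rw [Algebra.smul_def, RingHom.algebraMap_toAlgebra, IsFractionRing.lift_algebraMap, map_mul]
      rfl
    rw [e, map_smul, smul_eq_mul, map_mul]
    exact congrArg (· * _) (IsFractionRing.lift_algebraMap _ b)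

variable {V : Type} [CommRing V] [IsDomain V] [IsDiscreteValuationRing V]
  [Finite (ResidueField V)] [CharZero V]
  {N M q : ℕ} [NeZero M]

/-- A non-Eisenstein system on the joint kernel of the transfers at `q` has level divisible
by `q`. -/
theorem dvd_level_of_transfers (h : N ∣ M) (hq : q.Prime) (hqM : ¬ q ∣ M)
    (B : AddPrimeBezout M q) (hsq : Squarefree (M * q)) (θ : MulChar (ZMod N) V)
    (hodd : ∀ u : (ZMod N)ˣ, ∃ k : ℕ, Odd k ∧ θ u ^ k = 1) (S : Finset ℕ)
    (hS : ∀ r : ℕ, r.Prime → r ∣ M * q → r ∈ S) (c : Nat.Primes → V)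
    (hEis : ∃ ℓ : Nat.Primes, (ℓ : ℕ) ∉ S ∧ ((ℓ : ℕ) : ZMod (M * q * N)) = 1 ∧
      c ℓ ≠ ((ℓ : ℕ) : V) + 1)
    {y : heckeH1 (neben θ) (M * q) (h.mul_right q)}
    (hy : y ∈ twSystem θ (h.mul_right q) S c) (hy0 : ∀ a : V, a ≠ 0 → a • y ≠ 0)
    (h1 : (degCores (neben θ) h hq hqM B).opH1 y = 0) (h2 : degCores' (neben θ) h hq hqM B y = 0)
    {L' : ℕ} [NeZero L'] (hex : IsExactLevel θ S c (M * q) L')
    (hnew : IsNewformSystem S L' c) : q ∣ L' := by
  by_contra hqL
  haveI := Fact.mk hq
  haveI : NeZero (M * q) := ⟨mul_ne_zero (NeZero.ne M) hq.ne_zero⟩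
  obtain ⟨ℓ₀, hℓS, hℓ1, hne⟩ := hEis
  have hexact : ∀ r : ℕ, r.Prime → r ∣ M * q → (M * q).factorization r = 1 :=
    fun r hr hd => factorization_eq_one_of_dvd hsq hr hd
  obtain ⟨R, _, J, hJ, -⟩ := exists_isUntwist N θ (h.mul_right q)
    (fun r hr hrN => hexact r hr (hrN.trans (h.mul_right q))) hodd 0
  have hℓR : ((ℓ₀ : ℕ) : ZMod R) = 1 := by
    simpa [map_natCast, ZMod.cast_one hJ.dvd_mul] using
      congrArg (ZMod.castHom hJ.dvd_mul (ZMod R)) hℓ1
  obtain ⟨hφ0, hφ, hφc, -⟩ := hJ.image_system S hS c hℓS hℓR hne hy hy0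
  have hkill : IsKilledAt q (J y) := hJ.killed_of_push q M (mul_comm M q) hqM h y fun n => by
    rw [push_levelCast_eq_degCores h hqM B]
    exact (transfers_twOp_pow h hq hqM B h1 h2 n).1
  obtain ⟨g, chig, emb, hg, hchig, hemb⟩ := hnew
  haveI := Periods.moduleFinite_heckeAlgebra_two (N := L') (↑S : Set ℕ)
  haveI : Module.Finite ℤ chig.range :=
    Module.Finite.of_surjective chig.rangeRestrict.toIntAlgHom.toLinearMap
      chig.rangeRestrict_surjective
  obtain ⟨lam, hlam0, hlam⟩ := exists_semilinear chig.range emb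
  have hL'S : ∀ r : ℕ, r.Prime → r ∣ L' → r ∈ S := fun r hr hd => hS r hr
    ((hr.dvd_mul.1 (hd.trans hex.dvd)).elim id fun hN => hN.trans (h.mul_right q))
  obtain ⟨D, hD⟩ : q ∣ R := (dvd_mul_left q M).trans hJ.dvd
  refine hkill.not_dvd hD S c hφ hφ0 hφc hg.1 hlam0 (fun ℓ hℓ x => ?_) ?_
  · have hℓL : ¬ (ℓ : ℕ) ∣ L' := fun hd => hℓ (hL'S _ ℓ.2 hd)
    have e := hemb ℓ ℓ.2 hℓL (by exact_mod_cast hℓ)
    rw [show c ℓ = c ⟨ℓ, ℓ.2⟩ from rfl, ← e, hlam]
    exact congrArg (· * lam x) (hchig ℓ ℓ.2 hℓL (by exact_mod_cast hℓ))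
  · have hL'R : L' ∣ R := by
      refine (Nat.factorization_le_iff_dvd (NeZero.ne L') (NeZero.ne R)).1 fun r => ?_
      by_cases hr : r.Prime
      · by_cases hd : r ∣ L'
        · have hrMq : r ∣ M * q := (hr.dvd_mul.1 (hd.trans hex.dvd)).elim id
            fun hN => hN.trans (h.mul_right q)
          by_cases hn : NontrivialAt θ r
          · rw [hJ.factorization_of_nontrivialAt r hr hn, hex.two r hr hn, hexact r hr hrMq]
          · rw [hJ.factorization_of_not r hr hn, hexact r hr hrMq]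
            exact hex.le_one r hr hn
        · rw [Nat.factorization_eq_zero_of_not_dvd hd]; exact Nat.zero_le _
      · rw [Nat.factorization_eq_zero_of_not_prime _ hr]; exact Nat.zero_le _
    refine dvd_div_of_factorization_lt hD hq hL'R ?_
    rw [Nat.factorization_eq_zero_of_not_dvd hqL]
    exact hq.factorization_pos_of_dvd (NeZero.ne R) ⟨D, hD⟩

end Level

end Fermat.Agent.Lifting.Models

end
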