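import Fermat.Agent.Lifting.Models.PNew
import Fermat.Agent.Lifting.Models.NewAt

/-!
# The maps down after a change of coefficients

For the inputs of `Models.exists_coker` over a node `Lv` and the node below at `t`:

* `residue_spec`, `residue_eigenvalue`: eigenvalues of operators which are residually scalars;
* `trV`, `red_tr`: the transfers after a change of coefficients;
* `dvd_level_of_trV`: a system on their joint kernel has exact level divisible by `t`;
* `trV_red_sum_eq_zero`: combinations in the kernel of the matrices of the maps down are there.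
-/

set_option autoImplicit false
set_option linter.style.haveILetI false

noncomputable section

open IsLocalRing MvPolynomial

namespace Fermat.Agent.Lifting.Models

open RT.Diamond RT.TW RT.Assembly RT.Systems
open Periods (IntMat)

variable {O : Type} [CommRing O] [IsDomain O] [IsDiscreteValuationRing O]
  [IsAdicComplete (maximalIdeal O) O] [Finite (ResidueField O)] [CharZero O]
  {p : ℕ} [Fact p.Prime] {B : NodeBase O p} {r n : ℕ}

/-- A combination killed by the matrix of a map is killed by its change of coefficients. -/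
theorem map_sum_eq_zero_of_intertwine {A A' : Type} [CommRing A] [CommRing A'] {f : A →+* A'}
    {M M' H H' : Type} [AddCommGroup M] [Module A M] [AddCommGroup M'] [Module A M']
    [AddCommGroup H] [Module A' H] [AddCommGroup H'] [Module A' H']
    (R : M →ₛₗ[f] H) (R' : M' →ₛₗ[f] H') (T : M →ₗ[A] M') (T' : H →ₗ[A'] H')
    (hT : ∀ x, R' (T x) = T' (R x)) {u : A} (hu : IsUnit (f u)) {D₀ D₁ : ℕ} (x : Fin D₁ → M)
    (z : Fin D₀ → M') (d : Matrix (Fin D₀) (Fin D₁) A) (hd : ∀ i, u • T (x i) = ∑ k, d k i • z k)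
    (w : Fin D₁ → A') (hw : (d.map f).mulVec w = 0) : T' (∑ i, w i • R (x i)) = 0 := by
  refine hu.smul_eq_zero.1 ?_
  have e : ∀ i, f u • T' (w i • R (x i)) = ∑ k, (f (d k i) * w i) • R' (z k) := by
    intro i
    rw [map_smul, smul_comm, ← hT, ← R'.map_smulₛₗ, hd, map_sum, Finset.smul_sum]
    exact Finset.sum_congr rfl fun k _ => by rw [R'.map_smulₛₗ, smul_smul, mul_comm]
  rw [map_sum, Finset.smul_sum]
  simp only [e]
  rw [Finset.sum_comm]
  refine Finset.sum_eq_zero fun k _ => ?_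
  rw [← Finset.sum_smul]
  have h := congrFun hw k
  simp only [Matrix.mulVec, dotProduct, Matrix.map_apply, Pi.zero_apply] at h
  rw [h, zero_smul]

/-- `dvd_level_of_transfers` for a level equal to the product. -/
theorem dvd_level_of_transfers_cast {V : Type} [CommRing V] [IsDomain V]
    [IsDiscreteValuationRing V] [Finite (ResidueField V)] [CharZero V] {N L M q : ℕ} [NeZero M]
    (e : L = M * q) (h' : N ∣ L) (h : N ∣ M) (hq : q.Prime) (hqM : ¬ q ∣ M)
    (Bz : AddPrimeBezout M q) (hsq : Squarefree L) (θ : MulChar (ZMod N) V)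
    (hodd : ∀ u : (ZMod N)ˣ, ∃ k : ℕ, Odd k ∧ θ u ^ k = 1) (S : Finset ℕ)
    (hS : ∀ l : ℕ, l.Prime → l ∣ L → l ∈ S) (c : Nat.Primes → V)
    (hEis : ∃ ℓ : Nat.Primes, (ℓ : ℕ) ∉ S ∧ ((ℓ : ℕ) : ZMod (L * N)) = 1 ∧
      c ℓ ≠ ((ℓ : ℕ) : V) + 1)
    {y : heckeH1 (neben θ) L h'} (hy : y ∈ twSystem θ h' S c)
    (hy0 : ∀ a : V, a ≠ 0 → a • y ≠ 0)
    (h1 : (degCores (neben θ) h hq hqM Bz).opH1
      (levelCast (neben θ) e h' (h.mul_right q) y) = 0)
    (h2 : degCores' (neben θ) h hq hqM Bz (levelCast (neben θ) e h' (h.mul_right q) y) = 0)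
    {L' : ℕ} [NeZero L'] (hex : IsExactLevel θ S c L L') (hnew : IsNewformSystem S L' c) :
    q ∣ L' := by
  subst e
  exact dvd_level_of_transfers h hq hqM Bz hsq θ hodd S hS c hEis hy hy0 h1 h2 hex hnew

section Residue

variable (Lv : NodeLevel B r n) {V : Type} [CommRing V] [IsLocalRing V] [Algebra O V]
  [IsLocalHom (algebraMap O V)]

/-- A specialisation lifts the residual map. -/
theorem residue_spec (ξ : Lv.Λ →ₐ[O] V) (x : Lv.Λ) :
    residue V (ξ x) = ResidueField.map (algebraMap O V) (Lv.resΛ x) := by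
  let φ : Lv.Λ →+* ResidueField V := (residue V).comp ξ.toRingHom
  have hO : (φ.comp (algebraMap O Lv.Λ)) =
      (ResidueField.map (algebraMap O V)).comp (residue O) := by
    refine RingHom.ext fun o => ?_
    show residue V (ξ (algebraMap O Lv.Λ o)) = _
    rw [AlgHom.commutes]
    rfl
  haveI : Algebra.IsIntegral O Lv.Λ := Algebra.IsIntegral.of_finite O Lv.Λ
  haveI : (RingHom.ker φ).IsPrime := RingHom.ker_isPrime φ
  have hmax : (RingHom.ker φ).IsMaximal := by
    refine Ideal.isMaximal_of_isIntegral_of_isMaximal_comap (R := O) _ ?_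
    rw [RingHom.comap_ker, hO, ← RingHom.comap_ker]
    refine Ideal.comap_isMaximal_of_surjective _ residue_surjective (H := ?_)
    rw [(RingHom.injective_iff_ker_eq_bot _).1 (ResidueField.map (algebraMap O V)).injective]
    exact Ideal.bot_isMaximal
  have hker : RingHom.ker φ = RingHom.ker Lv.resΛ := by rw [Lv.ker_resΛ]; exact eq_maximalIdeal hmax
  obtain ⟨o, ho⟩ := residue_surjective (Lv.resΛ x)
  have hmem : x - algebraMap O Lv.Λ o ∈ RingHom.ker φ := by
    rw [hker, RingHom.mem_ker, map_sub, Lv.resΛ_algebraMap, ho, sub_self]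
  rw [RingHom.mem_ker, map_sub, sub_eq_zero] at hmem
  exact hmem.trans ((RingHom.congr_fun hO o).trans
    (congrArg (ResidueField.map (algebraMap O V)) ho))

/-- An eigenvalue of a specialised operator which is residually a scalar. -/
theorem residue_eigenvalue [IsDomain V] (ξ : Lv.Λ →ₐ[O] V) {D : ℕ}
    {M : Matrix (Fin D) (Fin D) Lv.Λ} {a : ResidueField O}
    (hM : IsNilpotent (M.map Lv.resΛ - a • (1 : Matrix (Fin D) (Fin D) (ResidueField O))))
    {c : V} {w : Fin D → V} (hw : w ≠ 0) (hc : (M.map ξ).mulVec w = c • w) :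
    residue V c = ResidueField.map (algebraMap O V) a := by
  classical
  have hdet : (M.map ξ - c • 1).det = 0 :=
    Matrix.exists_mulVec_eq_zero_iff.1 ⟨w, hw, by
      rw [Matrix.sub_mulVec, Matrix.smul_mulVec, Matrix.one_mulVec, hc, sub_self]⟩
  set g := ResidueField.map (algebraMap O V) with hgdef
  have hgM : (M.map ξ).map (residue V) = (M.map Lv.resΛ).map g := by
    ext i j
    exact residue_spec Lv ξ _
  by_contra hbad
  have hN : IsNilpotent ((M.map Lv.resΛ - a • 1).map g) := hM.map g.mapMatrix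
  have hu : IsUnit ((g a - residue V c) • (1 : Matrix (Fin D) (Fin D) (ResidueField V))
      + (M.map Lv.resΛ - a • 1).map g) := by
    refine IsNilpotent.isUnit_add_left_of_commute hN ?_ ((Commute.one_left _).smul_left _).symm
    rw [← Algebra.algebraMap_eq_smul_one]
    exact (Ne.isUnit (sub_ne_zero.2 (Ne.symm hbad))).map _
  have e : (M.map ξ - c • 1).map (residue V) =
      (g a - residue V c) • (1 : Matrix (Fin D) (Fin D) (ResidueField V)) +
        (M.map Lv.resΛ - a • 1).map g := by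
    rw [Matrix.map_sub _ (map_sub (residue V)), Matrix.map_sub _ (map_sub g), hgM,
      Matrix.map_smul' (residue V) _ _ (map_mul _), Matrix.map_smul' g _ _ (map_mul _),
      Matrix.map_one _ (map_zero _) (map_one _), Matrix.map_one _ (map_zero _) (map_one _),
      sub_smul]
    abel
  rw [← e, Matrix.isUnit_iff_isUnit_det, ← RingHom.mapMatrix_apply, ← RingHom.map_det, hdet,
    map_zero] at hu
  exact not_isUnit_zero hu

end Residue

variable {t : ℕ} (Bl : NodeBelow B t) (Lv : NodeLevel B r n) {V : Type} [CommRing V]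

/-- The two transfers to the level without `t` for a twist with values in `V`. -/
def trV (θ : MulChar (ZMod Lv.N) V) :
    Fin 2 → (heckeH1 (neben θ) Lv.L Lv.N_dvd_L →ₗ[V]
      heckeH1 (neben θ) (Bl.level Lv).L (Bl.level Lv).N_dvd_L) :=
  ![(degCores (neben θ) (Bl.level Lv).N_dvd_L Bl.prime (Bl.not_dvd_level Lv)
        (Bl.bezout Lv)).opH1 ∘ₗ (levelCast (neben θ) (Bl.level_L Lv).symm Lv.N_dvd_L
          ((Bl.level Lv).N_dvd_L.mul_right t)).toLinearMap,
    degCores' (neben θ) (Bl.level Lv).N_dvd_L Bl.prime (Bl.not_dvd_level Lv)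
        (Bl.bezout Lv) ∘ₗ (levelCast (neben θ) (Bl.level_L Lv).symm Lv.N_dvd_L
          ((Bl.level Lv).N_dvd_L.mul_right t)).toLinearMap]

/-- The change of coefficients commutes with the transfers. -/
theorem red_tr (f : Lv.Λ →+* V) (j : Fin 2) (x : Lv.H1) :
    Models.red f (Bl.level Lv).N_dvd_L (Bl.level Lv).N_dvd_L (Models.map_neben (Bl.level Lv).θ f)
        (Bl.tr Lv j x) =
      trV Bl Lv (Lv.θ.ringHomComp f) j
        (Models.red f Lv.N_dvd_L Lv.N_dvd_L (Models.map_neben Lv.θ f) x) := by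
  have hcast := red_levelCast (Models.map_neben Lv.θ f) (Bl.level_L Lv).symm Lv.N_dvd_L
    ((Bl.level Lv).N_dvd_L.mul_right t) Lv.N_dvd_L ((Bl.level Lv).N_dvd_L.mul_right t) x
  fin_cases j
  · refine (red_opH1 (Models.map_neben (Bl.level Lv).θ f) _
      (degCores ((neben Lv.θ).ringHomComp f) (Bl.level Lv).N_dvd_L Bl.prime (Bl.not_dvd_level Lv)
        (Bl.bezout Lv))
      (degCores (neben (Lv.θ.ringHomComp f)) (Bl.level Lv).N_dvd_L Bl.prime (Bl.not_dvd_level Lv)
        (Bl.bezout Lv)) (fun _ => rfl) (fun _ => rfl) (Bl.cast Lv x)).trans ?_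
    exact congrArg _ hcast
  · refine (red_opH1 (Models.map_neben (Bl.level Lv).θ f) _
      (degCores ((neben Lv.θ).ringHomComp f) (Bl.level Lv).N_dvd_L Bl.prime (Bl.not_dvd_level Lv)
        (Bl.bezout Lv))
      (degCores (neben (Lv.θ.ringHomComp f)) (Bl.level Lv).N_dvd_L Bl.prime (Bl.not_dvd_level Lv)
        (Bl.bezout Lv)) (fun _ => rfl) (fun _ => rfl) _).trans (congrArg _ ?_)
    refine (red_opH1 (Models.map_neben Lv.θ f) _
      (degInvol ((neben Lv.θ).ringHomComp f) (Bl.level Lv).N_dvd_L Bl.prime (Bl.bezout Lv))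
      (degInvol (neben (Lv.θ.ringHomComp f)) (Bl.level Lv).N_dvd_L Bl.prime (Bl.bezout Lv))
      (fun _ => rfl) (fun _ => rfl) (Bl.cast Lv x)).trans ?_
    exact congrArg _ hcast

/-- Combinations killed by the matrices of the maps down, each normalised by a unit `u j`, are
killed by the transfers. -/
theorem trV_red_sum_eq_zero {D₀ D₁ : ℕ} (f : Lv.Λ →+* V) (u : Fin 2 → Lv.Λ)
    (hu : ∀ j, IsUnit (u j)) (x : Fin D₁ → Lv.H1) (z : Fin D₀ → (Bl.level Lv).H1)
    (d : Fin 2 → Matrix (Fin D₀) (Fin D₁) Lv.Λ)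
    (hd : ∀ j i, u j • Bl.tr Lv j (x i) = ∑ k, d j k i • z k)
    (w : Fin D₁ → V) (hw : ∀ j, ((d j).map f).mulVec w = 0) (j : Fin 2) :
    trV Bl Lv (Lv.θ.ringHomComp f) j
      (∑ i, w i • Models.red f Lv.N_dvd_L Lv.N_dvd_L (Models.map_neben Lv.θ f) (x i)) = 0 := by
  exact map_sum_eq_zero_of_intertwine
    (Models.red f Lv.N_dvd_L Lv.N_dvd_L (Models.map_neben Lv.θ f))
    (Models.red f (Bl.level Lv).N_dvd_L (Bl.level Lv).N_dvd_L
      (Models.map_neben (Bl.level Lv).θ f))
    (Bl.tr Lv j) (trV Bl Lv (Lv.θ.ringHomComp f) j) (red_tr Bl Lv f j) ((hu j).map f) x z (d j)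
    (hd j) w (hw j)

variable [IsDomain V] [IsDiscreteValuationRing V] [Finite (ResidueField V)] [CharZero V]
  [Algebra O V] [IsLocalHom (algebraMap O V)]

/-- A system congruent to the residual one on the joint kernel of the transfers at `t` has exact
level divisible by `t`. -/
theorem dvd_level_of_trV (ξ : Lv.Λ →ₐ[O] V) (S₁ : Finset ℕ) (hS : Lv.S' ⊆ S₁)
    (c : Nat.Primes → V)
    (hc : ∀ ℓ : Nat.Primes, (ℓ : ℕ) ∉ S₁ → ℓ ∈ B.G →
      residue V (c ℓ) = ResidueField.map (algebraMap O V) (B.a ℓ))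
    (hodd : ∀ u : (ZMod Lv.N)ˣ, ∃ k : ℕ, Odd k ∧ Lv.θ.ringHomComp ξ.toRingHom u ^ k = 1)
    {y : heckeH1 (neben (Lv.θ.ringHomComp ξ.toRingHom)) Lv.L Lv.N_dvd_L}
    (hy : y ∈ twSystem (Lv.θ.ringHomComp ξ.toRingHom) Lv.N_dvd_L S₁ c)
    (hy0 : ∀ a : V, a ≠ 0 → a • y ≠ 0)
    (hk : ∀ j, trV Bl Lv (Lv.θ.ringHomComp ξ.toRingHom) j y = 0)
    {L' : ℕ} [NeZero L'] (hex : IsExactLevel (Lv.θ.ringHomComp ξ.toRingHom) S₁ c Lv.L L')
    (hnew : IsNewformSystem S₁ L' c) : t ∣ L' := by
  obtain ⟨ℓ, hℓ, hℓ1, hne⟩ := B.nonEis (Lv.L * Lv.N) (mul_ne_zero Lv.L_ne_zero Lv.N_ne_zero)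
    (S₁ ∪ B.omitted)
  rw [Finset.mem_union, not_or] at hℓ
  refine dvd_level_of_transfers_cast (Bl.level_L Lv).symm Lv.N_dvd_L (Bl.level Lv).N_dvd_L
    Bl.prime (Bl.not_dvd_level Lv) (Bl.bezout Lv) Lv.squarefree_L _ hodd S₁
    (fun q hq hd => hS (Lv.mem_S'_of_dvd_L hq hd)) c ⟨ℓ, hℓ.1, hℓ1, fun hceq => hne ?_⟩ hy hy0
    (hk 0) (hk 1) hex hnew
  have h := hc ℓ hℓ.1 hℓ.2
  rw [hceq, map_add, map_natCast, map_one] at h
  refine (ResidueField.map (algebraMap O V)).injective ?_
  rw [← h, map_add, map_natCast, map_one]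

end Fermat.Agent.Lifting.Models

end
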