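import Fermat.Agent.Lifting.Models.EdgesPart
import Fermat.Agent.Lifting.Models.CokerParts

/-!
# The conditions of a step on summands of the parts of consecutive nodes

For maps between free summands of the parts of a node and of the node below at `t`:

* `upMat_injective_mod`: matrices of the maps up are jointly injective modulo the maximal ideal;
* `dvd_level_of_dnPart`: an eigenvector of a specialisation killed by the matrices of the maps
  down has exact level divisible by `t`.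
-/

set_option autoImplicit false
set_option linter.style.haveILetI false

noncomputable section

open IsLocalRing MvPolynomial

namespace Fermat.Agent.Lifting.Models

open RT.Diamond RT.TW RT.Assembly RT.Systems

theorem red_twOp {A A' : Type} [CommRing A] [CommRing A'] {N L : ℕ} (θ : MulChar (ZMod N) A)
    (f : A →+* A') (h : N ∣ L) (ℓ : Nat.Primes) (x : heckeH1 (neben θ) L h) :
    Models.red f h h (Models.map_neben θ f) (twOp θ h ℓ x) =
      twOp (θ.ringHomComp f) h ℓ (Models.red f h h (Models.map_neben θ f) x) := by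
  rw [← Models.heckeAct_twPoly_X, ← Models.heckeAct_twPoly_X, Models.red_heckeAct,
    Models.map_twPoly]

/-- Classes on which the twisted operators act by matrices: an eigenvector of the changed
matrices gives a system. -/
theorem red_sum_mem_twSystem {A A' : Type} [CommRing A] [CommRing A'] {N L D : ℕ}
    (θ : MulChar (ZMod N) A) (f : A →+* A') (h : N ∣ L) (S : Finset ℕ)
    (x : Fin D → heckeH1 (neben θ) L h) (op : Nat.Primes → Matrix (Fin D) (Fin D) A)
    (hop : ∀ ℓ : Nat.Primes, (ℓ : ℕ) ∉ S → ∀ a, twOp θ h ℓ (x a) = ∑ b, op ℓ b a • x b)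
    (c : Nat.Primes → A') (w : Fin D → A')
    (hc : ∀ ℓ : Nat.Primes, (ℓ : ℕ) ∉ S → ((op ℓ).map f).mulVec w = c ℓ • w) :
    ∑ a, w a • Models.red f h h (Models.map_neben θ f) (x a) ∈
      twSystem (θ.ringHomComp f) h S c := by
  refine mem_twSystem_iff.2 fun ℓ hℓ => ?_
  have e : ∀ a, twOp (θ.ringHomComp f) h ℓ
      (w a • Models.red f h h (Models.map_neben θ f) (x a)) =
      ∑ b, (f (op ℓ b a) * w a) • Models.red f h h (Models.map_neben θ f) (x b) := by
    intro a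
    rw [map_smul, ← red_twOp, hop ℓ hℓ, map_sum, Finset.smul_sum]
    exact Finset.sum_congr rfl fun b _ => by
      rw [LinearMap.map_smulₛₗ, smul_smul, mul_comm]
  rw [map_sum, Finset.sum_congr rfl fun a _ => e a, Finset.sum_comm, Finset.smul_sum]
  refine Finset.sum_congr rfl fun b _ => ?_
  have h' := congrFun (hc ℓ hℓ) b
  simp only [Matrix.mulVec, dotProduct, Matrix.map_apply, Pi.smul_apply, smul_eq_mul] at h'
  rw [← Finset.sum_smul, h', mul_smul]

/-- A linear form sends vectors which are residually zero to residually zero values. -/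
theorem map_eq_zero_of_forall {A k : Type} [CommRing A] [CommRing k] (f : A →+* k) {D : ℕ}
    (φ : (Fin D → A) →ₗ[A] A) {y : Fin D → A} (hy : ∀ i, f (y i) = 0) : f (φ y) = 0 := by
  rw [pi_eq_sum_univ y, map_sum, map_sum]
  refine Finset.sum_eq_zero fun i _ => ?_
  rw [map_smul, smul_eq_mul, map_mul, hy, zero_mul]

namespace NodeBelow

variable {O : Type} [CommRing O] [IsDomain O] [IsDiscreteValuationRing O]
  [IsAdicComplete (maximalIdeal O) O] [Finite (ResidueField O)] [CharZero O]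
  {p : ℕ} [Fact p.Prime] {B : NodeBase O p} {t : ℕ} (Bl : NodeBelow B t) {r n : ℕ}
  (Lv : NodeLevel B r n) {D₀ D₁ : ℕ}

/-- Matrices of the maps up between summands are jointly injective modulo the maximal ideal. -/
theorem upMat_injective_mod (ι₀ : (Fin D₀ → Lv.Λ) →ₗ[Lv.Λ] (Bl.level Lv).part)
    (ρ₀ : (Bl.level Lv).part →ₗ[Lv.Λ] (Fin D₀ → Lv.Λ)) (hρ₀ : ∀ v, ρ₀ (ι₀ v) = v)
    (ι₁ : (Fin D₁ → Lv.Λ) →ₗ[Lv.Λ] Lv.part) (up : Fin 2 → Matrix (Fin D₁) (Fin D₀) Lv.Λ)
    (hup : ∀ j v, Bl.upPart Lv j (ι₀ v) = ι₁ ((up j).mulVec v))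
    (v : Fin 2 → Fin D₀ → Lv.Λ) (hv : ∀ i, Lv.resΛ ((∑ j, (up j).mulVec (v j)) i) = 0) :
    ∀ j i, Lv.resΛ (v j i) = 0 := by
  obtain ⟨g, hg⟩ := Bl.exists_upPart_split Lv
  have hy : g (ι₁ (∑ j, (up j).mulVec (v j))) = (ι₀ (v 0), ι₀ (v 1)) := by
    rw [map_sum, Fin.sum_univ_two, ← hup, ← hup]
    exact LinearMap.congr_fun hg (ι₀ (v 0), ι₀ (v 1))
  have key : ∀ (P : (Bl.level Lv).part × (Bl.level Lv).part →ₗ[Lv.Λ] (Bl.level Lv).part) (i : Fin D₀),
      Lv.resΛ (ρ₀ (P (ι₀ (v 0), ι₀ (v 1))) i) = 0 := fun P i => by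
    rw [← hy]
    exact map_eq_zero_of_forall Lv.resΛ
      (LinearMap.proj i ∘ₗ ρ₀ ∘ₗ P ∘ₗ g ∘ₗ ι₁) hv
  intro j i
  fin_cases j
  · simpa [hρ₀] using key (LinearMap.fst _ _ _) i
  · simpa [hρ₀] using key (LinearMap.snd _ _ _) i

variable {V : Type} [CommRing V] [IsDomain V] [IsDiscreteValuationRing V]
  [Finite (ResidueField V)] [CharZero V] [Algebra O V] [IsLocalHom (algebraMap O V)]

/-- An eigenvector killed by the matrices of the maps down is new at `t`. -/
theorem dvd_level_of_dnPart (ξ : Lv.Λ →ₐ[O] V) (x : Fin D₁ → Lv.part)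
    (z : Fin D₀ → (Bl.level Lv).part) (dn : Fin 2 → Matrix (Fin D₀) (Fin D₁) Lv.Λ)
    (hdn : ∀ i a, Bl.dnPart Lv i (x a) = ∑ k, dn i k a • z k)
    (hli : LinearIndependent V fun a => Models.red ξ.toRingHom Lv.N_dvd_L Lv.N_dvd_L
      (Models.map_neben Lv.θ ξ.toRingHom) (x a : Lv.H1))
    (hodd : ∀ u : (ZMod Lv.N)ˣ, ∃ k : ℕ, Odd k ∧ Lv.θ.ringHomComp ξ.toRingHom u ^ k = 1)
    (S₁ : Finset ℕ) (hS : Lv.S' ⊆ S₁) (op : Nat.Primes → Matrix (Fin D₁) (Fin D₁) Lv.Λ)
    (hop : ∀ ℓ : Nat.Primes, (ℓ : ℕ) ∉ S₁ → ∀ a,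
      twOp Lv.θ Lv.N_dvd_L ℓ (x a : Lv.H1) = ∑ b, op ℓ b a • (x b : Lv.H1))
    (hres : ∀ ℓ : Nat.Primes, (ℓ : ℕ) ∉ Lv.S' → ℓ ∈ B.G → IsNilpotent ((op ℓ).map Lv.resΛ -
      B.a ℓ • (1 : Matrix (Fin D₁) (Fin D₁) (ResidueField O))))
    (c : Nat.Primes → V) (w : Fin D₁ → V) (hw : w ≠ 0)
    (hc : ∀ ℓ : Nat.Primes, (ℓ : ℕ) ∉ S₁ → ((op ℓ).map ξ).mulVec w = c ℓ • w)
    (hker : ∀ i, ((dn i).map ξ).mulVec w = 0)
    {L' : ℕ} [NeZero L'] (hex : IsExactLevel (Lv.θ.ringHomComp ξ.toRingHom) S₁ c Lv.L L')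
    (hnew : IsNewformSystem S₁ L' c) : t ∣ L' := by
  refine dvd_level_of_trV Bl Lv ξ S₁ hS c (fun ℓ hℓ hG =>
      residue_eigenvalue Lv ξ (hres ℓ (fun h => hℓ (hS h)) hG) hw (hc ℓ hℓ)) hodd
    (red_sum_mem_twSystem Lv.θ ξ.toRingHom Lv.N_dvd_L S₁ (fun a => (x a : Lv.H1)) op hop c w hc)
    (fun a ha hay => hw ?_) ?_ hex hnew
  · funext i
    simp only [Finset.smul_sum, smul_smul] at hay
    exact (mul_eq_zero.1 (Fintype.linearIndependent_iff.1 hli _ hay i)).resolve_left ha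
  · refine trV_red_sum_eq_zero Bl Lv ξ.toRingHom
      ![1, Ring.inverse (Lv.θ (t : ZMod Lv.N))] ?_ (fun a => (x a : Lv.H1))
      (fun k => (z k : (Bl.level Lv).H1)) dn (fun j a => ?_) w hker
    · intro j
      fin_cases j
      · exact isUnit_one
      · exact isUnit_ringInverse.2 (Bl.isUnit_θ Lv)
    · have e := congrArg Subtype.val (hdn j a)
      rw [Submodule.coe_sum] at e
      refine Eq.trans ?_ e
      fin_cases j
      · exact (one_smul _ _).trans
          ((Bl.coe_trPart Lv 0 (x a)).symm.trans (congrArg Subtype.val (Bl.dnPart_zero Lv (x a))).symm)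
      · exact (congrArg (Ring.inverse (Lv.θ (t : ZMod Lv.N)) • ·) (Bl.coe_trPart Lv 1 (x a)).symm).trans
          (congrArg Subtype.val (Bl.dnPart_one Lv (x a))).symm

end NodeBelow

end Fermat.Agent.Lifting.Models

end
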