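import Fermat.Agent.Lifting.Models.Summand
import Fermat.Agent.Lifting.Models.StepLemmas

/-!
# The systems on classes killed by the two transfers are new

* `pNewSummand`: the summand of the kernel with a given basis;
* `nodeModel_pNew`: a stable summand inside the kernel of the transfers at `q` has node model new
  at `q`.
-/

set_option autoImplicit false
set_option linter.style.haveILetI false

noncomputable section

open IsLocalRing MvPolynomial

namespace Fermat.Agent.Lifting.Models

open RT.Diamond RT.TW RT.Assembly RT.Systems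

variable {O : Type} [CommRing O] [IsDomain O] [IsDiscreteValuationRing O]
  [IsAdicComplete (maximalIdeal O) O] [Finite (ResidueField O)] [CharZero O]
  {p : ℕ} [Fact p.Prime] {B : NodeBase O p} {q : ℕ}

namespace NodeBelow

variable (Bl : NodeBelow B q) {r n : ℕ} (Lv : NodeLevel B r n) {D : ℕ}

include Bl in
/-- The prime of a node below is not good at any Taylor–Wiles level. -/
theorem ne_of_good {ℓ : Nat.Primes} (hℓ : (ℓ : ℕ) ∉ Lv.S') : (ℓ : ℕ) ≠ q := by
  intro e
  refine Lv.not_dvd_L hℓ ?_
  rw [e]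
  exact Dvd.intro_left _ (Bl.level_L Lv)

include Bl in
theorem exists_pNewRetraction : ∃ π : Lv.part →ₗ[Lv.Λ] Bl.pNew Lv, ∀ x : Bl.pNew Lv, π x = x := by
  haveI := (Bl.level Lv).free_part.1
  haveI := (Bl.level Lv).free_part.2
  let T : Lv.part →ₗ[Lv.Λ] (Fin 2 → (Bl.level Lv).part) := LinearMap.pi (Bl.trPart Lv)
  obtain ⟨g, hg⟩ := Module.projective_lifting_property T LinearMap.id fun y => by
    obtain ⟨x, hx⟩ := Bl.trPart_surjective Lv y
    exact ⟨x, funext hx⟩
  have hmem : ∀ x, x - g (T x) ∈ Bl.pNew Lv := fun x => by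
    show T (x - g (T x)) = 0
    rw [map_sub, show T (g (T x)) = T x from LinearMap.congr_fun hg (T x), sub_self]
  refine ⟨(LinearMap.id - g ∘ₗ T).codRestrict _ hmem, fun x => Subtype.ext ?_⟩
  show (x : Lv.part) - g (T x) = x
  rw [show T (x : Lv.part) = 0 from x.2, map_zero, sub_zero]

/-- The summand of the classes killed by the two transfers. -/
def pNewSummand (b : Module.Basis (Fin D) Lv.Λ (Bl.pNew Lv)) : Summand Lv D :=
  Summand.ofBasis (Bl.pNew Lv) b (Bl.exists_pNewRetraction Lv).choose
    (Bl.exists_pNewRetraction Lv).choose_spec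
    fun _ hℓ x => Bl.twOp_mem_pNew Lv (Bl.ne_of_good Lv hℓ) x.2

theorem pNewSummand_mem (b : Module.Basis (Fin D) Lv.Λ (Bl.pNew Lv)) (x : Fin D → Lv.Λ) :
    (Bl.pNewSummand Lv b).inclPart x ∈ Bl.pNew Lv := (b.equivFun.symm x).2

/-- The systems of a stable summand killed by the two transfers at `q` are new at `q`. -/
theorem nodeModel_pNew (K : Summand Lv D) (hK : ∀ x, K.inclPart x ∈ Bl.pNew Lv) :
    NodeModel Lv {q} K.op := by
  classical
  refine K.nodeModel fun q' hq' S₁ hS V _ _ _ _ _ _ _ _ _ ξ c w hw hc L' _ hex hsys => ?_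
  rw [Finset.mem_singleton] at hq'
  subst hq'
  refine Bl.dvd_level_of_dnPart Lv ξ (fun a => K.inclPart (Pi.single a 1))
    (fun k : Fin 0 => k.elim0) (fun _ => 0) (fun i a => ?_)
    (K.linearIndependent_redBasis ξ.toRingHom) (fun u => ?_) S₁ hS K.op
    (fun ℓ hℓ a => ?_) K.resid c w hw hc (fun i => funext fun k => k.elim0) hex hsys
  · rw [(Bl.mem_pNew_iff_dnPart Lv _).1 (hK _) i]
    simp
  · obtain ⟨k, hk, hk'⟩ := Lv.θ_pow_odd u
    exact ⟨k, hk, by rw [MulChar.ringHomComp_apply, ← map_pow, hk', map_one]⟩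
  · rw [Summand.coe_inclPart, K.twOp_incl fun h => hℓ (hS h), pi_eq_sum_univ'
      ((K.op ℓ).mulVec (Pi.single a 1)), map_sum]
    refine Finset.sum_congr rfl fun b _ => ?_
    rw [map_smul, Matrix.mulVec_single_one]
    rfl

end NodeBelow

end Fermat.Agent.Lifting.Models

end
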