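import Fermat.Agent.Lifting.Models.Node
import Fermat.Agent.RT.TW.AddPrimeLevel
import Fermat.Agent.RT.Systems.Push

/-!
# A node with a prime removed from the level

`NodeBelow B q` is a node of level `B.M / q` with the same omitted primes and residual system, its excluded
primes among them, `q` being omitted; `level` transports Taylor–Wiles primes to it and `cast` writes the
cohomology of the level in product form.
-/

set_option autoImplicit false

noncomputable section

open IsLocalRing MvPolynomial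

namespace Fermat.Agent.Lifting.Models

open RT.Diamond RT.TW RT.Assembly RT.Systems

/-- A node with the prime `q` removed from the level. -/
structure NodeBelow {O : Type} [CommRing O] [IsDomain O] [IsDiscreteValuationRing O]
    [IsAdicComplete (maximalIdeal O) O] [Finite (ResidueField O)] [CharZero O]
    {p : ℕ} [Fact p.Prime] (B : NodeBase O p) (q : ℕ) where
  /-- the node below -/
  base : NodeBase O p
  prime : q.Prime
  level_eq : base.M * q = B.M
  omitted_eq : base.omitted = B.omitted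
  S_omitted : base.S ⊆ base.omitted
  a_eq : base.a = B.a
  mem_omitted : q ∈ B.omitted

variable {O : Type} [CommRing O] [IsDomain O] [IsDiscreteValuationRing O]
  [IsAdicComplete (maximalIdeal O) O] [Finite (ResidueField O)] [CharZero O]
  {p : ℕ} [Fact p.Prime] {B : NodeBase O p} {q : ℕ}

namespace NodeBelow

variable (Bl : NodeBelow B q) {r n : ℕ} (Lv : NodeLevel B r n)

/-- The same Taylor–Wiles primes over the node below. -/
abbrev level : NodeLevel Bl.base r n where
  qv := Lv.qv
  inj := Lv.inj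
  not_mem i h := Lv.not_omitted i (Bl.omitted_eq ▸ Bl.S_omitted h)
  not_omitted i := by rw [Bl.omitted_eq]; exact Lv.not_omitted i
  e := Lv.e
  le_e := Lv.le_e
  pos_e := Lv.pos_e
  dvd_sub := Lv.dvd_sub
  e_max := Lv.e_max
  α := Lv.α
  root i := by rw [Bl.a_eq]; exact Lv.root i
  distinct := Lv.distinct

theorem level_L : (Bl.level Lv).L * q = Lv.L := by
  show Bl.base.M * (∏ i, (Lv.qv i : ℕ)) * q = B.M * ∏ i, (Lv.qv i : ℕ)
  rw [← Bl.level_eq]
  ring

theorem not_dvd_level : ¬ q ∣ (Bl.level Lv).L := fun hd => Bl.prime.ne_one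
  (Nat.isUnit_iff.1 (Lv.squarefree_L q (Bl.level_L Lv ▸ mul_dvd_mul_right hd q)))

theorem G_eq : Bl.base.G = B.G := by
  rw [NodeBase.G, NodeBase.G, Bl.omitted_eq]

include Bl in
theorem ne_of_mem_G {ℓ : Nat.Primes} (h : ℓ ∈ B.G) : (ℓ : ℕ) ≠ q := fun e =>
  h (e ▸ Bl.mem_omitted)

theorem aLv_eq : (Bl.level Lv).aLv = Lv.aLv := by
  funext ℓ
  unfold NodeLevel.aLv NodeBase.a₀
  rw [Bl.G_eq, Bl.a_eq]

theorem m_eq : (Bl.level Lv).m = Lv.m :=
  congrArg (residualIdeal Lv.resΛ) (Bl.aLv_eq Lv)

/-- Bezout data at `q`. -/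
def bezout : AddPrimeBezout (Bl.level Lv).L q :=
  (exists_addPrimeBezout Bl.prime (Bl.not_dvd_level Lv)).some

/-- The level in product form. -/
def cast : Lv.H1 ≃ₗ[Lv.Λ]
    heckeH1 (neben Lv.θ) ((Bl.level Lv).L * q) ((Bl.level Lv).N_dvd_L.mul_right q) :=
  levelCast (neben Lv.θ) (Bl.level_L Lv).symm Lv.N_dvd_L ((Bl.level Lv).N_dvd_L.mul_right q)

theorem cast_heckeOp (ℓ : Nat.Primes) (x : Lv.H1) :
    Bl.cast Lv (heckeOp (neben Lv.θ) Lv.N_dvd_L ℓ x) =
      heckeOp (neben Lv.θ) ((Bl.level Lv).N_dvd_L.mul_right q) ℓ (Bl.cast Lv x) :=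
  levelCast_heckeOp (neben Lv.θ) (Bl.level_L Lv).symm Lv.N_dvd_L _ ℓ x

end NodeBelow

end Fermat.Agent.Lifting.Models

end
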