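import Fermat.Agent.Lifting.Models.FromRaise
import Fermat.Agent.Lifting.Models.Below

/-!
# The steps between the nodes of the raising argument

* `offBelow F k`: node `k` without `p`, below node `k`;
* `stepBelow F k`: node `k` below node `k + 1`;
* `stepOffBelow F k`: the common corner of the square at `t` and `p`.
-/

set_option autoImplicit false
set_option linter.style.haveILetI false

noncomputable section

open IsLocalRing

namespace Fermat.Agent.Lifting.Models

open RT.Diamond RT.TW
open Raise (RaiseFrames RaiseLevel)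

variable {W : WeierstrassCurve ℤ} {hΔ : W.Δ ≠ 0} {p L : ℕ} [Fact p.Prime]
  {O : Type} [CommRing O] [IsDomain O] [IsDiscreteValuationRing O]
  [IsAdicComplete (maximalIdeal O) O] [Finite (ResidueField O)] [CharZero O]
  {B : RaiseData W hΔ p L O} (F : RaiseFrames B)

/-- The prime added after node `i`. -/
abbrev stepPrime (i : Fin F.m) : ℕ := F.q (F.t i)

theorem stepPrime_prime (i : Fin F.m) : (stepPrime F i).Prime := F.q_prime _

theorem stepPrime_not_mem_added (i : Fin F.m) : stepPrime F i ∉ F.added i := by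
  rintro h
  obtain ⟨j, hj, hji⟩ := (mem_added_iff F).1 h
  exact absurd (congrArg Fin.val (F.t_inj (F.q_inj hji))) hj.ne

theorem stepPrime_not_mem_pending (i : Fin F.m) : stepPrime F i ∉ F.pending (i + 1) := by
  rintro h
  obtain ⟨j, hj, hji⟩ := (mem_pending_iff F).1 h
  have := congrArg Fin.val (F.t_inj (F.q_inj hji))
  omega

theorem stepPrime_mem_added (i : Fin F.m) : stepPrime F i ∈ F.added (i + 1) :=
  (mem_added_iff F).2 ⟨i, Nat.lt_succ_self _, rfl⟩

theorem stepPrime_mem_excluded (i : Fin F.m) : stepPrime F i ∈ raiseExcluded W p B.r₀ :=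
  (added_facts F (stepPrime_mem_added F i)).2.1

theorem stepPrime_not_dvd (i : Fin F.m) : ¬ stepPrime F i ∣ L * B.r₀ :=
  (added_facts F (stepPrime_mem_added F i)).2.2

theorem stepPrime_ne (i : Fin F.m) : stepPrime F i ≠ p := F.q_ne _

theorem added_succ (i : Fin F.m) :
    F.added (i + 1) = insert (stepPrime F i) (F.added i) := by
  ext x
  rw [Finset.mem_insert, mem_added_iff, mem_added_iff]
  constructor
  · rintro ⟨j, hj, rfl⟩
    rcases Nat.lt_succ_iff_lt_or_eq.1 hj with h | h
    · exact Or.inr ⟨j, h, rfl⟩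
    · exact Or.inl (by rw [stepPrime, Fin.ext h])
  · rintro (rfl | ⟨j, hj, rfl⟩)
    · exact ⟨i, Nat.lt_succ_self _, rfl⟩
    · exact ⟨j, hj.trans (Nat.lt_succ_self _), rfl⟩

theorem prod_added_succ (i : Fin F.m) :
    ∏ x ∈ F.added (i + 1), x = (∏ x ∈ F.added i, x) * stepPrime F i := by
  rw [added_succ, Finset.prod_insert (stepPrime_not_mem_added F i), mul_comm]

theorem mem_raiseExcluded_self : p ∈ raiseExcluded W p B.r₀ := Finset.mem_insert_self _ _

omit [Fact p.Prime] in
theorem levelOff_mul_mul (hpL : p ∣ L) (a b : ℕ) :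
    (if p ∣ L then L / p else L) * a * b * p = L * a * b := by
  rw [if_pos hpL]
  calc L / p * a * b * p = L / p * p * a * b := by ring
    _ = L * a * b := by rw [Nat.div_mul_cancel hpL]

/-- Node `k` without `p`, below node `k`. -/
def offBelow (hpL : p ∣ L) (k : ℕ) : NodeBelow (nodeBase F k) p where
  base := nodeBaseOff F k
  prime := Fact.out
  level_eq := levelOff_mul_mul hpL _ _
  omitted_eq := rfl
  S_omitted := Finset.sdiff_subset
  a_eq := rfl
  mem_omitted := mem_raiseExcluded_self (W := W)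

/-- Node `i` below node `i + 1`. -/
def stepBelow (i : Fin F.m) : NodeBelow (nodeBase F (i + 1)) (stepPrime F i) where
  base := nodeBase F i
  prime := stepPrime_prime F i
  level_eq := by
    show L * B.r₀ * (∏ x ∈ F.added i, x) * stepPrime F i = L * B.r₀ * ∏ x ∈ F.added (i + 1), x
    rw [prod_added_succ, mul_assoc]
  omitted_eq := rfl
  S_omitted := Finset.sdiff_subset
  a_eq := rfl
  mem_omitted := stepPrime_mem_excluded F i

/-- The corner of the square at `t` and `p`: node `i` without `p`. -/
def stepOffBelow (hpL : p ∣ L) (i : Fin F.m) : NodeBelow (stepBelow F i).base p :=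
  offBelow F hpL i

variable {r n : ℕ} (Q : RaiseLevel B r n)

/-- The part of the node below a step is the part of node `i`. -/
theorem stepBelow_part (i : Fin F.m) :
    ((stepBelow F i).level (nodeLevel F Q (i + 1))).part = (nodeLevel F Q i).part := rfl

/-- Without `p`, the node below node `k` is node `k` without `p`. -/
theorem offBelow_level (hpL : p ∣ L) (k : ℕ) :
    (offBelow F hpL k).level (nodeLevel F Q k) = nodeLevelOff F Q k := rfl

theorem stepPrime_not_mem_Sk (i : Fin F.m) : stepPrime F i ∉ Q.Sk F i := by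
  simp only [RaiseLevel.Sk, Finset.mem_union, Finset.mem_sdiff]
  rintro (⟨-, h⟩ | h)
  · exact h ((mem_pending_iff F).2 ⟨i, le_rfl, rfl⟩)
  · obtain ⟨j, -, hj⟩ := Finset.mem_image.1 h
    exact Q.not_mem j (hj ▸ stepPrime_mem_excluded F i)

theorem stepPrime_mem_Sk_succ (i : Fin F.m) : stepPrime F i ∈ Q.Sk F (i + 1) :=
  Finset.mem_union_left _
    (Finset.mem_sdiff.2 ⟨stepPrime_mem_excluded F i, stepPrime_not_mem_pending F i⟩)

theorem mem_raiseExcluded_p_Sk (k : ℕ) : p ∈ Q.Sk F k := by
  refine Finset.mem_union_left _ (Finset.mem_sdiff.2 ⟨mem_raiseExcluded_self (W := W), fun h => ?_⟩)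
  obtain ⟨j, -, hj⟩ := (mem_pending_iff F).1 h
  exact F.q_ne _ hj

theorem stepPrime_not_dvd_level (i : Fin F.m) : ¬ stepPrime F i ∣ Q.lev F i * Q.N := by
  have ht := stepPrime_prime F i
  have hq : ¬ stepPrime F i ∣ ∏ j, (Q.qv j : ℕ) := fun h => by
    obtain ⟨j, -, hj⟩ := (Prime.dvd_finsetProd_iff ht.prime _).1 h
    exact Q.not_mem j ((Nat.prime_dvd_prime_iff_eq ht (Q.qv j).2).1 hj ▸ stepPrime_mem_excluded F i)
  intro h
  rcases ht.dvd_mul.1 h with h | h
  · rcases ht.dvd_mul.1 h with h | h
    · rcases ht.dvd_mul.1 h with h | h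
      · exact stepPrime_not_dvd F i h
      · obtain ⟨x, hx, hxd⟩ := (Prime.dvd_finsetProd_iff ht.prime _).1 h
        exact stepPrime_not_mem_added F i
          ((Nat.prime_dvd_prime_iff_eq ht (added_facts F hx).1).1 hxd ▸ hx)
    · exact hq h
  · rw [RaiseLevel.N, mul_one] at h
    exact hq h

theorem lev_eq_topLevel_mul : Q.lev F F.m = F.topLevel * ∏ j, (Q.qv j : ℕ) := rfl

theorem topLevel_eq : F.topLevel = (nodeBase F F.m).M := rfl

theorem Sk_subset' (k : ℕ) : Q.Sk F k ⊆ Q.S' :=
  Finset.union_subset_union (Finset.sdiff_subset) (Finset.Subset.refl _)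

end Fermat.Agent.Lifting.Models

end
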