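import Fermat.Agent.Lifting.Models.PNewPositive
import Fermat.Agent.Lifting.Models.RaiseBelow

/-!
# The classes new at `p` of node `0` are not zero
-/

set_option autoImplicit false

noncomputable section

open IsLocalRing

namespace Fermat.Agent.Lifting.Models

open Raise (RaiseFrames RaiseLevel)

variable {W : WeierstrassCurve ℤ} {hΔ : W.Δ ≠ 0} {p L : ℕ} [Fact p.Prime]
  {O : Type} [CommRing O] [IsDomain O] [IsDiscreteValuationRing O]
  [IsAdicComplete (maximalIdeal O) O] [Finite (ResidueField O)] [CharZero O]
  {B : RaiseData W hΔ p L O} (F : RaiseFrames B)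

/-- **The rank of node `0` is more than twice that of node `0` without `p`.** -/
theorem two_mul_baseRank_lt_raise (hb : IsRaisingBase W p L) (hpL : p ∣ L) :
    2 * (nodeBaseOff F 0).baseRank < (nodeBase F 0).baseRank := by
  refine (offBelow F hpL 0).two_mul_baseRank_lt ?_
  have h0 : F.added 0 = ∅ := Finset.eq_empty_of_forall_notMem fun x hx => by
    obtain ⟨i, hi, -⟩ := (mem_added_iff F).1 hx
    exact Nat.not_lt_zero _ hi
  show KilledClass p ((if p ∣ L then L / p else L) * B.r₀ * ∏ x ∈ F.added 0, x)
    (raiseExcluded W p B.r₀) B.a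
  rw [if_pos hpL, h0, Finset.prod_empty, mul_one]
  exact killedClass_raiseData hb hpL B

/-- The classes new at `p` of node `0` are not zero. -/
theorem finrank_pNew_pos_raise (hb : IsRaisingBase W p L) (hpL : p ∣ L) {r n : ℕ}
    (Q : RaiseLevel B r n) :
    0 < Module.finrank (nodeLevel F Q 0).Λ ((offBelow F hpL 0).pNew (nodeLevel F Q 0)) := by
  have h1 := (offBelow F hpL 0).finrank_pNew_add (nodeLevel F Q 0)
  have h2 := two_mul_baseRank_lt_raise F hb hpL
  have h3 : (offBelow F hpL 0).base.baseRank = (nodeBaseOff F 0).baseRank := rfl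
  omega

end Fermat.Agent.Lifting.Models

end
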