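import Fermat.Agent.Lifting.Models.Node
import Fermat.Agent.RT.Assembly.Models.Build

/-!
# Specialised classes of a node

* `linearIndependent_baseChange_partial`: a family in the part at the operators of `G` having a
  retraction stays linearly independent after any change of coefficients;
* `linearIndependent_red_of_retraction`: the same for the part of a node;
* `exists_odd_pow_spec`: the specialised twist has odd order.
-/

set_option autoImplicit false
set_option linter.style.haveILetI false

noncomputable section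

open IsLocalRing MvPolynomial

namespace Fermat.Agent.Lifting.Models

open RT.Diamond RT.TW RT.Assembly
open Periods

section Partial

variable {A : Type} [CommRing A] {N M : ℕ} {Φ : MulChar (ZMod N) A} {A' : Type} [CommRing A']

/-- A family of the part with a retraction stays linearly independent after any change of
coefficients. -/
theorem linearIndependent_baseChange_partial [IsLocalRing A] [NeZero M] (h : N ∣ M)
    (hcov : CoverHyp A M) (f : A →+* A') {G : Set Nat.Primes} {m : Ideal (HeckePoly A)}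
    {e : Module.End A (heckeH1 Φ M h)} (he : IsLocalIdem (heckeActOn Φ h G) m e)
    (hEis : ∃ ℓ ∈ G, (X ℓ - C (eisensteinValue Φ M ℓ) : HeckePoly A) ∉ m)
    {D : ℕ} (x : Fin D → LinearMap.range e) (ρ : LinearMap.range e →ₗ[A] (Fin D → A))
    (hρ : ∀ i, ρ (x i) = Pi.single i 1) :
    LinearIndependent A' fun i => heckeBaseChange Φ f h (x i) := by
  classical
  obtain ⟨K, hn, hfi, hK, hu'⟩ := hcov.hasCover (Φ := Φ) h
  letI := Fintype.ofFinite ((level0 Φ M h).CoverIdx K)
  obtain ⟨ℓ, hℓG, hℓ⟩ := hEis
  obtain ⟨t, ht, ht'⟩ := exists_lift_heckeOp_sub (Φ := Φ) h ℓ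
  set τ : HeckePoly A := X ℓ - C (eisensteinValue Φ M ℓ) with hτdef
  have hτ : ∀ y, heckeActOn Φ h G τ y = heckeOp Φ h ℓ y - eisensteinValue Φ M ℓ • y := fun y => by
    rw [hτdef, map_sub, heckeActOn_X h hℓG, heckeActOn_C]
    rfl
  obtain ⟨u, hu⟩ := he.bijective_restrict hℓ
  choose z hz using fun i => Submodule.mkQ_surjective
    (LinearMap.range (coboundary (level0 Φ M h).char)) (x i : heckeH1 Φ M h)
  have hfix : ∀ i, e (x i : heckeH1 Φ M h) = x i := fun i => by
    obtain ⟨y, hy⟩ := (x i).2
    rw [← hy, he.idem_apply]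
  let g : (level0 Φ M h).Z1 →ₗ[A] LinearMap.range e :=
    e.rangeRestrict ∘ₗ heckeActOn Φ h G u ∘ₗ toH1 (level0 Φ M h).char
  have hg : ∀ i, g (t (z i)) = x i := fun i => by
    refine Subtype.ext ?_
    show e (heckeActOn Φ h G u (toH1 (level0 Φ M h).char (t (z i)))) = x i
    rw [ht', ← hτ, show toH1 (level0 Φ M h).char (z i) = (x i : heckeH1 Φ M h) from hz i,
      (hu _ (hfix i)).1, hfix]
  rw [linearIndependent_iff']
  intro s c hsum j hj
  obtain ⟨φ', hφ'⟩ := (level0 Φ M h).exists_extend_functional K f hK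
    ((level0 Φ M h).isUnit_card_coverIdx K hu') (LinearMap.proj j ∘ₗ ρ ∘ₗ g ∘ₗ t)
  have hsum' : toH1 (mapChar f (level0 Φ M h).char)
      (∑ i ∈ s, c i • mapCocycle f (level0 Φ M h).char (z i)) = 0 := by
    rw [map_sum]
    refine Eq.trans (Finset.sum_congr rfl fun i _ => ?_) hsum
    rw [map_smul]
    show _ • toH1 (mapChar f (level0 Φ M h).char) (mapCocycle f _ (z i)) = c i • _
    congr 1
    rw [← hz i]
    rfl
  obtain ⟨x', hx'⟩ := (Submodule.Quotient.mk_eq_zero _).1 hsum'
  have h1 : coboundary (mapChar f (level0 Φ M h).char) x' =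
      x' • mapCocycle f (level0 Φ M h).char (coboundary (level0 Φ M h).char 1) := by
    rw [mapCocycle_coboundary, map_one, ← map_smul, smul_eq_mul, mul_one]
  have h0 := congrArg φ' hx'
  rw [h1, map_smul, hφ', map_sum] at h0
  simp only [map_smul, hφ', LinearMap.comp_apply,
    ht _ (LinearMap.mem_range_self _ (1 : A)), hg, map_zero, LinearMap.proj_apply, hρ,
    smul_eq_mul, mul_zero] at h0
  rw [Finset.sum_eq_single j (fun i _ hij => by simp [Pi.single_eq_of_ne (Ne.symm hij)])
    (fun hns => absurd hj hns)] at h0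
  simpa using h0.symm

end Partial

namespace NodeLevel

variable {O : Type} [CommRing O] [IsDomain O] [IsDiscreteValuationRing O]
  [IsAdicComplete (maximalIdeal O) O] [Finite (ResidueField O)] [CharZero O]
  {p : ℕ} [Fact p.Prime] {B : NodeBase O p} {r n : ℕ} (Lv : NodeLevel B r n)

/-- A family of the part of a node with a retraction stays linearly independent after any change
of coefficients. -/
theorem linearIndependent_red_of_retraction {A' : Type} [CommRing A'] (f : Lv.Λ →+* A') {D : ℕ}
    (x : Fin D → Lv.part) (ρ : Lv.part →ₗ[Lv.Λ] (Fin D → Lv.Λ))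
    (hρ : ∀ i, ρ (x i) = Pi.single i 1) :
    LinearIndependent A' fun i => RT.Assembly.Models.red f Lv.N_dvd_L Lv.N_dvd_L
      (RT.Assembly.Models.map_neben Lv.θ f) (x i : Lv.H1) :=
  (linearIndependent_baseChange_partial Lv.N_dvd_L Lv.coverHyp_L f Lv.idem_spec Lv.hEis x ρ hρ).map'
    (RT.Assembly.Models.chg f Lv.N_dvd_L Lv.N_dvd_L
      (RT.Assembly.Models.map_neben Lv.θ f)).toLinearMap
    (RT.Assembly.Models.chg f Lv.N_dvd_L Lv.N_dvd_L (RT.Assembly.Models.map_neben Lv.θ f)).ker

/-- The twist has odd order after any change of coefficients. -/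
theorem exists_odd_pow_spec {A' : Type} [CommRing A'] (f : Lv.Λ →+* A') (u : (ZMod Lv.N)ˣ) :
    ∃ k : ℕ, Odd k ∧ Lv.θ.ringHomComp f u ^ k = 1 := by
  have hp : p.Prime := Fact.out
  have hodd : Odd p := hp.odd_of_ne_two B.hp2
  refine ⟨∏ i, p ^ Lv.e i, Finset.prod_induction _ Odd (fun _ _ => Odd.mul) odd_one
    fun i _ => hodd.pow, ?_⟩
  have hg : ∀ g : TwistGroup p Lv.e, g ^ (∏ i, p ^ Lv.e i) = 1 := fun g => by
    refine Multiplicative.toAdd.injective (funext fun i => ?_)
    rw [toAdd_pow, Pi.smul_apply, nsmul_eq_mul, (ZMod.natCast_eq_zero_iff _ _).2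
      (Finset.dvd_prod_of_mem _ (Finset.mem_univ i)), zero_mul]
    rfl
  rw [MulChar.ringHomComp_apply, ← map_pow, θ, tautTwist_apply,
    MulChar.one_apply (isUnit_of_subsingleton _), map_one, one_mul,
    ← map_pow (MonoidAlgebra.of O (TwistGroup p Lv.e)), hg, map_one, map_one]

end NodeLevel

end Fermat.Agent.Lifting.Models

end
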