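import Fermat.Agent.Lifting.Models.StepLemmas
import Fermat.Agent.Lifting.Models.SpecClasses

/-!
# Newness of the cokernel of a step between summands

`dvd_level_of_summandMaps`: for summands of the parts given by inclusions and a retraction, a
system of the upper summand killed by the matrices of the maps down has level divisible by `t`.
-/

set_option autoImplicit false
set_option linter.style.haveILetI false

noncomputable section

open IsLocalRing MvPolynomial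

namespace Fermat.Agent.Lifting.Models.NodeBelow

open RT.Diamond RT.TW RT.Assembly RT.Systems

variable {O : Type} [CommRing O] [IsDomain O] [IsDiscreteValuationRing O]
  [IsAdicComplete (maximalIdeal O) O] [Finite (ResidueField O)] [CharZero O]
  {p : ℕ} [Fact p.Prime] {B : NodeBase O p} {t : ℕ} (Bl : NodeBelow B t) {r n : ℕ}
  (Lv : NodeLevel B r n) {D₀ D₁ : ℕ}

theorem sum_single_smul {A M : Type} [CommRing A] [AddCommGroup M] [Module A M] {m k : ℕ}
    (ι : (Fin m → A) →ₗ[A] M) (P : Matrix (Fin m) (Fin k) A) (a : Fin k) :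
    ι (P.mulVec (Pi.single a 1)) = ∑ b, P b a • ι (Pi.single b 1) := by
  rw [Matrix.mulVec_single_one, pi_eq_sum_univ' (P.col a), map_sum]
  exact Finset.sum_congr rfl fun b _ => map_smul _ _ _

variable {V : Type} [CommRing V] [IsDomain V] [IsDiscreteValuationRing V]
  [Finite (ResidueField V)] [CharZero V] [Algebra O V] [IsLocalHom (algebraMap O V)]

/-- A system of the upper summand killed by the maps down is new at `t`. -/
theorem dvd_level_of_summandMaps (ξ : Lv.Λ →ₐ[O] V)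
    (ι₀ : (Fin D₀ → Lv.Λ) →ₗ[Lv.Λ] (Bl.level Lv).part)
    (ι₁ : (Fin D₁ → Lv.Λ) →ₗ[Lv.Λ] Lv.part) (ρ₁ : Lv.part →ₗ[Lv.Λ] (Fin D₁ → Lv.Λ))
    (hρ₁ : ∀ v, ρ₁ (ι₁ v) = v) (dn : Fin 2 → Matrix (Fin D₀) (Fin D₁) Lv.Λ)
    (hdn : ∀ i v, Bl.dnPart Lv i (ι₁ v) = ι₀ ((dn i).mulVec v))
    (S₁ : Finset ℕ) (hS : Lv.S' ⊆ S₁) (op : Nat.Primes → Matrix (Fin D₁) (Fin D₁) Lv.Λ)
    (hop : ∀ ℓ : Nat.Primes, (ℓ : ℕ) ∉ S₁ → ∀ v,
      twPart Lv ℓ (ι₁ v) = ι₁ ((op ℓ).mulVec v))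
    (hres : ∀ ℓ : Nat.Primes, (ℓ : ℕ) ∉ Lv.S' → ℓ ∈ B.G → IsNilpotent ((op ℓ).map Lv.resΛ -
      B.a ℓ • (1 : Matrix (Fin D₁) (Fin D₁) (ResidueField O))))
    (c : Nat.Primes → V) (w : Fin D₁ → V) (hw : w ≠ 0)
    (hc : ∀ ℓ : Nat.Primes, (ℓ : ℕ) ∉ S₁ → ((op ℓ).map ξ).mulVec w = c ℓ • w)
    (hker : ∀ i, ((dn i).map ξ).mulVec w = 0)
    {L' : ℕ} [NeZero L'] (hex : IsExactLevel (Lv.θ.ringHomComp ξ.toRingHom) S₁ c Lv.L L')
    (hnew : IsNewformSystem S₁ L' c) : t ∣ L' := by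
  refine Bl.dvd_level_of_dnPart Lv ξ (fun a => ι₁ (Pi.single a 1))
    (fun k => ι₀ (Pi.single k 1)) dn (fun i a => by rw [hdn, sum_single_smul])
    (Lv.linearIndependent_red_of_retraction ξ.toRingHom _ ρ₁ fun a => hρ₁ _)
    (Lv.exists_odd_pow_spec ξ.toRingHom) S₁ hS op (fun ℓ hℓ a => ?_) hres c w hw hc hker hex hnew
  have e := congrArg Subtype.val (hop ℓ hℓ (Pi.single a 1))
  rw [coe_twPart, sum_single_smul, Submodule.coe_sum] at e
  exact e

end Fermat.Agent.Lifting.Models.NodeBelow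

end
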