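import Fermat.Agent.Lifting.Models.Node
import Fermat.Agent.RT.TW.CoeffChange

/-!
# Models of the stable free summands of a part

A free direct summand of the part at a node stable under the good operators gives matrices with
the properties of a node model; an eigenvector of a specialisation gives a class (`spec`) with
the system, hence a newform system of the exact level.
-/

set_option autoImplicit false
set_option linter.style.haveILetI false

noncomputable section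

open IsLocalRing MvPolynomial

namespace Fermat.Agent.Lifting.Models

open RT.Diamond RT.TW RT.Assembly RT.Assembly.Models

variable {O : Type} [CommRing O] [IsDomain O] [IsDiscreteValuationRing O]
  [IsAdicComplete (maximalIdeal O) O] [Finite (ResidueField O)] [CharZero O]
  {p : ℕ} [Fact p.Prime] {B : NodeBase O p} {r n : ℕ}

/-- A free direct summand of the part, stable under the good operators. -/
structure Summand (Lv : NodeLevel B r n) (D : ℕ) where
  incl : (Fin D → Lv.Λ) →ₗ[Lv.Λ] Lv.H1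
  retr : Lv.H1 →ₗ[Lv.Λ] (Fin D → Lv.Λ)
  retr_incl : ∀ x, retr (incl x) = x
  incl_mem : ∀ x, incl x ∈ Lv.part
  stable : ∀ ℓ : Nat.Primes, (ℓ : ℕ) ∉ Lv.S' → ∀ x,
    twOp Lv.θ Lv.N_dvd_L ℓ (incl x) ∈ LinearMap.range incl

namespace NodeLevel

variable (Lv : NodeLevel B r n)

/-- The primes outside the excluded ones. -/
def good : Set Nat.Primes := {ℓ | (ℓ : ℕ) ∉ Lv.S'}

theorem killOff_twPoly {G : Set Nat.Primes} {ℓ : Nat.Primes} (hℓ : ℓ ∈ G) :
    killOff G (twPoly Lv.θ (X ℓ)) = twPoly Lv.θ (X ℓ) := by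
  rw [twPoly_X, map_mul, killOff_C, killOff_X_of_mem hℓ]

theorem idem_apply_of_mem {x : Lv.H1} (hx : x ∈ Lv.part) : Lv.idem x = x := by
  obtain ⟨y, rfl⟩ := hx
  exact Lv.idem_spec.idem_apply y

theorem isUnit_θ {ℓ : Nat.Primes} (hℓ : (ℓ : ℕ) ∉ Lv.S') :
    IsUnit (Lv.θ ((ℓ : ℕ) : ZMod Lv.N)) := (Lv.isUnit_cast_N hℓ).map _

theorem θ_smul_twOp {ℓ : Nat.Primes} (hℓ : (ℓ : ℕ) ∉ Lv.S') (x : Lv.H1) :
    Lv.θ ((ℓ : ℕ) : ZMod Lv.N) • twOp Lv.θ Lv.N_dvd_L ℓ x =
      heckeOp (neben Lv.θ) Lv.N_dvd_L ℓ x := by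
  show Lv.θ ((ℓ : ℕ) : ZMod Lv.N) • (Ring.inverse (Lv.θ ((ℓ : ℕ) : ZMod Lv.N)) •
    heckeOp (neben Lv.θ) Lv.N_dvd_L ℓ x) = _
  rw [smul_smul, Ring.mul_inverse_cancel _ (Lv.isUnit_θ hℓ), one_smul]

theorem θ_pow_odd (u : (ZMod Lv.N)ˣ) : ∃ k : ℕ, Odd k ∧ Lv.θ u ^ k = 1 := by
  have hp : p.Prime := Fact.out
  have hodd : Odd p := hp.odd_of_ne_two B.hp2
  refine ⟨p * ∏ i, p ^ Lv.e i, hodd.mul (Finset.prod_induction _ Odd (fun _ _ => Odd.mul) odd_one
    fun i _ => hodd.pow), ?_⟩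
  have hg : ∀ g : TwistGroup p Lv.e, g ^ (p * ∏ i, p ^ Lv.e i) = 1 := fun g => by
    refine Multiplicative.toAdd.injective (funext fun i => ?_)
    rw [toAdd_pow, Pi.smul_apply, nsmul_eq_mul, (ZMod.natCast_eq_zero_iff _ _).2
      ((Finset.dvd_prod_of_mem _ (Finset.mem_univ i)).mul_left p), zero_mul]
    rfl
  rw [NodeLevel.θ, tautTwist_apply, mul_pow, ← map_pow (algebraMap O (TwistRing O p Lv.e)),
    MulChar.one_apply (isUnit_of_subsingleton _), one_pow, map_one,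
    ← map_pow (MonoidAlgebra.of O (TwistGroup p Lv.e)), hg, map_one, one_mul]

theorem residue_comp_spec {V : Type} [CommRing V] [IsLocalRing V] [Algebra O V]
    [IsLocalHom (algebraMap O V)] (ξ : Lv.Λ →ₐ[O] V) (c : Lv.Λ) :
    residue V (ξ c) = ResidueField.map (algebraMap O V) (Lv.resΛ c) := by
  haveI : ∀ i, NeZero (ppow p Lv.e i) := fun i =>
    ⟨pow_ne_zero _ (Fact.out : p.Prime).ne_zero⟩
  haveI : CharP (ResidueField O) p :=
    (CharP.charP_iff_prime_eq_zero (Fact.out : p.Prime)).2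
      (by rw [← map_natCast (residue O), residue_eq_zero_iff]; exact B.hpO)
  haveI : CharP (ResidueField V) p :=
    charP_of_injective_ringHom (ResidueField.map (algebraMap O V)).injective p
  have hle : augIdeal O (ppow p Lv.e) ≤ RingHom.ker ((residue V).comp ξ.toRingHom) := by
    refine Ideal.span_le.2 ?_
    rintro _ ⟨i, rfl⟩
    show residue V (ξ (delta O (N := ppow p Lv.e) i - 1)) = 0
    refine pow_eq_zero_iff (pow_ne_zero (Lv.e i) (Fact.out : p.Prime).ne_zero) |>.1 ?_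
    rw [map_sub, map_one, map_sub, map_one, sub_pow_char_pow, ← map_pow, ← map_pow, delta_pow,
      map_one, map_one, one_pow, sub_self]
  have h : residue V (ξ (c - algebraMap O Lv.Λ (aug O (ppow p Lv.e) c))) = 0 :=
    hle (sub_aug_mem (O := O) (N := ppow p Lv.e) c)
  rw [map_sub, map_sub, sub_eq_zero, AlgHom.commutes, ← ResidueField.map_residue] at h
  exact h

end NodeLevel

namespace Summand

variable {Lv : NodeLevel B r n} {D : ℕ} (K : Summand Lv D)

/-- The operator on the coordinates. -/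
def compressed (P : HeckePoly Lv.Λ) : (Fin D → Lv.Λ) →ₗ[Lv.Λ] (Fin D → Lv.Λ) :=
  K.retr ∘ₗ heckeActOn (neben Lv.θ) Lv.N_dvd_L Lv.good P ∘ₗ K.incl

theorem heckeActOn_incl (P : HeckePoly Lv.Λ) (x : Fin D → Lv.Λ) :
    heckeActOn (neben Lv.θ) Lv.N_dvd_L Lv.good P (K.incl x) = K.incl (K.compressed P x) := by
  suffices h : ∀ x, heckeActOn (neben Lv.θ) Lv.N_dvd_L Lv.good P (K.incl x) ∈
      LinearMap.range K.incl by
    obtain ⟨y, hy⟩ := h x
    show _ = K.incl (K.retr (heckeActOn (neben Lv.θ) Lv.N_dvd_L Lv.good P (K.incl x)))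
    rw [← hy, K.retr_incl]
  clear x
  induction P using MvPolynomial.induction_on with
  | C a => exact fun x => ⟨a • x, by rw [heckeActOn_C, map_smul]; rfl⟩
  | add P Q hP hQ =>
    exact fun x => by rw [map_add, LinearMap.add_apply]; exact Submodule.add_mem _ (hP x) (hQ x)
  | mul_X P ℓ hP =>
    intro x
    rw [map_mul, Module.End.mul_apply]
    by_cases hℓ : ℓ ∈ Lv.good
    · obtain ⟨y, hy⟩ := K.stable ℓ hℓ x
      rw [heckeActOn_X Lv.N_dvd_L hℓ, ← Lv.θ_smul_twOp hℓ, ← hy, ← map_smul]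
      exact hP _
    · rw [heckeActOn_apply _ _ (X ℓ), killOff_X_of_notMem hℓ, map_zero, LinearMap.zero_apply,
        map_zero]
      exact zero_mem _

/-- The matrices of the polynomials in the good operators. -/
def mat : HeckePoly Lv.Λ →ₐ[Lv.Λ] Matrix (Fin D) (Fin D) Lv.Λ :=
  (LinearMap.toMatrixAlgEquiv' (R := Lv.Λ) (n := Fin D)).toAlgHom.comp
    { toFun := K.compressed
      map_one' := LinearMap.ext fun x => by
        show K.retr (heckeActOn (neben Lv.θ) Lv.N_dvd_L Lv.good 1 (K.incl x)) = x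
        rw [map_one, Module.End.one_apply, K.retr_incl]
      map_mul' := fun P Q => LinearMap.ext fun x => by
        show K.retr (heckeActOn (neben Lv.θ) Lv.N_dvd_L Lv.good (P * Q) (K.incl x)) =
          K.compressed P (K.compressed Q x)
        rw [map_mul, Module.End.mul_apply, heckeActOn_incl K Q]
        rfl
      map_zero' := LinearMap.ext fun x => by
        show K.retr (heckeActOn (neben Lv.θ) Lv.N_dvd_L Lv.good 0 (K.incl x)) = 0
        rw [map_zero, LinearMap.zero_apply, map_zero]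
      map_add' := fun P Q => LinearMap.ext fun x => by
        show K.retr (heckeActOn (neben Lv.θ) Lv.N_dvd_L Lv.good (P + Q) (K.incl x)) = _
        rw [map_add, LinearMap.add_apply, map_add]
        rfl
      commutes' := fun a => LinearMap.ext fun x => by
        show K.retr (heckeActOn (neben Lv.θ) Lv.N_dvd_L Lv.good (C a) (K.incl x)) = a • x
        rw [heckeActOn_C, LinearMap.smul_apply, Module.End.one_apply, map_smul, K.retr_incl] }

theorem incl_mat (P : HeckePoly Lv.Λ) (x : Fin D → Lv.Λ) :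
    heckeActOn (neben Lv.θ) Lv.N_dvd_L Lv.good P (K.incl x) =
      K.incl ((K.mat P).mulVec x) := by
  rw [K.heckeActOn_incl]
  exact congrArg K.incl (LinearMap.congr_fun (Matrix.toLin'_toMatrix' (K.compressed P)) x).symm

/-- The matrices of the good twisted operators. -/
def op (ℓ : Nat.Primes) : Matrix (Fin D) (Fin D) Lv.Λ := K.mat (twPoly Lv.θ (X ℓ))

theorem op_comm (ℓ ℓ' : Nat.Primes) : Commute (K.op ℓ) (K.op ℓ') := (Commute.all _ _).map K.mat

/-- The twisted operators through the summand. -/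
theorem twOp_incl {ℓ : Nat.Primes} (hℓ : (ℓ : ℕ) ∉ Lv.S') (x : Fin D → Lv.Λ) :
    twOp Lv.θ Lv.N_dvd_L ℓ (K.incl x) = K.incl ((K.op ℓ).mulVec x) := by
  rw [op, ← K.incl_mat, heckeActOn_of_killOff _ (Lv.killOff_twPoly (G := Lv.good) hℓ),
    Lv.twOp_eq_heckeAct]

theorem mat_sub_C (ℓ : Nat.Primes) (v : Lv.Λ) :
    K.mat (twPoly Lv.θ (X ℓ) - C v) = K.op ℓ - v • (1 : Matrix (Fin D) (Fin D) Lv.Λ) := by
  rw [map_sub, ← algebraMap_eq, AlgHom.commutes, Algebra.algebraMap_eq_smul_one]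
  rfl

theorem resid (ℓ : Nat.Primes) (hℓ : (ℓ : ℕ) ∉ Lv.S') (hG : ℓ ∈ B.G) :
    IsNilpotent ((K.op ℓ).map Lv.resΛ -
      B.a ℓ • (1 : Matrix (Fin D) (Fin D) (ResidueField O))) := by
  classical
  obtain ⟨v, hv⟩ := Lv.resΛ_surjective (B.a ℓ)
  set t : HeckePoly Lv.Λ := twPoly Lv.θ (X ℓ) - C v with htdef
  have ht : t ∈ Lv.m := by
    rw [mem_residualIdeal_iff, htdef, twPoly_X, map_sub, map_mul, eval₂Hom_C, eval₂Hom_C,
      eval₂Hom_X', Lv.aLv_of_good hℓ hG, hv, map_inverse_mulChar,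
      Lv.resΛ_θ (Lv.isUnit_cast_N hℓ), Ring.inverse_one, one_mul, sub_self]
  obtain ⟨k, hk⟩ := Lv.idem_spec.nil t ht
  have hkill : ∀ G : Set Nat.Primes, ℓ ∈ G → killOff G t = t := fun G h => by
    rw [htdef, map_sub, Lv.killOff_twPoly h, killOff_C]
  refine ⟨k, ?_⟩
  have h2 : (K.mat t).map Lv.resΛ = (K.op ℓ).map Lv.resΛ -
      B.a ℓ • (1 : Matrix (Fin D) (Fin D) (ResidueField O)) := by
    rw [htdef, mat_sub_C, Matrix.map_sub _ (map_sub Lv.resΛ),
      Matrix.map_smul' Lv.resΛ v _ (map_mul Lv.resΛ), Matrix.map_one _ (map_zero _) (map_one _),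
      hv]
  have h0 : (K.mat (t ^ k)).map Lv.resΛ = 0 := by
    refine Matrix.ext fun i j => ?_
    have h1 := hk (K.incl (Pi.single j 1))
    rw [Lv.idem_apply_of_mem (K.incl_mem _), ← map_pow,
      heckeActOn_of_killOff _ (show killOff B.G (t ^ k) = t ^ k by rw [map_pow, hkill _ hG]),
      ← heckeActOn_of_killOff _ (show killOff Lv.good (t ^ k) = t ^ k by
        rw [map_pow, hkill _ hℓ]), K.incl_mat, Matrix.mulVec_single_one] at h1
    have h3 := Submodule.mem_map_of_mem (f := K.retr) h1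
    rw [K.retr_incl, Submodule.map_smul''] at h3
    have h4 := Submodule.mem_map_of_mem (f := (LinearMap.proj i : (Fin D → Lv.Λ) →ₗ[Lv.Λ] Lv.Λ)) h3
    rw [Submodule.map_smul''] at h4
    have h5 : K.mat (t ^ k) i j ∈ maximalIdeal Lv.Λ := by
      refine Submodule.smul_induction_on (p := fun z => z ∈ maximalIdeal Lv.Λ) h4
        (fun a ha z _ => Ideal.mul_mem_right z _ ha) fun x y hx hy => add_mem hx hy
    rw [← Lv.ker_resΛ] at h5
    exact h5
  rw [← h2]
  rw [map_pow] at h0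
  exact (map_pow Lv.resΛ.mapMatrix (K.mat t) k).symm.trans h0

theorem isUnit_mat_sub {ℓ : Nat.Primes} (hℓ : (ℓ : ℕ) ∉ Lv.S') (hG : ℓ ∈ B.G)
    (hne : B.a ℓ ≠ ((ℓ : ℕ) : ResidueField O) + 1) :
    IsUnit (K.mat (twPoly Lv.θ (X ℓ) - C (((ℓ : ℕ) : Lv.Λ) + 1))) := by
  haveI : IsLocalHom Lv.resΛ := IsLocalHom.of_surjective _ Lv.resΛ_surjective
  rw [Matrix.isUnit_iff_isUnit_det]
  refine isUnit_of_map_unit Lv.resΛ _ ?_
  rw [RingHom.map_det, ← Matrix.isUnit_iff_isUnit_det, RingHom.mapMatrix_apply,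
    mat_sub_C, Matrix.map_sub _ (map_sub Lv.resΛ),
    Matrix.map_smul' Lv.resΛ _ _ (map_mul Lv.resΛ), Matrix.map_one _ (map_zero _) (map_one _),
    map_add, map_natCast, map_one]
  have e : (K.op ℓ).map Lv.resΛ - (((ℓ : ℕ) : ResidueField O) + 1) • 1 =
      (B.a ℓ - (((ℓ : ℕ) : ResidueField O) + 1)) • (1 : Matrix (Fin D) (Fin D) (ResidueField O)) +
        ((K.op ℓ).map Lv.resΛ - B.a ℓ • 1) := by
    rw [sub_smul]
    abel
  rw [e]
  refine IsNilpotent.isUnit_add_left_of_commute (K.resid ℓ hℓ hG) ?_ ?_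
  · rw [← Algebra.algebraMap_eq_smul_one]
    exact (Ne.isUnit (sub_ne_zero.2 hne)).map _
  · exact ((Commute.one_left _).smul_left _).symm

section Spec

variable {V : Type} [CommRing V] (ξ : Lv.Λ →+* V)

/-- The image of the summand's basis at a specialisation. -/
def redBasis (j : Fin D) : heckeH1 (neben (Lv.θ.ringHomComp ξ)) Lv.L Lv.N_dvd_L :=
  red ξ Lv.N_dvd_L Lv.N_dvd_L (map_neben Lv.θ ξ) (K.incl (Pi.single j 1))

/-- The class of a vector at a specialisation. -/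
def spec (w : Fin D → V) : heckeH1 (neben (Lv.θ.ringHomComp ξ)) Lv.L Lv.N_dvd_L :=
  ∑ j, w j • K.redBasis ξ j

theorem red_incl (x : Fin D → Lv.Λ) :
    red ξ Lv.N_dvd_L Lv.N_dvd_L (map_neben Lv.θ ξ) (K.incl x) = K.spec ξ fun j => ξ (x j) := by
  classical
  conv_lhs => rw [pi_eq_sum_univ' x]
  rw [map_sum, map_sum]
  refine Finset.sum_congr rfl fun j _ => ?_
  rw [map_smul, LinearMap.map_smulₛₗ]
  rfl

theorem linearIndependent_redBasis : LinearIndependent V (K.redBasis ξ) := by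
  classical
  haveI := Lv.free_part.1
  haveI := Lv.free_part.2
  let b := Module.Free.chooseBasis Lv.Λ Lv.part
  let x : Fin D → Lv.part := fun j => ⟨K.incl (Pi.single j 1), K.incl_mem _⟩
  obtain ⟨ℓ, hℓG, hℓ⟩ := Lv.hEis
  have hli := (linearIndependent_heckeBaseChange_of Lv.N_dvd_L Lv.coverHyp_L ξ Lv.idem_spec
    (heckeActOn_X Lv.N_dvd_L hℓG) hℓ b).map'
    (chg ξ Lv.N_dvd_L Lv.N_dvd_L (map_neben Lv.θ ξ)).toLinearMap
    (chg ξ Lv.N_dvd_L Lv.N_dvd_L (map_neben Lv.θ ξ)).ker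
  have hx : ∀ j, K.redBasis ξ j = ∑ i, ξ (b.repr (x j) i) •
      red ξ Lv.N_dvd_L Lv.N_dvd_L (map_neben Lv.θ ξ) (b i : Lv.H1) := fun j => by
    have h := congrArg Subtype.val (b.sum_repr (x j))
    rw [Submodule.coe_sum] at h
    refine (congrArg (red ξ Lv.N_dvd_L Lv.N_dvd_L (map_neben Lv.θ ξ)) h.symm).trans ?_
    rw [map_sum]
    exact Finset.sum_congr rfl fun i _ => LinearMap.map_smulₛₗ _ _ _
  rw [Fintype.linearIndependent_iff]
  intro g hg j
  have h1 : ∀ i, ∑ j, g j * ξ (b.repr (x j) i) = 0 := by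
    refine fun i => Fintype.linearIndependent_iff.1 hli (fun i => ∑ j, g j * ξ (b.repr (x j) i)) ?_ i
    refine Eq.trans ?_ hg
    simp only [hx, Finset.smul_sum, smul_smul]
    rw [Finset.sum_comm]
    exact Finset.sum_congr rfl fun i _ => Finset.sum_smul
  have h2 : ∀ j', ∑ i, b.repr (x j') i * K.retr (b i : Lv.H1) j =
      (Pi.single j' 1 : Fin D → Lv.Λ) j := fun j' => by
    have h := congrArg (fun y : Lv.part => K.retr (y : Lv.H1)) (b.sum_repr (x j'))
    simp only [Submodule.coe_sum, map_sum] at h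
    have h' := congrFun h j
    rw [K.retr_incl, Finset.sum_apply] at h'
    refine Eq.trans (Finset.sum_congr rfl fun i _ => ?_) h'
    rw [Submodule.coe_smul, map_smul]
    rfl
  calc g j = ∑ j', g j' * ξ ((Pi.single j' 1 : Fin D → Lv.Λ) j) := by
        simp [Pi.single_apply, apply_ite ξ]
    _ = ∑ j', ∑ i, (g j' * ξ (b.repr (x j') i)) * ξ (K.retr (b i : Lv.H1) j) := by
        simp only [← h2, map_sum, map_mul, Finset.mul_sum, mul_assoc]
    _ = 0 := by
        rw [Finset.sum_comm]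
        simp [← Finset.sum_mul, h1]

theorem spec_eq_zero_iff (w : Fin D → V) : K.spec ξ w = 0 ↔ w = 0 :=
  ⟨fun h => funext (Fintype.linearIndependent_iff.1 (K.linearIndependent_redBasis ξ) w h),
    fun h => by simp [spec, h]⟩

theorem heckeAct_spec {P : HeckePoly Lv.Λ} (hP : killOff Lv.good P = P) (w : Fin D → V) :
    heckeAct (neben (Lv.θ.ringHomComp ξ)) Lv.N_dvd_L (MvPolynomial.map ξ P) (K.spec ξ w) =
      K.spec ξ (((K.mat P).map ξ).mulVec w) := by
  have hb : ∀ j, heckeAct (neben (Lv.θ.ringHomComp ξ)) Lv.N_dvd_L (MvPolynomial.map ξ P)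
      (K.redBasis ξ j) = K.spec ξ fun i => ξ (K.mat P i j) := fun j => by
    rw [redBasis, ← red_heckeAct, ← heckeActOn_of_killOff _ hP, K.incl_mat, red_incl,
      Matrix.mulVec_single_one]
    rfl
  rw [spec, map_sum]
  simp only [map_smul, hb, spec, Finset.smul_sum, smul_smul]
  rw [Finset.sum_comm]
  refine Finset.sum_congr rfl fun i _ => ?_
  rw [← Finset.sum_smul]
  refine congrArg (· • K.redBasis ξ i) ?_
  exact Finset.sum_congr rfl fun j _ => mul_comm _ _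

theorem twOp_spec {ℓ : Nat.Primes} (hℓ : (ℓ : ℕ) ∉ Lv.S') (w : Fin D → V) :
    twOp (Lv.θ.ringHomComp ξ) Lv.N_dvd_L ℓ (K.spec ξ w) =
      K.spec ξ (((K.op ℓ).map ξ).mulVec w) := by
  rw [← heckeAct_twPoly_X, ← map_twPoly, K.heckeAct_spec ξ (Lv.killOff_twPoly hℓ)]
  rfl

/-- A linear map out of the specialised cohomology killing the specialised basis kills the class. -/
theorem map_spec_eq_zero {M : Type} [AddCommGroup M] [Module V M]
    (f : heckeH1 (neben (Lv.θ.ringHomComp ξ)) Lv.L Lv.N_dvd_L →ₗ[V] M)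
    (h : ∀ j, f (K.redBasis ξ j) = 0) (w : Fin D → V) : f (K.spec ξ w) = 0 := by
  simp [spec, map_sum, map_smul, h]

end Spec

theorem mat_relation {S₁ : Finset ℕ} (hS : Lv.S' ⊆ S₁) (F : MvPolynomial Nat.Primes ℤ)
    (hvars : ∀ ℓ ∈ F.vars, (ℓ : ℕ) ∉ S₁)
    (hF : eval₂Hom (Int.castRingHom _) (formOp (Lv.L * Lv.N) S₁) F = 0) :
    K.mat (twPoly Lv.θ F) = 0 := by
  classical
  obtain ⟨ℓ₀, hℓ₀, h1, hne⟩ := B.nonEis (Lv.L * Lv.N)
    (mul_ne_zero Lv.L_ne_zero Lv.N_ne_zero) (S₁ ∪ B.omitted)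
  rw [Finset.mem_union, not_or] at hℓ₀
  have hℓ' : (ℓ₀ : ℕ) ∉ Lv.S' := fun h => hℓ₀.1 (hS h)
  set t₀ : HeckePoly Lv.Λ := twPoly Lv.θ (X ℓ₀) - C (((ℓ₀ : ℕ) : Lv.Λ) + 1) with ht₀
  haveI : ∀ i, NeZero (ppow p Lv.e i) := fun i =>
    ⟨pow_ne_zero _ (Fact.out : p.Prime).ne_zero⟩
  let A := AlgebraicClosure (FractionRing O)
  have hinj : Function.Injective (algebraMap O A) := by
    rw [IsScalarTower.algebraMap_eq O (FractionRing O) A]
    exact (algebraMap (FractionRing O) A).injective.comp (IsFractionRing.injective O (FractionRing O))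
  haveI : CharZero A := charZero_of_injective_ringHom hinj
  have hgood : ∀ ℓ ∈ F.vars, ℓ ∈ Lv.good := fun ℓ hℓ h => hvars ℓ hℓ (hS h)
  have hkill : killOff Lv.good (twPoly Lv.θ F) = twPoly Lv.θ F :=
    hom_eq_of_vars (φ := (killOff Lv.good).toRingHom.comp (twPoly Lv.θ)) (ψ := twPoly Lv.θ)
      (F := F) fun ℓ hℓ => Lv.killOff_twPoly (hgood ℓ hℓ)
  have hkill₀ : killOff Lv.good t₀ = t₀ := by
    rw [ht₀, map_sub, killOff_C, Lv.killOff_twPoly (G := Lv.good) hℓ']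
  suffices hξ : ∀ ξ : Lv.Λ →ₐ[O] A, (K.mat (twPoly Lv.θ F)).map ξ = 0 by
    refine Matrix.ext fun i j => eq_zero_of_specs hinj _ fun ξ => ?_
    exact congrFun (congrFun (hξ ξ) i) j
  intro ξ
  have hprod : (K.mat (twPoly Lv.θ F * t₀)).map ξ.toRingHom = 0 := by
    refine Matrix.ext_of_mulVec_single fun j => ?_
    rw [Matrix.zero_mulVec, ← K.spec_eq_zero_iff ξ.toRingHom,
      ← K.heckeAct_spec ξ.toRingHom (by rw [map_mul, hkill, hkill₀])]
    obtain ⟨a, ha, hrel⟩ := heckeRelation Lv.N_dvd_L Lv.squarefree_L (Lv.θ.ringHomComp ξ.toRingHom)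
      (fun u => by
        obtain ⟨k, hk, hk'⟩ := Lv.θ_pow_odd u
        exact ⟨k, hk, by rw [MulChar.ringHomComp_apply, ← map_pow, hk', map_one]⟩)
      S₁ (fun q hq hd => hS (Lv.mem_S'_of_dvd_L hq hd)) F hvars hF ℓ₀ hℓ₀.1 h1
      (K.spec ξ.toRingHom (Pi.single j 1))
    refine (heckeAct_map_mul_sub Lv.θ ξ.toRingHom Lv.N_dvd_L F ℓ₀ _ _).trans ?_
    have hv : ξ.toRingHom (((ℓ₀ : ℕ) : Lv.Λ) + 1) = ((ℓ₀ : ℕ) : A) + 1 :=
      (map_add ξ.toRingHom _ _).trans (congrArg₂ (· + ·) (map_natCast _ _) (map_one _))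
    have h2 := (smul_eq_zero.1 hrel).resolve_left ha
    rw [← hv] at h2
    exact h2
  have hu : IsUnit ((K.mat t₀).map ξ.toRingHom) :=
    (K.isUnit_mat_sub hℓ' hℓ₀.2 hne).map ξ.toRingHom.mapMatrix
  rw [map_mul, Matrix.map_mul] at hprod
  exact hu.mul_left_eq_zero.1 hprod

/-- An eigenvector of a specialisation gives a class with the system and a newform system of the
exact level. -/
theorem exists_exactLevel {S₁ : Finset ℕ} (hS : Lv.S' ⊆ S₁) {V : Type} [CommRing V]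
    [IsDomain V] [IsDiscreteValuationRing V]
    [IsAdicComplete (maximalIdeal V) V] [Finite (ResidueField V)] [CharZero V] [Algebra O V]
    [IsLocalHom (algebraMap O V)] (ξ : Lv.Λ →ₐ[O] V) (c : Nat.Primes → V) (w : Fin D → V)
    (hw : w ≠ 0) (hc : ∀ ℓ : Nat.Primes, (ℓ : ℕ) ∉ S₁ →
      ((K.op ℓ).map ξ).mulVec w = c ℓ • w) :
    (K.spec ξ.toRingHom w ∈ twSystem (Lv.θ.ringHomComp ξ.toRingHom) Lv.N_dvd_L S₁ c ∧
        ∀ a : V, a ≠ 0 → a • K.spec ξ.toRingHom w ≠ 0) ∧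
      ∃ (L' : ℕ) (_ : NeZero L'),
        IsExactLevel (Lv.θ.ringHomComp ξ.toRingHom) S₁ c Lv.L L' ∧
          IsNewformSystem S₁ L' c := by
  classical
  have hy : K.spec ξ.toRingHom w ∈ twSystem (Lv.θ.ringHomComp ξ.toRingHom) Lv.N_dvd_L S₁ c := by
    refine mem_twSystem_iff.2 fun ℓ hℓ => ?_
    rw [K.twOp_spec ξ.toRingHom fun h => hℓ (hS h)]
    have e : ((K.op ℓ).map ξ.toRingHom).mulVec w = c ℓ • w := hc ℓ hℓ
    rw [e, spec, spec, Finset.smul_sum]
    exact Finset.sum_congr rfl fun i _ => by rw [Pi.smul_apply, smul_eq_mul, mul_smul]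
  have hy0 : ∀ a : V, a ≠ 0 → a • K.spec ξ.toRingHom w ≠ 0 := by
    intro a ha h0
    have h : K.spec ξ.toRingHom (a • w) = 0 := by
      refine Eq.trans ?_ h0
      rw [spec, spec, Finset.smul_sum]
      exact Finset.sum_congr rfl fun i _ => by rw [Pi.smul_apply, smul_eq_mul, mul_smul]
    rw [K.spec_eq_zero_iff] at h
    exact hw ((smul_eq_zero.1 h).resolve_left ha)
  refine ⟨⟨hy, hy0⟩, ?_⟩
  obtain ⟨ℓ₀, hℓ₀, h1, hne⟩ := B.nonEis (Lv.L * Lv.N)
    (mul_ne_zero Lv.L_ne_zero Lv.N_ne_zero) (S₁ ∪ B.omitted)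
  rw [Finset.mem_union, not_or] at hℓ₀
  refine exists_exactNewform Lv.N_dvd_L Lv.squarefree_L _
    (fun u => by
      obtain ⟨k, hk, hk'⟩ := Lv.θ_pow_odd u
      exact ⟨k, hk, by rw [MulChar.ringHomComp_apply, ← map_pow, hk', map_one]⟩)
    S₁ (fun q hq hd => hS (Lv.mem_S'_of_dvd_L hq hd)) c ⟨ℓ₀, hℓ₀.1, h1, fun hceq => hne ?_⟩
    hy hy0
  set M := (K.op ℓ₀).map ξ
  have hdet : (M - c ℓ₀ • 1).det = 0 :=
    Matrix.exists_mulVec_eq_zero_iff.1 ⟨w, hw, by
      rw [Matrix.sub_mulVec, Matrix.smul_mulVec, Matrix.one_mulVec, hc ℓ₀ hℓ₀.1, sub_self]⟩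
  set g := ResidueField.map (algebraMap O V) with hgdef
  have hgM : M.map (residue V) = ((K.op ℓ₀).map Lv.resΛ).map g := by
    ext i j
    exact Lv.residue_comp_spec ξ _
  by_contra hbad
  have hN : IsNilpotent (((K.op ℓ₀).map Lv.resΛ - B.a ℓ₀ • 1).map g) :=
    (K.resid ℓ₀ (fun h => hℓ₀.1 (hS h)) hℓ₀.2).map g.mapMatrix
  have hu : IsUnit ((g (B.a ℓ₀) - residue V (c ℓ₀)) • (1 : Matrix (Fin D) (Fin D) (ResidueField V))
      + (((K.op ℓ₀).map Lv.resΛ - B.a ℓ₀ • 1).map g)) := by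
    refine IsNilpotent.isUnit_add_left_of_commute hN ?_ ((Commute.one_left _).smul_left _).symm
    rw [← Algebra.algebraMap_eq_smul_one]
    refine (Ne.isUnit (sub_ne_zero.2 fun h => hbad ?_)).map _
    rw [hceq, map_add, map_natCast, map_one] at h
    exact g.injective (h.trans (by rw [map_add, map_natCast, map_one]))
  have e : (M - c ℓ₀ • 1).map (residue V) =
      (g (B.a ℓ₀) - residue V (c ℓ₀)) • (1 : Matrix (Fin D) (Fin D) (ResidueField V)) +
        (((K.op ℓ₀).map Lv.resΛ - B.a ℓ₀ • 1).map g) := by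
    rw [Matrix.map_sub _ (map_sub (residue V)), Matrix.map_sub _ (map_sub g), hgM,
      Matrix.map_smul' (residue V) _ _ (map_mul _), Matrix.map_smul' g _ _ (map_mul _),
      Matrix.map_one _ (map_zero _) (map_one _), Matrix.map_one _ (map_zero _) (map_one _),
      sub_smul]
    abel
  rw [← e, Matrix.isUnit_iff_isUnit_det, ← RingHom.mapMatrix_apply, ← RingHom.map_det, hdet,
    map_zero] at hu
  exact not_isUnit_zero hu

/-- The model of a stable free summand, new at `new` when its systems are. -/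
theorem nodeModel {new : Finset ℕ}
    (hnew : ∀ q ∈ new, ∀ S₁ : Finset ℕ, Lv.S' ⊆ S₁ → ∀ (V : Type) [CommRing V] [IsDomain V]
      [IsDiscreteValuationRing V] [IsAdicComplete (maximalIdeal V) V] [Finite (ResidueField V)]
      [CharZero V] [Algebra O V] [IsLocalHom (algebraMap O V)],
      Function.Injective (algebraMap O V) → ∀ (ξ : Lv.Λ →ₐ[O] V) (c : Nat.Primes → V)
        (w : Fin D → V), w ≠ 0 →
        (∀ ℓ : Nat.Primes, (ℓ : ℕ) ∉ S₁ → ((K.op ℓ).map ξ).mulVec w = c ℓ • w) →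
        ∀ (L' : ℕ) [NeZero L'],
          IsExactLevel (Lv.θ.ringHomComp ξ.toRingHom) S₁ c Lv.L L' →
            IsNewformSystem S₁ L' c → q ∣ L') :
    NodeModel Lv new K.op where
  comm := K.op_comm
  resid := K.resid
  relation S₁ hS F hvars hF C' _ f ι hι hf := by
    refine hι ?_
    rw [map_zero, ← K.mat_relation hS F hvars hF]
    exact hom_eq_of_vars (φ := ι.comp (eval₂Hom (Int.castRingHom C') f))
      (ψ := K.mat.toRingHom.comp (twPoly Lv.θ)) (F := F) fun ℓ hℓ => by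
        rw [RingHom.comp_apply, eval₂Hom_X', hf ℓ (hvars ℓ hℓ)]
        rfl
  eigen S₁ hS V _ _ _ _ _ _ _ _ hinj ξ c w hw hc := by
    obtain ⟨-, L', hL', hex, hsys⟩ := K.exists_exactLevel hS ξ c w hw hc
    exact ⟨L', hL', hex, hsys, fun q hq => hnew q hq S₁ hS V hinj ξ c w hw hc L' hex hsys⟩

theorem nodeModel_empty : NodeModel Lv ∅ K.op :=
  K.nodeModel fun q hq => absurd hq (Finset.notMem_empty q)

/-- The inclusion into the part. -/
def inclPart : (Fin D → Lv.Λ) →ₗ[Lv.Λ] Lv.part := K.incl.codRestrict Lv.part K.incl_mem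

/-- The retraction of the part. -/
def retrPart : Lv.part →ₗ[Lv.Λ] (Fin D → Lv.Λ) := K.retr ∘ₗ Lv.part.subtype

@[simp]
theorem coe_inclPart (x : Fin D → Lv.Λ) : (K.inclPart x : Lv.H1) = K.incl x := rfl

theorem retrPart_inclPart (x : Fin D → Lv.Λ) : K.retrPart (K.inclPart x) = x := K.retr_incl x

/-- The twisted operators of the part through the summand. -/
theorem partAct_inclPart {ℓ : Nat.Primes} (hℓ : (ℓ : ℕ) ∉ Lv.S') (x : Fin D → Lv.Λ) :
    Lv.partAct (twPoly Lv.θ (X ℓ)) (K.inclPart x) = K.inclPart ((K.op ℓ).mulVec x) :=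
  Subtype.ext ((LinearMap.congr_fun (Lv.twOp_eq_heckeAct ℓ) _).symm.trans (K.twOp_incl hℓ x))

theorem op_resid {ℓ : Nat.Primes} (hℓ : (ℓ : ℕ) ∉ Lv.S') (hG : ℓ ∈ B.G) :
    IsNilpotent ((K.op ℓ).map Lv.resΛ -
      B.a ℓ • (1 : Matrix (Fin D) (Fin D) (ResidueField O))) := K.resid ℓ hℓ hG

/-- A summand from a basis of a stable complemented submodule of the part. -/
def ofBasis (P : Submodule Lv.Λ Lv.part) (b : Module.Basis (Fin D) Lv.Λ P)
    (π : Lv.part →ₗ[Lv.Λ] P) (hπ : ∀ x : P, π x = x)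
    (hst : ∀ ℓ : Nat.Primes, (ℓ : ℕ) ∉ Lv.S' → ∀ x : P,
      (⟨_, Lv.twOp_mem_part ℓ (x : Lv.part).2⟩ : Lv.part) ∈ P) : Summand Lv D where
  incl := Lv.part.subtype ∘ₗ P.subtype ∘ₗ b.equivFun.symm.toLinearMap
  retr := b.equivFun.toLinearMap ∘ₗ π ∘ₗ Lv.idem.rangeRestrict
  retr_incl x := by
    show b.equivFun (π (Lv.idem.rangeRestrict ((b.equivFun.symm x : Lv.part) : Lv.H1))) = x
    have e : Lv.idem.rangeRestrict ((b.equivFun.symm x : Lv.part) : Lv.H1) =
        (b.equivFun.symm x : Lv.part) :=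
      Subtype.ext (Lv.idem_apply_of_mem (b.equivFun.symm x : Lv.part).2)
    rw [e, hπ, LinearEquiv.apply_symm_apply]
  incl_mem x := (b.equivFun.symm x : Lv.part).2
  stable ℓ hℓ x := ⟨b.equivFun ⟨_, hst ℓ hℓ (b.equivFun.symm x)⟩, by
    simp only [LinearMap.comp_apply, LinearEquiv.coe_coe, LinearEquiv.symm_apply_apply]
    rfl⟩

/-- The whole part. -/
def full (b : Module.Basis (Fin D) Lv.Λ Lv.part) : Summand Lv D where
  incl := Lv.part.subtype ∘ₗ b.equivFun.symm.toLinearMap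
  retr := b.equivFun.toLinearMap ∘ₗ Lv.idem.rangeRestrict
  retr_incl x := by
    show b.equivFun (Lv.idem.rangeRestrict ((b.equivFun.symm x : Lv.part) : Lv.H1)) = x
    have e : Lv.idem.rangeRestrict ((b.equivFun.symm x : Lv.part) : Lv.H1) =
        b.equivFun.symm x :=
      Subtype.ext (Lv.idem_apply_of_mem (b.equivFun.symm x).2)
    rw [e, LinearEquiv.apply_symm_apply]
  incl_mem x := (b.equivFun.symm x).2
  stable ℓ _ x := ⟨b.equivFun ⟨_, Lv.twOp_mem_part ℓ (b.equivFun.symm x).2⟩, by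
    simp only [LinearMap.comp_apply, LinearEquiv.coe_coe, LinearEquiv.symm_apply_apply]
    rfl⟩

theorem full_op (b : Module.Basis (Fin D) Lv.Λ Lv.part) {ℓ : Nat.Primes}
    (hℓ : (ℓ : ℕ) ∉ Lv.S') : (Summand.full b).op ℓ = Lv.opMat b ℓ := by
  classical
  refine Matrix.ext_of_mulVec_single fun j => ?_
  refine ((Summand.full b).retr_incl _).symm.trans ?_
  rw [← (Summand.full b).twOp_incl hℓ]
  have h := Lv.equivFun_twOp b ℓ (b.equivFun.symm (Pi.single j 1))
  rw [LinearEquiv.apply_symm_apply] at h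
  refine Eq.trans ?_ h
  exact congrArg b.equivFun (Subtype.ext (Lv.idem_apply_of_mem (Lv.twOp_mem_part ℓ (b.equivFun.symm (Pi.single j 1)).2)))

end Summand

end Fermat.Agent.Lifting.Models

end
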