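import Fermat.Agent.Lifting.Models.StepMat
import Fermat.Agent.Lifting.Models.StepSummand
import Fermat.Agent.Lifting.Models.Summand

/-!
# Systems on the joint kernel of the maps down between summands are new

* `subOp_eq_op`: on a stable summand `subOp` is the operator of `Summand.ofBasis`;
* `dvd_level_of_dnMat`: an eigenvector of `subOp` killed by every `dnMat` gives level divisible
  by `t`.
-/

set_option autoImplicit false
set_option linter.style.haveILetI false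

noncomputable section

open IsLocalRing MvPolynomial

namespace Fermat.Agent.Lifting.Models.NodeBelow

open RT.Diamond RT.TW RT.Assembly

variable {O : Type} [CommRing O] [IsDomain O] [IsDiscreteValuationRing O]
  [IsAdicComplete (maximalIdeal O) O] [Finite (ResidueField O)] [CharZero O]
  {p : ℕ} [Fact p.Prime] {B : NodeBase O p} {r n : ℕ}

/-- On a stable summand the matrices `subOp` are those of `Summand.ofBasis`. -/
theorem subOp_eq_op (Lv : NodeLevel B r n) {D : ℕ} {P : Submodule Lv.Λ Lv.part}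
    (b : Module.Basis (Fin D) Lv.Λ P) (π : Lv.part →ₗ[Lv.Λ] P)
    (hπ : ∀ x : P, π (x : Lv.part) = x)
    (hst : ∀ ℓ : Nat.Primes, (ℓ : ℕ) ∉ Lv.S' → ∀ x : P,
      (⟨_, Lv.twOp_mem_part ℓ (x : Lv.part).2⟩ : Lv.part) ∈ P)
    {ℓ : Nat.Primes} (hℓ : (ℓ : ℕ) ∉ Lv.S') :
    subOp Lv b π ℓ = (Summand.ofBasis P b π hπ hst).op ℓ := by
  refine Matrix.ext_iff_mulVec.2 fun v => ?_
  have e : twPart Lv ℓ (coordIncl b v) =
      coordIncl b (((Summand.ofBasis P b π hπ hst).op ℓ).mulVec v) := by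
    refine Subtype.ext ?_
    rw [coe_twPart]
    exact (Summand.ofBasis P b π hπ hst).twOp_incl hℓ v
  rw [linMat_mulVec, e, coordProj_coordIncl hπ]

variable {t : ℕ} (Bl : NodeBelow B t) (Lv : NodeLevel B r n) {D₀ D₁ : ℕ}
  {P₀ : Submodule Lv.Λ (Bl.level Lv).part} {b₀ : Module.Basis (Fin D₀) Lv.Λ P₀}
  {π₀ : (Bl.level Lv).part →ₗ[Lv.Λ] P₀}
  {P₁ : Submodule Lv.Λ Lv.part} {b₁ : Module.Basis (Fin D₁) Lv.Λ P₁} {π₁ : Lv.part →ₗ[Lv.Λ] P₁}
  {V : Type} [CommRing V] [IsDomain V] [IsDiscreteValuationRing V]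
  [Finite (ResidueField V)] [CharZero V] [Algebra O V] [IsLocalHom (algebraMap O V)]

/-- An eigenvector killed by the matrices of the maps down is new at `t`. -/
theorem dvd_level_of_dnMat (hπ₀ : ∀ x : P₀, π₀ (x : (Bl.level Lv).part) = x)
    (hπ₁ : ∀ x : P₁, π₁ (x : Lv.part) = x) (hdn : ∀ i, ∀ x ∈ P₁, Bl.dnPart Lv i x ∈ P₀)
    (hst : ∀ ℓ : Nat.Primes, (ℓ : ℕ) ∉ Lv.S' → ∀ x ∈ P₁, twPart Lv ℓ x ∈ P₁)
    (S₁ : Finset ℕ) (hS : Lv.S' ⊆ S₁) (ξ : Lv.Λ →ₐ[O] V) (c : Nat.Primes → V) (y : Fin D₁ → V)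
    (hy : y ≠ 0)
    (hc : ∀ ℓ : Nat.Primes, (ℓ : ℕ) ∉ S₁ →
      ((subOp Lv b₁ π₁ ℓ).map ξ).mulVec y = c ℓ • y)
    (hker : ∀ i, ((Bl.dnMat Lv b₀ π₀ b₁ i).map ξ).mulVec y = 0)
    {L' : ℕ} [NeZero L'] (hex : IsExactLevel (Lv.θ.ringHomComp ξ.toRingHom) S₁ c Lv.L L')
    (hnew : IsNewformSystem S₁ L' c) : t ∣ L' := by
  have hst' : ∀ ℓ : Nat.Primes, (ℓ : ℕ) ∉ Lv.S' → ∀ x : P₁,
      (⟨_, Lv.twOp_mem_part ℓ (x : Lv.part).2⟩ : Lv.part) ∈ P₁ := fun ℓ hℓ x => by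
    have e : (⟨_, Lv.twOp_mem_part ℓ (x : Lv.part).2⟩ : Lv.part) = twPart Lv ℓ (x : Lv.part) :=
      Subtype.ext (coe_twPart Lv ℓ (x : Lv.part)).symm
    rw [e]
    exact hst ℓ hℓ x x.2
  refine Bl.dvd_level_of_summandMaps Lv ξ (coordIncl b₀) (coordIncl b₁) (coordProj b₁ π₁)
    (coordProj_coordIncl hπ₁) (Bl.dnMat Lv b₀ π₀ b₁)
    (fun i v => (incl_linMat_mulVec (coordProj_coordIncl hπ₀) _
      (mem_range_coordIncl (hdn i _ (coordIncl_mem v)))).symm)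
    S₁ hS (subOp Lv b₁ π₁)
    (fun ℓ hℓ v => (incl_linMat_mulVec (coordProj_coordIncl hπ₁) _
      (mem_range_coordIncl (hst ℓ (fun h => hℓ (hS h)) _ (coordIncl_mem v)))).symm)
    (fun ℓ hℓ hG => ?_) c y hy hc hker hex hnew
  rw [subOp_eq_op Lv b₁ π₁ hπ₁ hst' hℓ]
  exact (Summand.ofBasis P₁ b₁ π₁ hπ₁ hst').resid ℓ hℓ hG

end Fermat.Agent.Lifting.Models.NodeBelow

end
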