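import Mathlib.LinearAlgebra.Matrix.ToLin

/-!
# Matrices of maps between free summands

A free summand of a module is given by `ι : (Fin D → A) → H` and a retraction `ρ`. `linMat` is
the matrix of the restriction of a map sending one summand into another.
-/

set_option autoImplicit false

noncomputable section

namespace Fermat.Agent.Lifting.Models

variable {A : Type*} [CommRing A] {H H' H'' : Type*} [AddCommGroup H] [Module A H]
  [AddCommGroup H'] [Module A H'] [AddCommGroup H''] [Module A H''] {D D' D'' : ℕ}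

/-- The matrix of `f` between two summands. -/
def linMat (ι : (Fin D → A) →ₗ[A] H) (ρ' : H' →ₗ[A] (Fin D' → A)) (f : H →ₗ[A] H') :
    Matrix (Fin D') (Fin D) A :=
  LinearMap.toMatrix' (ρ' ∘ₗ f ∘ₗ ι)

variable {ι : (Fin D → A) →ₗ[A] H} {ι' : (Fin D' → A) →ₗ[A] H'} {ρ : H →ₗ[A] (Fin D → A)}
  {ρ' : H' →ₗ[A] (Fin D' → A)} {ρ'' : H'' →ₗ[A] (Fin D'' → A)}

theorem linMat_mulVec (f : H →ₗ[A] H') (x : Fin D → A) :
    (linMat ι ρ' f).mulVec x = ρ' (f (ι x)) :=
  LinearMap.toMatrix'_mulVec _ x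

/-- A map into a summand is its matrix. -/
theorem incl_linMat_mulVec (hρ : ∀ y, ρ' (ι' y) = y) (f : H →ₗ[A] H') {x : Fin D → A}
    (hf : ∃ y, ι' y = f (ι x)) : ι' ((linMat ι ρ' f).mulVec x) = f (ι x) := by
  obtain ⟨y, hy⟩ := hf
  rw [linMat_mulVec, ← hy, hρ]

theorem linMat_congr {f g : H →ₗ[A] H'} (h : ∀ x, f (ι x) = g (ι x)) :
    linMat ι ρ' f = linMat ι ρ' g :=
  congrArg LinearMap.toMatrix' (LinearMap.ext fun x => congrArg ρ' (h x))

theorem linMat_add (f g : H →ₗ[A] H') :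
    linMat ι ρ' (f + g) = linMat ι ρ' f + linMat ι ρ' g := by
  rw [linMat, linMat, linMat, LinearMap.add_comp, LinearMap.comp_add, map_add]

theorem linMat_smul (a : A) (f : H →ₗ[A] H') : linMat ι ρ' (a • f) = a • linMat ι ρ' f := by
  rw [linMat, linMat, LinearMap.smul_comp, LinearMap.comp_smul, map_smul]

theorem linMat_one (hρ : ∀ y, ρ (ι y) = y) : linMat ι ρ (1 : Module.End A H) = 1 := by
  rw [linMat, ← LinearMap.toMatrix'_id]
  exact congrArg LinearMap.toMatrix' (LinearMap.ext hρ)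

theorem linMat_natCast (hρ : ∀ y, ρ (ι y) = y) (t : ℕ) :
    linMat ι ρ (t : Module.End A H) = (t : Matrix (Fin D) (Fin D) A) := by
  refine Matrix.ext_iff_mulVec.2 fun x => ?_
  rw [linMat_mulVec, Module.End.natCast_apply, map_nsmul, hρ, Matrix.natCast_mulVec,
    ← Nat.cast_smul_eq_nsmul A]

/-- Composition. -/
theorem linMat_mul (hρ : ∀ y, ρ' (ι' y) = y) (g : H' →ₗ[A] H'') (f : H →ₗ[A] H')
    (hf : ∀ x, ∃ y, ι' y = f (ι x)) :
    linMat ι' ρ'' g * linMat ι ρ' f = linMat ι ρ'' (g ∘ₗ f) := by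
  refine Matrix.ext_iff_mulVec.2 fun x => ?_
  rw [← Matrix.mulVec_mulVec, linMat_mulVec g, incl_linMat_mulVec hρ f (hf x), linMat_mulVec]
  rfl

/-- Intertwined operators. -/
theorem linMat_intertwine (hρ : ∀ y, ρ (ι y) = y) (hρ' : ∀ y, ρ' (ι' y) = y) {f : H →ₗ[A] H'}
    {T : Module.End A H} {T' : Module.End A H'} (hT : ∀ x, ∃ y, ι y = T (ι x))
    (hf : ∀ x, ∃ y, ι' y = f (ι x)) (hc : ∀ x, f (T (ι x)) = T' (f (ι x))) :
    linMat ι ρ' f * linMat ι ρ T = linMat ι' ρ' T' * linMat ι ρ' f := by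
  rw [linMat_mul hρ f T hT, linMat_mul hρ' T' f hf]
  exact linMat_congr hc

/-- Preimages from joint surjectivity. -/
theorem exists_linMat_preimages {β : Type*} [DecidableEq β]
    (hρ' : ∀ y, ρ' (ι' y) = y) (f : β → (H →ₗ[A] H'))
    (h : ∀ y : β → (Fin D' → A), ∃ x, ∀ i, f i (ι x) = ι' (y i)) :
    ∃ Z : β → Matrix (Fin D) (Fin D') A, ∀ i j,
      linMat ι ρ' (f i) * Z j = if i = j then 1 else 0 := by
  choose z hz using fun (j : β) (c : Fin D') =>
    h fun i => if i = j then Pi.single c 1 else 0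
  refine ⟨fun j => Matrix.of fun r c => z j c r, fun i j => ?_⟩
  refine Matrix.ext_of_mulVec_single fun c => ?_
  rw [← Matrix.mulVec_mulVec, Matrix.mulVec_single_one]
  refine (linMat_mulVec _ _).trans ?_
  rw [show (Matrix.col (Matrix.of fun r c => z j c r) c) = z j c from rfl, hz j c i, hρ']
  split_ifs
  · rw [Matrix.one_mulVec]
  · rw [Matrix.zero_mulVec]

end Fermat.Agent.Lifting.Models

end
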