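import Fermat.Agent.Lifting.Models.EdgesPart
import Fermat.Agent.Lifting.Models.LinMat
import Fermat.Agent.Lifting.Raise.Contracts

/-!
# The matrices of the maps at a raised prime between summands of the parts

A summand `P` of a part is given with a basis and a projection `π`; `incl`, `proj` are the maps to
and from coordinates. For a node below at `t` and summands sent into each other by `upPart` and
`dnPart` the matrices commute with those of the operators away from `t` and compose to `degMatrix`.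
-/

set_option autoImplicit false
set_option linter.style.haveILetI false

noncomputable section

open IsLocalRing MvPolynomial

namespace Fermat.Agent.Lifting.Models

open RT.Diamond RT.TW RT.Assembly

section Summand

variable {A : Type*} [CommRing A] {H : Type*} [AddCommGroup H] [Module A H] {D : ℕ}
  {P : Submodule A H}

/-- The inclusion of a summand in coordinates. -/
def coordIncl (b : Module.Basis (Fin D) A P) : (Fin D → A) →ₗ[A] H :=
  P.subtype ∘ₗ b.equivFun.symm.toLinearMap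

/-- The projection to a summand in coordinates. -/
def coordProj (b : Module.Basis (Fin D) A P) (π : H →ₗ[A] P) : H →ₗ[A] (Fin D → A) :=
  b.equivFun.toLinearMap ∘ₗ π

variable {b : Module.Basis (Fin D) A P} {π : H →ₗ[A] P}

theorem coordProj_coordIncl (hπ : ∀ x : P, π (x : H) = x) (y : Fin D → A) :
    coordProj b π (coordIncl b y) = y := by
  show b.equivFun (π (b.equivFun.symm y : P)) = y
  rw [hπ, LinearEquiv.apply_symm_apply]

theorem coordProj_of_mem (hπ : ∀ x : P, π (x : H) = x) (x : P) :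
    coordProj b π (x : H) = b.equivFun x :=
  congrArg b.equivFun (hπ x)

theorem mem_range_coordIncl {x : H} (hx : x ∈ P) : ∃ y, coordIncl b y = x :=
  ⟨b.equivFun ⟨x, hx⟩, by
    show ((b.equivFun.symm (b.equivFun ⟨x, hx⟩) : P) : H) = x
    rw [LinearEquiv.symm_apply_apply]⟩

theorem coordIncl_mem (y : Fin D → A) : coordIncl b y ∈ P := (b.equivFun.symm y).2

end Summand

namespace NodeBelow

variable {O : Type} [CommRing O] [IsDomain O] [IsDiscreteValuationRing O]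
  [IsAdicComplete (maximalIdeal O) O] [Finite (ResidueField O)] [CharZero O]
  {p : ℕ} [Fact p.Prime] {B : NodeBase O p} {t : ℕ} (Bl : NodeBelow B t) {r n : ℕ}
  (Lv : NodeLevel B r n) {D₀ D₁ : ℕ}
  {P₀ : Submodule Lv.Λ (Bl.level Lv).part} {b₀ : Module.Basis (Fin D₀) Lv.Λ P₀}
  {π₀ : (Bl.level Lv).part →ₗ[Lv.Λ] P₀}
  {P₁ : Submodule Lv.Λ Lv.part} {b₁ : Module.Basis (Fin D₁) Lv.Λ P₁} {π₁ : Lv.part →ₗ[Lv.Λ] P₁}

/-- The matrix of an operator of the part on a summand. -/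
abbrev subOp {B' : NodeBase O p} (Lv' : NodeLevel B' r n) {D : ℕ}
    {P : Submodule Lv'.Λ Lv'.part} (b : Module.Basis (Fin D) Lv'.Λ P) (π : Lv'.part →ₗ[Lv'.Λ] P)
    (ℓ : Nat.Primes) : Matrix (Fin D) (Fin D) Lv'.Λ :=
  linMat (coordIncl b) (coordProj b π) (twPart Lv' ℓ)

variable (b₀ π₀ b₁ π₁) in
/-- The matrices of the maps up. -/
abbrev upMat (j : Fin 2) : Matrix (Fin D₁) (Fin D₀) Lv.Λ :=
  linMat (coordIncl b₀) (coordProj b₁ π₁) (Bl.upPart Lv j)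

variable (b₀ π₀ b₁ π₁) in
/-- The matrices of the maps down. -/
abbrev dnMat (i : Fin 2) : Matrix (Fin D₀) (Fin D₁) Lv.Λ :=
  linMat (coordIncl b₁) (coordProj b₀ π₀) (Bl.dnPart Lv i)

theorem upMat_comm (hπ₀ : ∀ x : P₀, π₀ (x : (Bl.level Lv).part) = x)
    (hπ₁ : ∀ x : P₁, π₁ (x : Lv.part) = x)
    (hup : ∀ j, ∀ x ∈ P₀, Bl.upPart Lv j x ∈ P₁) {ℓ : Nat.Primes} (hℓ : (ℓ : ℕ) ≠ t)
    (hst : ∀ x ∈ P₀, twPart (Bl.level Lv) ℓ x ∈ P₀) (j : Fin 2) :
    Bl.upMat Lv b₀ b₁ π₁ j * subOp (Bl.level Lv) b₀ π₀ ℓ =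
      subOp Lv b₁ π₁ ℓ * Bl.upMat Lv b₀ b₁ π₁ j :=
  linMat_intertwine (coordProj_coordIncl hπ₀) (coordProj_coordIncl hπ₁)
    (fun x => mem_range_coordIncl (hst _ (coordIncl_mem x)))
    (fun x => mem_range_coordIncl (hup j _ (coordIncl_mem x)))
    (fun x => Bl.upPart_twPart Lv ℓ hℓ j _)

theorem dnMat_comm (hπ₀ : ∀ x : P₀, π₀ (x : (Bl.level Lv).part) = x)
    (hπ₁ : ∀ x : P₁, π₁ (x : Lv.part) = x)
    (hdn : ∀ i, ∀ x ∈ P₁, Bl.dnPart Lv i x ∈ P₀) {ℓ : Nat.Primes} (hℓ : (ℓ : ℕ) ≠ t)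
    (hst : ∀ x ∈ P₁, twPart Lv ℓ x ∈ P₁) (i : Fin 2) :
    Bl.dnMat Lv b₀ π₀ b₁ i * subOp Lv b₁ π₁ ℓ =
      subOp (Bl.level Lv) b₀ π₀ ℓ * Bl.dnMat Lv b₀ π₀ b₁ i :=
  linMat_intertwine (coordProj_coordIncl hπ₁) (coordProj_coordIncl hπ₀)
    (fun x => mem_range_coordIncl (hst _ (coordIncl_mem x)))
    (fun x => mem_range_coordIncl (hdn i _ (coordIncl_mem x)))
    (fun x => Bl.dnPart_twPart Lv ℓ hℓ i _)

theorem dnMat_upMat (hπ₀ : ∀ x : P₀, π₀ (x : (Bl.level Lv).part) = x)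
    (hπ₁ : ∀ x : P₁, π₁ (x : Lv.part) = x)
    (hup : ∀ j, ∀ x ∈ P₀, Bl.upPart Lv j x ∈ P₁) (i j : Fin 2) :
    Bl.dnMat Lv b₀ π₀ b₁ i * Bl.upMat Lv b₀ b₁ π₁ j =
      Raise.degMatrix t (subOp (Bl.level Lv) b₀ π₀ ⟨t, Bl.prime⟩) i j := by
  have hρ := coordProj_coordIncl (b := b₁) (π := π₁) hπ₁
  have hρ₀ := coordProj_coordIncl (b := b₀) (π := π₀) hπ₀
  rw [linMat_mul hρ _ _ fun x => mem_range_coordIncl (hup j _ (coordIncl_mem x)),
    linMat_congr (g := (!![((t : ℕ) : Module.End Lv.Λ (Bl.level Lv).part) + 1,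
        twPart (Bl.level Lv) ⟨t, Bl.prime⟩; twPart (Bl.level Lv) ⟨t, Bl.prime⟩,
        ((t : ℕ) : Module.End Lv.Λ (Bl.level Lv).part) + 1] i j))
      fun x => Bl.dnPart_upPart Lv i j _]
  fin_cases i <;> fin_cases j <;>
    simp [Raise.degMatrix, linMat_add, linMat_one hρ₀, linMat_natCast hρ₀]

theorem exists_dnMat_preimages (hπ₀ : ∀ x : P₀, π₀ (x : (Bl.level Lv).part) = x)
    (htop : P₁ = ⊤) :
    ∃ Z : Fin 2 → Matrix (Fin D₁) (Fin D₀) Lv.Λ, ∀ i j,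
      Bl.dnMat Lv b₀ π₀ b₁ i * Z j = if i = j then 1 else 0 :=
  exists_linMat_preimages (coordProj_coordIncl hπ₀) _ fun y => by
    obtain ⟨x, hx⟩ := Bl.dnPart_surjective Lv fun i => coordIncl b₀ (y i)
    obtain ⟨z, hz⟩ := mem_range_coordIncl (b := b₁) (show x ∈ P₁ by rw [htop]; trivial)
    exact ⟨z, fun i => by rw [hz]; exact hx i⟩

theorem dnMat_spec (hπ₀ : ∀ x : P₀, π₀ (x : (Bl.level Lv).part) = x)
    (hdn : ∀ i, ∀ x ∈ P₁, Bl.dnPart Lv i x ∈ P₀) (i : Fin 2) (x : P₁) :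
    ∃ y : P₀, Bl.dnPart Lv i x = y ∧
      b₀.equivFun y = (Bl.dnMat Lv b₀ π₀ b₁ i).mulVec (b₁.equivFun x) := by
  refine ⟨⟨_, hdn i x x.2⟩, rfl, ?_⟩
  rw [linMat_mulVec, show coordIncl b₁ (b₁.equivFun x) = (x : Lv.part) from
    congrArg Subtype.val (b₁.equivFun.symm_apply_apply x)]
  exact (coordProj_of_mem hπ₀ ⟨_, hdn i x x.2⟩).symm

theorem upMat_injective (hπ₀ : ∀ x : P₀, π₀ (x : (Bl.level Lv).part) = x)
    (hπ₁ : ∀ x : P₁, π₁ (x : Lv.part) = x) (hup : ∀ j, ∀ x ∈ P₀, Bl.upPart Lv j x ∈ P₁)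
    (v : Fin 2 → Fin D₀ → Lv.Λ)
    (hv : ∀ i, Lv.resΛ ((∑ j, (Bl.upMat Lv b₀ b₁ π₁ j).mulVec (v j)) i) = 0) (j : Fin 2)
    (i : Fin D₀) : Lv.resΛ (v j i) = 0 := by
  obtain ⟨g, hg⟩ := Bl.exists_upPart_split Lv
  set y := ∑ j, (Bl.upMat Lv b₀ b₁ π₁ j).mulVec (v j) with hy
  have hy' : coordIncl b₁ y = Bl.upPair Lv (coordIncl b₀ (v 0), coordIncl b₀ (v 1)) := by
    rw [hy, map_sum, Fin.sum_univ_two, incl_linMat_mulVec (coordProj_coordIncl hπ₁) _
      (mem_range_coordIncl (hup 0 _ (coordIncl_mem _))), incl_linMat_mulVec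
      (coordProj_coordIncl hπ₁) _ (mem_range_coordIncl (hup 1 _ (coordIncl_mem _)))]
    rfl
  have hgy : g (coordIncl b₁ y) = (coordIncl b₀ (v 0), coordIncl b₀ (v 1)) :=
    (congrArg g hy').trans (LinearMap.congr_fun hg _)
  have key : ∀ (c : ((Bl.level Lv).part × (Bl.level Lv).part) →ₗ[Lv.Λ] (Bl.level Lv).part)
      (x : Fin D₀ → Lv.Λ), c (g (coordIncl b₁ y)) = coordIncl b₀ x → ∀ k, Lv.resΛ (x k) = 0 := by
    intro c x hx k
    have e : (linMat (coordIncl b₁) (coordProj b₀ π₀) (c ∘ₗ g)).mulVec y = x := by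
      rw [linMat_mulVec, LinearMap.comp_apply, hx, coordProj_coordIncl hπ₀]
    rw [← e, RingHom.map_mulVec]
    simp [Matrix.mulVec, dotProduct, Function.comp_apply, hv]
  fin_cases j
  · exact key (LinearMap.fst _ _ _) (v 0) (congrArg Prod.fst hgy) i
  · exact key (LinearMap.snd _ _ _) (v 1) (congrArg Prod.snd hgy) i

theorem subOp_spec {B' : NodeBase O p} (Lv' : NodeLevel B' r n) {D : ℕ}
    {P : Submodule Lv'.Λ Lv'.part} {b : Module.Basis (Fin D) Lv'.Λ P} {π : Lv'.part →ₗ[Lv'.Λ] P}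
    (hπ : ∀ x : P, π (x : Lv'.part) = x) {ℓ : Nat.Primes}
    (hst : ∀ x ∈ P, twPart Lv' ℓ x ∈ P) (y : P) :
    ∃ y' : P, twPart Lv' ℓ (y : Lv'.part) = y' ∧
      b.equivFun y' = (subOp Lv' b π ℓ).mulVec (b.equivFun y) := by
  refine ⟨⟨_, hst y y.2⟩, rfl, ?_⟩
  rw [linMat_mulVec, show coordIncl b (b.equivFun y) = (y : Lv'.part) from
    congrArg Subtype.val (b.equivFun.symm_apply_apply y)]
  exact (coordProj_of_mem hπ ⟨_, hst y y.2⟩).symm

end NodeBelow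

end Fermat.Agent.Lifting.Models

end
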