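import Fermat.Agent.Lifting.Models.Summand
import Fermat.Agent.Lifting.Models.StepMat

/-!
# The matrices of a summand given by a basis and a projection

The model of `Summand.ofBasis` has the matrices `subOp` of the twisted operators of the part at
the primes outside the excluded ones.
-/

set_option autoImplicit false

noncomputable section

open IsLocalRing MvPolynomial

namespace Fermat.Agent.Lifting.Models

open RT.Diamond RT.TW RT.Assembly

variable {O : Type} [CommRing O] [IsDomain O] [IsDiscreteValuationRing O]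
  [IsAdicComplete (maximalIdeal O) O] [Finite (ResidueField O)] [CharZero O]
  {p : ℕ} [Fact p.Prime] {B : NodeBase O p} {r n : ℕ} {Lv : NodeLevel B r n} {D : ℕ}

theorem Summand.ofBasis_op (P : Submodule Lv.Λ Lv.part) (b : Module.Basis (Fin D) Lv.Λ P)
    (π : Lv.part →ₗ[Lv.Λ] P) (hπ : ∀ x : P, π x = x)
    (hst : ∀ ℓ : Nat.Primes, (ℓ : ℕ) ∉ Lv.S' → ∀ x : P,
      (⟨_, Lv.twOp_mem_part ℓ (x : Lv.part).2⟩ : Lv.part) ∈ P)
    {ℓ : Nat.Primes} (hℓ : (ℓ : ℕ) ∉ Lv.S') :
    (Summand.ofBasis P b π hπ hst).op ℓ = NodeBelow.subOp Lv b π ℓ := by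
  classical
  refine Matrix.ext_of_mulVec_single fun j => ?_
  refine ((Summand.ofBasis P b π hπ hst).retr_incl _).symm.trans ?_
  rw [← (Summand.ofBasis P b π hπ hst).twOp_incl hℓ, NodeBelow.subOp, linMat_mulVec]
  refine congrArg (fun z => b.equivFun (π z)) (Subtype.ext ?_)
  exact (Lv.idem_apply_of_mem (Lv.twOp_mem_part ℓ
    (b.equivFun.symm (Pi.single j 1) : Lv.part).2)).trans
    (LinearMap.congr_fun (Lv.twOp_eq_heckeAct ℓ) _)

end Fermat.Agent.Lifting.Models

end
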