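import Fermat.Agent.Lifting.Models.Node
import Fermat.Agent.Lifting.Raise.Contracts

/-!
# The nodes of the raising argument

Node `k` has level `L r₀ t₀ … t_{k-1}`; the operators at all excluded primes are left out of the
localisation, so that the parts of consecutive nodes, and of the levels without `p`, correspond
under the degeneracy maps.
-/

set_option autoImplicit false
set_option linter.style.haveILetI false

noncomputable section

open IsLocalRing

namespace Fermat.Agent.Lifting.Models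

open RT.Diamond RT.TW
open Raise (RaiseFrames RaiseLevel)

variable {W : WeierstrassCurve ℤ} {hΔ : W.Δ ≠ 0} {p L : ℕ} [Fact p.Prime]
  {O : Type} [CommRing O] [IsDomain O] [IsDiscreteValuationRing O]
  [IsAdicComplete (maximalIdeal O) O] [Finite (ResidueField O)] [CharZero O]

theorem isUnit_two_of_raise (B : RaiseData W hΔ p L O) : IsUnit (2 : O) := by
  haveI : CharP (ResidueField O) p :=
    (CharP.charP_iff_prime_eq_zero (Fact.out : p.Prime)).2
      (by rw [← map_natCast (residue O), residue_eq_zero_iff]; exact B.hpO)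
  refine (residue_ne_zero_iff_isUnit _).1 ?_
  rw [map_ofNat]
  intro h
  have h2 : ((2 : ℕ) : ResidueField O) = 0 := by exact_mod_cast h
  rw [CharP.cast_eq_zero_iff (ResidueField O) p] at h2
  exact B.hp2 ((Nat.prime_dvd_prime_iff_eq (Fact.out : p.Prime) Nat.prime_two).1 h2)

theorem coverHyp_of_aux (B : RaiseData W hΔ p L O) {M : ℕ} (hM : B.r₀ ∣ M) : CoverHyp O M :=
  B.cover.imp_right fun ⟨q, hq, hqr, hq'⟩ =>
    ⟨isUnit_two_of_raise B, Or.inr ⟨q, hq, hqr.trans hM, hq'⟩⟩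

/-- The node of level `L₁ r₀ ∏ T` for `L₁ ∣ L` and a set `T` of primes to be added; the primes
of `P` are still to be added. -/
def raiseNode (B : RaiseData W hΔ p L O) {L₁ : ℕ} (hL : L₁ ∣ L) (T P : Finset ℕ)
    (hsq : Squarefree (L₁ * B.r₀ * ∏ x ∈ T, x)) (hT : ∀ x ∈ T, x.Prime ∧ x ∈ raiseExcluded W p B.r₀)
    (hP : ∀ x ∈ P, x ∉ T ∧ ¬ x ∣ L * B.r₀) : NodeBase O p where
  M := L₁ * B.r₀ * ∏ x ∈ T, x
  omitted := raiseExcluded W p B.r₀
  S := raiseExcluded W p B.r₀ \ P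
  a := B.a
  hp2 := B.hp2
  hpO := B.hpO
  squarefree := hsq
  level_mem q hq hd := by
    refine Finset.mem_sdiff.2 ?_
    rcases hq.dvd_mul.1 hd with h | h
    · exact ⟨B.level_mem q hq (h.trans (mul_dvd_mul_right hL _)),
        fun hqP => (hP q hqP).2 (h.trans (mul_dvd_mul_right hL _))⟩
    · obtain ⟨x, hx, hqx⟩ := (Prime.dvd_finsetProd_iff hq.prime _).1 h
      obtain rfl := (Nat.prime_dvd_prime_iff_eq hq (hT x hx).1).1 hqx
      exact ⟨(hT q hx).2, fun hqP => (hP q hqP).1 hx⟩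
  cover := coverHyp_of_aux B ((dvd_mul_left _ _).mul_right _)
  nonEis := B.nonEis

variable {B : RaiseData W hΔ p L O} (F : RaiseFrames B)

theorem mem_added_iff {k x : ℕ} :
    x ∈ F.added k ↔ ∃ i : Fin F.m, (i : ℕ) < k ∧ F.q (F.t i) = x := by
  simp [RaiseFrames.added]

theorem mem_pending_iff {k x : ℕ} :
    x ∈ F.pending k ↔ ∃ i : Fin F.m, k ≤ (i : ℕ) ∧ F.q (F.t i) = x := by
  simp [RaiseFrames.pending]

theorem added_facts {k x : ℕ} (hx : x ∈ F.added k) :
    x.Prime ∧ x ∈ raiseExcluded W p B.r₀ ∧ ¬ x ∣ L * B.r₀ := by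
  obtain ⟨i, -, rfl⟩ := (mem_added_iff F).1 hx
  have hs : F.q (F.t i) ∈ raiseSites W p := (F.q_cover _).2 ⟨_, rfl⟩
  obtain ⟨hq, hqp, hqΔ⟩ := (mem_raiseSites_iff hΔ).1 hs
  refine ⟨hq, ?_, fun hd => ?_⟩
  · exact Finset.mem_insert_of_mem (Finset.mem_union_left _ (Finset.mem_of_mem_erase hs))
  · rcases hq.dvd_mul.1 hd with h | h
    · exact (F.t_cover _).1 ⟨i, rfl⟩ h
    · obtain ⟨-, hgood, -⟩ := B.aux _ hq h
      exact hgood hqΔ

theorem pending_facts {k x : ℕ} (hx : x ∈ F.pending k) :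
    x ∉ F.added k ∧ ¬ x ∣ L * B.r₀ := by
  obtain ⟨i, hi, rfl⟩ := (mem_pending_iff F).1 hx
  refine ⟨fun h => ?_, (added_facts F (k := F.m) ((mem_added_iff F).2 ⟨i, i.2, rfl⟩)).2.2⟩
  obtain ⟨j, hj, hji⟩ := (mem_added_iff F).1 h
  have := F.t_inj (F.q_inj hji)
  omega

theorem squarefree_level {L₁ : ℕ} (hL : L₁ ∣ L) (k : ℕ) :
    Squarefree (L₁ * B.r₀ * ∏ x ∈ F.added k, x) := by
  refine Nat.squarefree_mul_iff.2 ⟨Nat.Coprime.prod_right fun x hx => ?_,
    B.squarefree.squarefree_of_dvd (mul_dvd_mul_right hL _), ?_⟩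
  · obtain ⟨hq, -, hnd⟩ := added_facts F hx
    exact (hq.coprime_iff_not_dvd.2 fun h => hnd (h.trans (mul_dvd_mul_right hL _))).symm
  · refine Finset.squarefree_prod_of_pairwise_isCoprime (fun i hi j hj hij => ?_)
      fun i hi => (added_facts F hi).1.prime.squarefree
    exact Nat.coprime_iff_isRelPrime.1
      ((Nat.coprime_primes (added_facts F hi).1 (added_facts F hj).1).2 hij)

/-- Node `k`. -/
def nodeBase (k : ℕ) : NodeBase O p :=
  raiseNode B dvd_rfl (F.added k) (F.pending k) (squarefree_level F dvd_rfl k)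
    (fun _ hx => ⟨(added_facts F hx).1, (added_facts F hx).2.1⟩) fun _ hx => pending_facts F hx

omit [Fact p.Prime] in
theorem levelOff_dvd : (if p ∣ L then L / p else L) ∣ L := by
  split_ifs with h
  · exact Nat.div_dvd_of_dvd h
  · exact dvd_rfl

/-- Node `k` without `p`. -/
def nodeBaseOff (k : ℕ) : NodeBase O p :=
  raiseNode B (levelOff_dvd (p := p) (L := L)) (F.added k) (F.pending k)
    (squarefree_level F (levelOff_dvd (p := p) (L := L)) k)
    (fun _ hx => ⟨(added_facts F hx).1, (added_facts F hx).2.1⟩) fun _ hx => pending_facts F hx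

variable {r n : ℕ} (Q : RaiseLevel B r n)

/-- The Taylor–Wiles primes over node `k`. -/
def nodeLevel (k : ℕ) : NodeLevel (nodeBase F k) r n where
  qv := Q.qv
  inj := Q.inj
  not_mem i h := Q.not_mem i (Finset.mem_sdiff.1 h).1
  not_omitted := Q.not_mem
  e := Q.e
  le_e := Q.le_e
  pos_e := Q.pos_e
  dvd_sub := Q.dvd_sub
  e_max := Q.e_max
  α := Q.α
  root := Q.root
  distinct := Q.distinct

/-- The Taylor–Wiles primes over node `k` without `p`. -/
def nodeLevelOff (k : ℕ) : NodeLevel (nodeBaseOff F k) r n where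
  qv := Q.qv
  inj := Q.inj
  not_mem i h := Q.not_mem i (Finset.mem_sdiff.1 h).1
  not_omitted := Q.not_mem
  e := Q.e
  le_e := Q.le_e
  pos_e := Q.pos_e
  dvd_sub := Q.dvd_sub
  e_max := Q.e_max
  α := Q.α
  root := Q.root
  distinct := Q.distinct

theorem nodeLevel_L (k : ℕ) : (nodeLevel F Q k).L = Q.lev F k := rfl

theorem nodeLevelOff_L (k : ℕ) : (nodeLevelOff F Q k).L = Q.levOff F k := rfl

theorem nodeLevel_S' (k : ℕ) : (nodeLevel F Q k).S' = Q.Sk F k := rfl

theorem nodeLevelOff_S' (k : ℕ) : (nodeLevelOff F Q k).S' = Q.Sk F k := rfl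

theorem mem_G_of_good {k : ℕ} {ℓ : Nat.Primes} (hℓ : (ℓ : ℕ) ∉ Q.Sk F k)
    (hℓ' : (ℓ : ℕ) ∉ raisePrimes W L) : (ℓ : ℕ) ∉ raiseExcluded W p B.r₀ := by
  intro h
  refine hℓ (Finset.mem_union_left _ (Finset.mem_sdiff.2 ⟨h, fun hP => hℓ' ?_⟩))
  obtain ⟨i, -, hi⟩ := (mem_pending_iff F).1 hP
  have hq := (F.q_cover _).2 ⟨F.t i, rfl⟩
  rw [hi] at hq
  have hnd := (F.t_cover (F.t i)).1 ⟨i, rfl⟩
  rw [hi] at hnd
  rw [mem_raisePrimes_iff hΔ (left_ne_zero_of_mul B.squarefree.ne_zero)]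
  obtain ⟨h1, -, h2⟩ := (mem_raiseSites_iff hΔ).1 hq
  exact ⟨h1, h2, hnd⟩

/-- The properties give a model in the sense of the contract. -/
def toContract {k : ℕ} {new : Finset ℕ} {D : ℕ}
    {op : Nat.Primes → Matrix (Fin D) (Fin D) Q.Λ}
    (h : NodeModel (nodeLevel F Q k) new op) :
    Raise.NodeModel Q (Q.Sk F k) (Q.lev F k) new D where
  op := op
  comm := h.comm
  resid ℓ hℓ hℓ' := h.resid ℓ hℓ (mem_G_of_good F Q hℓ hℓ')
  relation S₁ hS _ := h.relation S₁ hS
  eigen S₁ hS _ := h.eigen S₁ hS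

/-- The properties at the level without `p`. -/
def toContractOff {k : ℕ} {new : Finset ℕ} {D : ℕ}
    {op : Nat.Primes → Matrix (Fin D) (Fin D) Q.Λ}
    (h : NodeModel (nodeLevelOff F Q k) new op) :
    Raise.NodeModel Q (Q.Sk F k) (Q.levOff F k) new D where
  op := op
  comm := h.comm
  resid ℓ hℓ hℓ' := h.resid ℓ hℓ (mem_G_of_good F Q hℓ hℓ')
  relation S₁ hS _ := h.relation S₁ hS
  eigen S₁ hS _ := h.eigen S₁ hS

end Fermat.Agent.Lifting.Models

end
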