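import Fermat.Agent.Lifting.Models.NodeRank
import Fermat.Agent.Lifting.Models.FromRaise
import Fermat.Agent.RT.Systems.TrivialChar

/-!
# The bottom and the top of the raising argument

* the part of node `0` is nonzero, the residual system occurring at level `L r₀`;
* an eigenvector of the operators at the augmentation of the top gives an eigen homomorphism on
  `Γ₀` of the top level.
-/

set_option autoImplicit false
set_option linter.style.haveILetI false
set_option maxHeartbeats 400000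

noncomputable section

open IsLocalRing MvPolynomial CongruenceSubgroup

namespace Fermat.Agent.Lifting.Models

open RT.Diamond RT.TW RT.Assembly RT.Systems
open Raise (RaiseFrames RaiseLevel)

variable {O : Type} [CommRing O] [IsDomain O] [IsDiscreteValuationRing O]
  [IsAdicComplete (maximalIdeal O) O] [Finite (ResidueField O)] [CharZero O]
  {p : ℕ} [Fact p.Prime]

omit [IsDomain O] [IsDiscreteValuationRing O] [IsAdicComplete (maximalIdeal O) O]
  [Finite (ResidueField O)] [CharZero O] [Fact p.Prime] in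
/-- An eigenvector with the residual eigenvalues is fixed by the idempotent. -/
theorem eigen_fixed {k : Type} [Field k] {M : ℕ} {G : Set Nat.Primes} {a : Nat.Primes → k}
    (ha : ∀ ℓ, ℓ ∉ G → a ℓ = 0) {e : Module.End k (heckeH1 (1 : MulChar (ZMod 1) k) M (one_dvd M))}
    (he : IsLocalIdem (heckeActOn (1 : MulChar (ZMod 1) k) (one_dvd M) G)
      (residualIdeal (RingHom.id k) a) e)
    {y : heckeH1 (1 : MulChar (ZMod 1) k) M (one_dvd M)}
    (hy : ∀ ℓ ∈ G, heckeOp (1 : MulChar (ZMod 1) k) (one_dvd M) ℓ y = a ℓ • y) : e y = y := by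
  have hact : ∀ P, heckeActOn (1 : MulChar (ZMod 1) k) (one_dvd M) G P y = eval a P • y := fun P => by
    induction P using MvPolynomial.induction_on with
    | C v => rw [heckeActOn_C, eval_C]; rfl
    | add P Q hP hQ => rw [map_add, LinearMap.add_apply, hP, hQ, map_add, add_smul]
    | mul_X P ℓ hP =>
      rw [map_mul, Module.End.mul_apply]
      by_cases hℓ : ℓ ∈ G
      · rw [heckeActOn_X _ hℓ, hy ℓ hℓ, map_smul, hP, smul_smul, map_mul, eval_X]
        exact congrArg (· • y) (mul_comm _ _)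
      · rw [heckeActOn_apply _ _ (X ℓ), killOff_X_of_notMem hℓ, map_zero, LinearMap.zero_apply,
          map_zero, map_mul, eval_X, ha ℓ hℓ, mul_zero, zero_smul]
  obtain ⟨s, hs, hid⟩ := he.compl
  obtain ⟨q, hq⟩ := he.mem
  have hs0 : eval a s = 0 := hs
  have h1 := LinearMap.congr_fun hid y
  rw [Module.End.mul_apply, LinearMap.sub_apply, Module.End.one_apply, ← hq, hact q, map_sub,
    map_smul, hact s, hs0, zero_smul, smul_zero, sub_zero] at h1
  rw [← hq, hact q]
  exact (sub_eq_zero.1 h1.symm).symm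

namespace NodeBase

variable (B : NodeBase O p)

/-- The part is nonzero when the residual system occurs over the residue field. -/
theorem baseRank_pos_of_occurs {M : ℕ} (hM : B.M = M)
    (y : heckeH1 (1 : MulChar (ZMod 1) (ResidueField O)) M (one_dvd M)) (hy0 : y ≠ 0)
    (hy : ∀ ℓ ∈ B.G, heckeOp (1 : MulChar (ZMod 1) (ResidueField O)) (one_dvd M) ℓ y = B.a ℓ • y) :
    0 < B.baseRank := by
  subst hM
  have hΦ : ∀ a : ℤ, IsUnit (a : ZMod 1) → residue O ((1 : MulChar (ZMod 1) O) (a : ZMod 1)) =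
      (1 : MulChar (ZMod 1) (ResidueField O)) (a : ZMod 1) := fun a _ => by
    rw [MulChar.one_apply (isUnit_of_subsingleton _), MulChar.one_apply (isUnit_of_subsingleton _),
      map_one]
  haveI : IsLocalHom (residue O) := IsLocalHom.of_surjective _ residue_surjective
  haveI := finite_heckeH1 (Φ := (1 : MulChar (ZMod 1) O)) (one_dvd B.M) B.cover
  haveI := finite_heckeH1 (Φ := (1 : MulChar (ZMod 1) (ResidueField O))) (one_dvd B.M)
    (B.cover.map (residue O))
  haveI := residualIdeal_isMaximal (RingHom.id (ResidueField O)) Function.surjective_id B.a₀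
  obtain ⟨ek, hek⟩ := exists_isLocalIdem
    (heckeActOn (1 : MulChar (ZMod 1) (ResidueField O)) (one_dvd B.M) B.G)
    (residualIdeal (RingHom.id (ResidueField O)) B.a₀)
  have hey : ek y = y := eigen_fixed B.a₀_of_notMem hek fun ℓ hℓ => by
    rw [hy ℓ hℓ, B.a₀_of_mem hℓ]
  obtain ⟨x, hx⟩ := RT.Assembly.Models.red_surjective (h := one_dvd B.M) (h₀ := one_dvd B.M)
    hΦ B.cover residue_surjective y
  have hnat := B.baseIdem_spec.natural hek
    (RT.Assembly.Models.red (residue O) (one_dvd B.M) (one_dvd B.M) hΦ)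
    (MvPolynomial.map (residue O)) (MvPolynomial.map_surjective _ residue_surjective)
    (fun P z => by
      rw [heckeActOn_apply, heckeActOn_apply, RT.Assembly.Models.red_heckeAct, map_killOff])
    (fun P => by
      rw [mem_residualIdeal_iff, mem_residualIdeal_iff, coe_eval₂Hom, coe_eval₂Hom, eval₂_map,
        RingHom.id_comp])
  haveI := B.free_basePart.1
  haveI := B.free_basePart.2
  refine Module.finrank_pos_iff_exists_ne_zero.2 ⟨⟨B.baseIdem x, x, rfl⟩, fun h0 => hy0 ?_⟩
  have h1 : B.baseIdem x = 0 := congrArg Subtype.val h0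
  have h2 := hnat x
  rw [h1, map_zero, hx, hey] at h2
  exact h2.symm

/-- An eigenvector of the operators of the part gives an eigen homomorphism on `Γ₀` of the
level. -/
theorem exists_eigenHom {M : ℕ} (hM : B.M = M) (X₀ : Finset ℕ) (c : Nat.Primes → O)
    (w : Fin B.baseRank → O) (hw : w ≠ 0)
    (h : ∀ ℓ : Nat.Primes, (ℓ : ℕ) ∉ X₀ → (B.baseOp ℓ).mulVec w = c ℓ • w) :
    ∃ φ : Additive (Gamma0 M) →+ FractionRing O, φ ≠ 0 ∧
      ∀ (ℓ : ℕ) (hℓ : ℓ.Prime), ℓ ∉ X₀ → ∀ x,
        Periods.heckeHom ℤ (FractionRing O) hℓ φ x =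
          algebraMap O (FractionRing O) (c ⟨ℓ, hℓ⟩) * φ x := by
  subst hM
  let x : B.basePart := B.baseBasis.equivFun.symm w
  have hx0 : x ≠ 0 := fun h0 => hw ((LinearEquiv.map_eq_zero_iff _).1 h0)
  have hop : ∀ ℓ : Nat.Primes, (ℓ : ℕ) ∉ X₀ → B.baseHecke ℓ x = c ℓ • x := fun ℓ hℓ => by
    refine B.baseBasis.equivFun.injective ?_
    rw [map_smul, show B.baseBasis.equivFun x = w from LinearEquiv.apply_symm_apply _ w, ← h ℓ hℓ,
      show w = ⇑(B.baseBasis.repr x) from (B.baseBasis.equivFun.apply_symm_apply w).symm]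
    exact (LinearMap.toMatrix_mulVec_repr B.baseBasis B.baseBasis (B.baseHecke ℓ) x).symm
  let φ₀ := homOfClass (A := O) (R := B.M) (x : B.H0)
  refine ⟨(algebraMap O (FractionRing O)).toAddMonoidHom.comp φ₀, fun h0 => hx0 ?_,
    fun ℓ hℓ hℓX γ => ?_⟩
  · refine Subtype.ext (homOfClass_injective (A := O) (R := B.M) ?_)
    refine AddMonoidHom.ext fun γ => ?_
    rw [show ((0 : B.basePart) : B.H0) = 0 from rfl, map_zero, AddMonoidHom.zero_apply]
    exact IsFractionRing.injective O (FractionRing O) ((DFunLike.congr_fun h0 γ).trans (map_zero _).symm)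
  · rw [Periods.heckeHom_comp]
    have e1 : heckeOp (1 : MulChar (ZMod 1) O) (one_dvd B.M) ⟨ℓ, hℓ⟩ (x : B.H0) =
        c ⟨ℓ, hℓ⟩ • (x : B.H0) := congrArg Subtype.val (hop ⟨ℓ, hℓ⟩ hℓX)
    have e2 : Periods.heckeHom ℤ O hℓ φ₀ = c ⟨ℓ, hℓ⟩ • φ₀ := by
      show Periods.heckeHom O O hℓ φ₀ = _
      rw [← homOfClass_heckeOp ⟨ℓ, hℓ⟩, e1, map_smul]
    show algebraMap O (FractionRing O) (Periods.heckeHom ℤ O hℓ φ₀ γ) = _
    rw [e2, AddMonoidHom.smul_apply, smul_eq_mul, map_mul]
    rfl

end NodeBase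

variable {W : WeierstrassCurve ℤ} {hΔ : W.Δ ≠ 0} {L : ℕ} {B : RaiseData W hΔ p L O}
  (F : RaiseFrames B)

theorem nodeBase_zero_M : (nodeBase F 0).M = L * B.r₀ := by
  show L * B.r₀ * ∏ x ∈ F.added 0, x = L * B.r₀
  rw [Finset.eq_empty_of_forall_notMem (s := F.added 0) fun x hx => by
    obtain ⟨i, hi, -⟩ := (mem_added_iff F).1 hx
    exact absurd hi (Nat.not_lt_zero _), Finset.prod_empty, mul_one]

/-- The part of node `0` is nonzero. -/
theorem baseRank_nodeBase_pos : 0 < (nodeBase F 0).baseRank := by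
  obtain ⟨y, hy0, hy⟩ := B.occurs
  exact (nodeBase F 0).baseRank_pos_of_occurs (nodeBase_zero_M F) y hy0 fun ℓ _ => hy ℓ

/-- An eigenvector of the operators at the augmentation of the top gives an eigen class of the
top level. -/
theorem exists_topHom (c : Nat.Primes → O) (w : Fin (nodeBase F F.m).baseRank → O) (hw : w ≠ 0)
    (h : ∀ ℓ : Nat.Primes, (ℓ : ℕ) ∉ raiseExcluded W p B.r₀ →
      ((nodeBase F F.m).baseOp ℓ).mulVec w = c ℓ • w) :
    ∃ φ : Additive (Gamma0 F.topLevel) →+ FractionRing O, φ ≠ 0 ∧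
      ∀ (ℓ : ℕ) (hℓ : ℓ.Prime), ℓ ∉ raiseExcluded W p B.r₀ → ∀ x,
        Periods.heckeHom ℤ (FractionRing O) hℓ φ x =
          algebraMap O (FractionRing O) (c ⟨ℓ, hℓ⟩) * φ x :=
  (nodeBase F F.m).exists_eigenHom (M := F.topLevel) rfl _ c w hw h

end Fermat.Agent.Lifting.Models

end
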