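import Fermat.Agent.RT.Systems.Depleted
import Fermat.Agent.Periods.Integral
import Fermat.Agent.RT.Assembly.Points
import Mathlib.RingTheory.IntegralClosure.Algebra.Basic
import Mathlib.FieldTheory.Minpoly.Basic

/-!
# The operator at a prime off the level has no eigenvalue `± (q + 1)` on cusp forms

If `T_q f = ε (q + 1) f` with `ε² = 1` then `f | V_q - ε f` has norm zero, so `f = 0`. Hence the
operator `formOp` at `q` is a root of a monic integral polynomial which does not vanish at
`± (q + 1)`.
-/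

set_option autoImplicit false
set_option linter.style.haveILetI false

noncomputable section

namespace Fermat.Agent.Lifting.Models

open CongruenceSubgroup ModularFormClass UpperHalfPlane Polynomial
open scoped MatrixGroups ModularForm ComplexConjugate
open RT.Systems (diagForm qCoeff_diagForm petPair_add_right' petPair_heckeU_left gamma0_slash
  T_zpow_mem_gamma0)

variable {q R : ℕ} [Fact q.Prime] [NeZero R]

theorem eq_zero_of_heckeTLin_eq (hqR : ¬ q ∣ R) {f : CuspForm (Gamma0 R) 2} {ε : ℤ}
    (hε : ε * ε = 1)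
    (hT : CuspForm.heckeTLin 2 (Fact.out : q.Prime) hqR f = ((ε * ((q : ℤ) + 1) : ℤ) : ℂ) • f) :
    f = 0 := by
  have hq := (Fact.out : q.Prime)
  haveI : NeZero q := ⟨hq.ne_zero⟩
  haveI : NeZero (R * q) := ⟨mul_ne_zero (NeZero.ne R) hq.ne_zero⟩
  set e : ℂ := (ε : ℂ) with he
  have hee : e * e = 1 := by rw [he, ← Int.cast_mul, hε, Int.cast_one]
  have hec : conj e = e := by rw [he]; exact map_intCast _ ε
  have hq0 : (q : ℂ) ≠ 0 := Nat.cast_ne_zero.2 hq.ne_zero
  have hq1 : (q : ℂ) - 1 ≠ 0 := by
    rw [sub_ne_zero]; exact_mod_cast hq.ne_one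
  set g : CuspForm (Gamma0 (R * q)) 2 := BadPrime.levelIncl (dvd_mul_right R q) f
  set v : CuspForm (Gamma0 (R * q)) 2 := diagForm (dvd_refl (R * q)) f
  have hU : CuspForm.heckeULin 2 (dvd_mul_left q R) g = (e * ((q : ℂ) + 1)) • g + (-1 : ℂ) • v := by
    refine Periods.ext_qCoeff fun n => ?_
    have h := congrArg (fun x : CuspForm (Gamma0 R) 2 => qCoeff x n) hT
    simp only [Periods.qCoeff_smul] at h
    rw [Hecke.qCoeff_heckeTLin] at h
    rw [Periods.qCoeff_heckeULin hq (dvd_mul_left q R), Periods.qCoeff_add, Periods.qCoeff_smul,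
      Periods.qCoeff_smul, BadPrime.coe_levelIncl, qCoeff_diagForm]
    push_cast at h
    simp only [ModularForm.coeffHeckeT] at h
    split_ifs at h ⊢ <;> simp at h <;> linear_combination h
  have hfa := Hecke.isAdmissible_cuspForm f
  have hda := hfa.slash (Hecke.isRatPos_heckeDiagMatrix hq.ne_zero)
  set F := Hecke.petPair 2 (⇑f) (⇑f)
  set X := Hecke.petPair 2 (⇑f) (⇑f ∣[(2 : ℤ)] ModularForm.heckeDiagMatrix q) with hX
  have hF : conj F = F := Hecke.petPair_conj hfa hfa
  have hY : Hecke.petPair 2 (⇑f ∣[(2 : ℤ)] ModularForm.heckeDiagMatrix q) (⇑f) = conj X :=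
    (Hecke.petPair_conj hfa hda).symm
  have e1 : (q : ℂ) * X + conj X = e * ((q : ℂ) + 1) * F := by
    have h := petPair_heckeU_left hq.ne_zero hfa hfa
      (fun j => gamma0_slash f (T_zpow_mem_gamma0 _ j))
    have hc : (⇑g : ℍ → ℂ) = ⇑f := rfl
    rw [← hc, ← CuspForm.coe_heckeULin_apply 2 (dvd_mul_left q R) g, hU,
      show (⇑((e * ((q : ℂ) + 1)) • g + (-1 : ℂ) • v) : ℍ → ℂ) =
        (e * ((q : ℂ) + 1)) • ⇑f + (-1 : ℂ) • (⇑f ∣[(2 : ℤ)] ModularForm.heckeDiagMatrix q)
        from rfl,
      hc, Hecke.petPair_add_left (hfa.smul _) (hda.smul _) hfa,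
      Hecke.petPair_smul_left hfa hfa, Hecke.petPair_smul_left hda hfa, hY, ← hX] at h
    simp only [map_mul, map_add, map_natCast, map_one, map_neg, hec] at h
    linear_combination -h
  have hXc : conj X = X := by
    have e2 := congrArg conj e1
    simp only [map_mul, map_add, map_natCast, map_one, Complex.conj_conj, hec, hF] at e2
    refine mul_left_cancel₀ hq1 ?_
    linear_combination e2 - e1
  have hXe : X = e * F := by
    refine mul_left_cancel₀ (a := (q : ℂ) + 1) (by exact_mod_cast (Nat.succ_ne_zero q)) ?_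
    rw [hXc] at e1
    linear_combination e1
  set w : CuspForm (Gamma0 (R * q)) 2 := v + (-e) • g
  have hw : w = 0 := by
    refine Hecke.petInner_self_eq_zero ?_
    show Hecke.petPair 2 (⇑w) (⇑w) = 0
    rw [show (⇑w : ℍ → ℂ) = ⇑f ∣[(2 : ℤ)] ModularForm.heckeDiagMatrix q + (-e) • ⇑f from rfl,
      Hecke.petPair_add_left hda (hfa.smul _) (hda.add (hfa.smul _)),
      petPair_add_right' hda hda (hfa.smul _), Hecke.petPair_smul_left hfa (hda.add (hfa.smul _)),
      petPair_add_right' hfa hda (hfa.smul _), Hecke.petPair_smul_right hda hfa,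
      Hecke.petPair_smul_right hfa hfa, hY,
      show Hecke.petPair 2 (⇑f ∣[(2 : ℤ)] ModularForm.heckeDiagMatrix q)
        (⇑f ∣[(2 : ℤ)] ModularForm.heckeDiagMatrix q) = F from by
          rw [Hecke.petPair_slash hfa hfa (Hecke.isRatPos_heckeDiagMatrix hq.ne_zero)]; simp [F],
      hXc, ← hX, hXe]
    simp only [map_neg, hec]
    linear_combination (-F) * hee
  have hco : ∀ n, (if q ∣ n then (q : ℂ) * qCoeff f (n / q) else 0) = e * qCoeff f n := fun n => by
    have h := congrArg (fun x : CuspForm (Gamma0 (R * q)) 2 => qCoeff x n) hw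
    simp only [w, v, g, Periods.qCoeff_add, Periods.qCoeff_smul, qCoeff_diagForm,
      BadPrime.coe_levelIncl, Hecke.qCoeff_zero] at h
    linear_combination h
  have he0 : e ≠ 0 := left_ne_zero_of_mul_eq_one hee
  refine Periods.ext_qCoeff fun n => ?_
  rw [Hecke.qCoeff_zero]
  induction n using Nat.strong_induction_on with
  | _ n ih =>
    have h := hco n
    rcases Nat.eq_zero_or_pos n with rfl | hn
    · rw [if_pos (dvd_zero q), Nat.zero_div] at h
      have hne : (q : ℂ) - e ≠ 0 := by
        rw [sub_ne_zero, he]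
        intro hh
        have h' : (q : ℤ) = ε := by exact_mod_cast hh
        rw [← h'] at hε
        have := hq.two_le
        nlinarith
      exact (mul_eq_zero.1 (show ((q : ℂ) - e) * qCoeff f 0 = 0 by
        linear_combination h)).resolve_left hne
    · split_ifs at h with hd
      · rw [ih _ (Nat.div_lt_self hn hq.one_lt), mul_zero] at h
        exact (mul_eq_zero.1 h.symm).resolve_left he0
      · exact (mul_eq_zero.1 h.symm).resolve_left he0

/-- A monic integral polynomial killing the operator at `q` and nonzero at `± (q + 1)`. -/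
theorem exists_monic_formOp (S : Finset ℕ) (hqR : ¬ q ∣ R) (hqS : q ∉ S) :
    ∃ P : ℤ[X], P.Monic ∧
      Polynomial.aeval (RT.Assembly.formOp R S ⟨q, Fact.out⟩) P = 0 ∧
      P.eval ((q : ℤ) + 1) ≠ 0 ∧ P.eval (-((q : ℤ) + 1)) ≠ 0 := by
  classical
  set T := RT.Assembly.formOp R S ⟨q, Fact.out⟩
  haveI := Periods.moduleFinite_heckeAlgebra_two (N := R) (↑S : Set ℕ)
  have hint : IsIntegral ℤ T := IsIntegral.of_finite ℤ T
  refine ⟨minpoly ℤ T, minpoly.monic hint, minpoly.aeval ℤ T, ?_, ?_⟩ <;>
  · intro h0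
    obtain ⟨G, hG⟩ := dvd_iff_isRoot.2 (show (minpoly ℤ T).IsRoot _ from h0)
    have hGm : G.Monic := by
      have hm := minpoly.monic hint
      rw [hG] at hm
      exact Monic.of_mul_monic_left (monic_X_sub_C _) hm
    have hdeg : G.degree < (minpoly ℤ T).degree := by
      rw [hG, degree_mul, degree_X_sub_C, degree_eq_natDegree hGm.ne_zero]
      exact_mod_cast (show G.natDegree < 1 + G.natDegree by omega)
    have hz := congrArg (Polynomial.aeval T) hG
    rw [minpoly.aeval, map_mul, map_sub, aeval_X, aeval_C] at hz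
    refine absurd (minpoly.min ℤ T hGm ?_) (not_le.2 hdeg)
    refine Subtype.ext (LinearMap.ext fun x => ?_)
    have hzx := LinearMap.congr_fun (congrArg Subtype.val hz).symm x
    rw [MulMemClass.coe_mul, Module.End.mul_apply, AddSubgroupClass.coe_sub, LinearMap.sub_apply,
      SubalgebraClass.coe_algebraMap, Module.algebraMap_end_apply, ZeroMemClass.coe_zero,
      LinearMap.zero_apply, sub_eq_zero] at hzx
    have hcoe : (T : Module.End ℂ (CuspForm (Gamma0 R) 2)) =
        CuspForm.heckeTLin 2 (Fact.out : q.Prime) hqR := by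
      simp only [T, RT.Assembly.formOp]
      rw [dif_pos ⟨hqR, show q ∉ (↑S : Set ℕ) from hqS⟩]
      exact CuspForm.heckeAlgebra.coe_T _ _ _
    rw [hcoe, ← Int.cast_smul_eq_zsmul ℂ] at hzx
    rw [ZeroMemClass.coe_zero, LinearMap.zero_apply]
    first
      | exact eq_zero_of_heckeTLin_eq hqR (ε := 1) (one_mul 1) (by simpa using hzx)
      | exact eq_zero_of_heckeTLin_eq hqR (ε := -1) (by norm_num) (by simpa using hzx)

end Fermat.Agent.Lifting.Models

end
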