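import Fermat.Agent.Lifting.Raise.Contracts
import Fermat.Agent.Lifting.Models.Edges.Linear
import Fermat.Agent.Lifting.Models.EdgeBound
import Mathlib.Algebra.Ring.Subring.Basic

/-!
# The cokernel of the maps up at a raised prime

* `exists_split_matrices`: two maps up, jointly injective modulo the maximal ideal, split; the
  cokernel is free of rank `D₁ - 2 D₀`.
* `exists_quasiInverse`: on the lower node the determinant of `degMatrix` has an inverse up to a
  nonzero integer, as `T_t` has no eigenvalue `± (t + 1)` on cusp forms.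
* `cokerNode`: the contract model of the cokernel, new at `t` besides the primes of the upper node:
  a system on it is carried by the joint kernel of the maps down.
-/

set_option autoImplicit false
set_option linter.style.haveILetI false
set_option linter.deprecated false

noncomputable section

open IsLocalRing Matrix

namespace Fermat.Agent.Lifting.Models

open RT.Diamond
open RT.Assembly (IsExactLevel IsNewformSystem formOp)
open Raise (RaiseLevel degMatrix)

section Split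

variable {A : Type*} [CommRing A] [IsLocalRing A]

/-- Two maps up which are jointly injective modulo the maximal ideal split. -/
theorem exists_split_matrices {D₀ D₁ : ℕ} (up : Fin 2 → Matrix (Fin D₁) (Fin D₀) A)
    (h : ∀ v : Fin 2 → Fin D₀ → A, (∀ i, (∑ j, up j *ᵥ v j) i ∈ maximalIdeal A) →
      ∀ j i, v j i ∈ maximalIdeal A) :
    2 * D₀ ≤ D₁ ∧ ∃ (quot : Matrix (Fin (D₁ - 2 * D₀)) (Fin D₁) A)
      (sec : Matrix (Fin D₁) (Fin (D₁ - 2 * D₀)) A)
      (split : Fin 2 → Matrix (Fin D₀) (Fin D₁) A),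
      quot * sec = 1 ∧ (∀ j, quot * up j = 0) ∧ ∑ j, up j * split j + sec * quot = 1 := by
  classical
  let f : (Fin 2 → Fin D₀ → A) →ₗ[A] (Fin D₁ → A) :=
    ∑ j, (up j).mulVecLin ∘ₗ LinearMap.proj j
  have hf : ∀ v, f v = ∑ j, up j *ᵥ v j := fun v => by simp [f]
  have hmem : ∀ (m : ℕ) (x : Fin m → A),
      x ∈ maximalIdeal A • (⊤ : Submodule A (Fin m → A)) ↔ ∀ i, x i ∈ maximalIdeal A := by
    intro m x
    refine ⟨fun hx i => ?_, fun hx => ?_⟩
    · refine Submodule.smul_induction_on hx (fun a ha z _ => ?_) fun y z hy hz => add_mem hy hz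
      exact Ideal.mul_mem_right _ _ ha
    · rw [← Finset.univ_sum_single x]
      refine Submodule.sum_mem _ fun i _ => ?_
      rw [← mul_one (x i), ← smul_eq_mul, Pi.single_smul]
      exact Submodule.smul_mem_smul (hx i) Submodule.mem_top
  obtain ⟨g, hg⟩ := exists_leftInverse_of_injective_mod f fun v hv => by
    have hv' := h v fun i => by rw [← hf]; exact (hmem _ _).1 hv i
    rw [← Finset.univ_sum_single v]
    refine Submodule.sum_mem _ fun j _ => ?_
    have := Submodule.mem_map_of_mem (f := LinearMap.single A (fun _ : Fin 2 => Fin D₀ → A) j)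
      ((hmem _ (v j)).2 (hv' j))
    rw [Submodule.map_smul''] at this
    exact Submodule.smul_mono le_rfl le_top this
  obtain ⟨C, q, hfree, hfin, hrank, hfix, hqf, hsplit⟩ := exists_complement_of_leftInverse f g hg
  rw [Module.finrank_pi_fintype, Module.finrank_fin_fun, Module.finrank_fin_fun, Finset.sum_const,
    Finset.card_univ, Fintype.card_fin, smul_eq_mul] at hrank
  refine ⟨by omega, ?_⟩
  let b : Module.Basis (Fin (D₁ - 2 * D₀)) A C :=
    (Module.Free.chooseBasis A C).reindex (Fintype.equivFinOfCardEq (by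
      rw [← Module.finrank_eq_card_chooseBasisIndex]; omega))
  let qv : (Fin D₁ → A) →ₗ[A] (Fin (D₁ - 2 * D₀) → A) := b.equivFun.toLinearMap ∘ₗ q
  let sv : (Fin (D₁ - 2 * D₀) → A) →ₗ[A] (Fin D₁ → A) := C.subtype ∘ₗ b.equivFun.symm.toLinearMap
  refine ⟨LinearMap.toMatrix' qv, LinearMap.toMatrix' sv,
    fun j => LinearMap.toMatrix' (LinearMap.proj j ∘ₗ g), ?_, fun j => ?_, ?_⟩
  · rw [← LinearMap.toMatrix'_comp, ← LinearMap.toMatrix'_id]
    refine congrArg _ (LinearMap.ext fun x => ?_)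
    show b.equivFun (q (b.equivFun.symm x : C)) = x
    rw [hfix, LinearEquiv.apply_symm_apply]
  · rw [← LinearMap.toMatrix'_toLin' (up j), ← LinearMap.toMatrix'_comp,
      ← map_zero (LinearMap.toMatrix' (R := A) (m := Fin (D₁ - 2 * D₀)) (n := Fin D₀))]
    refine congrArg _ (LinearMap.ext fun x => ?_)
    show b.equivFun (q (up j *ᵥ x)) = 0
    have hx : f (Pi.single j x) = up j *ᵥ x := by
      rw [hf, Finset.sum_eq_single j (fun i _ hi => by rw [Pi.single_eq_of_ne hi, mulVec_zero])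
        (by simp), Pi.single_eq_same]
    rw [← hx, hqf, map_zero]
  · simp only [← LinearMap.toMatrix'_comp]
    conv_lhs => arg 1; arg 2; ext j; rw [← LinearMap.toMatrix'_toLin' (up j),
      ← LinearMap.toMatrix'_comp]
    rw [← map_sum, ← map_add, ← LinearMap.toMatrix'_id]
    refine congrArg _ (LinearMap.ext fun x => ?_)
    simp only [LinearMap.add_apply, LinearMap.coe_sum, Finset.sum_apply, LinearMap.id_coe, id_eq]
    show (∑ j, up j *ᵥ g x j) + ((b.equivFun.symm (b.equivFun (q x)) : C) : Fin D₁ → A) = x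
    rw [LinearEquiv.symm_apply_apply, ← hf, hsplit]

end Split

section Quasi

/-- A root of a monic integral polynomial not vanishing at `± s`: `s² - T²` has an inverse up to a
nonzero integer, made of polynomials in `T`. -/
theorem exists_quasiInverse_of_poly {R : Type*} [Ring R] (T : R) (s : ℤ) (P : Polynomial ℤ)
    (hT : Polynomial.aeval T P = 0) (h1 : P.eval s ≠ 0) (h2 : P.eval (-s) ≠ 0) :
    ∃ (a : ℤ) (G : R), a ≠ 0 ∧ G * ((s : R) * (s : R) - T * T) = (a : R) ∧
      ∀ X, Commute X T → Commute X G := by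
  obtain ⟨H, hH⟩ := Polynomial.X_sub_C_dvd_sub_C_eval (a := s) (p := P)
  obtain ⟨H', hH'⟩ := Polynomial.X_sub_C_dvd_sub_C_eval (a := -s) (p := P)
  have e1 := congrArg (Polynomial.aeval T) hH
  have e2 := congrArg (Polynomial.aeval T) hH'
  simp only [map_sub, map_mul, hT, Polynomial.aeval_X, eq_intCast,
    map_intCast, zero_sub, sub_neg_eq_add, map_neg, map_add] at e1 e2
  set A₁ := Polynomial.aeval T H
  set A₂ := Polynomial.aeval T H'
  have hc : ∀ K : Polynomial ℤ, ∀ X, Commute X T → Commute X (Polynomial.aeval T K) := fun K X hX => by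
    induction K using Polynomial.induction_on' with
    | add p q hp hq => rw [map_add]; exact hp.add_right hq
    | monomial n a =>
      rw [Polynomial.aeval_monomial, eq_intCast]
      exact (Int.cast_commute a X).symm.mul_right (hX.pow_right n)
  refine ⟨-(P.eval s * P.eval (-s)), A₂ * A₁, neg_ne_zero.2 (mul_ne_zero h1 h2), ?_,
    fun X hX => (hc H' X hX).mul_right (hc H X hX)⟩
  have hTA : Commute T A₁ := hc H T (Commute.refl T)
  have hTA' : Commute T A₂ := hc H' T (Commute.refl T)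
  have hsA : Commute (s : R) A₂ := Int.cast_commute s A₂
  have hsT : Commute (s : R) T := Int.cast_commute s T
  have hA1 : A₁ * ((s : R) - T) = ((P.eval s : ℤ) : R) := by
    have : ((T : R) - s) * A₁ = A₁ * ((T : R) - s) :=
      (hTA.sub_left (Int.cast_commute s A₁)).eq
    rw [← neg_sub, mul_neg, ← this, ← e1, neg_neg]
  have hA2 : A₂ * ((s : R) + T) = -((P.eval (-s) : ℤ) : R) := by
    rw [add_comm, ← (hTA'.add_left hsA).eq, ← e2]
  rw [hsT.mul_self_sub_mul_self_eq, mul_assoc]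
  calc A₂ * (A₁ * (((s : R) + T) * ((s : R) - T)))
      = A₂ * ((s : R) + T) * (A₁ * ((s : R) - T)) := by
        have : Commute A₁ ((s : R) + T) := ((Int.cast_commute s A₁).symm.add_right hTA.symm)
        rw [← mul_assoc A₁, this.eq, mul_assoc, ← mul_assoc A₂]
    _ = _ := by
        rw [hA1, hA2, neg_mul, ← Int.cast_mul, ← Int.cast_neg, mul_comm]

theorem eval₂Hom_aeval_X {σ C : Type*} [CommRing C] (f : σ → C) (v : σ) (P : Polynomial ℤ) :
    MvPolynomial.eval₂Hom (Int.castRingHom C) f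
        (Polynomial.aeval (MvPolynomial.X v : MvPolynomial σ ℤ) P) = Polynomial.aeval (f v) P := by
  induction P using Polynomial.induction_on' with
  | add p q hp hq => simp only [map_add, hp, hq]
  | monomial n a =>
    rw [Polynomial.aeval_monomial, Polynomial.aeval_monomial, map_mul, map_pow,
      MvPolynomial.eval₂Hom_X', eq_intCast, eq_intCast, map_intCast]


/-- A matrix `[[s, T], [T, s]]` and its adjugate times an inverse of the determinant. -/
theorem sum_adjugate {R : Type*} [Ring R] {s T G a : R} (hsT : Commute s T) (hsG : Commute s G)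
    (hTG : Commute T G) (hG : G * (s * s - T * T) = a) (j l : Fin 2) :
    (∑ i, G * !![s, -T; -T, s] j i * !![s, T; T, s] i l = if j = l then a else 0) ∧
      (∑ i, !![s, T; T, s] j i * (G * !![s, -T; -T, s] i l) = if j = l then a else 0) := by
  have hd : G * (s * s) - G * (T * T) = a := by rw [← mul_sub, hG]
  have ho : G * (s * T) = G * (T * s) := by rw [hsT.eq]
  refine ⟨?_, ?_⟩ <;> fin_cases j <;> fin_cases l <;>
    simp [Fin.sum_univ_two, ← mul_assoc, hsG.eq, hTG.eq] <;>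
    simp only [mul_assoc, ← sub_eq_add_neg, neg_add_eq_sub, hd, ho, sub_self]

theorem commute_adjugate {R : Type*} [Ring R] {s T x : R} (hs : Commute s x) (hT : Commute T x)
    (j i : Fin 2) : Commute (!![s, -T; -T, s] j i) x := by
  fin_cases j <;> fin_cases i <;> simp [hs, hT.neg_left]

theorem intCast_mul_matrix {A : Type*} [CommRing A] {m k : Type*} [Fintype m] [DecidableEq m]
    (a : ℤ) (M : Matrix m k A) : (a : Matrix m m A) * M = a • M := by
  rw [← zsmul_one, Matrix.smul_mul, Matrix.one_mul]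

theorem matrix_mul_intCast {A : Type*} [CommRing A] {m k : Type*} [Fintype m] [DecidableEq m]
    (a : ℤ) (M : Matrix k m A) : M * (a : Matrix m m A) = a • M := by
  rw [← zsmul_one, Matrix.mul_smul, Matrix.mul_one]

/-- A multiple of the projection to the joint kernel of two maps whose composites with two maps
the other way have a quasi inverse. -/
theorem exists_projection {A : Type} [CommRing A] {m k : Type} [Fintype m] [DecidableEq m]
    [Fintype k] [DecidableEq k] (T G : Matrix m m A) (t : ℕ) (a : ℤ)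
    (hG : G * (((t : Matrix m m A) + 1) * ((t : Matrix m m A) + 1) - T * T) = (a : Matrix m m A))
    (hGc : ∀ X, Commute X T → Commute X G)
    (up : Fin 2 → Matrix k m A) (down : Fin 2 → Matrix m k A)
    (hcomp : ∀ i j, down i * up j = degMatrix t T i j) :
    ∃ π : Matrix k k A, (∀ l, down l * π = 0) ∧ (∀ l, π * up l = 0) ∧
      (∀ {C : ℕ} (quot : Matrix (Fin C) k A), (∀ j, quot * up j = 0) → quot * π = a • quot) ∧
      ∀ (u₀ : Matrix m m A) (u₁ : Matrix k k A), Commute u₀ T →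
        (∀ j, up j * u₀ = u₁ * up j) → (∀ i, down i * u₁ = u₀ * down i) → π * u₁ = u₁ * π := by
  set s : Matrix m m A := (t : Matrix m m A) + 1
  have hst : Commute s T := (Nat.cast_commute t T).add_left (Commute.one_left T)
  have hsG : Commute s G := hGc _ hst
  have hTG : Commute T G := hGc T (Commute.refl T)
  have hdeg : degMatrix t T = !![s, T; T, s] := rfl
  let Z : Fin 2 → Fin 2 → Matrix m m A := fun j i => G * !![s, -T; -T, s] j i
  have hZ : ∀ j l, ∑ i, Z j i * degMatrix t T i l = if j = l then (a : Matrix m m A) else 0 :=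
    fun j l => by rw [hdeg]; exact (sum_adjugate hst hsG hTG hG j l).1
  have hZ' : ∀ l i, ∑ j, degMatrix t T l j * Z j i = if l = i then (a : Matrix m m A) else 0 :=
    fun l i => by rw [hdeg]; exact (sum_adjugate hst hsG hTG hG l i).2
  refine ⟨(a : Matrix k k A) - ∑ j, ∑ i, up j * Z j i * down i, fun l => ?_, fun l => ?_,
    fun quot hup => ?_, fun u₀ u₁ hu hup hdown => ?_⟩
  · rw [Matrix.mul_sub, matrix_mul_intCast, Finset.sum_comm, Matrix.mul_sum, sub_eq_zero,
      Finset.sum_eq_single l (fun i _ hi => ?_) (by simp)]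
    · simp only [Matrix.mul_sum, ← Matrix.mul_assoc, hcomp, ← Matrix.sum_mul, hZ', if_true,
        intCast_mul_matrix]
    · simp only [Matrix.mul_sum, ← Matrix.mul_assoc, hcomp, ← Matrix.sum_mul, hZ',
        if_neg (Ne.symm hi), Matrix.zero_mul]
  · rw [Matrix.sub_mul, intCast_mul_matrix, Matrix.sum_mul, sub_eq_zero,
      Finset.sum_eq_single l (fun j _ hj => ?_) (by simp)]
    · simp only [Matrix.sum_mul, Matrix.mul_assoc, hcomp, ← Matrix.mul_sum, hZ, if_true,
        matrix_mul_intCast]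
    · simp only [Matrix.sum_mul, Matrix.mul_assoc, hcomp, ← Matrix.mul_sum, hZ, if_neg hj,
        Matrix.mul_zero]
  · simp only [Matrix.mul_sub, matrix_mul_intCast, Matrix.mul_sum, ← Matrix.mul_assoc, hup,
      Matrix.zero_mul, Finset.sum_const_zero, sub_zero]
  · have hZc : ∀ j i, Commute (Z j i) u₀ := fun j i => (hGc _ hu).symm.mul_left
      (commute_adjugate ((Nat.cast_commute t u₀).add_left (Commute.one_left u₀)) hu.symm j i)
    simp only [Matrix.sub_mul, Matrix.mul_sub, Matrix.sum_mul, Matrix.mul_sum]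
    rw [intCast_mul_matrix, matrix_mul_intCast]
    congr 1
    refine Finset.sum_congr rfl fun j _ => Finset.sum_congr rfl fun i _ => ?_
    rw [Matrix.mul_assoc (up j * Z j i), hdown i, ← Matrix.mul_assoc,
      Matrix.mul_assoc (up j), (hZc j i).eq, ← Matrix.mul_assoc (up j), hup j]
    simp only [Matrix.mul_assoc]

theorem vars_aeval_X_subset {σ : Type*} [DecidableEq σ] (v : σ) (P : Polynomial ℤ) :
    (Polynomial.aeval (MvPolynomial.X v : MvPolynomial σ ℤ) P).vars ⊆ {v} := by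
  induction P using Polynomial.induction_on' with
  | add p q hp hq =>
    rw [map_add]
    exact (MvPolynomial.vars_add_subset _ _).trans (Finset.union_subset hp hq)
  | monomial n a =>
    rw [Polynomial.aeval_monomial, MvPolynomial.algebraMap_eq]
    refine (MvPolynomial.vars_mul _ _).trans (Finset.union_subset ?_ ?_)
    · rw [MvPolynomial.vars_C]; exact Finset.empty_subset _
    · exact (MvPolynomial.vars_pow _ _).trans (by rw [MvPolynomial.vars_X])

end Quasi

section Coker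

variable {W : WeierstrassCurve ℤ} {hΔ : W.Δ ≠ 0} {p L : ℕ} [Fact p.Prime]
  {O : Type} [CommRing O] [IsDomain O] [IsDiscreteValuationRing O]
  [IsAdicComplete (maximalIdeal O) O] [Finite (ResidueField O)] [CharZero O]
  {B : RaiseData W hΔ p L O} {r n : ℕ} {Q : RaiseLevel B r n}
  {S₀ S : Finset ℕ} {Lev₀ Lev : ℕ} [NeZero Lev₀] [NeZero Lev] {new₀ new : Finset ℕ} {D₀ D₁ : ℕ}

open Classical in
/-- At a prime off the lower level, `T² - (t + 1)²` is invertible up to a nonzero integer. -/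
theorem exists_quasiInverse (M₀ : Raise.NodeModel Q S₀ Lev₀ new₀ D₀) (hS₀ : S₀ ⊆ Q.S')
    {t : ℕ} (ht : t.Prime) (htS : t ∉ S₀) (htL : ¬ t ∣ Lev₀ * Q.N) :
    ∃ (a : ℤ) (G : Matrix (Fin D₀) (Fin D₀) Q.Λ), a ≠ 0 ∧
      G * (((t : Matrix (Fin D₀) (Fin D₀) Q.Λ) + 1) * ((t : Matrix (Fin D₀) (Fin D₀) Q.Λ) + 1) -
        M₀.op ⟨t, ht⟩ * M₀.op ⟨t, ht⟩) = (a : Matrix (Fin D₀) (Fin D₀) Q.Λ) ∧
      ∀ X, Commute X (M₀.op ⟨t, ht⟩) → Commute X G := by
  haveI := Fact.mk ht
  haveI : NeZero (Lev₀ * Q.N) := ⟨mul_ne_zero (NeZero.ne Lev₀) Q.N_ne_zero⟩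
  obtain ⟨P, -, hP, h1, h2⟩ := exists_monic_formOp S₀ htL htS
  let v : Nat.Primes := ⟨t, ht⟩
  letI : CommRing (Subring.closure (Set.range M₀.op)) :=
    Subring.closureCommRingOfComm fun x hx y hy => by
      obtain ⟨ℓ, rfl⟩ := hx
      obtain ⟨ℓ', rfl⟩ := hy
      exact M₀.comm ℓ ℓ'
  have hrel := M₀.relation S₀ le_rfl hS₀
    (Polynomial.aeval (MvPolynomial.X v : MvPolynomial Nat.Primes ℤ) P) (fun ℓ hℓ => by
      rw [Finset.mem_singleton.1 (vars_aeval_X_subset v P hℓ)]; exact htS)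
    ((eval₂Hom_aeval_X _ v P).trans hP)
    (Subring.closure (Set.range M₀.op)) (fun ℓ => ⟨M₀.op ℓ, Subring.subset_closure ⟨ℓ, rfl⟩⟩)
    (Subring.closure (Set.range M₀.op)).subtype Subtype.val_injective fun ℓ _ => rfl
  have hT : Polynomial.aeval (M₀.op v) P = 0 := by
    rw [eval₂Hom_aeval_X] at hrel
    have h := congrArg (Subring.closure (Set.range M₀.op)).subtype.toIntAlgHom hrel
    rw [map_zero, ← Polynomial.aeval_algHom_apply] at h
    exact h
  obtain ⟨a, G, ha, hG, hGc⟩ := exists_quasiInverse_of_poly (M₀.op v) ((t : ℤ) + 1) P hT h1 h2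
  exact ⟨a, G, ha, by simpa only [Int.cast_add, Int.cast_natCast, Int.cast_one] using hG, hGc⟩

/-- The data of the maps at a raised prime between two node models. -/
structure StepMaps (M₀ : Raise.NodeModel Q S₀ Lev₀ new₀ D₀)
    (M₁ : Raise.NodeModel Q S Lev new D₁) (t : ℕ) (ht : t.Prime) where
  up : Fin 2 → Matrix (Fin D₁) (Fin D₀) Q.Λ
  down : Fin 2 → Matrix (Fin D₀) (Fin D₁) Q.Λ
  up_comm : ∀ j, ∀ ℓ : Nat.Primes, (ℓ : ℕ) ∉ S → up j * M₀.op ℓ = M₁.op ℓ * up j
  down_comm : ∀ i, ∀ ℓ : Nat.Primes, (ℓ : ℕ) ∉ S → down i * M₁.op ℓ = M₀.op ℓ * down i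
  comp_eq : ∀ i j, down i * up j = degMatrix t (M₀.op ⟨t, ht⟩) i j
  up_injective : ∀ v : Fin 2 → Fin D₀ → Q.Λ, (∀ i, Q.resΛ ((∑ j, up j *ᵥ v j) i) = 0) →
    ∀ j i, Q.resΛ (v j i) = 0
  /-- systems on the joint kernel of the maps down are new at `t` -/
  newAt : ∀ S₁ : Finset ℕ, S ⊆ S₁ → S₁ ⊆ Q.S' →
    ∀ (V : Type) [CommRing V] [IsDomain V] [IsDiscreteValuationRing V]
    [IsAdicComplete (maximalIdeal V) V] [Finite (ResidueField V)] [CharZero V] [Algebra O V]
    [IsLocalHom (algebraMap O V)],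
    Function.Injective (algebraMap O V) → ∀ (ξ : Q.Λ →ₐ[O] V) (c : Nat.Primes → V)
      (y : Fin D₁ → V), y ≠ 0 →
      (∀ ℓ : Nat.Primes, (ℓ : ℕ) ∉ S₁ → ((M₁.op ℓ).map ξ).mulVec y = c ℓ • y) →
      (∀ i, ((down i).map ξ).mulVec y = 0) →
      ∀ (L' : ℕ) [NeZero L'], IsExactLevel (Q.θ.ringHomComp ξ.toRingHom) S₁ c Lev L' →
        IsNewformSystem S₁ L' c → t ∣ L'

variable {M₀ : Raise.NodeModel Q S₀ Lev₀ new₀ D₀} {M₁ : Raise.NodeModel Q S Lev new D₁}
  {t : ℕ} {ht : t.Prime}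

/-- The rank of the cokernel. -/
abbrev cokerRank (D₀ D₁ : ℕ) : ℕ := D₁ - 2 * D₀

theorem isLocalRing_Λ (Q : RaiseLevel B r n) (hpO : (p : O) ∈ maximalIdeal O) :
    IsLocalRing Q.Λ := isLocalRing_alg (O := O) (e := Q.e) hpO

open Classical in
theorem exists_splitting (X : StepMaps M₀ M₁ t ht) (hpO : (p : O) ∈ maximalIdeal O) :
    2 * D₀ ≤ D₁ ∧ ∃ (quot : Matrix (Fin (cokerRank D₀ D₁)) (Fin D₁) Q.Λ)
      (sec : Matrix (Fin D₁) (Fin (cokerRank D₀ D₁)) Q.Λ)
      (split : Fin 2 → Matrix (Fin D₀) (Fin D₁) Q.Λ),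
      quot * sec = 1 ∧ (∀ j, quot * X.up j = 0) ∧ ∑ j, X.up j * split j + sec * quot = 1 := by
  haveI := isLocalRing_Λ Q hpO
  have hker : RingHom.ker Q.resΛ = maximalIdeal Q.Λ :=
    eq_maximalIdeal (RingHom.ker_isMaximal_of_surjective _ fun x => by
      obtain ⟨o, rfl⟩ := residue_surjective x
      exact ⟨algebraMap O _ o, congrArg (residue O) ((aug O (ppow p Q.e)).commutes o)⟩)
  refine exists_split_matrices X.up fun v hv j i => ?_
  rw [← hker, RingHom.mem_ker]
  exact X.up_injective v (fun i => by rw [← RingHom.mem_ker, hker]; exact hv i) j i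

variable (X : StepMaps M₀ M₁ t ht) {C : ℕ} {quot : Matrix (Fin C) (Fin D₁) Q.Λ}
  {sec : Matrix (Fin D₁) (Fin C) Q.Λ} {split : Fin 2 → Matrix (Fin D₀) (Fin D₁) Q.Λ}

open Classical in
/-- The operators on the cokernel. -/
def cokerOp (S : Finset ℕ) (quot : Matrix (Fin C) (Fin D₁) Q.Λ)
    (op : Nat.Primes → Matrix (Fin D₁) (Fin D₁) Q.Λ) (sec : Matrix (Fin D₁) (Fin C) Q.Λ)
    (ℓ : Nat.Primes) : Matrix (Fin C) (Fin C) Q.Λ :=
  if (ℓ : ℕ) ∈ S then 0 else quot * op ℓ * sec

include X in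
theorem quot_op (hup : ∀ j, quot * X.up j = 0) (hsplit : ∑ j, X.up j * split j + sec * quot = 1)
    {ℓ : Nat.Primes} (hℓ : (ℓ : ℕ) ∉ S) :
    quot * M₁.op ℓ = cokerOp S quot M₁.op sec ℓ * quot := by
  rw [cokerOp, if_neg hℓ]
  conv_lhs => rw [← Matrix.mul_one (quot * M₁.op ℓ), ← hsplit, Matrix.mul_add, Matrix.mul_sum]
  rw [Finset.sum_eq_zero fun j _ => ?_, zero_add, ← Matrix.mul_assoc]
  rw [← Matrix.mul_assoc, Matrix.mul_assoc quot, ← X.up_comm j ℓ hℓ, ← Matrix.mul_assoc quot,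
    hup, Matrix.zero_mul, Matrix.zero_mul]

include X in
/-- A nonzero multiple of the projection to the joint kernel of the maps down. -/
theorem exists_kernelProjection (hup : ∀ j, quot * X.up j = 0)
    (hS₀ : S₀ ⊆ Q.S') (htS : t ∉ S₀) (htL : ¬ t ∣ Lev₀ * Q.N) :
    ∃ (a : ℤ) (π : Matrix (Fin D₁) (Fin D₁) Q.Λ), a ≠ 0 ∧ (∀ l, X.down l * π = 0) ∧
      (∀ l, π * X.up l = 0) ∧ quot * π = a • quot ∧
      ∀ ℓ : Nat.Primes, (ℓ : ℕ) ∉ S → π * M₁.op ℓ = M₁.op ℓ * π := by
  obtain ⟨a, G, ha, hG, hGc⟩ := exists_quasiInverse M₀ hS₀ ht htS htL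
  obtain ⟨π, h1, h2, h3, h4⟩ :=
    exists_projection (M₀.op ⟨t, ht⟩) G t a hG hGc X.up X.down X.comp_eq
  exact ⟨a, π, ha, h1, h2, h3 quot hup, fun ℓ hℓ => h4 (M₀.op ℓ) (M₁.op ℓ) (M₀.comm ℓ _)
    (fun j => X.up_comm j ℓ hℓ) fun i => X.down_comm i ℓ hℓ⟩

include X in
/-- An eigenvector of the cokernel comes from one on the joint kernel of the maps down. -/
theorem exists_kernel_eigenvector (hsec : quot * sec = 1) (hup : ∀ j, quot * X.up j = 0)
    (hsplit : ∑ j, X.up j * split j + sec * quot = 1)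
    (hS₀ : S₀ ⊆ Q.S') (htS : t ∉ S₀) (htL : ¬ t ∣ Lev₀ * Q.N) {S₁ : Finset ℕ} (hS : S ⊆ S₁)
    {V : Type} [CommRing V] [IsDomain V] [CharZero V] [Algebra O V] (ξ : Q.Λ →ₐ[O] V)
    {c : Nat.Primes → V} {w : Fin C → V} (hw : w ≠ 0)
    (hc : ∀ ℓ : Nat.Primes, (ℓ : ℕ) ∉ S₁ →
      ((cokerOp S quot M₁.op sec ℓ).map ξ).mulVec w = c ℓ • w) :
    ∃ y : Fin D₁ → V, y ≠ 0 ∧
      (∀ ℓ : Nat.Primes, (ℓ : ℕ) ∉ S₁ → ((M₁.op ℓ).map ξ).mulVec y = c ℓ • y) ∧
      ∀ i, ((X.down i).map ξ).mulVec y = 0 := by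
  obtain ⟨a, π, ha, hdown, hπup, hquot, hπop⟩ := exists_kernelProjection X hup hS₀ htS htL
  have Fmul : ∀ {m₁ m₂ m₃ : ℕ} (M : Matrix (Fin m₁) (Fin m₂) Q.Λ)
      (M' : Matrix (Fin m₂) (Fin m₃) Q.Λ), (M * M').map ξ = M.map ξ * M'.map ξ :=
    fun M M' => Matrix.map_mul
  have hone : (1 : Matrix (Fin C) (Fin C) Q.Λ).map ξ = 1 :=
    Matrix.map_one _ (map_zero ξ) (map_one ξ)
  set z₀ := sec.map ξ *ᵥ w with hz₀
  set y := π.map ξ *ᵥ z₀ with hy
  have hqy : quot.map ξ *ᵥ y = (a : V) • w := by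
    rw [hy, hz₀, mulVec_mulVec, mulVec_mulVec, ← Fmul, ← Fmul, hquot, Matrix.smul_mul, hsec,
      show (a • (1 : Matrix (Fin C) (Fin C) Q.Λ)).map ξ = (a : V) • 1 by
        ext i j
        simp [Matrix.one_apply, Matrix.intCast_apply, apply_ite ξ], smul_mulVec, one_mulVec]
  have hy0 : y ≠ 0 := fun h0 => hw (by
    rw [h0, mulVec_zero] at hqy
    exact (smul_eq_zero.1 hqy.symm).resolve_left (Int.cast_ne_zero.2 ha))
  refine ⟨y, hy0, fun ℓ hℓ => ?_, fun i => ?_⟩
  · have hℓS : (ℓ : ℕ) ∉ S := fun h => hℓ (hS h)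
    have hqz : quot.map ξ *ᵥ ((M₁.op ℓ).map ξ *ᵥ z₀ - c ℓ • z₀) = 0 := by
      rw [mulVec_sub, mulVec_smul, hz₀, mulVec_mulVec, mulVec_mulVec, mulVec_mulVec, ← Fmul,
        ← Fmul, ← Fmul, hsec, quot_op X hup hsplit hℓS, Matrix.mul_assoc, hsec, Matrix.mul_one,
        hone, one_mulVec]
      exact sub_eq_zero.2 (hc ℓ hℓ)
    have e0 : π = π * sec * quot := by
      conv_lhs => rw [← Matrix.mul_one π, ← hsplit, Matrix.mul_add, Matrix.mul_sum]
      rw [Finset.sum_eq_zero fun j _ => by rw [← Matrix.mul_assoc, hπup j, Matrix.zero_mul],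
        zero_add, Matrix.mul_assoc]
    have hπz : π.map ξ *ᵥ ((M₁.op ℓ).map ξ *ᵥ z₀ - c ℓ • z₀) = 0 := by
      rw [e0, Fmul, ← mulVec_mulVec, hqz, mulVec_zero]
    rw [mulVec_sub, mulVec_smul, sub_eq_zero, mulVec_mulVec, ← Fmul, hπop ℓ hℓS, Fmul,
      ← mulVec_mulVec] at hπz
    exact hπz
  · rw [hy, mulVec_mulVec, ← Fmul, hdown i]
    simp

open Classical in
/-- The model of the cokernel of the maps up. -/
def cokerNode (hsec : quot * sec = 1) (hup : ∀ j, quot * X.up j = 0)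
    (hsplit : ∑ j, X.up j * split j + sec * quot = 1)
    (hS₀ : S₀ ⊆ Q.S') (htS : t ∉ S₀) (htL : ¬ t ∣ Lev₀ * Q.N) :
    Raise.NodeModel Q S Lev (insert t new) C where
  op := cokerOp S quot M₁.op sec
  comm ℓ ℓ' := by
    by_cases hℓ : (ℓ : ℕ) ∈ S
    · rw [cokerOp, if_pos hℓ]; exact Commute.zero_left _
    by_cases hℓ' : (ℓ' : ℕ) ∈ S
    · rw [cokerOp, cokerOp, if_pos hℓ']; exact Commute.zero_right _
    have key : ∀ u v : Nat.Primes, (u : ℕ) ∉ S → (v : ℕ) ∉ S →
        cokerOp S quot M₁.op sec u * cokerOp S quot M₁.op sec v =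
          quot * (M₁.op u * M₁.op v) * sec := by
      intro u v hu hv
      calc cokerOp S quot M₁.op sec u * cokerOp S quot M₁.op sec v
          = cokerOp S quot M₁.op sec u * quot * M₁.op v * sec := by
            rw [show cokerOp S quot M₁.op sec v = quot * M₁.op v * sec from if_neg hv]
            simp only [Matrix.mul_assoc]
        _ = _ := by rw [← quot_op X hup hsplit hu]; simp only [Matrix.mul_assoc]
    show _ * _ = _ * _
    rw [key ℓ ℓ' hℓ hℓ', key ℓ' ℓ hℓ' hℓ, (M₁.comm ℓ ℓ').eq]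
  resid ℓ hℓ hℓ' := by
    obtain ⟨k, hk⟩ := M₁.resid ℓ hℓ hℓ'
    refine ⟨k, ?_⟩
    set u := quot.map Q.resΛ with hu
    have hus : u * sec.map Q.resΛ = 1 := by
      rw [hu, ← Matrix.map_mul, hsec, Matrix.map_one _ (map_zero _) (map_one _)]
    have hint : ∀ m : ℕ, ((cokerOp S quot M₁.op sec ℓ).map Q.resΛ - B.a ℓ • 1) ^ m * u =
        u * ((M₁.op ℓ).map Q.resΛ - B.a ℓ • 1) ^ m := by
      intro m
      induction m with
      | zero => rw [pow_zero, pow_zero, Matrix.one_mul, Matrix.mul_one]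
      | succ m ih =>
        rw [pow_succ, pow_succ, Matrix.mul_assoc, ← Matrix.mul_assoc u, ← ih, Matrix.mul_assoc]
        refine congrArg _ ?_
        rw [Matrix.sub_mul, Matrix.mul_sub, hu, ← Matrix.map_mul, ← Matrix.map_mul,
          quot_op X hup hsplit hℓ, Matrix.smul_mul, Matrix.mul_smul, Matrix.one_mul,
          Matrix.mul_one]
    have h := hint k
    rw [hk, Matrix.mul_zero] at h
    have h' := congrArg (· * sec.map Q.resΛ) h
    simp only [Matrix.mul_assoc, hus, Matrix.mul_one, Matrix.zero_mul] at h'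
    exact h'
  relation S₁ hS hS₁ F hF hform C' _ f ι hι hf := by
    letI : CommRing (Subring.closure (Set.range M₁.op)) :=
      Subring.closureCommRingOfComm fun x hx y hy => by
        obtain ⟨ℓ, rfl⟩ := hx
        obtain ⟨ℓ', rfl⟩ := hy
        exact M₁.comm ℓ ℓ'
    let g : Nat.Primes → Subring.closure (Set.range M₁.op) := fun ℓ =>
      ⟨M₁.op ℓ, Subring.subset_closure ⟨ℓ, rfl⟩⟩
    have hrel := M₁.relation S₁ hS hS₁ F hF hform _ g
      (Subring.closure (Set.range M₁.op)).subtype Subtype.val_injective fun ℓ _ => rfl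
    let f' : Nat.Primes → C' := fun ℓ => if (ℓ : ℕ) ∈ S₁ then 0 else f ℓ
    let g' : Nat.Primes → Subring.closure (Set.range M₁.op) := fun ℓ =>
      if (ℓ : ℕ) ∈ S₁ then 0 else g ℓ
    have hint : ∀ G : MvPolynomial Nat.Primes ℤ,
        ι (MvPolynomial.eval₂Hom (Int.castRingHom C') f' G) * quot =
          quot * (MvPolynomial.eval₂Hom (Int.castRingHom _) g' G : _).1 := by
      intro G
      induction G using MvPolynomial.induction_on with
      | C a =>
        simp only [eq_intCast, map_intCast]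
        rw [SubringClass.coe_intCast, ← zsmul_one, ← zsmul_one, Matrix.smul_mul, Matrix.mul_smul,
          Matrix.one_mul, Matrix.mul_one]
      | add x y hx hy =>
        rw [map_add, map_add, map_add, Matrix.add_mul, hx, hy]
        exact (Matrix.mul_add _ _ _).symm
      | mul_X x ℓ hx =>
        rw [map_mul, map_mul, map_mul, Matrix.mul_assoc]
        rw [show ι (MvPolynomial.eval₂Hom (Int.castRingHom C') f' (MvPolynomial.X ℓ)) * quot =
          quot * (MvPolynomial.eval₂Hom (Int.castRingHom _) g' (MvPolynomial.X ℓ) : _).1 from ?_,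
          ← Matrix.mul_assoc, hx, Matrix.mul_assoc]
        · rfl
        simp only [MvPolynomial.eval₂Hom_X', f', g']
        by_cases h : (ℓ : ℕ) ∈ S₁
        · rw [if_pos h, if_pos h, map_zero, Matrix.zero_mul, ZeroMemClass.coe_zero, Matrix.mul_zero]
        · rw [if_neg h, if_neg h, hf ℓ h, ← quot_op X hup hsplit fun h' => h (hS h')]
    have e1 : MvPolynomial.eval₂Hom (Int.castRingHom C') f F =
        MvPolynomial.eval₂Hom (Int.castRingHom C') f' F :=
      MvPolynomial.eval₂Hom_congr' rfl (fun ℓ hℓ _ => (if_neg (hF ℓ hℓ)).symm) rfl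
    have e2 : MvPolynomial.eval₂Hom (Int.castRingHom _) g F =
        MvPolynomial.eval₂Hom (Int.castRingHom _) g' F :=
      MvPolynomial.eval₂Hom_congr' rfl (fun ℓ hℓ _ => (if_neg (hF ℓ hℓ)).symm) rfl
    have h := hint F
    rw [← e1, ← e2, hrel, ZeroMemClass.coe_zero, Matrix.mul_zero] at h
    refine hι ?_
    have h' := congrArg (· * sec) h
    simp only [Matrix.mul_assoc, hsec, Matrix.mul_one, Matrix.zero_mul] at h'
    rw [h', map_zero]
  eigen S₁ hS hS₁ V _ _ _ _ _ _ _ _ hO ξ c w hw hc := by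
    obtain ⟨y, hy0, heig, hdown⟩ :=
      exists_kernel_eigenvector X hsec hup hsplit hS₀ htS htL hS ξ hw hc
    obtain ⟨L', i1, hex, hnew, hdvd⟩ := M₁.eigen S₁ hS hS₁ V hO ξ c y hy0 heig
    refine ⟨L', i1, hex, hnew, fun q hq => ?_⟩
    rcases Finset.mem_insert.1 hq with rfl | hq
    · exact X.newAt S₁ hS hS₁ V hO ξ c y hy0 heig hdown L' hex hnew
    · exact hdvd q hq

/-- The cokernel of a step: a free node model of rank `D₁ - 2 D₀`, new at `t`, with the maps of
`Raise.LevelModels`. -/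
theorem exists_coker (hpO : (p : O) ∈ maximalIdeal O) (hS₀ : S₀ ⊆ Q.S') (htS : t ∉ S₀)
    (htL : ¬ t ∣ Lev₀ * Q.N) :
    2 * D₀ ≤ D₁ ∧ ∃ (Ck : Raise.NodeModel Q S Lev (insert t new) (cokerRank D₀ D₁))
      (quot : Matrix (Fin (cokerRank D₀ D₁)) (Fin D₁) Q.Λ)
      (sec : Matrix (Fin D₁) (Fin (cokerRank D₀ D₁)) Q.Λ)
      (split : Fin 2 → Matrix (Fin D₀) (Fin D₁) Q.Λ),
      (∀ ℓ : Nat.Primes, (ℓ : ℕ) ∉ S → quot * M₁.op ℓ = Ck.op ℓ * quot) ∧
        ∑ j, X.up j * split j + sec * quot = 1 ∧ quot * sec = 1 ∧ ∀ j, quot * X.up j = 0 := by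
  obtain ⟨hle, quot, sec, split, hsec, hup, hsplit⟩ := exists_splitting X hpO
  exact ⟨hle, cokerNode X hsec hup hsplit hS₀ htS htL, quot, sec, split,
    fun ℓ hℓ => quot_op X hup hsplit hℓ, hsplit, hsec, hup⟩

end Coker

end Fermat.Agent.Lifting.Models

end
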