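import Fermat.Agent.RT.TW.AddPrimeLevel
import Fermat.Agent.LevelRaise.Degeneracy.Matrices

/-!
# The two transfers at a prime commute with the operators away from it

For `q ∤ M` the transfers from `Γ₀(M q)` to `Γ₀(M)` are corestriction and corestriction after the
involution at `q`. They commute with the Hecke operators at the other primes, and composed with the
two degeneracy maps give `q + 1`, `T_q`, `T_q`, `Φ(q) (q + 1)`.
-/

set_option autoImplicit false

noncomputable section

namespace Fermat.Agent.RT.TW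

open scoped MatrixGroups
open CongruenceSubgroup Periods
open Fermat.Agent.LevelRaise.Degeneracy (InS inS_gammaMat inS_heckeMat exists_cover_res
  exists_hecke_rep exists_gamma0_eq exists_resRep not_dvd_of_inS resRep resRep_det)

section Generic

variable {A : Type*} [CommRing A] {W : Weighting A} {L₁ L₂ : WLevel W} {ι κ : Type*}
  [Fintype ι] [Fintype κ]

/-- Families with as many members whose cosets are among those of the other agree, when the
cosets are distinct. -/
theorem CosetFamily.opH1_eq_of_cover (D : CosetFamily L₁ L₂ ι) (E : CosetFamily L₁ L₂ κ)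
    (hcard : Fintype.card ι = Fintype.card κ)
    (hcov : ∀ j, ∃ (i : ι) (g : L₁.grp), (E.mat j : IntMat) = gammaMat g * (D.mat i : IntMat))
    (hsep : ∀ (j j' : κ) (g : L₁.grp),
      (E.mat j : IntMat) = gammaMat g * (E.mat j' : IntMat) → j = j') :
    E.opH1 = D.opH1 := by
  choose f g hf using hcov
  have hinj : Function.Injective f := fun j j' h => hsep j j' (g j * (g j')⁻¹) (by
    rw [hf j, hf j', h, ← Matrix.mul_assoc, ← gammaMat_mul, inv_mul_cancel_right])
  let e : κ ≃ ι := Equiv.ofBijective f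
    ((Fintype.bijective_iff_injective_and_card f).2 ⟨hinj, hcard.symm⟩)
  refine CosetFamily.opH1_eq_of_cosets D E e.symm (fun i => g (e.symm i)) fun i => ?_
  have h := hf (e.symm i)
  rwa [show f (e.symm i) = i from e.apply_symm_apply i] at h

end Generic

variable {A : Type} [CommRing A] {N M q : ℕ} {Φ : MulChar (ZMod N) A} (h : N ∣ M)

variable (Φ) in
/-- The second transfer. -/
def degCores' [NeZero M] (hq : q.Prime) (hqM : ¬ q ∣ M) (B : AddPrimeBezout M q) :
    heckeH1 Φ (M * q) (h.mul_right q) →ₗ[A] heckeH1 Φ M h :=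
  (degCores Φ h hq hqM B).opH1 ∘ₗ (degInvol Φ h hq B).opH1

theorem degInvol_degRes (hq : q.Prime) (hqM : ¬ q ∣ M) (B : AddPrimeBezout M q)
    (x : heckeH1 Φ M h) :
    (degInvol Φ h hq B).opH1 ((degRes q Φ h).opH1 x) = (degDiag Φ h hq hqM).opH1 x := by
  have key := CosetFamily.opH1_eq_of_cover (degDiag Φ h hq hqM)
    ((degRes q Φ h).comp (degInvol Φ h hq B)) (by simp) (fun _ => by
      obtain ⟨g, hg⟩ := exists_level0_grp (Φ := Φ) h (a := B.x) (b := B.y) (c := (M : ℤ)) (d := q)
        (by linear_combination B.eq) dvd_rfl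
      refine ⟨(), g, ?_⟩
      show (1 : IntMat) * !![(q : ℤ) * B.x, B.y; (q : ℤ) * M, (q : ℤ)] =
        gammaMat g * !![(q : ℤ), 0; 0, 1]
      rw [hg, Matrix.one_mul, Matrix.mul_fin_two]
      congrm !![?_, ?_; ?_, ?_] <;> ring) fun _ _ _ _ => Subsingleton.elim _ _
  rw [← CosetFamily.opH1_comp] at key
  exact LinearMap.congr_fun key x

theorem degCores'_degRes [NeZero M] (hq : q.Prime) (hqM : ¬ q ∣ M) (B : AddPrimeBezout M q)
    (x : heckeH1 Φ M h) :
    degCores' Φ h hq hqM B ((degRes q Φ h).opH1 x) = heckeOp Φ h ⟨q, hq⟩ x := by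
  rw [degCores', LinearMap.comp_apply, degInvol_degRes h hq hqM, degCores_degDiag h hq hqM B]

theorem degCores'_degDiag [NeZero M] (hq : q.Prime) (hqM : ¬ q ∣ M) (B : AddPrimeBezout M q)
    (x : heckeH1 Φ M h) :
    degCores' Φ h hq hqM B ((degDiag Φ h hq hqM).opH1 x) =
      (Φ (q : ZMod N) * ((q : A) + 1)) • x := by
  rw [degCores', LinearMap.comp_apply, ← degInvol_degRes h hq hqM B, degInvol_degInvol h hq B _ hqM,
    map_smul, degCores_degRes h hq hqM B, smul_smul]

/-- The matrix of the involution, times an element of `Γ₀(M q)`, is one of `Γ₀(M q)` times it. -/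
theorem exists_invol_step (hq : q.Prime) (B : AddPrimeBezout M q) (g : Gamma0 (M * q)) :
    ∃ g' : Gamma0 (M * q),
      ((degInvol Φ h hq B).mat () : IntMat) * gammaMat g =
        gammaMat g' * ((degInvol Φ h hq B).mat () : IntMat) := by
  obtain ⟨σ, g', hg⟩ := (degInvol Φ h hq B).exists_step g
  exact ⟨g' (), hg ()⟩

theorem degInvol_comm (hq : q.Prime) (hqM : ¬ q ∣ M) (B : AddPrimeBezout M q) (p : Nat.Primes)
    (hpq : (p : ℕ) ≠ q) (y : heckeH1 Φ (M * q) (h.mul_right q)) :
    (degInvol Φ h hq B).opH1 (heckeOp Φ (h.mul_right q) p y) =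
      heckeOp Φ (h.mul_right q) p ((degInvol Φ h hq B).opH1 y) := by
  have key := CosetFamily.opH1_eq_of_cover
    ((degInvol Φ h hq B).comp (heckeFamily Φ (h.mul_right q) p.2))
    ((heckeFamily Φ (h.mul_right q) p.2).comp (degInvol Φ h hq B))
    (by rw [Fintype.card_prod, Fintype.card_prod, mul_comm])
    (fun ⟨⟨i, hi⟩, _⟩ => by
      obtain ⟨a, b, d, hH, had, ha⟩ : ∃ a b d : ℤ,
          heckeMat (M * q) p ⟨i, hi⟩ = !![a, b; 0, d] ∧ a * d = ((p : ℕ) : ℤ) ∧
            ((p : ℕ) ∣ M → a = 1) := by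
        cases i with
        | none =>
          exact ⟨((p : ℕ) : ℤ), 0, 1, rfl, mul_one _, fun hp => absurd (hp.mul_right q) (hi rfl)⟩
        | some j => exact ⟨1, (j : ℕ), ((p : ℕ) : ℤ), rfl, one_mul _, fun _ => rfl⟩
      let Z : IntMat := !![(q : ℤ) * (a * B.x + b * M) - B.y * d * M, a * B.y + b * q - B.y * d;
        (q : ℤ) * M * (d * B.x - a * B.x - b * M),
        (q : ℤ) * B.x * d - (M : ℤ) * (a * B.y + b * q)]
      obtain ⟨k, g, hg⟩ := exists_hecke_rep p.2 (M := M * q) (Z := Z)
        (by rw [Matrix.det_fin_two_of, ← had]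
            linear_combination ((a : ℤ) * d * ((q : ℤ) * B.x - B.y * M + 1)) * B.eq)
        ⟨d * B.x - a * B.x - b * M,
          show (q : ℤ) * M * (d * B.x - a * B.x - b * M) = _ by push_cast; ring⟩
        (fun hd hdv => by
          have hpM : (p : ℕ) ∣ M := (dvd_mul_iff_of_ne p.2 hq hpq).1 hd
          obtain ⟨c, hc⟩ := Int.natCast_dvd_natCast.2 hpM
          obtain ⟨s, hs⟩ : ((p : ℕ) : ℤ) ∣ (q : ℤ) * (1 * B.x + b * M) - B.y * d * M := by
            simpa [Z, ha hpM] using hdv
          refine (Nat.prime_iff_prime_int.1 p.2).not_dvd_one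
            ⟨s - (q : ℤ) * b * c + B.y * d * c - B.y * c, ?_⟩
          linear_combination hs - B.eq - ((q : ℤ) * b - B.y * d + B.y) * hc)
      obtain ⟨g', hg'⟩ := exists_invol_step (Φ := Φ) h hq B g
      refine ⟨((), k), g', ?_⟩
      show heckeMat (M * q) p ⟨i, hi⟩ * !![(q : ℤ) * B.x, B.y; (q : ℤ) * M, (q : ℤ)] =
        gammaMat g' * (!![(q : ℤ) * B.x, B.y; (q : ℤ) * M, (q : ℤ)] * heckeMat (M * q) p k)
      have e : heckeMat (M * q) p ⟨i, hi⟩ * !![(q : ℤ) * B.x, B.y; (q : ℤ) * M, (q : ℤ)] =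
          !![(q : ℤ) * B.x, B.y; (q : ℤ) * M, (q : ℤ)] * Z := by
        rw [hH, Matrix.mul_fin_two, Matrix.mul_fin_two]
        congrm !![?_, ?_; ?_, ?_]
        · linear_combination -((a : ℤ) * q * B.x + b * q * M) * B.eq
        · linear_combination -((a : ℤ) * B.y + b * q) * B.eq
        · linear_combination -((d : ℤ) * q * M) * B.eq
        · linear_combination -((d : ℤ) * q) * B.eq
      rw [e, hg, ← Matrix.mul_assoc, ← Matrix.mul_assoc]
      congr 1
    ) (fun ⟨i, _⟩ ⟨j, _⟩ g hij => by
      have h1 := intMat_mul_right_cancel ((degInvol Φ h hq B).det_ne_zero ())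
        (show heckeMat (M * q) p i * ((degInvol Φ h hq B).mat () : IntMat) =
          gammaMat g * heckeMat (M * q) p j * ((degInvol Φ h hq B).mat () : IntMat) by
            rw [Matrix.mul_assoc]; exact hij)
      exact Prod.ext (heckeMat_separated p.2 i j g h1) rfl)
  rw [← CosetFamily.opH1_comp, ← CosetFamily.opH1_comp] at key
  exact LinearMap.congr_fun key y

theorem degCores_comm [NeZero M] (hq : q.Prime) (hqM : ¬ q ∣ M) (B : AddPrimeBezout M q)
    (p : Nat.Primes) (hpq : (p : ℕ) ≠ q) (y : heckeH1 Φ (M * q) (h.mul_right q)) :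
    (degCores Φ h hq hqM B).opH1 (heckeOp Φ (h.mul_right q) p y) =
      heckeOp Φ h p ((degCores Φ h hq hqM B).opH1 y) := by
  have hiff := dvd_mul_iff_of_ne (M := M) p.2 hq hpq
  have hX : ∀ i, ∃ r : Gamma0 M, gammaMat r = coresMat B i := fun i =>
    exists_gamma0_eq (det_coresMat B i) (by cases i <;> simp [coresMat])
  have key := CosetFamily.opH1_eq_of_cover
    ((heckeFamily Φ (h.mul_right q) p.2).comp (degCores Φ h hq hqM B))
    ((degCores Φ h hq hqM B).comp (heckeFamily Φ h p.2))
    (by rw [Fintype.card_prod, Fintype.card_prod, mul_comm,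
      Fintype.card_congr (Equiv.subtypeEquivRight fun _ => imp_congr_right fun _ => not_congr hiff :
        HeckeIdx (M * q) p ≃ HeckeIdx M p)])
    (fun ⟨i, k⟩ => by
      obtain ⟨r, hr⟩ := hX i
      have hZ : InS M (coresMat B i * heckeMat M p k) :=
        (hr ▸ inS_gammaMat r).mul (inS_heckeMat p.2 k)
      obtain ⟨j, W, hW, hWc⟩ := exists_cover_res hq hqM hZ.1
      obtain ⟨s, hs⟩ := exists_resRep (N := M) j
      obtain ⟨σ, gs, hgs⟩ := (degCores Φ h hq hqM B).exists_step s
      have hs' : resRep M q j = gammaMat (gs none) * coresMat B (σ none) := by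
        rw [← hs]
        exact (Matrix.one_mul _).symm.trans (hgs none)
      obtain ⟨r', hr'⟩ := hX (σ none)
      let W' : IntMat := W * gammaMat (gs none)
      have hW' : coresMat B i * heckeMat M p k = W' * coresMat B (σ none) := by
        rw [hW, hs', ← Matrix.mul_assoc]
      have hWS : InS M W' := by
        have : W' = coresMat B i * heckeMat M p k * gammaMat r'⁻¹ := by
          rw [hW', ← hr', Matrix.mul_assoc, ← gammaMat_mul, mul_inv_cancel, gammaMat_one,
            Matrix.mul_one]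
        exact this ▸ hZ.mul (inS_gammaMat _)
      have hdet : W'.det = ((p : ℕ) : ℤ) := by
        have := congrArg Matrix.det hW'
        rwa [Matrix.det_mul, Matrix.det_mul, det_coresMat, det_coresMat, heckeMat_det, one_mul,
          mul_one, eq_comm] at this
      have hc' : ((M * q : ℕ) : ℤ) ∣ W' 1 0 := by
        show ((M * q : ℕ) : ℤ) ∣ (W * gammaMat (gs none)) 1 0
        rw [Matrix.mul_apply, Fin.sum_univ_two]
        exact dvd_add (hWc.mul_right _) ((inS_gammaMat (N := M * q) _).1.mul_left _)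
      obtain ⟨k', g, hg⟩ := exists_hecke_rep p.2 hdet hc'
        fun hd => not_dvd_of_inS p.2 hWS (hiff.1 hd)
      refine ⟨(k', σ none), g, ?_⟩
      show coresMat B i * heckeMat M p k =
        gammaMat g * (heckeMat (M * q) p k' * coresMat B (σ none))
      rw [hW', hg, Matrix.mul_assoc])
    (fun ⟨i, k⟩ ⟨i', k'⟩ g hij => by
      obtain ⟨r, hr⟩ := hX i
      obtain ⟨r', hr'⟩ := hX i'
      obtain ⟨u, hu⟩ := exists_gamma0_eq (N := M) (gammaMat_det g)
        ((Int.natCast_dvd_natCast.2 (dvd_mul_right M q)).trans (inS_gammaMat (N := M * q) _).1)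
      have hij' : coresMat B i * heckeMat M p k =
          gammaMat g * coresMat B i' * heckeMat M p k' := by
        rw [Matrix.mul_assoc]; exact hij
      have hk : k = k' := heckeMat_separated p.2 k k' (r⁻¹ * (u * r')) (by
        rw [gammaMat_mul r⁻¹, gammaMat_mul u, hu, Matrix.mul_assoc, hr', ← hij', ← hr,
          ← Matrix.mul_assoc, ← gammaMat_mul, inv_mul_cancel, gammaMat_one, Matrix.one_mul])
      subst hk
      have h2 := intMat_mul_right_cancel (heckeMat_det_ne_zero p.2 k) hij'
      rw [coresMat_separated hq hqM B i i' g h2])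
  rw [← CosetFamily.opH1_comp, ← CosetFamily.opH1_comp] at key
  exact (LinearMap.congr_fun key y).symm

theorem degCores'_comm [NeZero M] (hq : q.Prime) (hqM : ¬ q ∣ M) (B : AddPrimeBezout M q)
    (p : Nat.Primes) (hpq : (p : ℕ) ≠ q) (y : heckeH1 Φ (M * q) (h.mul_right q)) :
    degCores' Φ h hq hqM B (heckeOp Φ (h.mul_right q) p y) =
      heckeOp Φ h p (degCores' Φ h hq hqM B y) := by
  rw [degCores', LinearMap.comp_apply, LinearMap.comp_apply, degInvol_comm h hq hqM B p hpq,
    degCores_comm h hq hqM B p hpq]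

end Fermat.Agent.RT.TW

end
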