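import Fermat.Agent.RT.TW.AddPrimes
import Fermat.Agent.RT.Systems.Push
import Fermat.Agent.Lifting.Models.Families

/-!
# Corestriction from a Taylor–Wiles level is an isomorphism on the parts

At a prime `q` with a simple residual root the corestriction from level `M q` composed with the
stabilisation is a unit, so it maps the part at level `M q` isomorphically onto the part at level
`M`.  `multiDownMap` is the composite corestriction from level `M ∏ qv`.
-/

set_option autoImplicit false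
set_option linter.style.haveILetI false
set_option maxHeartbeats 400000

noncomputable section

open IsLocalRing MvPolynomial

namespace Fermat.Agent.Lifting.Models

open RT.TW RT.Systems

variable {A : Type} [CommRing A] {N : ℕ} {Φ : MulChar (ZMod N) A}

section OnePrime

variable {M q : ℕ} [NeZero M] [IsLocalRing A] [IsNoetherianRing A]
  [IsAdicComplete (maximalIdeal A) A]

/-- One prime: corestriction is bijective between the parts. -/
theorem degCores_part_bijective (h : N ∣ M) (hq : q.Prime) (hqM : ¬ q ∣ M) (hcov : CoverHyp A M)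
    {k : Type} [Field k] (res : A →+* k) (hres : Function.Surjective res) {G : Set Nat.Primes}
    (hqG : (⟨q, hq⟩ : Nat.Primes) ∈ G) (a : Nat.Primes → k) (haG : ∀ p, p ∉ G → a p = 0) (α : k)
    (hq1 : ((q : ℕ) : k) = 1) (hΦ : res (Φ ((q : ℕ) : ZMod N)) = 1)
    (hα : α * α + 1 = a ⟨q, hq⟩ * α) (hα2 : α * α ≠ 1) (B : AddPrimeBezout M q)
    {e : Module.End A (heckeH1 Φ M h)}
    (he : IsLocalIdem (heckeActOn Φ h G) (residualIdeal res a) e)
    {e' : Module.End A (heckeH1 Φ (M * q) (h.mul_right q))}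
    (he' : IsLocalIdem (heckeActOn Φ (h.mul_right q) G)
      (residualIdeal res (Function.update a ⟨q, hq⟩ α)) e') :
    (∀ y, e' y = y → e ((degCores Φ h hq hqM B).opH1 y) = (degCores Φ h hq hqM B).opH1 y) ∧
      (∀ y, e' y = y → (degCores Φ h hq hqM B).opH1 y = 0 → y = 0) ∧
      ∀ x, e x = x → ∃ y, e' y = y ∧ (degCores Φ h hq hqM B).opH1 y = x := by
  have hα0 : α ≠ 0 := by
    rintro rfl
    simp at hα
  have hne : 2 * α ≠ a ⟨q, hq⟩ := fun e0 => hα2 (by
    rw [← e0] at hα
    linear_combination -hα)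
  have hdeg : ((q : k) + 1) * α ≠ a ⟨q, hq⟩ := by rw [hq1]; rwa [one_add_one_eq_two]
  obtain ⟨a', hka, hev, -, -, hmem, -, hsurj⟩ := exists_addPrime_equiv_stab h hq hqM hcov hqG res
    hres a haG α hα0 (by rw [map_mul, map_natCast, hq1, hΦ]; linear_combination hα) hne hdeg
    (by rwa [hΦ]) he he'
  set t : HeckePoly A := C ((q : A) + 1) * a' - X ⟨q, hq⟩ with htdef
  have ht : t ∉ residualIdeal res a := fun hmem' => hdeg (by
    rw [htdef, mem_residualIdeal_iff, map_sub, map_mul, eval₂Hom_C, eval₂Hom_X', hev, map_add,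
      map_natCast, map_one, sub_eq_zero] at hmem'
    exact hmem')
  have key : ∀ x, (degCores Φ h hq hqM B).opH1 (stabMap Φ h hq hqM a' x) =
      heckeActOn Φ h G t x := fun x => by
    rw [heckeActOn_apply, htdef, map_sub, map_mul, killOff_C, hka, killOff_X_of_mem hqG, map_sub,
      map_mul, heckeAct_C, heckeAct_X, stabMap_apply, map_sub, degCores_degRes h hq hqM B,
      degCores_degDiag h hq hqM B]
    rfl
  obtain ⟨u, hu⟩ := he.bijective_restrict ht
  refine ⟨fun y hy => ?_, fun y hy h0 => ?_, fun x hx => ?_⟩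
  · obtain ⟨x, hx, rfl⟩ := hsurj y hy
    rw [key, he.comm_apply, hx]
  · obtain ⟨x, hx, rfl⟩ := hsurj y hy
    rw [key] at h0
    have h1 := (hu x hx).1
    rw [h0, map_zero] at h1
    rw [← h1, map_zero]
  · have hz : e (heckeActOn Φ h G u x) = heckeActOn Φ h G u x := by rw [he.comm_apply, hx]
    exact ⟨_, hmem _ hz, (key _).trans (hu x hx).2⟩

end OnePrime

section Composite

variable (Φ)

/-- Corestriction from level `M ∏ qv` to level `M`. -/
def multiDownMap : ∀ {r : ℕ} (qv : Fin r → Nat.Primes), Function.Injective qv →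
    ∀ (M : ℕ) [NeZero M] (h : N ∣ M), (∀ i, ¬ (qv i : ℕ) ∣ M) →
      (heckeH1 Φ (M * ∏ i, (qv i : ℕ)) (h.mul_right _) →ₗ[A] heckeH1 Φ M h)
  | 0, _, _, M, _, h, _ =>
    (levelCast Φ (by rw [Fin.prod_univ_zero, mul_one]) (h.mul_right _) h).toLinearMap
  | _ + 1, qv, hinj, M, _, h, hqM =>
    haveI : NeZero (M * (qv 0 : ℕ)) := ⟨mul_ne_zero (NeZero.ne M) (qv 0).2.ne_zero⟩
    (degCores Φ h (qv 0).2 (hqM 0) (exists_addPrimeBezout (qv 0).2 (hqM 0)).some).opH1 ∘ₗ
      multiDownMap (fun i => qv i.succ) (hinj.comp (Fin.succ_injective _)) (M * (qv 0 : ℕ))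
        (h.mul_right _) (fun i hd => ((qv i.succ).2.dvd_mul.1 hd).elim (hqM _) fun hd' =>
          Fin.succ_ne_zero i (hinj (Subtype.ext
            ((Nat.prime_dvd_prime_iff_eq (qv i.succ).2 (qv 0).2).1 hd')))) ∘ₗ
      (levelCast Φ (by rw [Fin.prod_univ_succ, mul_assoc]) (h.mul_right _)
        ((h.mul_right _).mul_right _)).toLinearMap

variable {Φ}

theorem multiDownMap_heckeOp {r : ℕ} (qv : Fin r → Nat.Primes) (hinj : Function.Injective qv) {M : ℕ}
    [NeZero M] (h : N ∣ M) (hqM : ∀ i, ¬ (qv i : ℕ) ∣ M) (ℓ : Nat.Primes)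
    (hℓ : ∀ i, qv i ≠ ℓ) (y : heckeH1 Φ (M * ∏ i, (qv i : ℕ)) (h.mul_right _)) :
    multiDownMap Φ qv hinj M h hqM (heckeOp Φ (h.mul_right _) ℓ y) =
      heckeOp Φ h ℓ (multiDownMap Φ qv hinj M h hqM y) := by
  induction r generalizing M with
  | zero => exact levelCast_heckeOp Φ _ _ _ ℓ y
  | succ r ih =>
    haveI : NeZero (M * (qv 0 : ℕ)) := ⟨mul_ne_zero (NeZero.ne M) (qv 0).2.ne_zero⟩
    rw [multiDownMap, LinearMap.comp_apply, LinearMap.comp_apply, LinearEquiv.coe_coe,
      levelCast_heckeOp, ih (fun i => qv i.succ) _ _ _ (fun i => hℓ i.succ),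
      degCores_comm h (qv 0).2 (hqM 0) _ ℓ fun e => hℓ 0 (Subtype.ext e.symm)]
    rfl

theorem levelCast_range {R R' : ℕ} [IsLocalRing A] [IsNoetherianRing A] (e₀ : R = R') (h : N ∣ R)
    (h' : N ∣ R') {G : Set Nat.Primes} {m : Ideal (HeckePoly A)}
    [Module.Finite A (heckeH1 Φ R' h')]
    {e : Module.End A (heckeH1 Φ R h)} (he : IsLocalIdem (heckeActOn Φ h G) m e)
    {e' : Module.End A (heckeH1 Φ R' h')} (he' : IsLocalIdem (heckeActOn Φ h' G) m e')
    (y : heckeH1 Φ R h) : e' (levelCast Φ e₀ h h' y) = levelCast Φ e₀ h h' (e y) := by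
  subst e₀
  rw [levelCast_rfl, levelCast_rfl, he.unique he']

variable [IsLocalRing A] [IsNoetherianRing A] [IsAdicComplete (maximalIdeal A) A]

/-- The composite corestriction is bijective between the parts. -/
theorem multiDownMap_bijective {k : Type} [Field k] (res : A →+* k) (hres : Function.Surjective res)
    {G : Set Nat.Primes} {r : ℕ} (qv : Fin r → Nat.Primes) (hinj : Function.Injective qv)
    (hqG : ∀ i, qv i ∈ G) {M : ℕ} [NeZero M] (h : N ∣ M) (hqM : ∀ i, ¬ (qv i : ℕ) ∣ M)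
    (hcov : CoverHyp A M) (a a' : Nat.Primes → k) (haG : ∀ p, p ∉ G → a p = 0)
    (hoff : ∀ p, (∀ i, qv i ≠ p) → a' p = a p)
    (hq1 : ∀ i, ((qv i : ℕ) : k) = 1) (hΦ : ∀ i, res (Φ ((qv i : ℕ) : ZMod N)) = 1)
    (hα : ∀ i, a' (qv i) * a' (qv i) + 1 = a (qv i) * a' (qv i))
    (hα2 : ∀ i, a' (qv i) * a' (qv i) ≠ 1)
    {e : Module.End A (heckeH1 Φ M h)} (he : IsLocalIdem (heckeActOn Φ h G) (residualIdeal res a) e)
    {e' : Module.End A (heckeH1 Φ (M * ∏ i, (qv i : ℕ)) (h.mul_right _))}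
    (he' : IsLocalIdem (heckeActOn Φ (h.mul_right _) G) (residualIdeal res a') e') :
    (∀ y, e' y = y → e (multiDownMap Φ qv hinj M h hqM y) = multiDownMap Φ qv hinj M h hqM y) ∧
      (∀ y, e' y = y → multiDownMap Φ qv hinj M h hqM y = 0 → y = 0) ∧
      ∀ x, e x = x → ∃ y, e' y = y ∧ multiDownMap Φ qv hinj M h hqM y = x := by
  induction r generalizing M a with
  | zero =>
    obtain rfl : a' = a := funext fun p => hoff p fun i => i.elim0
    haveI := finite_heckeH1 (Φ := Φ) h hcov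
    have e₀ : M * ∏ i, (qv i : ℕ) = M := by rw [Fin.prod_univ_zero, mul_one]
    let c := levelCast Φ e₀ (h.mul_right _) h
    have hc : ∀ y, e (c y) = c (e' y) := levelCast_range e₀ (h.mul_right _) h he' he
    refine ⟨fun y hy => (hc y).trans (congrArg c hy), fun y _ h0 => c.map_eq_zero_iff.1 h0,
      fun x hx => ⟨c.symm x, c.injective ?_, c.apply_symm_apply x⟩⟩
    rw [← hc, c.apply_symm_apply, hx]
  | succ r ih =>
    haveI : NeZero (M * (qv 0 : ℕ)) := ⟨mul_ne_zero (NeZero.ne M) (qv 0).2.ne_zero⟩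
    haveI := finite_heckeH1 (Φ := Φ) (h.mul_right (qv 0 : ℕ)) (hcov.mono (dvd_mul_right _ _))
    haveI := residualIdeal_isMaximal res hres (Function.update a (qv 0) (a' (qv 0)))
    obtain ⟨e₁, he₁⟩ := exists_isLocalIdem (heckeActOn Φ (h.mul_right (qv 0 : ℕ)) G)
      (residualIdeal res (Function.update a (qv 0) (a' (qv 0))))
    obtain ⟨h1, h2, h3⟩ := degCores_part_bijective h (qv 0).2 (hqM 0) hcov res hres (hqG 0) a haG _
      (hq1 0) (hΦ 0) (hα 0) (hα2 0) (exists_addPrimeBezout (qv 0).2 (hqM 0)).some he he₁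
    have hne : ∀ i : Fin r, qv i.succ ≠ qv 0 := fun i e0 => Fin.succ_ne_zero i (hinj e0)
    have hcov' : CoverHyp A (M * (qv 0 : ℕ) * ∏ i : Fin r, (qv i.succ : ℕ)) :=
      (hcov.mono (dvd_mul_right _ _)).mono (dvd_mul_right _ _)
    haveI : NeZero (M * (qv 0 : ℕ) * ∏ i : Fin r, (qv i.succ : ℕ)) :=
      ⟨mul_ne_zero (NeZero.ne _) (Finset.prod_ne_zero_iff.2 fun i _ => (qv i.succ).2.ne_zero)⟩
    haveI := finite_heckeH1 (Φ := Φ)
      ((h.mul_right (qv 0 : ℕ)).mul_right (∏ i : Fin r, (qv i.succ : ℕ))) hcov'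
    haveI := residualIdeal_isMaximal res hres a'
    obtain ⟨e₂, he₂⟩ := exists_isLocalIdem
      (heckeActOn Φ ((h.mul_right (qv 0 : ℕ)).mul_right (∏ i : Fin r, (qv i.succ : ℕ))) G)
      (residualIdeal res a')
    have hc := levelCast_range (R := M * ∏ i, (qv i : ℕ))
      (R' := M * (qv 0 : ℕ) * ∏ i : Fin r, (qv i.succ : ℕ))
      (by rw [Fin.prod_univ_succ, mul_assoc]) (h.mul_right _) ((h.mul_right _).mul_right _) he' he₂
    obtain ⟨i1, i2, i3⟩ := ih (fun i => qv i.succ) (hinj.comp (Fin.succ_injective _))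
      (fun i => hqG i.succ) (h.mul_right (qv 0 : ℕ)) _ (hcov.mono (dvd_mul_right _ _))
      (Function.update a (qv 0) (a' (qv 0)))
      (fun p hp => by
        rw [Function.update_of_ne (fun e0 => hp (by rw [e0]; exact hqG 0)), haG p hp])
      (fun p hp => by
        rcases eq_or_ne p (qv 0) with rfl | hp0
        · rw [Function.update_self]
        · rw [Function.update_of_ne hp0]
          exact hoff p fun i => Fin.cases (Ne.symm hp0) hp i)
      (fun i => hq1 i.succ) (fun i => hΦ i.succ)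
      (fun i => by rw [Function.update_of_ne (hne i)]; exact hα i.succ)
      (fun i => hα2 i.succ) he₁ he₂
    refine ⟨fun y hy => ?_, fun y hy h0 => ?_, fun x hx => ?_⟩
    · exact h1 _ (i1 _ ((hc y).trans (congrArg _ hy)))
    · have hy' := (hc y).trans (congrArg _ hy)
      exact (LinearEquiv.map_eq_zero_iff _).1 (i2 _ hy' (h2 _ (i1 _ hy') h0))
    · obtain ⟨z, hz, rfl⟩ := h3 x hx
      obtain ⟨w, hw, rfl⟩ := i3 z hz
      let c := levelCast Φ (R := M * ∏ i, (qv i : ℕ))
        (R' := M * (qv 0 : ℕ) * ∏ i : Fin r, (qv i.succ : ℕ))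
        (by rw [Fin.prod_univ_succ, mul_assoc]) (h.mul_right _) ((h.mul_right _).mul_right _)
      refine ⟨c.symm w, c.injective ?_, ?_⟩
      · rw [← hc, c.apply_symm_apply]
        exact hw
      · rw [multiDownMap, LinearMap.comp_apply, LinearMap.comp_apply, LinearEquiv.coe_coe,
          c.apply_symm_apply]

end Composite

end Fermat.Agent.Lifting.Models

end
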