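import Fermat.Agent.Lifting.Models.Residual
import Fermat.Agent.Lifting.Models.Edges.Linear
import Fermat.Agent.RT.Assembly.Models.Red

/-!
# The edges of a raising step

For a prime `t ∤ M` with unit twist: the maps `degRes`, `θ(t)⁻¹ degDiag` up and the transfers
`degCores`, `θ(t)⁻¹ degCores'` down commute with the twisted operators away from `t`, compose to
`[[t + 1, T_t], [T_t, t + 1]]`, and on the parts at a non-Eisenstein residual system the maps up are
jointly split injective and the maps down jointly surjective.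
-/

set_option autoImplicit false

noncomputable section

open MvPolynomial IsLocalRing

namespace Fermat.Agent.Lifting.Models

open RT.TW Periods
open RT.Assembly (neben twOp)
open RT.Assembly.Models (red red_heckeAct red_surjective mem_ker_smul_of_red_eq_zero)

variable {A : Type} [CommRing A] {N M t : ℕ} (θ : MulChar (ZMod N) A) (h : N ∣ M)

/-- The degeneracy maps up, normalised by the twist. -/
def upMap (ht : t.Prime) (htM : ¬ t ∣ M) :
    Fin 2 → (heckeH1 (neben θ) M h →ₗ[A] heckeH1 (neben θ) (M * t) (h.mul_right t)) :=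
  ![(degRes t (neben θ) h).opH1,
    Ring.inverse (θ (t : ZMod N)) • (degDiag (neben θ) h ht htM).opH1]

/-- The transfers, normalised by the twist. -/
def downMap [NeZero M] (ht : t.Prime) (htM : ¬ t ∣ M) (Bz : AddPrimeBezout M t) :
    Fin 2 → (heckeH1 (neben θ) (M * t) (h.mul_right t) →ₗ[A] heckeH1 (neben θ) M h) :=
  ![(degCores (neben θ) h ht htM Bz).opH1,
    Ring.inverse (θ (t : ZMod N)) • degCores' (neben θ) h ht htM Bz]

variable (ht : t.Prime) (htM : ¬ t ∣ M)

theorem upMap_heckeOp (ℓ : Nat.Primes) (hℓ : (ℓ : ℕ) ≠ t) (j : Fin 2)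
    (x : heckeH1 (neben θ) M h) :
    upMap θ h ht htM j (heckeOp (neben θ) h ℓ x) =
      heckeOp (neben θ) (h.mul_right t) ℓ (upMap θ h ht htM j x) := by
  fin_cases j
  · exact (opH1_degRes_comm h ht ℓ hℓ x).symm
  · show Ring.inverse (θ (t : ZMod N)) • _ = heckeOp (neben θ) (h.mul_right t) ℓ (Ring.inverse (θ (t : ZMod N)) • _)
    rw [map_smul, opH1_degDiag_comm h ht htM ℓ hℓ x]

theorem downMap_heckeOp [NeZero M] (Bz : AddPrimeBezout M t) (ℓ : Nat.Primes) (hℓ : (ℓ : ℕ) ≠ t)
    (i : Fin 2) (y : heckeH1 (neben θ) (M * t) (h.mul_right t)) :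
    downMap θ h ht htM Bz i (heckeOp (neben θ) (h.mul_right t) ℓ y) =
      heckeOp (neben θ) h ℓ (downMap θ h ht htM Bz i y) := by
  fin_cases i
  · exact degCores_comm h ht htM Bz ℓ hℓ y
  · show Ring.inverse (θ (t : ZMod N)) • _ = heckeOp (neben θ) h ℓ (Ring.inverse (θ (t : ZMod N)) • _)
    rw [map_smul, degCores'_comm h ht htM Bz ℓ hℓ y]

/-- The maps up commute with the twisted operators away from `t`. -/
theorem upMap_twOp (ℓ : Nat.Primes) (hℓ : (ℓ : ℕ) ≠ t) (j : Fin 2)
    (x : heckeH1 (neben θ) M h) :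
    upMap θ h ht htM j (twOp θ h ℓ x) = twOp θ (h.mul_right t) ℓ (upMap θ h ht htM j x) := by
  show upMap θ h ht htM j (Ring.inverse (θ ((ℓ : ℕ) : ZMod N)) • heckeOp (neben θ) h ℓ x) = _
  rw [map_smul, upMap_heckeOp θ h ht htM ℓ hℓ]
  rfl

/-- The maps down commute with the twisted operators away from `t`. -/
theorem downMap_twOp [NeZero M] (Bz : AddPrimeBezout M t) (ℓ : Nat.Primes) (hℓ : (ℓ : ℕ) ≠ t)
    (i : Fin 2) (y : heckeH1 (neben θ) (M * t) (h.mul_right t)) :
    downMap θ h ht htM Bz i (twOp θ (h.mul_right t) ℓ y) =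
      twOp θ h ℓ (downMap θ h ht htM Bz i y) := by
  show downMap θ h ht htM Bz i (Ring.inverse (θ ((ℓ : ℕ) : ZMod N)) • heckeOp (neben θ) (h.mul_right t) ℓ y) = _
  rw [map_smul, downMap_heckeOp θ h ht htM Bz ℓ hℓ]
  rfl

/-- The composites of the edges. -/
theorem downMap_upMap [NeZero M] (Bz : AddPrimeBezout M t) (hθ : IsUnit (θ (t : ZMod N)))
    (i j : Fin 2) (x : heckeH1 (neben θ) M h) :
    downMap θ h ht htM Bz i (upMap θ h ht htM j x) =
      (!![((t : ℕ) : Module.End A (heckeH1 (neben θ) M h)) + 1, twOp θ h ⟨t, ht⟩;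
          twOp θ h ⟨t, ht⟩, ((t : ℕ) : Module.End A (heckeH1 (neben θ) M h)) + 1] i j) x := by
  have hinv : Ring.inverse (θ (t : ZMod N)) * θ (t : ZMod N) = 1 :=
    Ring.inverse_mul_cancel _ hθ
  have hq : ((t : A) + 1) • x = ((t : ℕ) : Module.End A (heckeH1 (neben θ) M h)) x + x := by
    rw [add_smul, one_smul, Module.End.natCast_apply, Nat.cast_smul_eq_nsmul]
  fin_cases i <;> fin_cases j
  · show (degCores (neben θ) h ht htM Bz).opH1 ((degRes t (neben θ) h).opH1 x) = _
    rw [degCores_degRes h ht htM Bz, hq]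
    rfl
  · show (degCores (neben θ) h ht htM Bz).opH1
      (Ring.inverse (θ (t : ZMod N)) • (degDiag (neben θ) h ht htM).opH1 x) = _
    rw [map_smul, degCores_degDiag h ht htM Bz]
    rfl
  · show Ring.inverse (θ (t : ZMod N)) •
      degCores' (neben θ) h ht htM Bz ((degRes t (neben θ) h).opH1 x) = _
    rw [degCores'_degRes h ht htM Bz]
    rfl
  · show Ring.inverse (θ (t : ZMod N)) • degCores' (neben θ) h ht htM Bz
      (Ring.inverse (θ (t : ZMod N)) • (degDiag (neben θ) h ht htM).opH1 x) = _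
    rw [map_smul, degCores'_degDiag h ht htM Bz, smul_smul, smul_smul]
    have hn : neben θ (t : ZMod N) = θ (t : ZMod N) * θ (t : ZMod N) := by
      rw [← sq]; exact MulChar.pow_apply' θ two_ne_zero _
    rw [hn, show Ring.inverse (θ (t : ZMod N)) * Ring.inverse (θ (t : ZMod N)) *
        (θ (t : ZMod N) * θ (t : ZMod N) * ((t : A) + 1)) = (t : A) + 1 by
      linear_combination (Ring.inverse (θ (t : ZMod N)) * θ (t : ZMod N) + 1) * ((t : A) + 1) * hinv,
      hq]
    rfl

section Parts

variable [IsLocalRing A] [IsNoetherianRing A] [NeZero M] (hcov : CoverHyp A M)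
  {k : Type} [Field k] {res : A →+* k} (hres : Function.Surjective res)
  {G : Set Nat.Primes} (hG : ∀ ℓ ∈ G, (ℓ : ℕ) ≠ t) {a : Nat.Primes → k}
  {e : Module.End A (heckeH1 (neben θ) M h)}
  (he : IsLocalIdem (heckeActOn (neben θ) h G) (residualIdeal res a) e)
  {e' : Module.End A (heckeH1 (neben θ) (M * t) (h.mul_right t))}
  (he' : IsLocalIdem (heckeActOn (neben θ) (h.mul_right t) G) (residualIdeal res a) e')

include hcov hG he he'

/-- The maps up send the part to the part. -/
theorem upMap_mem_part (j : Fin 2) {x : heckeH1 (neben θ) M h} (hx : e x = x) :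
    e' (upMap θ h ht htM j x) = upMap θ h ht htM j x := by
  haveI : NeZero (M * t) := ⟨mul_ne_zero (NeZero.ne M) ht.ne_zero⟩
  haveI := finite_heckeH1 (Φ := neben θ) h hcov
  haveI := finite_heckeH1 (Φ := neben θ) (h.mul_right t) (hcov.mono (dvd_mul_right M t))
  have key := he.natural he' (σ := RingHom.id A) (upMap θ h ht htM j) (RingHom.id (HeckePoly A))
    Function.surjective_id
    (fun P x => heckeActOn_intertwine _ (fun r hr => upMap_heckeOp θ h ht htM r (hG r hr) j) P x)
    (fun _ => Iff.rfl) x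
  rw [hx] at key
  exact key.symm

/-- The maps down send the part to the part. -/
theorem downMap_mem_part (Bz : AddPrimeBezout M t) (i : Fin 2)
    {y : heckeH1 (neben θ) (M * t) (h.mul_right t)} (hy : e' y = y) :
    e (downMap θ h ht htM Bz i y) = downMap θ h ht htM Bz i y := by
  haveI : NeZero (M * t) := ⟨mul_ne_zero (NeZero.ne M) ht.ne_zero⟩
  haveI := finite_heckeH1 (Φ := neben θ) h hcov
  haveI := finite_heckeH1 (Φ := neben θ) (h.mul_right t) (hcov.mono (dvd_mul_right M t))
  have key := he'.natural he (σ := RingHom.id A) (downMap θ h ht htM Bz i)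
    (RingHom.id (HeckePoly A)) Function.surjective_id
    (fun P x => heckeActOn_intertwine _
      (fun r hr => downMap_heckeOp θ h ht htM Bz r (hG r hr) i) P x)
    (fun _ => Iff.rfl) y
  rw [hy] at key
  exact key.symm

variable (hθres : ∀ u : ℤ, IsUnit (u : ZMod N) → res (θ (u : ZMod N)) = 1)
  {p : ℕ} [Fact p.Prime] [CharP k p] (hp2 : p ≠ 2) (hne : NonEisAt M G a)

omit hcov hG he he' [IsLocalRing A] [IsNoetherianRing A] [NeZero M] [Fact p.Prime] [CharP k p] in
include hθres in
theorem res_neben (u : ℤ) (hu : IsUnit (u : ZMod N)) :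
    res (neben θ (u : ZMod N)) = (1 : MulChar (ZMod 1) k) (u : ZMod 1) := by
  rw [MulChar.one_apply (isUnit_of_subsingleton _),
    show neben θ (u : ZMod N) = θ (u : ZMod N) ^ 2 from MulChar.pow_apply' θ two_ne_zero _,
    map_pow, hθres u hu, one_pow]

omit hcov hG he he' [IsLocalRing A] [IsNoetherianRing A] [NeZero M] [Fact p.Prime] [CharP k p] in
include hres hθres ht htM h in
theorem res_twist [IsLocalRing A] :
    IsUnit (θ (t : ZMod N)) ∧ res (Ring.inverse (θ (t : ZMod N))) = 1 := by
  have htu : IsUnit (((t : ℕ) : ℤ) : ZMod N) := by exact_mod_cast isUnit_zmod_of_not_dvd h ht htM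
  have h1 : res (θ (t : ZMod N)) = 1 := by exact_mod_cast hθres (t : ℤ) htu
  haveI : IsLocalHom res := IsLocalHom.of_surjective res hres
  have hu : IsUnit (θ (t : ZMod N)) := IsUnit.of_map res _ (by rw [h1]; exact isUnit_one)
  refine ⟨hu, ?_⟩
  have h2 := congrArg res (Ring.inverse_mul_cancel _ hu)
  rwa [map_mul, map_one, h1, mul_one] at h2

omit hcov hG he he' [NeZero M] [Fact p.Prime] [CharP k p] in
include hres hθres in
/-- Reduction to trivial nebentypus over the residue field carries the part onto the part. -/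
theorem red_part_on {X : ℕ} [NeZero X] (hX : N ∣ X) (hcovX : CoverHyp A X)
    {d : Module.End A (heckeH1 (neben θ) X hX)}
    (hd : IsLocalIdem (heckeActOn (neben θ) hX G) (residualIdeal res a) d) :
    ∃ d₀ : Module.End k (heckeH1 (1 : MulChar (ZMod 1) k) X (one_dvd X)),
      IsLocalIdem (heckeActOn (1 : MulChar (ZMod 1) k) (one_dvd X) G)
        (residualIdeal (RingHom.id k) a) d₀ ∧
      (∀ y, d₀ y = y → ∃ x, d x = x ∧ red res hX (one_dvd X) (res_neben θ hθres) x = y) ∧
      (∀ x, d x = x → (red res hX (one_dvd X) (res_neben θ hθres) x = 0 ↔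
        x ∈ maximalIdeal A • LinearMap.range d)) ∧
      ∀ x, red res hX (one_dvd X) (res_neben θ hθres) (d x) =
        d₀ (red res hX (one_dvd X) (res_neben θ hθres) x) := by
  haveI : IsLocalHom res := IsLocalHom.of_surjective res hres
  haveI := finite_heckeH1 (Φ := (1 : MulChar (ZMod 1) k)) (one_dvd X) (hcovX.map res)
  haveI := finite_heckeH1 (Φ := neben θ) hX hcovX
  haveI := residualIdeal_isMaximal (RingHom.id k) Function.surjective_id a
  obtain ⟨d₀, hd₀⟩ := exists_isLocalIdem (heckeActOn (1 : MulChar (ZMod 1) k) (one_dvd X) G)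
    (residualIdeal (RingHom.id k) a)
  have hker : RingHom.ker res = maximalIdeal A :=
    eq_maximalIdeal (RingHom.ker_isMaximal_of_surjective res hres)
  have hcomp : ∀ P y, red res hX (one_dvd X) (res_neben θ hθres)
      (heckeActOn (neben θ) hX G P y) =
        heckeActOn (1 : MulChar (ZMod 1) k) (one_dvd X) G (MvPolynomial.map res P)
          (red res hX (one_dvd X) (res_neben θ hθres) y) := fun P y => by
    rw [heckeActOn_apply, red_heckeAct, map_killOff]
    rfl
  have hm : ∀ P : HeckePoly A, MvPolynomial.map res P ∈ residualIdeal (RingHom.id k) a ↔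
      P ∈ residualIdeal res a := fun P => by
    rw [← Ideal.mem_comap, residualIdeal_comap, RingHom.id_comp]
  have key := hd.baseChange hd₀ (red res hX (one_dvd X) (res_neben θ hθres))
    (MvPolynomial.map res) (MvPolynomial.map_surjective res hres) hcomp hm
    (red_surjective _ hcovX hres) (fun x hx => mem_ker_smul_of_red_eq_zero _ hcovX hres hx)
  exact ⟨d₀, hd₀, key.1, hker ▸ key.2,
    hd.natural hd₀ _ (MvPolynomial.map res) (MvPolynomial.map_surjective res hres) hcomp hm⟩

omit hcov hG he he' [IsLocalRing A] [IsNoetherianRing A] [NeZero M] [Fact p.Prime] [CharP k p] in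
theorem red_opH1_twist {X Y : ℕ} {hX : N ∣ X} {hY : N ∣ Y} {ι : Type} [Fintype ι]
    (D : CosetFamily (level0 (neben θ) X hX) (level0 (neben θ) Y hY) ι)
    (D₀ : CosetFamily (level0 (1 : MulChar (ZMod 1) k) X (one_dvd X))
      (level0 (1 : MulChar (ZMod 1) k) Y (one_dvd Y)) ι)
    (D₁ : CosetFamily (level0 ((neben θ).ringHomComp res) X hX)
      (level0 ((neben θ).ringHomComp res) Y hY) ι)
    (h₁ : ∀ i, (D₁.mat i : IntMat) = (D.mat i : IntMat))
    (h₀ : ∀ i, (D₁.mat i : IntMat) = (D₀.mat i : IntMat))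
    (y : heckeH1 (neben θ) X hX) :
    red res hY (one_dvd Y) (res_neben θ hθres) (D.opH1 y) =
      D₀.opH1 (red res hX (one_dvd X) (res_neben θ hθres) y) := by
  show RT.Assembly.Models.chg res hY (one_dvd Y) (res_neben θ hθres)
    (heckeBaseChange (neben θ) res hY (D.opH1 y)) = _
  rw [heckeBaseChange_opH1 res D D₁ h₁]
  exact changeModulus_opH1 (res_neben θ hθres) D₀ D₁ h₀ _

include hres hθres hp2 hne

/-- The maps down are jointly surjective on the parts. -/
theorem downMap_jointly_surjective [Finite k] (Bz : AddPrimeBezout M t)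
    {y₁ y₂ : heckeH1 (neben θ) M h} (hy₁ : e y₁ = y₁) (hy₂ : e y₂ = y₂) :
    ∃ x, e' x = x ∧ downMap θ h ht htM Bz 0 x = y₁ ∧ downMap θ h ht htM Bz 1 x = y₂ := by
  haveI : NeZero (M * t) := ⟨mul_ne_zero (NeZero.ne M) ht.ne_zero⟩
  haveI := finite_heckeH1 (Φ := neben θ) h hcov
  haveI := finite_heckeH1 (Φ := neben θ) (h.mul_right t) (hcov.mono (dvd_mul_right M t))
  obtain ⟨e₀, he₀, -, hk, hn⟩ := red_part_on (a := a) (G := G) θ hres hθres h hcov he
  obtain ⟨e₀', he₀', hs', -, -⟩ := red_part_on (a := a) (G := G) θ hres hθres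
    (h.mul_right t) (hcov.mono (dvd_mul_right M t)) he'
  have hmem : ∀ i (x : LinearMap.range e'),
      downMap θ h ht htM Bz i (x : _) ∈ LinearMap.range e := fun i x =>
    ⟨_, downMap_mem_part θ h ht htM hcov hG he he' Bz i (he'.eq_of_mem_range x)⟩
  let f : LinearMap.range e' →ₗ[A] LinearMap.range e × LinearMap.range e :=
    (LinearMap.codRestrict _ ((downMap θ h ht htM Bz 0).domRestrict _) (hmem 0)).prod
      (LinearMap.codRestrict _ ((downMap θ h ht htM Bz 1).domRestrict _) (hmem 1))
  have hf : Function.Surjective f := by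
    refine surjective_of_surjective_mod f fun ⟨z₁, z₂⟩ => ?_
    obtain ⟨-, hinv⟩ := res_twist θ h ht htM hres hθres
    have hz : ∀ z : LinearMap.range e, e₀ (red res h (one_dvd M) (res_neben θ hθres) z) =
        red res h (one_dvd M) (res_neben θ hθres) z := fun z => by
      rw [← hn, he.eq_of_mem_range z]
    obtain ⟨w, hw, hw₁, hw₂⟩ := transfers_surjective hp2 ht htM hG (hcov.map res) hne Bz he₀ he₀'
      (hz z₁) (hz z₂)
    obtain ⟨x, hx, rfl⟩ := hs' w hw
    refine ⟨⟨x, x, hx⟩, ?_⟩
    have hsub : ∀ i (z : LinearMap.range e),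
        red res h (one_dvd M) (res_neben θ hθres) (downMap θ h ht htM Bz i x) =
          red res h (one_dvd M) (res_neben θ hθres) z →
        (⟨_, hmem i ⟨x, x, hx⟩⟩ - z : LinearMap.range e) ∈
          maximalIdeal A • (⊤ : Submodule A (LinearMap.range e)) := by
      intro i z hiz
      have h0 : (downMap θ h ht htM Bz i x - (z : _)) ∈ maximalIdeal A • LinearMap.range e := by
        refine (hk _ ?_).1 ?_
        · rw [map_sub, he.eq_of_mem_range z, downMap_mem_part θ h ht htM hcov hG he he' Bz i hx]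
        · rw [map_sub, hiz, sub_self]
      refine (Submodule.mem_smul_top_iff _ _ _).2 ?_
      exact h0
    have hd₀ : red res h (one_dvd M) (res_neben θ hθres) (downMap θ h ht htM Bz 0 x) =
        red res h (one_dvd M) (res_neben θ hθres) z₁ := by
      rw [← hw₁]
      exact red_opH1_twist θ hθres (degCores (neben θ) h ht htM Bz) (degCores _ (one_dvd M) ht htM Bz)
        (degCores ((neben θ).ringHomComp res) h ht htM Bz) (fun _ => rfl) (fun _ => rfl) x
    have hd₁ : red res h (one_dvd M) (res_neben θ hθres) (downMap θ h ht htM Bz 1 x) =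
        red res h (one_dvd M) (res_neben θ hθres) z₂ := by
      rw [← hw₂]
      show red res h (one_dvd M) (res_neben θ hθres)
        (Ring.inverse (θ (t : ZMod N)) • degCores' (neben θ) h ht htM Bz x) = _
      rw [LinearMap.map_smulₛₗ, hinv, one_smul]
      show red res h (one_dvd M) (res_neben θ hθres)
        ((degCores (neben θ) h ht htM Bz).opH1 ((degInvol (neben θ) h ht Bz).opH1 x)) = _
      rw [red_opH1_twist θ hθres (degCores (neben θ) h ht htM Bz) (degCores _ (one_dvd M) ht htM Bz)
          (degCores ((neben θ).ringHomComp res) h ht htM Bz) (fun _ => rfl) (fun _ => rfl),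
        red_opH1_twist θ hθres (degInvol (neben θ) h ht Bz) (degInvol _ (one_dvd M) ht Bz)
          (degInvol ((neben θ).ringHomComp res) h ht Bz) (fun _ => rfl) (fun _ => rfl)]
      rfl
    have e1 := hsub 0 z₁ hd₀
    have e2 := hsub 1 z₂ hd₁
    let inl' := LinearMap.inl A (LinearMap.range e) (LinearMap.range e)
    let inr' := LinearMap.inr A (LinearMap.range e) (LinearMap.range e)
    have h1 := Submodule.mem_map_of_mem (f := inl') e1
    have h2 := Submodule.mem_map_of_mem (f := inr') e2
    rw [Submodule.map_smul''] at h1 h2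
    have h3 := add_mem (Submodule.smul_mono le_rfl le_top h1)
      (Submodule.smul_mono le_rfl le_top h2)
    convert! h3 using 1
    refine Prod.ext ?_ ?_
    · simp [inl', inr', f, LinearMap.codRestrict, LinearMap.domRestrict]
    · simp [inl', inr', f, LinearMap.codRestrict, LinearMap.domRestrict]
  obtain ⟨x, hx⟩ := hf (⟨y₁, y₁, hy₁⟩, ⟨y₂, y₂, hy₂⟩)
  exact ⟨x, he'.eq_of_mem_range x, congrArg (fun z : LinearMap.range e × LinearMap.range e => (z.1 : heckeH1 (neben θ) M h)) hx,
    congrArg (fun z : LinearMap.range e × LinearMap.range e => (z.2 : heckeH1 (neben θ) M h)) hx⟩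

/-- The maps up are jointly injective on the parts modulo the maximal ideal. -/
theorem upMap_injective_mod {x₀ x₁ : heckeH1 (neben θ) M h} (hx₀ : e x₀ = x₀) (hx₁ : e x₁ = x₁)
    (hup : upMap θ h ht htM 0 x₀ + upMap θ h ht htM 1 x₁ ∈
      maximalIdeal A • LinearMap.range e') :
    x₀ ∈ maximalIdeal A • LinearMap.range e ∧ x₁ ∈ maximalIdeal A • LinearMap.range e := by
  haveI : NeZero (M * t) := ⟨mul_ne_zero (NeZero.ne M) ht.ne_zero⟩
  haveI := finite_heckeH1 (Φ := neben θ) h hcov
  haveI := finite_heckeH1 (Φ := neben θ) (h.mul_right t) (hcov.mono (dvd_mul_right M t))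
  obtain ⟨e₀, he₀, -, hk, hn⟩ := red_part_on (a := a) (G := G) θ hres hθres h hcov he
  obtain ⟨e₀', -, -, hk', -⟩ := red_part_on (a := a) (G := G) θ hres hθres
    (h.mul_right t) (hcov.mono (dvd_mul_right M t)) he'
  have hfix : e' (upMap θ h ht htM 0 x₀ + upMap θ h ht htM 1 x₁) =
      upMap θ h ht htM 0 x₀ + upMap θ h ht htM 1 x₁ := by
    rw [map_add, upMap_mem_part θ h ht htM hcov hG he he' 0 hx₀,
      upMap_mem_part θ h ht htM hcov hG he he' 1 hx₁]
  have h0 := (hk' _ hfix).2 hup
  obtain ⟨-, hinv⟩ := res_twist θ h ht htM hres hθres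
  rw [map_add, show upMap θ h ht htM 0 x₀ = (degRes t (neben θ) h).opH1 x₀ from rfl,
    show upMap θ h ht htM 1 x₁ =
      Ring.inverse (θ (t : ZMod N)) • (degDiag (neben θ) h ht htM).opH1 x₁ from rfl,
    LinearMap.map_smulₛₗ, hinv, one_smul,
    red_opH1_twist θ hθres (degRes t (neben θ) h) (degRes t _ (one_dvd M))
      (degRes t ((neben θ).ringHomComp res) h) (fun _ => rfl) (fun _ => rfl),
    red_opH1_twist θ hθres (degDiag (neben θ) h ht htM) (degDiag _ (one_dvd M) ht htM)
      (degDiag ((neben θ).ringHomComp res) h ht htM) (fun _ => rfl) (fun _ => rfl)] at h0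
  obtain ⟨z₀, z₁⟩ := degMaps_injective Fact.out hp2 ht htM (hcov.map res) hne he₀
    (by rw [← hn, hx₀]) (by rw [← hn, hx₁]) h0
  exact ⟨(hk x₀ hx₀).1 z₀, (hk x₁ hx₁).1 z₁⟩

end Parts

end Fermat.Agent.Lifting.Models

end
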