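import Fermat.Agent.Lifting.Models.PNew
import Fermat.Agent.Lifting.Models.Edges

/-!
# The edges between the parts of consecutive nodes

For a node `NodeBelow B q` and Taylor–Wiles primes over `B` the maps `upPart`, `dnPart` between
the parts commute with the twisted operators away from `q`, compose to
`[[q + 1, T_q], [T_q, q + 1]]`; the downs are jointly surjective and the ups jointly split
injective with free complement, and `pNew` is the common kernel of the downs.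
-/

set_option autoImplicit false
set_option linter.style.haveILetI false

noncomputable section

open IsLocalRing MvPolynomial

namespace Fermat.Agent.Lifting.Models

open RT.Diamond RT.TW RT.Assembly
open RT.Systems (levelCast)

section Cast

variable {A : Type} [CommRing A] {N M t M' : ℕ} (θ : MulChar (ZMod N) A) (h : N ∣ M)
  (ht : t.Prime) (htM : ¬ t ∣ M) (hM : M * t = M') (h' : N ∣ M')

/-- The maps up into a level equal to `M * t`. -/
def upCast (j : Fin 2) : heckeH1 (neben θ) M h →ₗ[A] heckeH1 (neben θ) M' h' :=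
  (levelCast (neben θ) hM (h.mul_right t) h').toLinearMap ∘ₗ upMap θ h ht htM j

/-- The maps down from a level equal to `M * t`. -/
def downCast [NeZero M] (Bz : AddPrimeBezout M t) (i : Fin 2) :
    heckeH1 (neben θ) M' h' →ₗ[A] heckeH1 (neben θ) M h :=
  downMap θ h ht htM Bz i ∘ₗ (levelCast (neben θ) hM (h.mul_right t) h').symm.toLinearMap

theorem upCast_twOp (ℓ : Nat.Primes) (hℓ : (ℓ : ℕ) ≠ t) (j : Fin 2) (x : heckeH1 (neben θ) M h) :
    upCast θ h ht htM hM h' j (twOp θ h ℓ x) = twOp θ h' ℓ (upCast θ h ht htM hM h' j x) := by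
  subst hM
  exact upMap_twOp θ h ht htM ℓ hℓ j x

theorem upCast_heckeOp (ℓ : Nat.Primes) (hℓ : (ℓ : ℕ) ≠ t) (j : Fin 2)
    (x : heckeH1 (neben θ) M h) :
    upCast θ h ht htM hM h' j (heckeOp (neben θ) h ℓ x) =
      heckeOp (neben θ) h' ℓ (upCast θ h ht htM hM h' j x) := by
  subst hM
  exact upMap_heckeOp θ h ht htM ℓ hℓ j x

theorem downCast_twOp [NeZero M] (Bz : AddPrimeBezout M t) (ℓ : Nat.Primes) (hℓ : (ℓ : ℕ) ≠ t)
    (i : Fin 2) (y : heckeH1 (neben θ) M' h') :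
    downCast θ h ht htM hM h' Bz i (twOp θ h' ℓ y) =
      twOp θ h ℓ (downCast θ h ht htM hM h' Bz i y) := by
  subst hM
  exact downMap_twOp θ h ht htM Bz ℓ hℓ i y

theorem downCast_heckeOp [NeZero M] (Bz : AddPrimeBezout M t) (ℓ : Nat.Primes)
    (hℓ : (ℓ : ℕ) ≠ t) (i : Fin 2) (y : heckeH1 (neben θ) M' h') :
    downCast θ h ht htM hM h' Bz i (heckeOp (neben θ) h' ℓ y) =
      heckeOp (neben θ) h ℓ (downCast θ h ht htM hM h' Bz i y) := by
  subst hM
  exact downMap_heckeOp θ h ht htM Bz ℓ hℓ i y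

theorem downCast_upCast [NeZero M] (Bz : AddPrimeBezout M t) (hθ : IsUnit (θ (t : ZMod N)))
    (i j : Fin 2) (x : heckeH1 (neben θ) M h) :
    downCast θ h ht htM hM h' Bz i (upCast θ h ht htM hM h' j x) =
      (!![((t : ℕ) : Module.End A (heckeH1 (neben θ) M h)) + 1, twOp θ h ⟨t, ht⟩;
          twOp θ h ⟨t, ht⟩, ((t : ℕ) : Module.End A (heckeH1 (neben θ) M h)) + 1] i j) x := by
  subst hM
  exact downMap_upMap θ h ht htM Bz hθ i j x

variable [IsLocalRing A] [IsNoetherianRing A] [NeZero M] (hcov : CoverHyp A M)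
  {k : Type} [Field k] {res : A →+* k} (hres : Function.Surjective res)
  {G : Set Nat.Primes} (hG : ∀ ℓ ∈ G, (ℓ : ℕ) ≠ t) {a : Nat.Primes → k}
  {e : Module.End A (heckeH1 (neben θ) M h)}
  (he : IsLocalIdem (heckeActOn (neben θ) h G) (residualIdeal res a) e)
  {e' : Module.End A (heckeH1 (neben θ) M' h')}
  (he' : IsLocalIdem (heckeActOn (neben θ) h' G) (residualIdeal res a) e')

include hcov hG he he'

theorem upCast_mem_part (j : Fin 2) {x : heckeH1 (neben θ) M h} (hx : e x = x) :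
    e' (upCast θ h ht htM hM h' j x) = upCast θ h ht htM hM h' j x := by
  subst hM
  exact upMap_mem_part θ h ht htM hcov hG he he' j hx

theorem downCast_mem_part (Bz : AddPrimeBezout M t) (i : Fin 2) {y : heckeH1 (neben θ) M' h'}
    (hy : e' y = y) :
    e (downCast θ h ht htM hM h' Bz i y) = downCast θ h ht htM hM h' Bz i y := by
  subst hM
  exact downMap_mem_part θ h ht htM hcov hG he he' Bz i hy

variable (hθres : ∀ u : ℤ, IsUnit (u : ZMod N) → res (θ (u : ZMod N)) = 1)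
  {p : ℕ} [Fact p.Prime] [CharP k p] (hp2 : p ≠ 2) (hne : NonEisAt M G a)
include hres hθres hp2 hne

theorem downCast_jointly_surjective [Finite k] (Bz : AddPrimeBezout M t)
    {y₁ y₂ : heckeH1 (neben θ) M h} (hy₁ : e y₁ = y₁) (hy₂ : e y₂ = y₂) :
    ∃ x, e' x = x ∧ downCast θ h ht htM hM h' Bz 0 x = y₁ ∧
      downCast θ h ht htM hM h' Bz 1 x = y₂ := by
  subst hM
  exact downMap_jointly_surjective θ h ht htM hcov hres hG he he' hθres hp2 hne Bz hy₁ hy₂

theorem upCast_injective_mod {x₀ x₁ : heckeH1 (neben θ) M h} (hx₀ : e x₀ = x₀) (hx₁ : e x₁ = x₁)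
    (hup : upCast θ h ht htM hM h' 0 x₀ + upCast θ h ht htM hM h' 1 x₁ ∈
      maximalIdeal A • LinearMap.range e') :
    x₀ ∈ maximalIdeal A • LinearMap.range e ∧ x₁ ∈ maximalIdeal A • LinearMap.range e := by
  subst hM
  exact upMap_injective_mod θ h ht htM hcov hres hG he he' hθres hp2 hne hx₀ hx₁ hup

end Cast

theorem levelCast_symm_apply {A : Type} [CommRing A] {N R R' : ℕ} {Φ : MulChar (ZMod N) A}
    (e : R = R') (e' : R' = R) (h : N ∣ R) (h' : N ∣ R') (y : heckeH1 Φ R' h') :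
    (levelCast Φ e h h').symm y = levelCast Φ e' h' h y := by
  subst e; rfl

variable {O : Type} [CommRing O] [IsDomain O] [IsDiscreteValuationRing O]
  [IsAdicComplete (maximalIdeal O) O] [Finite (ResidueField O)] [CharZero O]
  {p : ℕ} [Fact p.Prime]

theorem NodeBase.charP (B : NodeBase O p) : CharP (ResidueField O) p :=
  (CharP.charP_iff_prime_eq_zero (Fact.out : p.Prime)).2
    (by rw [← map_natCast (residue O), residue_eq_zero_iff]; exact B.hpO)

namespace NodeBelow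

variable {B : NodeBase O p} {q : ℕ} (Bl : NodeBelow B q) {r n : ℕ}

include Bl

theorem idem_spec (Lv : NodeLevel B r n) :
    IsLocalIdem (heckeActOn (neben Lv.θ) (Bl.level Lv).N_dvd_L B.G)
      (residualIdeal Lv.resΛ Lv.aLv) (Bl.level Lv).idem := by
  have h := (Bl.level Lv).idem_spec
  simp only [NodeLevel.m, Bl.aLv_eq Lv, Bl.G_eq] at h
  exact h

theorem nonEisAt (Lv : NodeLevel B r n) : NonEisAt (Bl.level Lv).L B.G Lv.aLv := by
  obtain ⟨ℓ, hℓ, hG, h1, -, hne⟩ := Lv.exists_nonEis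
  refine ⟨ℓ, hG, ?_, ?_⟩
  · have hd : (Bl.level Lv).L ∣ Lv.L * Lv.N :=
      ⟨q * Lv.N, by rw [← mul_assoc, Bl.level_L Lv]⟩
    have := congrArg (ZMod.castHom hd (ZMod (Bl.level Lv).L)) h1
    rwa [map_natCast, map_one] at this
  · rw [Lv.aLv_of_good hℓ hG]
    exact hne

omit Bl in
theorem resθ (Lv : NodeLevel B r n) (u : ℤ) (hu : IsUnit (u : ZMod Lv.N)) :
    Lv.resΛ (Lv.θ (u : ZMod Lv.N)) = 1 :=
  Lv.resΛ_θ hu

theorem isUnit_θ (Lv : NodeLevel B r n) : IsUnit (Lv.θ (q : ZMod Lv.N)) :=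
  (res_twist (N := Lv.N) Lv.θ (Bl.level Lv).N_dvd_L Bl.prime (Bl.not_dvd_level Lv) Lv.resΛ_surjective
    (resθ Lv)).1

omit Bl in
theorem mem_part_iff {B' : NodeBase O p} (Lv' : NodeLevel B' r n) {x : Lv'.H1} :
    x ∈ Lv'.part ↔ Lv'.idem x = x :=
  ⟨fun h => Lv'.idem_spec.eq_of_mem_range ⟨x, h⟩, fun h => ⟨x, h⟩⟩

/-- The maps up between the parts. -/
def upPart (Lv : NodeLevel B r n) (j : Fin 2) : (Bl.level Lv).part →ₗ[Lv.Λ] Lv.part :=
  (upCast Lv.θ (Bl.level Lv).N_dvd_L Bl.prime (Bl.not_dvd_level Lv) (Bl.level_L Lv) Lv.N_dvd_L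
    j).restrict fun _ hx => ⟨_, upCast_mem_part _ _ _ _ (Bl.level_L Lv) _
      (Bl.level Lv).coverHyp_L (fun _ hℓ => Bl.ne_of_mem_G hℓ) (Bl.idem_spec Lv) Lv.idem_spec j
      ((mem_part_iff _).1 hx)⟩

/-- The maps down between the parts. -/
def dnPart (Lv : NodeLevel B r n) (i : Fin 2) : Lv.part →ₗ[Lv.Λ] (Bl.level Lv).part :=
  (downCast Lv.θ (Bl.level Lv).N_dvd_L Bl.prime (Bl.not_dvd_level Lv) (Bl.level_L Lv) Lv.N_dvd_L
    (Bl.bezout Lv) i).restrict fun _ hx => ⟨_, downCast_mem_part _ _ _ _ (Bl.level_L Lv) _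
      (Bl.level Lv).coverHyp_L (fun _ hℓ => Bl.ne_of_mem_G hℓ) (Bl.idem_spec Lv) Lv.idem_spec
      (Bl.bezout Lv) i ((mem_part_iff _).1 hx)⟩

theorem coe_upPart (Lv : NodeLevel B r n) (j : Fin 2) (x : (Bl.level Lv).part) :
    (Bl.upPart Lv j x : Lv.H1) =
      upCast Lv.θ (Bl.level Lv).N_dvd_L Bl.prime (Bl.not_dvd_level Lv) (Bl.level_L Lv) Lv.N_dvd_L j
        (x : (Bl.level Lv).H1) := rfl

theorem coe_dnPart (Lv : NodeLevel B r n) (i : Fin 2) (x : Lv.part) :
    (Bl.dnPart Lv i x : (Bl.level Lv).H1) =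
      downCast Lv.θ (Bl.level Lv).N_dvd_L Bl.prime (Bl.not_dvd_level Lv) (Bl.level_L Lv) Lv.N_dvd_L
        (Bl.bezout Lv) i (x : Lv.H1) := rfl

omit Bl in
/-- The twisted operator on a part. -/
abbrev twPart {B' : NodeBase O p} (Lv' : NodeLevel B' r n) (ℓ : Nat.Primes) :
    Module.End Lv'.Λ Lv'.part :=
  Lv'.partAct (twPoly Lv'.θ (X ℓ))

omit Bl in
theorem coe_twPart {B' : NodeBase O p} (Lv' : NodeLevel B' r n) (ℓ : Nat.Primes)
    (x : Lv'.part) : (twPart Lv' ℓ x : Lv'.H1) = twOp Lv'.θ Lv'.N_dvd_L ℓ x :=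
  (LinearMap.congr_fun (Lv'.twOp_eq_heckeAct ℓ) (x : Lv'.H1)).symm

theorem upPart_twPart (Lv : NodeLevel B r n) (ℓ : Nat.Primes) (hℓ : (ℓ : ℕ) ≠ q) (j : Fin 2)
    (x : (Bl.level Lv).part) :
    Bl.upPart Lv j (twPart (Bl.level Lv) ℓ x) = twPart Lv ℓ (Bl.upPart Lv j x) := by
  refine Subtype.ext ?_
  rw [coe_upPart, coe_twPart, coe_twPart, coe_upPart]
  exact upCast_twOp _ _ _ _ (Bl.level_L Lv) _ ℓ hℓ j _

theorem dnPart_twPart (Lv : NodeLevel B r n) (ℓ : Nat.Primes) (hℓ : (ℓ : ℕ) ≠ q) (i : Fin 2)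
    (x : Lv.part) :
    Bl.dnPart Lv i (twPart Lv ℓ x) = twPart (Bl.level Lv) ℓ (Bl.dnPart Lv i x) := by
  refine Subtype.ext ?_
  rw [coe_dnPart, coe_twPart, coe_twPart, coe_dnPart]
  exact downCast_twOp _ _ _ _ (Bl.level_L Lv) _ (Bl.bezout Lv) ℓ hℓ i _

/-- The composites of the edges. -/
theorem dnPart_upPart (Lv : NodeLevel B r n) (i j : Fin 2) (x : (Bl.level Lv).part) :
    Bl.dnPart Lv i (Bl.upPart Lv j x) =
      (!![((q : ℕ) : Module.End Lv.Λ (Bl.level Lv).part) + 1, twPart (Bl.level Lv) ⟨q, Bl.prime⟩;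
          twPart (Bl.level Lv) ⟨q, Bl.prime⟩,
          ((q : ℕ) : Module.End Lv.Λ (Bl.level Lv).part) + 1] i j) x := by
  refine Subtype.ext ?_
  rw [coe_dnPart, coe_upPart,
    downCast_upCast _ _ _ _ (Bl.level_L Lv) _ (Bl.bezout Lv) (Bl.isUnit_θ Lv) i j]
  fin_cases i <;> fin_cases j
  · simp [Module.End.natCast_apply]; rfl
  · exact (coe_twPart _ _ _).symm
  · exact (coe_twPart _ _ _).symm
  · simp [Module.End.natCast_apply]; rfl

/-- The maps down are jointly surjective on the parts. -/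
theorem dnPart_surjective (Lv : NodeLevel B r n) (y : Fin 2 → (Bl.level Lv).part) :
    ∃ x, ∀ i, Bl.dnPart Lv i x = y i := by
  haveI := B.charP
  obtain ⟨x, hx, h0, h1⟩ := downCast_jointly_surjective _ _ _ (Bl.not_dvd_level Lv) (Bl.level_L Lv) _
    (Bl.level Lv).coverHyp_L Lv.resΛ_surjective (fun _ hℓ => Bl.ne_of_mem_G hℓ) (Bl.idem_spec Lv)
    Lv.idem_spec (resθ Lv) B.hp2 (Bl.nonEisAt Lv) (Bl.bezout Lv)
    ((mem_part_iff _).1 (y 0).2) ((mem_part_iff _).1 (y 1).2)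
  refine ⟨⟨x, x, hx⟩, fun i => Subtype.ext ?_⟩
  fin_cases i
  · exact h0
  · exact h1

theorem dnPart_zero (Lv : NodeLevel B r n) (x : Lv.part) :
    Bl.dnPart Lv 0 x = Bl.trPart Lv 0 x := by
  refine Subtype.ext ?_
  rw [coe_dnPart, coe_trPart]
  exact congrArg (degCores (neben Lv.θ) (Bl.level Lv).N_dvd_L Bl.prime (Bl.not_dvd_level Lv)
      (Bl.bezout Lv)).opH1
    (levelCast_symm_apply (Φ := neben Lv.θ) (Bl.level_L Lv) (Bl.level_L Lv).symm
      ((Bl.level Lv).N_dvd_L.mul_right q) Lv.N_dvd_L (x : Lv.H1))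

theorem dnPart_one (Lv : NodeLevel B r n) (x : Lv.part) :
    Bl.dnPart Lv 1 x = Ring.inverse (Lv.θ (q : ZMod Lv.N)) • Bl.trPart Lv 1 x := by
  refine Subtype.ext ?_
  rw [coe_dnPart, Submodule.coe_smul, coe_trPart]
  exact congrArg (fun y => Ring.inverse (Lv.θ (q : ZMod Lv.N)) •
      degCores' (neben Lv.θ) (Bl.level Lv).N_dvd_L Bl.prime (Bl.not_dvd_level Lv) (Bl.bezout Lv) y)
    (levelCast_symm_apply (Φ := neben Lv.θ) (Bl.level_L Lv) (Bl.level_L Lv).symm
      ((Bl.level Lv).N_dvd_L.mul_right q) Lv.N_dvd_L (x : Lv.H1))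

/-- `pNew` is the common kernel of the maps down. -/
theorem mem_pNew_iff_dnPart (Lv : NodeLevel B r n) (x : Lv.part) :
    x ∈ Bl.pNew Lv ↔ ∀ i, Bl.dnPart Lv i x = 0 := by
  rw [mem_pNew, Fin.forall_fin_two, Fin.forall_fin_two, dnPart_zero, dnPart_one,
    IsUnit.smul_eq_zero (isUnit_ringInverse.2 (Bl.isUnit_θ Lv))]

/-- The two maps up. -/
def upPair (Lv : NodeLevel B r n) :
    ((Bl.level Lv).part × (Bl.level Lv).part) →ₗ[Lv.Λ] Lv.part :=
  (Bl.upPart Lv 0).coprod (Bl.upPart Lv 1)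

/-- The maps up are jointly split injective. -/
theorem exists_upPart_split (Lv : NodeLevel B r n) :
    ∃ g : Lv.part →ₗ[Lv.Λ] ((Bl.level Lv).part × (Bl.level Lv).part),
      g ∘ₗ Bl.upPair Lv = LinearMap.id := by
  haveI := B.charP
  haveI := Lv.free_part.1
  haveI := Lv.free_part.2
  haveI := (Bl.level Lv).free_part.1
  haveI := (Bl.level Lv).free_part.2
  refine exists_leftInverse_of_injective_mod _ fun v hv => ?_
  have hv' := (Submodule.mem_smul_top_iff _ _ _).1 hv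
  obtain ⟨h0, h1⟩ := upCast_injective_mod _ _ _ (Bl.not_dvd_level Lv) (Bl.level_L Lv) _
    (Bl.level Lv).coverHyp_L Lv.resΛ_surjective (fun _ hℓ => Bl.ne_of_mem_G hℓ) (Bl.idem_spec Lv)
    Lv.idem_spec (resθ Lv) B.hp2 (Bl.nonEisAt Lv)
    ((mem_part_iff _).1 v.1.2) ((mem_part_iff _).1 v.2.2) hv'
  have e1 := Submodule.mem_map_of_mem (f := LinearMap.inl Lv.Λ (Bl.level Lv).part
    (Bl.level Lv).part) ((Submodule.mem_smul_top_iff _ _ _).2 h0)
  have e2 := Submodule.mem_map_of_mem (f := LinearMap.inr Lv.Λ (Bl.level Lv).part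
    (Bl.level Lv).part) ((Submodule.mem_smul_top_iff _ _ _).2 h1)
  rw [Submodule.map_smul''] at e1 e2
  have e3 := add_mem (Submodule.smul_mono le_rfl le_top e1) (Submodule.smul_mono le_rfl le_top e2)
  simpa using e3

/-- **Free complement of the maps up.** -/
theorem exists_upPart_complement (Lv : NodeLevel B r n) :
    ∃ (C : Submodule Lv.Λ Lv.part) (quot : Lv.part →ₗ[Lv.Λ] C)
      (split : Fin 2 → (Lv.part →ₗ[Lv.Λ] (Bl.level Lv).part)),
      Module.Free Lv.Λ C ∧ Module.Finite Lv.Λ C ∧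
      Module.finrank Lv.Λ C + 2 * Module.finrank Lv.Λ (Bl.level Lv).part =
        Module.finrank Lv.Λ Lv.part ∧
      (∀ c : C, quot (c : Lv.part) = c) ∧ (∀ j x, quot (Bl.upPart Lv j x) = 0) ∧
      ∀ x, ∑ j, Bl.upPart Lv j (split j x) + (quot x : Lv.part) = x := by
  haveI := Lv.free_part.1
  haveI := Lv.free_part.2
  haveI := (Bl.level Lv).free_part.1
  haveI := (Bl.level Lv).free_part.2
  obtain ⟨g, hg⟩ := Bl.exists_upPart_split Lv
  obtain ⟨C, quot, hF, hf, hrk, hfix, hkill, hsum⟩ :=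
    exists_complement_of_leftInverse _ g hg
  refine ⟨C, quot, ![LinearMap.fst _ _ _ ∘ₗ g, LinearMap.snd _ _ _ ∘ₗ g], hF, hf, ?_, hfix,
    fun j x => ?_, fun x => ?_⟩
  · rw [← hrk, Module.finrank_prod, two_mul]
  · fin_cases j
    · simpa [upPair] using hkill (x, 0)
    · simpa [upPair] using hkill (0, x)
  · rw [Fin.sum_univ_two]
    exact hsum x

end NodeBelow

end Fermat.Agent.Lifting.Models

end
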