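import Fermat.Agent.Lifting.Models.Families
import Fermat.Agent.RT.TW.TrivialChar

/-!
# Coset operators under change of coefficients and of modulus
-/

set_option autoImplicit false

noncomputable section

namespace Fermat.Agent.RT.TW

open scoped MatrixGroups
open CongruenceSubgroup Periods

theorem CosetFamily.opH1_eq_of_mat {A : Type*} [CommRing A] {W : Weighting A} {L₁ L₂ : WLevel W}
    {ι : Type*} [Fintype ι] {D E : CosetFamily L₁ L₂ ι}
    (h : ∀ i, (E.mat i : IntMat) = (D.mat i : IntMat)) : E.opH1 = D.opH1 :=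
  CosetFamily.opH1_eq_of_cosets D E (Equiv.refl ι) (fun _ => 1) fun i => by
    rw [gammaMat_one, Matrix.one_mul]; exact h i

variable {A : Type} [CommRing A] {N N' M₁ M₂ : ℕ} {Φ : MulChar (ZMod N) A} {ι : Type} [Fintype ι]

theorem heckeBaseChange_opH1 {A' : Type} [CommRing A'] (f : A →+* A') {h₁ : N ∣ M₁} {h₂ : N ∣ M₂}
    (D : CosetFamily (level0 Φ M₁ h₁) (level0 Φ M₂ h₂) ι)
    (D' : CosetFamily (level0 (Φ.ringHomComp f) M₁ h₁) (level0 (Φ.ringHomComp f) M₂ h₂) ι)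
    (hmat : ∀ i, (D'.mat i : IntMat) = (D.mat i : IntMat)) (y : heckeH1 Φ M₁ h₁) :
    heckeBaseChange Φ f h₂ (D.opH1 y) = D'.opH1 (heckeBaseChange Φ f h₁ y) := by
  refine (mapH1_opH1 f D y).trans ?_
  exact LinearMap.congr_fun (CosetFamily.opH1_eq_of_mat (D := D') (E := D.map f)
    fun i => (hmat i).symm) (heckeBaseChange Φ f h₁ y)

theorem changeModulus_opH1 {Φ' : MulChar (ZMod N') A} {h₁ : N ∣ M₁} {h₂ : N ∣ M₂} {h₁' : N' ∣ M₁}
    {h₂' : N' ∣ M₂} (hΦ : ∀ a : ℤ, IsUnit (a : ZMod N') → Φ' a = Φ a)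
    (D : CosetFamily (level0 Φ M₁ h₁) (level0 Φ M₂ h₂) ι)
    (D' : CosetFamily (level0 Φ' M₁ h₁') (level0 Φ' M₂ h₂') ι)
    (hmat : ∀ i, (D'.mat i : IntMat) = (D.mat i : IntMat)) (y : heckeH1 Φ' M₁ h₁') :
    changeModulus h₂ h₂' hΦ (D'.opH1 y) = D.opH1 (changeModulus h₁ h₁' hΦ y) := by
  obtain ⟨c, rfl⟩ := Submodule.mkQ_surjective _ y
  show twistedH1Congr (char_changeModulus h₂ h₂' hΦ) (toH1 (level0 Φ' M₂ h₂').char (D'.op c)) =
    D.opH1 (twistedH1Congr (char_changeModulus h₁ h₁' hΦ) (toH1 (level0 Φ' M₁ h₁').char c))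
  erw [twistedH1Congr_toH1, twistedH1Congr_toH1]
  refine congrArg (toH1 (level0 Φ M₂ h₂).char) (Subtype.ext (funext fun γ => ?_))
  refine (D'.op_apply c γ).trans ?_
  refine Eq.trans ?_ (D.op_apply_of_step _
    (σ := (D'.exists_step γ).choose) (g := D'.elt γ) (fun i => by
      rw [← hmat i, ← hmat]; exact D'.isStep_elt γ i)).symm
  refine Finset.sum_congr rfl fun i _ => congrArg (· * _) ?_
  show Φ' (((D'.mat i : IntMat) 0 0 : ℤ) : ZMod N') = Φ (((D.mat i : IntMat) 0 0 : ℤ) : ZMod N)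
  rw [← hmat i]
  exact hΦ _ (D'.mat i).2.2

end Fermat.Agent.RT.TW

end
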