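import Fermat.Agent.RT.TW.PartialAct
import Fermat.Agent.RT.Assembly.Models.Build

/-!
# A node of the raising step

* `NodeBase`: a level `M`, the primes whose operators are left out of the localisation (those to be
  raised), the excluded primes and the residual system.
* `NodeLevel`: Taylor–Wiles primes over a node; `part` is the part at the residual system of the
  twisted cohomology of level `M * ∏ qv`, a module over the group ring of the diamond operators.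
* `NodeModel`: the properties of matrices standing for the good twisted operators.
-/

set_option autoImplicit false
set_option linter.style.haveILetI false

noncomputable section

open IsLocalRing MvPolynomial

namespace Fermat.Agent.Lifting.Models

open RT.Diamond RT.TW RT.Assembly

/-- The fixed data of a node. -/
structure NodeBase (O : Type) [CommRing O] [IsDomain O] [IsDiscreteValuationRing O]
    [IsAdicComplete (maximalIdeal O) O] [Finite (ResidueField O)] [CharZero O]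
    (p : ℕ) [Fact p.Prime] where
  /-- the level -/
  M : ℕ
  /-- the primes left out of the localisation -/
  omitted : Finset ℕ
  /-- the excluded primes -/
  S : Finset ℕ
  /-- the residual system -/
  a : Nat.Primes → ResidueField O
  hp2 : p ≠ 2
  hpO : (p : O) ∈ maximalIdeal O
  squarefree : Squarefree M
  level_mem : ∀ q : ℕ, q.Prime → q ∣ M → q ∈ S
  cover : CoverHyp O M
  nonEis : ∀ n : ℕ, n ≠ 0 → ∀ S' : Finset ℕ, ∃ ℓ : Nat.Primes, (ℓ : ℕ) ∉ S' ∧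
    ((ℓ : ℕ) : ZMod n) = 1 ∧ a ℓ ≠ ((ℓ : ℕ) : ResidueField O) + 1

variable {O : Type} [CommRing O] [IsDomain O] [IsDiscreteValuationRing O]
  [IsAdicComplete (maximalIdeal O) O] [Finite (ResidueField O)] [CharZero O]
  {p : ℕ} [Fact p.Prime]

/-- Taylor–Wiles primes over a node. -/
structure NodeLevel (B : NodeBase O p) (r n : ℕ) where
  qv : Fin r → Nat.Primes
  inj : Function.Injective qv
  not_mem : ∀ i, (qv i : ℕ) ∉ B.S
  not_omitted : ∀ i, (qv i : ℕ) ∉ B.omitted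
  e : Fin r → ℕ
  le_e : ∀ i, n ≤ e i
  pos_e : ∀ i, 0 < e i
  dvd_sub : ∀ i, p ^ e i ∣ (qv i : ℕ) - 1
  e_max : ∀ i, ¬ p ^ (e i + 1) ∣ (qv i : ℕ) - 1
  /-- a root of the residual Frobenius polynomial -/
  α : Fin r → ResidueField O
  root : ∀ i, α i * α i + 1 = B.a (qv i) * α i
  distinct : ∀ i, α i * α i ≠ 1

namespace NodeBase

variable (B : NodeBase O p)

/-- The primes whose operators are used in the localisation. -/
def G : Set Nat.Primes := {ℓ | (ℓ : ℕ) ∉ B.omitted}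

theorem mem_G_iff {ℓ : Nat.Primes} : ℓ ∈ B.G ↔ (ℓ : ℕ) ∉ B.omitted := Iff.rfl

open Classical in
/-- The residual system, cut off at the omitted primes. -/
def a₀ (ℓ : Nat.Primes) : ResidueField O := if ℓ ∈ B.G then B.a ℓ else 0

theorem a₀_of_mem {ℓ : Nat.Primes} (h : ℓ ∈ B.G) : B.a₀ ℓ = B.a ℓ := if_pos h

theorem a₀_of_notMem (ℓ : Nat.Primes) (h : ℓ ∉ B.G) : B.a₀ ℓ = 0 := if_neg h

instance neZero_M : NeZero B.M := ⟨B.squarefree.ne_zero⟩

end NodeBase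

namespace NodeLevel

variable {B : NodeBase O p} {r n : ℕ} (Lv : NodeLevel B r n)

/-- The level. -/
def L : ℕ := B.M * ∏ i, (Lv.qv i : ℕ)

/-- The modulus of the twist. -/
def N : ℕ := (∏ i, (Lv.qv i : ℕ)) * 1

/-- The excluded primes at this level. -/
def S' : Finset ℕ := B.S ∪ Finset.univ.image fun i => (Lv.qv i : ℕ)

/-- The group ring of the diamond operators. -/
abbrev Λ : Type := Alg O (ppow p Lv.e)

theorem prod_qv_ne_zero : ∏ i, (Lv.qv i : ℕ) ≠ 0 :=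
  Finset.prod_ne_zero_iff.2 fun i _ => (Lv.qv i).2.ne_zero

theorem L_ne_zero : Lv.L ≠ 0 := mul_ne_zero B.squarefree.ne_zero Lv.prod_qv_ne_zero

theorem N_ne_zero : Lv.N ≠ 0 := mul_ne_zero Lv.prod_qv_ne_zero one_ne_zero

instance : NeZero Lv.L := ⟨Lv.L_ne_zero⟩

instance : NeZero Lv.N := ⟨Lv.N_ne_zero⟩

theorem N_dvd_L : Lv.N ∣ Lv.L := by
  rw [N, L, mul_one]
  exact dvd_mul_left _ _

theorem twistData : TwistData p Lv.N 1 (fun i => (Lv.qv i : ℕ)) Lv.e where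
  eq := rfl
  pos := Nat.one_pos
  prime i := (Lv.qv i).2
  inj _ _ h := Lv.inj (Subtype.ext h)
  not_dvd i hd := (Lv.qv i).2.ne_one (Nat.dvd_one.1 hd)
  dvd_sub := Lv.dvd_sub

/-- The tautological twist. -/
def θ : MulChar (ZMod Lv.N) Lv.Λ := tautTwist Lv.twistData (1 : MulChar (ZMod 1) O)

/-- The residual map of the group ring. -/
def resΛ : Lv.Λ →+* ResidueField O := (residue O).comp (aug O (ppow p Lv.e)).toRingHom

open Classical in
/-- The residual system at the level. -/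
def aLv (ℓ : Nat.Primes) : ResidueField O :=
  if h : ∃ i, Lv.qv i = ℓ then Lv.α h.choose else B.a₀ ℓ

theorem mem_G_qv (i : Fin r) : Lv.qv i ∈ B.G := Lv.not_omitted i

theorem qv_not_dvd (i : Fin r) : ¬ (Lv.qv i : ℕ) ∣ B.M :=
  fun hd => Lv.not_mem i (B.level_mem _ (Lv.qv i).2 hd)

theorem mem_S'_of_dvd_L {q : ℕ} (hq : q.Prime) (hd : q ∣ Lv.L) : q ∈ Lv.S' := by
  rcases hq.dvd_mul.1 hd with h | h
  · exact Finset.mem_union_left _ (B.level_mem q hq h)
  · obtain ⟨i, -, hi⟩ := (Prime.dvd_finsetProd_iff hq.prime _).1 h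
    rw [(Nat.prime_dvd_prime_iff_eq hq (Lv.qv i).2).1 hi]
    exact Finset.mem_union_right _ (Finset.mem_image_of_mem _ (Finset.mem_univ i))

theorem not_mem_S {ℓ : Nat.Primes} (hℓ : (ℓ : ℕ) ∉ Lv.S') : (ℓ : ℕ) ∉ B.S :=
  fun h => hℓ (Finset.mem_union_left _ h)

theorem not_dvd_L {ℓ : Nat.Primes} (hℓ : (ℓ : ℕ) ∉ Lv.S') : ¬ (ℓ : ℕ) ∣ Lv.L :=
  fun hd => hℓ (Lv.mem_S'_of_dvd_L ℓ.2 hd)

theorem isUnit_cast_N {ℓ : Nat.Primes} (hℓ : (ℓ : ℕ) ∉ Lv.S') :
    IsUnit ((ℓ : ℕ) : ZMod Lv.N) :=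
  (ZMod.isUnit_iff_coprime _ _).2
    (ℓ.2.coprime_iff_not_dvd.2 fun hd => Lv.not_dvd_L hℓ (hd.trans Lv.N_dvd_L))

theorem qv_ne_of_good {ℓ : Nat.Primes} (hℓ : (ℓ : ℕ) ∉ Lv.S') (i : Fin r) : Lv.qv i ≠ ℓ :=
  fun h => hℓ (h ▸ Finset.mem_union_right _ (Finset.mem_image_of_mem _ (Finset.mem_univ i)))

theorem squarefree_L : Squarefree Lv.L := by
  refine Nat.squarefree_mul_iff.2 ⟨Nat.Coprime.prod_right fun i _ => ?_, B.squarefree, ?_⟩
  · exact ((Lv.qv i).2.coprime_iff_not_dvd.2 (Lv.qv_not_dvd i)).symm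
  · refine Finset.squarefree_prod_of_pairwise_isCoprime (fun i _ j _ hij => ?_)
      fun i _ => (Lv.qv i).2.prime.squarefree
    exact Nat.coprime_iff_isRelPrime.1 ((Nat.coprime_primes (Lv.qv i).2 (Lv.qv j).2).2
      fun h => hij (Lv.inj (Subtype.ext h)))

theorem aLv_of_forall {ℓ : Nat.Primes} (hℓ : ∀ i, Lv.qv i ≠ ℓ) : Lv.aLv ℓ = B.a₀ ℓ :=
  dif_neg (not_exists.2 hℓ)

theorem aLv_of_good {ℓ : Nat.Primes} (hℓ : (ℓ : ℕ) ∉ Lv.S') (hG : ℓ ∈ B.G) :
    Lv.aLv ℓ = B.a ℓ := by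
  rw [Lv.aLv_of_forall (Lv.qv_ne_of_good hℓ), B.a₀_of_mem hG]

theorem aLv_of_notMem (ℓ : Nat.Primes) (hℓ : ℓ ∉ B.G) : Lv.aLv ℓ = 0 := by
  have hne : ∀ i, Lv.qv i ≠ ℓ := by
    intro i h
    subst h
    exact hℓ (Lv.mem_G_qv i)
  rw [Lv.aLv_of_forall hne, B.a₀_of_notMem ℓ hℓ]

theorem aLv_qv (i : Fin r) : Lv.aLv (Lv.qv i) = Lv.α i := by
  have h : ∃ j, Lv.qv j = Lv.qv i := ⟨i, rfl⟩
  rw [aLv, dif_pos h, Lv.inj h.choose_spec]

instance finiteΛ : Module.Finite O Lv.Λ :=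
  Module.Finite.of_basis (MonoidAlgebra.basis (Grp (ppow p Lv.e)) O)

instance isLocalRingΛ : IsLocalRing Lv.Λ := isLocalRing_alg (O := O) (e := Lv.e) B.hpO

instance isNoetherianRingΛ : IsNoetherianRing Lv.Λ := IsNoetherianRing.of_finite O Lv.Λ

theorem aug_algebraMap (o : O) : aug O (ppow p Lv.e) (algebraMap O Lv.Λ o) = o :=
  (aug O (ppow p Lv.e)).commutes o

instance isLocalHomΛ : IsLocalHom (algebraMap O Lv.Λ) :=
  ⟨fun o ho => Lv.aug_algebraMap o ▸ ho.map (aug O (ppow p Lv.e))⟩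

instance isAdicCompleteΛ : IsAdicComplete (maximalIdeal Lv.Λ) Lv.Λ :=
  IsLocalRing.isAdicComplete_of_module_finite (𝒪 := O)

theorem resΛ_algebraMap (o : O) : Lv.resΛ (algebraMap O Lv.Λ o) = residue O o := by
  show residue O (aug O (ppow p Lv.e) (algebraMap O Lv.Λ o)) = _
  rw [Lv.aug_algebraMap]

theorem resΛ_surjective : Function.Surjective Lv.resΛ := fun x => by
  obtain ⟨o, rfl⟩ := residue_surjective x
  exact ⟨algebraMap O _ o, Lv.resΛ_algebraMap o⟩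

theorem ker_resΛ : RingHom.ker Lv.resΛ = maximalIdeal Lv.Λ :=
  eq_maximalIdeal (RingHom.ker_isMaximal_of_surjective _ Lv.resΛ_surjective)

theorem coverHyp_L : CoverHyp Lv.Λ Lv.L :=
  (B.cover.map (algebraMap O Lv.Λ)).mono (dvd_mul_right _ _)

/-- The twist is trivial at the augmentation. -/
theorem aug_θ {x : ZMod Lv.N} (hx : IsUnit x) : aug O (ppow p Lv.e) (Lv.θ x) = 1 := by
  obtain ⟨u, rfl⟩ := hx
  rw [θ, tautTwist_apply, map_mul, Lv.aug_algebraMap,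
    MulChar.one_apply (isUnit_of_subsingleton _), one_mul]
  simp [aug]

theorem resΛ_θ {x : ZMod Lv.N} (hx : IsUnit x) : Lv.resΛ (Lv.θ x) = 1 := by
  show residue O (aug O (ppow p Lv.e) (Lv.θ x)) = 1
  rw [Lv.aug_θ hx, map_one]

theorem aug_neben (a : ℤ) (ha : IsUnit (a : ZMod Lv.N)) :
    aug O (ppow p Lv.e) (neben Lv.θ (a : ZMod Lv.N)) = (1 : MulChar (ZMod 1) O) (a : ZMod 1) := by
  rw [MulChar.pow_apply' _ two_ne_zero, map_pow, Lv.aug_θ ha, one_pow,
    MulChar.one_apply (isUnit_of_subsingleton _)]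

theorem resΛ_neben (a : ℤ) (ha : IsUnit (a : ZMod Lv.N)) :
    Lv.resΛ (neben Lv.θ (a : ZMod Lv.N)) =
      (1 : MulChar (ZMod 1) (ResidueField O)) (a : ZMod 1) := by
  rw [MulChar.pow_apply' _ two_ne_zero, map_pow, Lv.resΛ_θ ha, one_pow,
    MulChar.one_apply (isUnit_of_subsingleton _)]

/-- A good prime at which the system is not Eisenstein. -/
theorem exists_nonEis : ∃ ℓ : Nat.Primes, (ℓ : ℕ) ∉ Lv.S' ∧ ℓ ∈ B.G ∧
    ((ℓ : ℕ) : ZMod (Lv.L * Lv.N)) = 1 ∧ ((ℓ : ℕ) : ZMod Lv.N) = 1 ∧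
    B.a ℓ ≠ ((ℓ : ℕ) : ResidueField O) + 1 := by
  obtain ⟨ℓ, hℓ, h1, hne⟩ := B.nonEis (Lv.L * Lv.N) (mul_ne_zero Lv.L_ne_zero Lv.N_ne_zero)
    (Lv.S' ∪ B.omitted)
  rw [Finset.mem_union, not_or] at hℓ
  refine ⟨ℓ, hℓ.1, hℓ.2, h1, ?_, hne⟩
  have := congrArg (ZMod.castHom (dvd_mul_left Lv.N Lv.L) (ZMod Lv.N)) h1
  rwa [map_natCast, map_one] at this

/-- The twisted cohomology of the level. -/
abbrev H1 : Type := heckeH1 (neben Lv.θ) Lv.L Lv.N_dvd_L

/-- The maximal ideal of the residual system. -/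
abbrev m : Ideal (HeckePoly Lv.Λ) := residualIdeal Lv.resΛ Lv.aLv

theorem exists_idem : ∃ e, IsLocalIdem (heckeActOn (neben Lv.θ) Lv.N_dvd_L B.G) Lv.m e := by
  haveI := finite_heckeH1 (Φ := neben Lv.θ) Lv.N_dvd_L Lv.coverHyp_L
  haveI := residualIdeal_isMaximal Lv.resΛ Lv.resΛ_surjective Lv.aLv
  exact exists_isLocalIdem _ _

/-- The idempotent of the residual system. -/
def idem : Module.End Lv.Λ Lv.H1 := Lv.exists_idem.choose

theorem idem_spec : IsLocalIdem (heckeActOn (neben Lv.θ) Lv.N_dvd_L B.G) Lv.m Lv.idem :=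
  Lv.exists_idem.choose_spec

/-- The part at the residual system. -/
abbrev part : Submodule Lv.Λ Lv.H1 := LinearMap.range Lv.idem

theorem hEis : ∃ ℓ ∈ B.G,
    (X ℓ - C (eisensteinValue (neben Lv.θ) Lv.L ℓ) : HeckePoly Lv.Λ) ∉ Lv.m := by
  obtain ⟨ℓ, hℓ, hG, -, h1, hne⟩ := Lv.exists_nonEis
  refine ⟨ℓ, hG, fun h => hne ?_⟩
  rw [X_sub_C_mem_residualIdeal_iff, Lv.aLv_of_good hℓ hG] at h
  rw [h, eisensteinValue, if_neg (Lv.not_dvd_L hℓ), map_add, map_natCast, h1, map_one, map_one]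

theorem free_part : Module.Free Lv.Λ Lv.part ∧ Module.Finite Lv.Λ Lv.part :=
  free_range_of_nonEis Lv.N_dvd_L Lv.coverHyp_L Lv.idem_spec Lv.hEis

theorem heckeAct_mem_part (P : HeckePoly Lv.Λ) {x : Lv.H1} (hx : x ∈ Lv.part) :
    heckeAct (neben Lv.θ) Lv.N_dvd_L P x ∈ Lv.part := by
  obtain ⟨y, rfl⟩ := hx
  exact ⟨heckeAct (neben Lv.θ) Lv.N_dvd_L P y, Lv.idem_spec.comm_heckeAct P y⟩

/-- All the operators on the part. -/
def partAct : HeckePoly Lv.Λ →ₐ[Lv.Λ] Module.End Lv.Λ Lv.part where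
  toFun P := (heckeAct (neben Lv.θ) Lv.N_dvd_L P).restrict fun _ => Lv.heckeAct_mem_part P
  map_one' := LinearMap.ext fun x => Subtype.ext
    (by simp only [LinearMap.restrict_apply, map_one]; rfl)
  map_mul' P Q := LinearMap.ext fun x => Subtype.ext
    (by simp only [LinearMap.restrict_apply, map_mul]; rfl)
  map_zero' := LinearMap.ext fun x => Subtype.ext
    (by simp only [LinearMap.restrict_apply, map_zero]; rfl)
  map_add' P Q := LinearMap.ext fun x => Subtype.ext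
    (by simp only [LinearMap.restrict_apply, map_add]; rfl)
  commutes' a := LinearMap.ext fun x => Subtype.ext
    (by simp only [LinearMap.restrict_apply, AlgHom.commutes]; rfl)

theorem coe_partAct (P : HeckePoly Lv.Λ) (x : Lv.part) :
    (Lv.partAct P x : Lv.H1) = heckeAct (neben Lv.θ) Lv.N_dvd_L P x := rfl

variable {D : ℕ} (b : Module.Basis (Fin D) Lv.Λ Lv.part)

/-- The matrices of the operators in a basis of the part. -/
def matAct : HeckePoly Lv.Λ →ₐ[Lv.Λ] Matrix (Fin D) (Fin D) Lv.Λ :=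
  (LinearMap.toMatrixAlgEquiv b).toAlgHom.comp Lv.partAct

/-- The matrices of the twisted operators. -/
def opMat (ℓ : Nat.Primes) : Matrix (Fin D) (Fin D) Lv.Λ :=
  Lv.matAct b (twPoly Lv.θ (X ℓ))

theorem opMat_comm (ℓ ℓ' : Nat.Primes) : Commute (Lv.opMat b ℓ) (Lv.opMat b ℓ') :=
  (Commute.all _ _).map (Lv.matAct b)

theorem twOp_eq_heckeAct (ℓ : Nat.Primes) :
    twOp Lv.θ Lv.N_dvd_L ℓ = heckeAct (neben Lv.θ) Lv.N_dvd_L (twPoly Lv.θ (X ℓ)) :=
  (RT.Assembly.Models.heckeAct_twPoly_X Lv.θ Lv.N_dvd_L ℓ).symm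

theorem twOp_mem_part (ℓ : Nat.Primes) {x : Lv.H1} (hx : x ∈ Lv.part) :
    twOp Lv.θ Lv.N_dvd_L ℓ x ∈ Lv.part := by
  rw [twOp_eq_heckeAct]
  exact Lv.heckeAct_mem_part _ hx

/-- The twisted operator in coordinates. -/
theorem equivFun_twOp (ℓ : Nat.Primes) (x : Lv.part) :
    b.equivFun ⟨_, Lv.twOp_mem_part ℓ x.2⟩ = (Lv.opMat b ℓ).mulVec (b.equivFun x) := by
  have e : (⟨_, Lv.twOp_mem_part ℓ x.2⟩ : Lv.part) = Lv.partAct (twPoly Lv.θ (X ℓ)) x :=
    Subtype.ext (LinearMap.congr_fun (Lv.twOp_eq_heckeAct ℓ) (x : Lv.H1))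
  rw [e]
  exact (LinearMap.toMatrix_mulVec_repr b b (Lv.partAct (twPoly Lv.θ (X ℓ))) x).symm

end NodeLevel

/-- Properties of matrices standing for the good twisted operators of a node, on a free module
whose systems are those of newforms of exact level, new at `new`. -/
structure NodeModel {B : NodeBase O p} {r n : ℕ} (Lv : NodeLevel B r n) (new : Finset ℕ) {D : ℕ}
    (op : Nat.Primes → Matrix (Fin D) (Fin D) Lv.Λ) : Prop where
  comm : ∀ ℓ ℓ', Commute (op ℓ) (op ℓ')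
  resid : ∀ ℓ : Nat.Primes, (ℓ : ℕ) ∉ Lv.S' → ℓ ∈ B.G →
    IsNilpotent ((op ℓ).map Lv.resΛ -
      B.a ℓ • (1 : Matrix (Fin D) (Fin D) (ResidueField O)))
  /-- the relations between the operators outside any finite set containing the excluded primes
  on cusp forms of level `L * N` hold -/
  relation : ∀ S₁ : Finset ℕ, Lv.S' ⊆ S₁ →
    ∀ F : MvPolynomial Nat.Primes ℤ, (∀ ℓ ∈ F.vars, (ℓ : ℕ) ∉ S₁) →
    MvPolynomial.eval₂Hom (Int.castRingHom _) (formOp (Lv.L * Lv.N) S₁) F = 0 →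
    ∀ (C : Type) [CommRing C] (f : Nat.Primes → C) (ι : C →+* Matrix (Fin D) (Fin D) Lv.Λ),
      Function.Injective ι → (∀ ℓ : Nat.Primes, (ℓ : ℕ) ∉ S₁ → ι (f ℓ) = op ℓ) →
      MvPolynomial.eval₂Hom (Int.castRingHom C) f F = 0
  /-- a common eigenvector of a specialisation gives a newform system of the exact level -/
  eigen : ∀ S₁ : Finset ℕ, Lv.S' ⊆ S₁ →
    ∀ (V : Type) [CommRing V] [IsDomain V] [IsDiscreteValuationRing V]
    [IsAdicComplete (maximalIdeal V) V] [Finite (ResidueField V)] [CharZero V] [Algebra O V]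
    [IsLocalHom (algebraMap O V)],
    Function.Injective (algebraMap O V) → ∀ (ξ : Lv.Λ →ₐ[O] V) (c : Nat.Primes → V)
      (w : Fin D → V), w ≠ 0 →
      (∀ ℓ : Nat.Primes, (ℓ : ℕ) ∉ S₁ → ((op ℓ).map ξ).mulVec w = c ℓ • w) →
      ∃ (L' : ℕ) (_ : NeZero L'),
        IsExactLevel (Lv.θ.ringHomComp ξ.toRingHom) S₁ c Lv.L L' ∧
          IsNewformSystem S₁ L' c ∧ ∀ q ∈ new, q ∣ L'

end Fermat.Agent.Lifting.Models

end
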