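import Fermat.Agent.Lifting.Models.Down
import Fermat.Agent.Lifting.Models.Node
import Fermat.Agent.RT.Assembly.Models.Congr

/-!
# The part of a node at the augmentation

At the augmentation the part of a level is, by reduction and corestriction, the part over `O` at
the level of the node: `augPart` is onto with kernel `ker aug`, commutes with the good operators,
so all parts have the rank `baseRank` and bases in which the operators at the augmentation are the
fixed matrices `baseOp`.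
-/

set_option autoImplicit false
set_option linter.style.haveILetI false
set_option maxHeartbeats 400000

noncomputable section

open IsLocalRing MvPolynomial

namespace Fermat.Agent.Lifting.Models

open RT.Diamond RT.TW RT.Assembly

section Lift

variable {R R₀ : Type*} [CommRing R] [IsLocalRing R] [CommRing R₀] [Nontrivial R₀] {P P₀ : Type*}
  [AddCommGroup P] [Module R P] [AddCommGroup P₀] [Module R₀ P₀] {σ : R →+* R₀}
  (u : P →ₛₗ[σ] P₀)

/-- A basis of the image lifts to a basis. -/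
theorem exists_basis_lift (hσ : Function.Surjective σ) (hu : Function.Surjective u)
    (hker : ∀ x, u x = 0 → x ∈ RingHom.ker σ • (⊤ : Submodule R P)) [Module.Free R P]
    [Module.Finite R P] {D : ℕ} (b₀ : Module.Basis (Fin D) R₀ P₀) :
    ∃ b : Module.Basis (Fin D) R P, ∀ i, u (b i) = b₀ i := by
  choose x hx using fun i => hu (b₀ i)
  choose s hs using hσ
  have hspan : Submodule.span R (Set.range x) = ⊤ := by
    refine RT.Diamond.span_eq_top_of_sup_smul x (RingHom.ker σ)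
      (le_maximalIdeal (RingHom.ker_ne_top σ)) fun z => ?_
    refine ⟨∑ i, s (b₀.repr (u z) i) • x i, Submodule.sum_mem _ fun i _ =>
      Submodule.smul_mem _ _ (Submodule.subset_span ⟨i, rfl⟩), hker _ ?_⟩
    rw [map_sub, map_sum, sub_eq_zero]
    conv_lhs => rw [← b₀.sum_repr (u z)]
    exact Finset.sum_congr rfl fun i _ => by rw [LinearMap.map_smulₛₗ, hs, hx]
  let c := Module.finBasis R P
  have hli : LinearIndependent R₀ fun i => u (c i) := by
    refine Fintype.linearIndependent_iff.2 fun r hr i => ?_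
    have h0 : ∑ j, s (r j) • c j ∈ RingHom.ker σ • (⊤ : Submodule R P) := hker _ (by
      rw [map_sum]
      refine Eq.trans (Finset.sum_congr rfl fun j _ => ?_) hr
      rw [LinearMap.map_smulₛₗ, hs])
    have h1 : c.coord i (∑ j, s (r j) • c j) ∈ RingHom.ker σ := by
      refine Submodule.smul_induction_on h0 (fun a ha z _ => ?_) fun y z hy hz => ?_
      · rw [map_smul, smul_eq_mul]
        exact Ideal.mul_mem_right _ _ ha
      · rw [map_add]
        exact Ideal.add_mem _ hy hz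
    rw [Module.Basis.coord_apply, c.repr_sum_self] at h1
    rw [← hs (r i)]
    exact RingHom.mem_ker.1 h1
  have hsp : ⊤ ≤ Submodule.span R₀ (Set.range fun i => u (c i)) := fun y _ => by
    obtain ⟨z, rfl⟩ := hu y
    rw [← c.sum_repr z, map_sum]
    refine Submodule.sum_mem _ fun i _ => ?_
    rw [LinearMap.map_smulₛₗ]
    exact Submodule.smul_mem _ _ (Submodule.subset_span ⟨i, rfl⟩)
  have hcard : Fintype.card (Fin D) = Module.finrank R P := by
    rw [← Module.finrank_eq_card_basis b₀,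
      Module.finrank_eq_card_basis (Module.Basis.mk hli hsp), Fintype.card_fin]
  refine ⟨basisOfTopLeSpanOfCardEqFinrank x hspan.ge hcard, fun i => ?_⟩
  rw [coe_basisOfTopLeSpanOfCardEqFinrank, hx]

omit [IsLocalRing R] [Nontrivial R₀] in
/-- In corresponding bases the matrices correspond. -/
theorem toMatrix_map_of_lift {D : ℕ} (b : Module.Basis (Fin D) R P)
    (b₀ : Module.Basis (Fin D) R₀ P₀) (hb : ∀ i, u (b i) = b₀ i) (T : Module.End R P)
    (T₀ : Module.End R₀ P₀) (hT : ∀ x, u (T x) = T₀ (u x)) :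
    (LinearMap.toMatrix b b T).map σ = LinearMap.toMatrix b₀ b₀ T₀ := by
  refine Matrix.ext fun i j => ?_
  rw [Matrix.map_apply, LinearMap.toMatrix_apply, LinearMap.toMatrix_apply, ← hb j, ← hT]
  conv_rhs => rw [← b.sum_repr (T (b j)), map_sum]
  rw [Finset.sum_congr rfl (g := fun k => σ (b.repr (T (b j)) k) • b₀ k) fun k _ => by
    rw [LinearMap.map_smulₛₗ, hb], b₀.repr_sum_self]

end Lift

variable {O : Type} [CommRing O] [IsDomain O] [IsDiscreteValuationRing O]
  [IsAdicComplete (maximalIdeal O) O] [Finite (ResidueField O)] [CharZero O]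
  {p : ℕ} [Fact p.Prime]

namespace NodeBase

variable (B : NodeBase O p)

/-- The classes of the level with trivial coefficients. -/
abbrev H0 : Type := heckeH1 (1 : MulChar (ZMod 1) O) B.M (one_dvd B.M)

theorem exists_baseIdem : ∃ e, IsLocalIdem (heckeActOn (1 : MulChar (ZMod 1) O) (one_dvd B.M) B.G)
    (residualIdeal (residue O) B.a₀) e := by
  haveI := finite_heckeH1 (Φ := (1 : MulChar (ZMod 1) O)) (one_dvd B.M) B.cover
  haveI := residualIdeal_isMaximal (residue O) residue_surjective B.a₀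
  exact exists_isLocalIdem _ _

/-- The idempotent of the residual system. -/
def baseIdem : Module.End O B.H0 := B.exists_baseIdem.choose

theorem baseIdem_spec : IsLocalIdem (heckeActOn (1 : MulChar (ZMod 1) O) (one_dvd B.M) B.G)
    (residualIdeal (residue O) B.a₀) B.baseIdem :=
  B.exists_baseIdem.choose_spec

/-- The part at the residual system over `O`. -/
abbrev basePart : Submodule O B.H0 := LinearMap.range B.baseIdem

theorem free_basePart : Module.Free O B.basePart ∧ Module.Finite O B.basePart := by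
  refine free_range_of_nonEis (one_dvd B.M) B.cover B.baseIdem_spec ?_
  obtain ⟨ℓ, hℓ, -, hne⟩ := B.nonEis 1 one_ne_zero (B.S ∪ B.omitted)
  rw [Finset.mem_union, not_or] at hℓ
  refine ⟨ℓ, hℓ.2, fun h => hne ?_⟩
  rw [X_sub_C_mem_residualIdeal_iff, B.a₀_of_mem (show ℓ ∈ B.G from hℓ.2)] at h
  rw [h, eisensteinValue, if_neg (fun hd => hℓ.1 (B.level_mem _ ℓ.2 hd)), map_add, map_natCast,
    MulChar.one_apply (isUnit_of_subsingleton _), map_one]

/-- The common rank of the parts. -/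
def baseRank : ℕ := Module.finrank O B.basePart

/-- A basis of the part. -/
def baseBasis : Module.Basis (Fin B.baseRank) O B.basePart :=
  haveI := B.free_basePart.1
  haveI := B.free_basePart.2
  Module.finBasis O B.basePart

/-- A Hecke operator on the part. -/
def baseHecke (ℓ : Nat.Primes) : Module.End O B.basePart :=
  (heckeOp (1 : MulChar (ZMod 1) O) (one_dvd B.M) ℓ).restrict fun x hx => by
    obtain ⟨y, rfl⟩ := hx
    exact ⟨_, B.baseIdem_spec.comm_heckeOp ℓ y⟩

theorem coe_baseHecke (ℓ : Nat.Primes) (x : B.basePart) :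
    (B.baseHecke ℓ x : B.H0) = heckeOp (1 : MulChar (ZMod 1) O) (one_dvd B.M) ℓ x := rfl

/-- The matrices of the operators at the level of the node. -/
def baseOp (ℓ : Nat.Primes) : Matrix (Fin B.baseRank) (Fin B.baseRank) O :=
  LinearMap.toMatrix B.baseBasis B.baseBasis (B.baseHecke ℓ)

end NodeBase

namespace NodeLevel

variable {B : NodeBase O p} {r n : ℕ} (Lv : NodeLevel B r n)

/-- The augmentation. -/
abbrev augHom : Lv.Λ →+* O := (aug O (ppow p Lv.e)).toRingHom

theorem augHom_surjective : Function.Surjective Lv.augHom :=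
  fun o => ⟨algebraMap O Lv.Λ o, Lv.aug_algebraMap o⟩

theorem qv_cast_eq_one (i : Fin r) : ((Lv.qv i : ℕ) : ResidueField O) = 1 := by
  haveI : CharP (ResidueField O) p := (CharP.charP_iff_prime_eq_zero (Fact.out : p.Prime)).2
    (by rw [← map_natCast (residue O), residue_eq_zero_iff]; exact B.hpO)
  have h : ((((Lv.qv i : ℕ) - 1 : ℕ)) : ResidueField O) = 0 :=
    (CharP.cast_eq_zero_iff (ResidueField O) p _).2
      ((dvd_pow_self p (Lv.pos_e i).ne').trans (Lv.dvd_sub i))
  rwa [Nat.cast_sub (Lv.qv i).2.one_le, Nat.cast_one, sub_eq_zero] at h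

/-- The classes of the level with trivial coefficients. -/
abbrev HL : Type :=
  heckeH1 (1 : MulChar (ZMod 1) O) (B.M * ∏ i, (Lv.qv i : ℕ)) ((one_dvd B.M).mul_right _)

/-- Reduction at the augmentation. -/
def augRed : Lv.H1 →ₛₗ[Lv.augHom] Lv.HL :=
  RT.Assembly.Models.red Lv.augHom Lv.N_dvd_L (one_dvd Lv.L) Lv.aug_neben

/-- Reduction at the augmentation followed by corestriction to the level of the node. -/
def augDown : Lv.H1 →ₛₗ[Lv.augHom] B.H0 :=
  (multiDownMap (1 : MulChar (ZMod 1) O) Lv.qv Lv.inj B.M (one_dvd B.M) Lv.qv_not_dvd).comp Lv.augRed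

theorem augRed_heckeAct (P : HeckePoly Lv.Λ) (x : Lv.H1) :
    Lv.augRed (heckeAct (neben Lv.θ) Lv.N_dvd_L P x) =
      heckeAct (1 : MulChar (ZMod 1) O) ((one_dvd B.M).mul_right _)
        (MvPolynomial.map Lv.augHom P) (Lv.augRed x) :=
  RT.Assembly.Models.red_heckeAct (h₀ := one_dvd Lv.L) Lv.aug_neben P x

theorem augRed_heckeOp (ℓ : Nat.Primes) (x : Lv.H1) :
    Lv.augRed (heckeOp (neben Lv.θ) Lv.N_dvd_L ℓ x) =
      heckeOp (1 : MulChar (ZMod 1) O) ((one_dvd B.M).mul_right _) ℓ (Lv.augRed x) := by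
  rw [← heckeAct_X, ← heckeAct_X, ← map_X Lv.augHom]
  exact Lv.augRed_heckeAct (X ℓ) x

theorem augRed_heckeActOn (P : HeckePoly Lv.Λ) (x : Lv.H1) :
    Lv.augRed (heckeActOn (neben Lv.θ) Lv.N_dvd_L B.G P x) =
      heckeActOn (1 : MulChar (ZMod 1) O) ((one_dvd B.M).mul_right _) B.G
        (MvPolynomial.map Lv.augHom P) (Lv.augRed x) := by
  rw [heckeActOn_apply, heckeActOn_apply, Lv.augRed_heckeAct, map_killOff]

theorem augDown_heckeOp {ℓ : Nat.Primes} (hℓ : ∀ i, Lv.qv i ≠ ℓ) (x : Lv.H1) :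
    Lv.augDown (heckeOp (neben Lv.θ) Lv.N_dvd_L ℓ x) =
      heckeOp (1 : MulChar (ZMod 1) O) (one_dvd B.M) ℓ (Lv.augDown x) :=
  (congrArg _ (Lv.augRed_heckeOp ℓ x)).trans
    (multiDownMap_heckeOp Lv.qv Lv.inj (one_dvd B.M) Lv.qv_not_dvd ℓ hℓ _)

theorem augDown_twOp {ℓ : Nat.Primes} (hℓ : (ℓ : ℕ) ∉ Lv.S') (x : Lv.H1) :
    Lv.augDown (twOp Lv.θ Lv.N_dvd_L ℓ x) =
      heckeOp (1 : MulChar (ZMod 1) O) (one_dvd B.M) ℓ (Lv.augDown x) := by
  rw [twOp, LinearMap.smul_apply, LinearMap.map_smulₛₗ,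
    Lv.augDown_heckeOp (Lv.qv_ne_of_good hℓ),
    RT.Assembly.Models.map_inverse_mulChar,
    show Lv.augHom (Lv.θ ((ℓ : ℕ) : ZMod Lv.N)) = 1 from Lv.aug_θ (Lv.isUnit_cast_N hℓ),
    Ring.inverse_one, one_smul]

theorem coverHyp_HL : CoverHyp O (B.M * ∏ i, (Lv.qv i : ℕ)) :=
  B.cover.mono (dvd_mul_right _ _)

theorem augRed_facts :
    ∃ e₁ : Module.End O Lv.HL, IsLocalIdem
        (heckeActOn (1 : MulChar (ZMod 1) O) ((one_dvd B.M).mul_right _) B.G)
        (residualIdeal (residue O) Lv.aLv) e₁ ∧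
      (∀ x : Lv.part, e₁ (Lv.augRed x) = Lv.augRed x) ∧
      (∀ z, e₁ z = z → ∃ x : Lv.part, Lv.augRed x = z) ∧
      ∀ x : Lv.part, Lv.augRed x = 0 → (x : Lv.H1) ∈ RingHom.ker Lv.augHom • Lv.part := by
  haveI : IsLocalHom Lv.augHom := IsLocalHom.of_surjective _ Lv.augHom_surjective
  haveI : NeZero (B.M * ∏ i, (Lv.qv i : ℕ)) := ⟨Lv.L_ne_zero⟩
  haveI := finite_heckeH1 (Φ := neben Lv.θ) Lv.N_dvd_L Lv.coverHyp_L
  haveI := finite_heckeH1 (Φ := (1 : MulChar (ZMod 1) O))
    ((one_dvd B.M).mul_right (∏ i, (Lv.qv i : ℕ))) Lv.coverHyp_HL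
  haveI := residualIdeal_isMaximal (residue O) residue_surjective Lv.aLv
  obtain ⟨e₁, he₁⟩ := exists_isLocalIdem
    (heckeActOn (1 : MulChar (ZMod 1) O) ((one_dvd B.M).mul_right (∏ i, (Lv.qv i : ℕ))) B.G)
    (residualIdeal (residue O) Lv.aLv)
  have hm : ∀ P, MvPolynomial.map Lv.augHom P ∈ residualIdeal (residue O) Lv.aLv ↔ P ∈ Lv.m :=
    fun P => by
      rw [mem_residualIdeal_iff, mem_residualIdeal_iff, coe_eval₂Hom, coe_eval₂Hom, eval₂_map]
      rfl
  obtain ⟨hsurj, hker⟩ := Lv.idem_spec.baseChange he₁ Lv.augRed (MvPolynomial.map Lv.augHom)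
    (MvPolynomial.map_surjective _ Lv.augHom_surjective) Lv.augRed_heckeActOn hm
    (RT.Assembly.Models.red_surjective Lv.aug_neben Lv.coverHyp_L Lv.augHom_surjective)
    (fun x hx => RT.Assembly.Models.mem_ker_smul_of_red_eq_zero Lv.aug_neben Lv.coverHyp_L
      Lv.augHom_surjective hx)
  have hnat := Lv.idem_spec.natural he₁ Lv.augRed (MvPolynomial.map Lv.augHom)
    (MvPolynomial.map_surjective _ Lv.augHom_surjective) Lv.augRed_heckeActOn hm
  refine ⟨e₁, he₁, fun x => by rw [← hnat, Lv.idem_spec.eq_of_mem_range], fun z hz => ?_,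
    fun x hx => (hker _ (Lv.idem_spec.eq_of_mem_range x)).1 hx⟩
  obtain ⟨x, hx, rfl⟩ := hsurj z hz
  exact ⟨⟨x, x, hx⟩, rfl⟩

theorem augDown_facts :
    (∀ x : Lv.part, Lv.augDown x ∈ B.basePart) ∧
      (∀ y ∈ B.basePart, ∃ x : Lv.part, Lv.augDown x = y) ∧
      ∀ x : Lv.part, Lv.augDown x = 0 →
        x ∈ RingHom.ker Lv.augHom • (⊤ : Submodule Lv.Λ Lv.part) := by
  obtain ⟨e₁, he₁, hred, hsurj, hker⟩ := Lv.augRed_facts
  obtain ⟨h1, h2, h3⟩ := multiDownMap_bijective (residue O) residue_surjective Lv.qv Lv.inj Lv.mem_G_qv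
    (one_dvd B.M) Lv.qv_not_dvd B.cover B.a₀ Lv.aLv B.a₀_of_notMem
    (fun ℓ hℓ => Lv.aLv_of_forall hℓ) Lv.qv_cast_eq_one
    (fun i => by rw [MulChar.one_apply (isUnit_of_subsingleton _), map_one])
    (fun i => by rw [Lv.aLv_qv, B.a₀_of_mem (Lv.mem_G_qv i)]; exact Lv.root i)
    (fun i => by rw [Lv.aLv_qv]; exact Lv.distinct i) B.baseIdem_spec he₁
  refine ⟨fun x => ⟨_, h1 _ (hred x)⟩, fun y hy => ?_, fun x hx => ?_⟩
  · obtain ⟨z, hz, hzy⟩ := h3 y (B.baseIdem_spec.eq_of_mem_range ⟨y, hy⟩)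
    obtain ⟨x, rfl⟩ := hsurj z hz
    exact ⟨x, hzy⟩
  · exact RT.Assembly.Models.mem_smul_top_of_coe_mem _ (hker x (h2 _ (hred x) hx))

/-- The part onto the part at the level of the node. -/
def augPart : Lv.part →ₛₗ[Lv.augHom] B.basePart where
  toFun x := ⟨Lv.augDown x, Lv.augDown_facts.1 x⟩
  map_add' x y := Subtype.ext (map_add Lv.augDown (x : Lv.H1) y)
  map_smul' c x := Subtype.ext (LinearMap.map_smulₛₗ Lv.augDown c (x : Lv.H1))

theorem coe_augPart (x : Lv.part) : (Lv.augPart x : B.H0) = Lv.augDown x := rfl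

theorem augPart_surjective : Function.Surjective Lv.augPart := fun y => by
  obtain ⟨x, hx⟩ := Lv.augDown_facts.2.1 y y.2
  exact ⟨x, Subtype.ext hx⟩

theorem augPart_eq_zero {x : Lv.part} (hx : Lv.augPart x = 0) :
    x ∈ RingHom.ker Lv.augHom • (⊤ : Submodule Lv.Λ Lv.part) :=
  Lv.augDown_facts.2.2 x (congrArg Subtype.val hx)

theorem augPart_twOp {ℓ : Nat.Primes} (hℓ : (ℓ : ℕ) ∉ Lv.S') (x : Lv.part) :
    Lv.augPart ⟨_, Lv.twOp_mem_part ℓ x.2⟩ = B.baseHecke ℓ (Lv.augPart x) :=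
  Subtype.ext (Lv.augDown_twOp hℓ x)

theorem opMat_eq_toMatrix {D : ℕ} (b : Module.Basis (Fin D) Lv.Λ Lv.part) (ℓ : Nat.Primes) :
    Lv.opMat b ℓ =
      LinearMap.toMatrix b b (Lv.partAct (twPoly Lv.θ (X ℓ))) := rfl

theorem partAct_twPoly_apply (ℓ : Nat.Primes) (x : Lv.part) :
    Lv.partAct (twPoly Lv.θ (X ℓ)) x = ⟨_, Lv.twOp_mem_part ℓ x.2⟩ :=
  Subtype.ext (LinearMap.congr_fun (Lv.twOp_eq_heckeAct ℓ) (x : Lv.H1)).symm

/-- A basis lifting the basis at the level of the node. -/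
theorem exists_augBasis :
    ∃ b : Module.Basis (Fin B.baseRank) Lv.Λ Lv.part, (∀ i, Lv.augPart (b i) = B.baseBasis i) ∧
      ∀ ℓ : Nat.Primes, (ℓ : ℕ) ∉ Lv.S' →
        (Lv.opMat b ℓ).map (aug O (ppow p Lv.e)) = B.baseOp ℓ := by
  haveI := Lv.free_part.1
  haveI := Lv.free_part.2
  obtain ⟨b, hb⟩ := exists_basis_lift Lv.augPart Lv.augHom_surjective Lv.augPart_surjective
    (fun _ => Lv.augPart_eq_zero) B.baseBasis
  refine ⟨b, hb, fun ℓ hℓ => ?_⟩
  exact toMatrix_map_of_lift Lv.augPart b B.baseBasis hb _ (B.baseHecke ℓ) fun x =>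
    (congrArg Lv.augPart (Lv.partAct_twPoly_apply ℓ x)).trans (Lv.augPart_twOp hℓ x)

theorem finrank_part : Module.finrank Lv.Λ Lv.part = B.baseRank := by
  obtain ⟨b, -⟩ := Lv.exists_augBasis
  rw [Module.finrank_eq_card_basis b, Fintype.card_fin]

end NodeLevel

end Fermat.Agent.Lifting.Models

end
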