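import Fermat.Agent.Lifting.Models.Natural
import Fermat.Agent.LevelRaise.Main
import Fermat.Agent.RT.Systems.ResidualBridge
import Fermat.Agent.RT.Systems.Parabolic
import Fermat.Agent.RT.TW.AddPrimes

/-!
# The degeneracy maps and transfers on non-Eisenstein parts modulo `p`

With trivial nebentypus over a finite field: the two degeneracy maps are jointly injective
(Ihara) and the two transfers jointly surjective on the parts at a non-Eisenstein residual
system supported on primes different from `q`.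
-/

set_option autoImplicit false

noncomputable section

namespace Fermat.Agent.Lifting.Models

open scoped MatrixGroups
open CongruenceSubgroup MvPolynomial ModularCurve.Period
open Fermat.Agent.Periods Fermat.Agent.LevelRaise.Degeneracy
open RT.TW RT.Systems

section Dictionary

variable {k : Type} [CommRing k] {L L' : ℕ}

local notation "Φ₁" => (1 : MulChar (ZMod 1) k)

/-- The class of a homomorphism. -/
def homClass (φ : Additive (Gamma0 L) →+ k) : heckeH1 Φ₁ L (one_dvd L) :=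
  (toClass (k := k) (L := L)) (homToCocycle φ)

theorem homClass_apply (φ : Additive (Gamma0 L) →+ k) :
    homClass φ = (toClass (k := k) (L := L)) (homToCocycle φ) := rfl

theorem homClass_smul (a : k) (φ : Additive (Gamma0 L) →+ k) :
    homClass (a • φ) = a • homClass φ := by
  rw [homClass_apply, homClass_apply, ← map_smul]
  exact congrArg _ (Subtype.ext (_root_.funext fun _ => rfl))

theorem homClass_sub (φ ψ : Additive (Gamma0 L) →+ k) :
    homClass (φ - ψ) = homClass φ - homClass ψ := by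
  rw [homClass_apply, homClass_apply, homClass_apply, ← map_sub]
  exact congrArg _ (Subtype.ext (_root_.funext fun _ => rfl))

theorem homClass_zero : homClass (0 : Additive (Gamma0 L) →+ k) = 0 := by
  rw [← sub_self (0 : Additive (Gamma0 L) →+ k), homClass_sub, sub_self]

theorem exists_hom (y : heckeH1 Φ₁ L (one_dvd L)) :
    ∃ φ : Additive (Gamma0 L) →+ k, homClass φ = y := by
  obtain ⟨c, rfl⟩ := Submodule.mkQ_surjective _ y
  exact ⟨cocycleToHom c, congrArg (toClass (k := k) (L := L)) (homToCocycle_cocycleToHom c)⟩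

theorem homClass_inj {φ ψ : Additive (Gamma0 L) →+ k} (h : homClass φ = homClass ψ) : φ = ψ :=
  AddMonoidHom.ext fun γ =>
    congrFun (congrArg Subtype.val (toH1_injective_one h)) (Additive.toMul γ)

theorem weight_eq_one {h : 1 ∣ L} {h' : 1 ∣ L'} {ι : Type}
    (D : CosetFamily (level0 Φ₁ L h) (level0 Φ₁ L' h') ι) (i : ι) : D.weight i = 1 :=
  MulChar.one_apply (by
    rw [Subsingleton.elim ((((D.mat i : IntMat) 0 0 : ℤ) : ZMod 1)) 1]; exact isUnit_one)

/-- A family acts on homomorphisms as the transfer of its matrices. -/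
theorem opH1_homToCocycle {ι : Type} [Fintype ι] {mats : ι → IntMat}
    (F : IsFamily (Gamma0 L) (Gamma0 L') mats)
    (D : CosetFamily (level0 Φ₁ L (one_dvd L)) (level0 Φ₁ L' (one_dvd L')) ι)
    (hmat : ∀ i, (D.mat i : IntMat) = mats i) (φ : Additive (Gamma0 L) →+ k) :
    D.opH1 (homClass φ) = homClass (F.transfer k φ) := by
  show toH1 (level0 Φ₁ L' (one_dvd L')).char (D.op (homToCocycle φ)) = _
  refine congrArg (toH1 (level0 Φ₁ L' (one_dvd L')).char) (Subtype.ext (_root_.funext fun γ => ?_))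
  rw [D.op_apply_of_step (homToCocycle φ) (σ := F.perm γ) (g := F.elt γ) fun i => by
    rw [hmat, hmat]; exact F.step γ i]
  refine Eq.trans ?_ (F.transfer_apply φ γ (F.step γ)).symm
  refine Finset.sum_congr rfl fun i _ => ?_
  rw [weight_eq_one, one_mul]
  rfl

theorem heckeOp_homToCocycle (p : Nat.Primes) (φ : Additive (Gamma0 L) →+ k) :
    heckeOp Φ₁ (one_dvd L) p (homClass φ) =
      homClass (heckeHom ℤ k p.2 φ) :=
  congrArg (toClass (k := k) (L := L)) (op_homToCocycle p.2 φ)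

variable {q : ℕ}

/-- Corestriction is the transfer of `LevelRaise`. -/
theorem degCores_homToCocycle [NeZero L] (hq : q.Prime) (hqL : ¬ q ∣ L)
    (B : AddPrimeBezout L q) (φ : Additive (Gamma0 (L * q)) →+ k) :
    (degCores Φ₁ (one_dvd L) hq hqL B).opH1 (homClass φ) =
      homClass (LevelRaise.degTr L k hq hqL φ) := by
  let E : CosetFamily (level0 Φ₁ (L * q) ((one_dvd L).mul_right q)) (level0 Φ₁ L (one_dvd L))
      (Option (Fin q)) :=
    CosetFamily.ofSeparated
      (fun i => ⟨resRep L q i, by simp, by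
        rw [Subsingleton.elim (((resRep L q i) 0 0 : ℤ) : ZMod 1) 1]; exact isUnit_one⟩)
      (isFamily_res hq hqL).det_ne (isFamily_res hq hqL).sep (isFamily_res hq hqL).exists_step
  have key : E.opH1 = (degCores Φ₁ (one_dvd L) hq hqL B).opH1 :=
    CosetFamily.opH1_eq_of_cover _ E rfl (fun j => by
      obtain ⟨s, hs⟩ := exists_resRep (N := L) j
      obtain ⟨σ, gs, hgs⟩ := (degCores Φ₁ (one_dvd L) hq hqL B).exists_step s
      refine ⟨σ none, gs none, ?_⟩
      show resRep L q j = _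
      rw [← hs]
      exact (Matrix.one_mul _).symm.trans (hgs none)) (isFamily_res hq hqL).sep
  rw [← key]
  exact opH1_homToCocycle (isFamily_res hq hqL) E (fun _ => rfl) φ

/-- The second transfer is the second transfer of `LevelRaise`. -/
theorem degCores'_homToCocycle [NeZero L] (hq : q.Prime) (hqL : ¬ q ∣ L)
    (B : AddPrimeBezout L q) (φ : Additive (Gamma0 (L * q)) →+ k) :
    degCores' Φ₁ (one_dvd L) hq hqL B (homClass φ) =
      homClass (LevelRaise.degTr' L k hq hqL φ) := by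
  let E : CosetFamily (level0 Φ₁ (L * q) ((one_dvd L).mul_right q)) (level0 Φ₁ L (one_dvd L))
      (Option (Fin q)) :=
    CosetFamily.ofSeparated
      (fun i => ⟨degRep L q i, by simp, by
        rw [Subsingleton.elim (((degRep L q i) 0 0 : ℤ) : ZMod 1) 1]; exact isUnit_one⟩)
      (isFamily_deg hq hqL).det_ne (isFamily_deg hq hqL).sep (isFamily_deg hq hqL).exists_step
  have key : E.opH1 = ((degInvol Φ₁ (one_dvd L) hq B).comp
      (degCores Φ₁ (one_dvd L) hq hqL B)).opH1 :=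
    CosetFamily.opH1_eq_of_cover _ E (by simp) (fun j => by
      obtain ⟨u, hu⟩ := exists_upRep (N := L) hq hqL j
      obtain ⟨v, hv⟩ := exists_gamma0_of_entries (N := L) (a := (q : ℤ) * B.x) (b := B.y)
        (c := (L : ℤ)) (d := 1) (by linear_combination B.eq) dvd_rfl
      obtain ⟨σ, gs, hgs⟩ := (degCores Φ₁ (one_dvd L) hq hqL B).exists_step (v⁻¹ * u)
      obtain ⟨g', hg'⟩ := exists_invol_step (Φ := (Φ₁ : MulChar (ZMod 1) k)) (one_dvd L) hq B
        (gs none)
      refine ⟨((), σ none), g', ?_⟩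
      show degRep L q j = gammaMat g' *
        (((degInvol Φ₁ (one_dvd L) hq B).mat () : IntMat) *
          ((degCores Φ₁ (one_dvd L) hq hqL B).mat (σ none) : IntMat))
      rw [← Matrix.mul_assoc, ← hg', Matrix.mul_assoc, ← hgs none]
      show degRep L q j = ((degInvol Φ₁ (one_dvd L) hq B).mat () : IntMat) *
        (1 * gammaMat (v⁻¹ * u))
      rw [Matrix.one_mul, degRep, ← hu,
        show gammaMat u = gammaMat v * gammaMat (v⁻¹ * u) by
          rw [← gammaMat_mul, mul_inv_cancel_left], ← Matrix.mul_assoc]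
      congr 1
      show deltaBar q * gammaMat v = !![(q : ℤ) * B.x, B.y; (q : ℤ) * L, (q : ℤ)]
      rw [hv, deltaBar, Matrix.mul_fin_two]
      congrm !![?_, ?_; ?_, ?_] <;> ring) (isFamily_deg hq hqL).sep
  rw [degCores', CosetFamily.opH1_comp, ← key]
  exact opH1_homToCocycle (isFamily_deg hq hqL) E (fun _ => rfl) φ

/-- A relation between the two degeneracy maps. -/
theorem degeneracyRel_of_degMaps (hq : q.Prime) (hqL : ¬ q ∣ L)
    {φ ψ : Additive (Gamma0 L) →+ k}
    (h : (degRes q Φ₁ (one_dvd L)).opH1 (homClass φ) +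
      (degDiag Φ₁ (one_dvd L) hq hqL).opH1 (homClass ψ) = 0) :
    LevelRaise.Ihara.DegeneracyRel q φ (-ψ) := by
  intro g g' h00 h01 h10 h11
  obtain ⟨γ, hγ⟩ := exists_gamma0_eq (N := L * q) (Z := gammaMat g) (gammaMat_det g) (by
    show ((L * q : ℕ) : ℤ) ∣ LevelRaise.Ihara.entry g 1 0
    rw [h10]; push_cast; rw [mul_comm]
    exact mul_dvd_mul_left _ (LevelRaise.Ihara.entry_dvd g'))
  rw [homClass_apply, homClass_apply, CosetFamily.opH1_toH1, CosetFamily.opH1_toH1, ← map_add] at h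
  have h' := congrFun (congrArg Subtype.val (toH1_injective_one (L := L * q)
    (h.trans (map_zero _).symm))) γ
  change ((degRes q Φ₁ (one_dvd L)).op (homToCocycle φ)).1 γ +
    ((degDiag Φ₁ (one_dvd L) hq hqL).op (homToCocycle ψ)).1 γ = 0 at h'
  rw [(degRes q Φ₁ (one_dvd L)).op_apply_of_step _ (σ := 1) (g := fun _ => g) (fun _ => ?_),
    (degDiag Φ₁ (one_dvd L) hq hqL).op_apply_of_step _ (σ := 1) (g := fun _ => g') (fun _ => ?_)]
    at h'
  · rw [Fintype.sum_unique, Fintype.sum_unique, weight_eq_one, weight_eq_one, one_mul,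
      one_mul] at h'
    exact eq_neg_of_add_eq_zero_left h'
  · show (!![(q : ℤ), 0; 0, 1] : IntMat) * gammaMat γ = gammaMat g' * !![(q : ℤ), 0; 0, 1]
    rw [hγ, Matrix.eta_fin_two (gammaMat g), Matrix.eta_fin_two (gammaMat g'),
      Matrix.mul_fin_two, Matrix.mul_fin_two]
    simp only [LevelRaise.Ihara.entry] at h00 h01 h10 h11
    congrm !![?_, ?_; ?_, ?_]
    · linear_combination -(q : ℤ) * h00
    · linear_combination -h01
    · linear_combination h10
    · linear_combination -h11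
  · show (1 : IntMat) * gammaMat γ = gammaMat g * 1
    rw [hγ, Matrix.one_mul, Matrix.mul_one]

end Dictionary

/-- Homomorphisms vanish on torsion when a cover of index prime to the characteristic exists. -/
theorem apply_eq_zero_of_isOfFinOrder {k : Type} [Field k] {L : ℕ} (hcov : CoverHyp k L)
    (φ : Additive (Gamma0 L) →+ k) {γ : Gamma0 L} (hγ : IsOfFinOrder (γ : SL(2, ℤ))) :
    φ (Additive.ofMul γ) = 0 := by
  obtain ⟨K, hn, -, hK, hu⟩ := hcov.hasCover (Φ := (1 : MulChar (ZMod 1) k)) (one_dvd L)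
  have h1 : γ ^ K.index = 1 := Subtype.ext (hK _ ⟨(γ ^ K.index).2, by
    rw [Subgroup.coe_pow]; exact Subgroup.pow_index_mem K _⟩ (by
    rw [Subgroup.coe_pow]; exact hγ.pow))
  have := congrArg (fun x => φ (Additive.ofMul x)) h1
  simp only [ofMul_pow, map_nsmul, ofMul_one, map_zero, nsmul_eq_mul] at this
  exact (mul_eq_zero.1 this).resolve_left hu.ne_zero

section Parts

variable {k : Type} [Field k] {p : ℕ} [Fact p.Prime] [CharP k p]
  {L q : ℕ} [NeZero L] {G : Set Nat.Primes} {a : Nat.Primes → k}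

local notation "Φ₁" => (1 : MulChar (ZMod 1) k)

/-- The hypothesis making the part at `a` non-Eisenstein at level `L`. -/
def NonEisAt (L : ℕ) (G : Set Nat.Primes) (a : Nat.Primes → k) : Prop :=
  ∃ ℓ ∈ G, ((ℓ : ℕ) : ZMod L) = 1 ∧ a ℓ ≠ ((ℓ : ℕ) : k) + 1

omit [Fact p.Prime] [CharP k p] [NeZero L] in
theorem NonEisAt.of_dvd {L' : ℕ} (h : NonEisAt L' G a) (hd : L ∣ L') : NonEisAt L G a := by
  obtain ⟨ℓ, hG, h1, hne⟩ := h
  refine ⟨ℓ, hG, ?_, hne⟩
  have := congrArg (ZMod.castHom hd (ZMod L)) h1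
  rwa [map_natCast, map_one] at this

omit [Fact p.Prime] [CharP k p] in
theorem two_ne_zero_of_cover (hp : p.Prime) (hp2 : p ≠ 2) [CharP k p] : (2 : k) ≠ 0 := by
  have h : ((2 : ℕ) : k) ≠ 0 := fun h0 =>
    hp2 ((Nat.prime_dvd_prime_iff_eq hp Nat.prime_two).1 ((CharP.cast_eq_zero_iff k p 2).1 h0))
  exact_mod_cast h

omit [Fact p.Prime] in
/-- The homomorphism of a class in the part is cuspidal. -/
theorem mem_cuspidalHoms_of_fixed (hp : p.Prime) (hp2 : p ≠ 2) (hcov : CoverHyp k L)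
    {ℓ : Nat.Primes} (hℓG : ℓ ∈ G) (hℓ1 : ((ℓ : ℕ) : ZMod L) = 1)
    (hne : a ℓ ≠ ((ℓ : ℕ) : k) + 1) {e : Module.End k (heckeH1 Φ₁ L (one_dvd L))}
    (he : IsLocalIdem (heckeActOn Φ₁ (one_dvd L) G) (residualIdeal (RingHom.id k) a) e)
    {φ : Additive (Gamma0 L) →+ k}
    (hφ : e (homClass φ) = homClass φ) :
    φ ∈ cuspidalHoms ℤ (Gamma0 L) k := by
  have h2 := two_ne_zero_of_cover (k := k) hp hp2
  have hτ : (X ℓ - C (((ℓ : ℕ) : k) + 1) : HeckePoly k) ∉ residualIdeal (RingHom.id k) a := by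
    rw [X_sub_C_mem_residualIdeal_iff]; exact hne
  obtain ⟨u, hu⟩ := he.bijective_restrict hτ
  obtain ⟨ψ, hψ⟩ := exists_hom (heckeActOn Φ₁ (one_dvd L) G u (homClass φ))
  have e1 := (hu _ hφ).2
  rw [← hψ, map_sub, LinearMap.sub_apply, heckeActOn_X _ hℓG, heckeActOn_C, LinearMap.smul_apply,
    Module.End.one_apply, heckeOp_homToCocycle, ← homClass_smul, ← homClass_sub] at e1
  obtain rfl := homClass_inj e1
  intro γ hγ
  rcases eq_or_lt_of_le hγ with h | h
  · have hp' := heckeHom_apply_parabolic (A := k)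
      (fun x hx => by rw [← two_mul] at hx; exact (mul_eq_zero.1 hx).resolve_left h2) ℓ.2 hℓ1 ψ γ h
    rw [AddMonoidHom.sub_apply, hp', nsmul_eq_mul]
    simp
  · refine apply_eq_zero_of_isOfFinOrder hcov _ ?_
    exact isOfFinOrder_iff_pow_eq_one.2 ⟨12, by norm_num,
      LevelRaise.pow_twelve_eq_one_of_trace _ h⟩

omit [Fact p.Prime] in
/-- The degeneracy maps are jointly injective on the part. -/
theorem degMaps_injective (hp : p.Prime) (hp2 : p ≠ 2) (hq : q.Prime) (hqL : ¬ q ∣ L)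
    (hcov : CoverHyp k L) (hne : NonEisAt L G a)
    {e : Module.End k (heckeH1 Φ₁ L (one_dvd L))}
    (he : IsLocalIdem (heckeActOn Φ₁ (one_dvd L) G) (residualIdeal (RingHom.id k) a) e)
    {x y : heckeH1 Φ₁ L (one_dvd L)} (hx : e x = x) (hy : e y = y)
    (h : (degRes q Φ₁ (one_dvd L)).opH1 x + (degDiag Φ₁ (one_dvd L) hq hqL).opH1 y = 0) :
    x = 0 ∧ y = 0 := by
  obtain ⟨ℓ, hℓG, hℓ1, hne⟩ := hne
  obtain ⟨φ, rfl⟩ := exists_hom x
  obtain ⟨ψ, rfl⟩ := exists_hom y
  have hφ := mem_cuspidalHoms_of_fixed hp hp2 hcov hℓG hℓ1 hne he hx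
  have hψ := mem_cuspidalHoms_of_fixed hp hp2 hcov hℓG hℓ1 hne he hy
  have hℓL : ¬ (ℓ : ℕ) ∣ L := fun hd => by
    have h0 := congrArg (ZMod.castHom hd (ZMod (ℓ : ℕ))) hℓ1
    rw [map_natCast, map_one, ZMod.natCast_self] at h0
    haveI : Fact (ℓ : ℕ).Prime := ⟨ℓ.2⟩
    exact zero_ne_one h0
  obtain ⟨e1, e2⟩ := LevelRaise.Ihara.heckeHom_degeneracy_kernel (R := ℤ)
    (Nat.pos_of_ne_zero (NeZero.ne L)) hq hqL hp
    (fun c : k => by rw [nsmul_eq_mul, (CharP.cast_eq_zero_iff k p p).2 dvd_rfl, zero_mul])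
    (fun γ hγ => hφ γ hγ.le) (fun γ hγ => by rw [AddMonoidHom.neg_apply, hψ γ hγ.le, neg_zero])
    (degeneracyRel_of_degMaps hq hqL h) ℓ.2 hℓL
  rw [map_neg, smul_neg, neg_inj] at e2
  have hτ : (X ℓ - C (((ℓ : ℕ) : k) + 1) : HeckePoly k) ∉ residualIdeal (RingHom.id k) a := by
    rw [X_sub_C_mem_residualIdeal_iff]; exact hne
  have key : ∀ χ : Additive (Gamma0 L) →+ k,
      e (homClass χ) = homClass χ →
      heckeHom ℤ k ℓ.2 χ = ((ℓ : ℕ) + 1) • χ → homClass χ = 0 := by
    intro χ hχ hT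
    refine IsLocalIdem.eq_zero_of_eval (one_dvd L) he hτ hχ ?_
    rw [map_sub, LinearMap.sub_apply, heckeActOn_X _ hℓG, heckeActOn_C, LinearMap.smul_apply,
      Module.End.one_apply, heckeOp_homToCocycle, hT, ← homClass_smul, sub_eq_zero]
    refine congrArg homClass (AddMonoidHom.ext fun γ => ?_)
    simp
  exact ⟨key φ hx e1, key ψ hy e2⟩

/-- The transfers are jointly surjective on the parts. -/
theorem transfers_surjective [Finite k] (hp2 : p ≠ 2) (hq : q.Prime) (hqL : ¬ q ∣ L)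
    (hqG : ∀ ℓ ∈ G, (ℓ : ℕ) ≠ q) (hcov : CoverHyp k L) (hne : NonEisAt L G a)
    (B : AddPrimeBezout L q)
    {e : Module.End k (heckeH1 Φ₁ L (one_dvd L))}
    (he : IsLocalIdem (heckeActOn Φ₁ (one_dvd L) G) (residualIdeal (RingHom.id k) a) e)
    {e' : Module.End k (heckeH1 Φ₁ (L * q) ((one_dvd L).mul_right q))}
    (he' : IsLocalIdem (heckeActOn Φ₁ ((one_dvd L).mul_right q) G)
      (residualIdeal (RingHom.id k) a) e')
    {y₁ y₂ : heckeH1 Φ₁ L (one_dvd L)} (hy₁ : e y₁ = y₁) (hy₂ : e y₂ = y₂) :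
    ∃ x, e' x = x ∧ (degCores Φ₁ (one_dvd L) hq hqL B).opH1 x = y₁ ∧
      degCores' Φ₁ (one_dvd L) hq hqL B x = y₂ := by
  classical
  have hp : p.Prime := Fact.out
  haveI : NeZero (L * q) := ⟨mul_ne_zero (NeZero.ne L) hq.ne_zero⟩
  haveI := finite_heckeH1 (Φ := Φ₁) (one_dvd L) hcov
  haveI := finite_heckeH1 (Φ := Φ₁) ((one_dvd L).mul_right q) (hcov.mono (dvd_mul_right L q))
  obtain ⟨ℓ, hℓG, hℓ1, hne⟩ := hne
  have hℓL : ¬ (ℓ : ℕ) ∣ L := fun hd => by
    have h0 := congrArg (ZMod.castHom hd (ZMod (ℓ : ℕ))) hℓ1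
    rw [map_natCast, map_one, ZMod.natCast_self] at h0
    haveI : Fact (ℓ : ℕ).Prime := ⟨ℓ.2⟩
    exact zero_ne_one h0
  set τ : HeckePoly k := X ℓ - C (((ℓ : ℕ) : k) + 1) with hτdef
  have hτ : τ ∉ residualIdeal (RingHom.id k) a := by
    rw [hτdef, X_sub_C_mem_residualIdeal_iff]; exact hne
  -- both are squares of the Eisenstein operator of cuspidal classes
  have hdiv : ∀ y, e y = y → ∃ χ ∈ cuspidalHoms ℤ (Gamma0 L) k,
      homClass (LevelRaise.eisSq k ℓ.2 χ) = y := fun y hy => by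
    obtain ⟨u, hu⟩ := he.bijective_restrict hτ
    have hz1 : e (heckeActOn Φ₁ (one_dvd L) G u y) = heckeActOn Φ₁ (one_dvd L) G u y := by
      rw [he.comm_apply, hy]
    have hz : e (heckeActOn Φ₁ (one_dvd L) G u (heckeActOn Φ₁ (one_dvd L) G u y)) =
        heckeActOn Φ₁ (one_dvd L) G u (heckeActOn Φ₁ (one_dvd L) G u y) := by
      rw [he.comm_apply, hz1]
    obtain ⟨χ, hχ⟩ := exists_hom
      (heckeActOn Φ₁ (one_dvd L) G u (heckeActOn Φ₁ (one_dvd L) G u y))
    rw [← hχ] at hz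
    refine ⟨χ, mem_cuspidalHoms_of_fixed hp hp2 hcov hℓG hℓ1 hne he hz, ?_⟩
    have hop : ∀ χ : Additive (Gamma0 L) →+ k,
        heckeActOn Φ₁ (one_dvd L) G τ (homClass χ) =
          homClass (LevelRaise.eisOp k ℓ.2 χ) := fun χ => by
      rw [hτdef, map_sub, LinearMap.sub_apply, heckeActOn_X _ hℓG, heckeActOn_C,
        LinearMap.smul_apply, Module.End.one_apply, heckeOp_homToCocycle,
        ← homClass_smul, ← homClass_sub]
      refine congrArg homClass ?_
      rw [LevelRaise.eisOp]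
      refine AddMonoidHom.ext fun γ => ?_
      simp
      ring
    show homClass (LevelRaise.eisOp k ℓ.2 (LevelRaise.eisOp k ℓ.2 χ)) = y
    rw [← hop, ← hop, hχ, (hu _ hz1).2, (hu _ hy).2]
  obtain ⟨χ₁, hχ₁, hy₁'⟩ := hdiv y₁ hy₁
  obtain ⟨χ₂, hχ₂, hy₂'⟩ := hdiv y₂ hy₂
  -- coordinates over the prime field
  letI : Algebra (ZMod p) k := ZMod.algebra k p
  let b := Module.finBasis (ZMod p) k
  let co : Fin (Module.finrank (ZMod p) k) → k →+ ZMod p := fun s => (b.coord s).toAddMonoidHom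
  let up : Fin (Module.finrank (ZMod p) k) → ZMod p →+ k := fun s =>
    ((LinearMap.id (R := ZMod p) (M := ZMod p)).smulRight (b s)).toAddMonoidHom
  have hsum : ∀ χ : Additive (Gamma0 L) →+ k, ∑ s, (up s).comp ((co s).comp χ) = χ := fun χ =>
    AddMonoidHom.ext fun γ => by
      rw [AddMonoidHom.finsetSum_apply]
      exact b.sum_repr (χ γ)
  have hpre : ∀ s, ∃ x ∈ cuspidalHoms ℤ (Gamma0 (L * q)) (ZMod p),
      LevelRaise.degTr L (ZMod p) hq hqL x = LevelRaise.eisSq (ZMod p) ℓ.2 ((co s).comp χ₁) ∧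
      LevelRaise.degTr' L (ZMod p) hq hqL x = LevelRaise.eisSq (ZMod p) ℓ.2 ((co s).comp χ₂) := by
    intro s
    obtain ⟨x, hx, hxe⟩ := LevelRaise.eisOp_sq_mem_trImage hq hqL hp hp2 ℓ.2 hℓL hℓ1
      (y₁ := (co s).comp χ₁) (y₂ := (co s).comp χ₂)
      (fun γ hγ => by rw [AddMonoidHom.comp_apply, hχ₁ γ hγ, map_zero])
      (fun γ hγ => by rw [AddMonoidHom.comp_apply, hχ₂ γ hγ, map_zero])
    exact ⟨x, hx, (Prod.mk.injEq _ _ _ _).mp hxe⟩
  choose x _ hx₁ hx₂ using hpre
  set ξ : Additive (Gamma0 (L * q)) →+ k := ∑ s, (up s).comp (x s) with hξ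
  have h1 : LevelRaise.degTr L k hq hqL ξ = LevelRaise.eisSq k ℓ.2 χ₁ := by
    conv_rhs => rw [← hsum χ₁]
    rw [hξ, map_sum, map_sum]
    exact Finset.sum_congr rfl fun s _ => by
      rw [LevelRaise.degTr_comp hq hqL, hx₁]
      exact (LevelRaise.eisSq_comp ℓ.2 (up s) _).symm
  have h2 : LevelRaise.degTr' L k hq hqL ξ = LevelRaise.eisSq k ℓ.2 χ₂ := by
    conv_rhs => rw [← hsum χ₂]
    rw [hξ, map_sum, map_sum]
    exact Finset.sum_congr rfl fun s _ => by
      rw [LevelRaise.degTr'_comp hq hqL, hx₂]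
      exact (LevelRaise.eisSq_comp ℓ.2 (up s) _).symm
  refine ⟨e' (homClass ξ), he'.idem_apply _, ?_, ?_⟩
  · rw [he'.natural he (σ := RingHom.id k) (degCores Φ₁ (one_dvd L) hq hqL B).opH1
      (RingHom.id (HeckePoly k)) Function.surjective_id (fun P x => ?_) (fun _ => Iff.rfl),
      degCores_homToCocycle, h1, hy₁', hy₁]
    exact heckeActOn_intertwine (degCores Φ₁ (one_dvd L) hq hqL B).opH1
      (fun r hr => degCores_comm (one_dvd L) hq hqL B r (hqG r hr)) P x
  · rw [he'.natural he (σ := RingHom.id k) (degCores' Φ₁ (one_dvd L) hq hqL B)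
      (RingHom.id (HeckePoly k)) Function.surjective_id (fun P x => ?_) (fun _ => Iff.rfl),
      degCores'_homToCocycle, h2, hy₂', hy₂]
    exact heckeActOn_intertwine (degCores' Φ₁ (one_dvd L) hq hqL B)
      (fun r hr => degCores'_comm (one_dvd L) hq hqL B r (hqG r hr)) P x

end Parts

end Fermat.Agent.Lifting.Models

end
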