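import Fermat.Agent.Lifting.Models.Below
import Fermat.Agent.Lifting.Models.Residual
import Fermat.Agent.RT.Assembly.Models.Red
import Fermat.Agent.RT.Assembly.Models.Congr
import Fermat.Agent.RT.Systems.Push

/-!
# The classes of a node killed by the two transfers at `q`

For a prime `q` of the level left out of the localisation, the two transfers to the level without
`q` are jointly surjective on the parts (residually and Nakayama), so their common kernel `pNew`
is a free direct summand of the part, of rank the rank of the part less twice the rank below,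
stable under the operators away from `q`.
-/

set_option autoImplicit false
set_option linter.style.haveILetI false

noncomputable section

open IsLocalRing MvPolynomial

namespace Fermat.Agent.Lifting.Models

open RT.Diamond RT.TW RT.Assembly RT.Systems
open Periods (IntMat)

section Generic

variable {A A' : Type} [CommRing A] [CommRing A'] {N N₀ M M' : ℕ} {Φ : MulChar (ZMod N) A}
  {Φ₀ : MulChar (ZMod N₀) A'} {f : A →+* A'}
  (hΦ : ∀ a : ℤ, IsUnit (a : ZMod N) → f (Φ a) = Φ₀ a)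

theorem red_opH1 {ι : Type} [Fintype ι] {h : N ∣ M} {h' : N ∣ M'} {h₀ : N₀ ∣ M} {h₀' : N₀ ∣ M'}
    (D : CosetFamily (level0 Φ M h) (level0 Φ M' h') ι)
    (D₁ : CosetFamily (level0 (Φ.ringHomComp f) M h) (level0 (Φ.ringHomComp f) M' h') ι)
    (D₀ : CosetFamily (level0 Φ₀ M h₀) (level0 Φ₀ M' h₀') ι)
    (h1 : ∀ i, (D₁.mat i : IntMat) = (D.mat i : IntMat))
    (h0 : ∀ i, (D₁.mat i : IntMat) = (D₀.mat i : IntMat)) (y : heckeH1 Φ M h) :
    Models.red f h' h₀' hΦ (D.opH1 y) = D₀.opH1 (Models.red f h h₀ hΦ y) :=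
  (congrArg (Models.chg f h' h₀' hΦ) (heckeBaseChange_opH1 f D D₁ h1 y)).trans
    (changeModulus_opH1 (h₁ := h₀) (h₂ := h₀') (h₁' := h) (h₂' := h') hΦ D₀ D₁ h0 _)

theorem red_levelCast (e : M = M') (h : N ∣ M) (h' : N ∣ M') (h₀ : N₀ ∣ M)
    (h₀' : N₀ ∣ M') (y : heckeH1 Φ M h) :
    Models.red f h' h₀' hΦ (levelCast Φ e h h' y) =
      levelCast Φ₀ e h₀ h₀' (Models.red f h h₀ hΦ y) := by
  subst e; rfl

theorem red_heckeActOn {h : N ∣ M} {h₀ : N₀ ∣ M} (G : Set Nat.Primes) (P : HeckePoly A)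
    (y : heckeH1 Φ M h) :
    Models.red f h h₀ hΦ (heckeActOn Φ h G P y) =
      heckeActOn Φ₀ h₀ G (MvPolynomial.map f P) (Models.red f h h₀ hΦ y) := by
  rw [heckeActOn_apply, heckeActOn_apply, Models.red_heckeAct, map_killOff]

end Generic

section Reduction

variable {O : Type} [CommRing O] [IsDomain O] [IsDiscreteValuationRing O]
  [IsAdicComplete (maximalIdeal O) O] [Finite (ResidueField O)] [CharZero O]
  {p : ℕ} [Fact p.Prime] {B : NodeBase O p} {r n : ℕ} (Lv : NodeLevel B r n)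

/-- Reduction of the classes of a node to trivial coefficients over the residue field. -/
def redk : Lv.H1 →ₛₗ[Lv.resΛ]
    heckeH1 (1 : MulChar (ZMod 1) (ResidueField O)) Lv.L (one_dvd Lv.L) :=
  Models.red Lv.resΛ Lv.N_dvd_L (one_dvd Lv.L) Lv.resΛ_neben

/-- The reduction maps the part onto the residual part, with kernel the maximal ideal. -/
theorem redk_part {e : Module.End (ResidueField O)
      (heckeH1 (1 : MulChar (ZMod 1) (ResidueField O)) Lv.L (one_dvd Lv.L))}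
    (he : IsLocalIdem (heckeActOn (1 : MulChar (ZMod 1) (ResidueField O)) (one_dvd Lv.L) B.G)
      (residualIdeal (RingHom.id (ResidueField O)) Lv.aLv) e) :
    (∀ y, e y = y → ∃ x : Lv.part, redk Lv x = y) ∧
      (∀ x : Lv.part, redk Lv x = 0 → x ∈ maximalIdeal Lv.Λ • (⊤ : Submodule Lv.Λ Lv.part)) ∧
      ∀ x : Lv.part, e (redk Lv x) = redk Lv x := by
  have hf := Lv.resΛ_surjective
  haveI : IsLocalHom Lv.resΛ := IsLocalHom.of_surjective _ hf
  haveI := finite_heckeH1 (Φ := neben Lv.θ) Lv.N_dvd_L Lv.coverHyp_L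
  haveI := finite_heckeH1 (Φ := (1 : MulChar (ZMod 1) (ResidueField O))) (one_dvd Lv.L)
    (Lv.coverHyp_L.map Lv.resΛ)
  have hm : ∀ P, MvPolynomial.map Lv.resΛ P ∈
      residualIdeal (RingHom.id (ResidueField O)) Lv.aLv ↔ P ∈ Lv.m := fun P => by
    rw [mem_residualIdeal_iff, mem_residualIdeal_iff, coe_eval₂Hom, coe_eval₂Hom, eval₂_map,
      RingHom.id_comp]
  have key := Lv.idem_spec.baseChange he (redk Lv) (MvPolynomial.map Lv.resΛ)
    (MvPolynomial.map_surjective _ hf) (fun P z => red_heckeActOn Lv.resΛ_neben B.G P z) hm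
    (Models.red_surjective Lv.resΛ_neben Lv.coverHyp_L hf)
    (fun z hz => Models.mem_ker_smul_of_red_eq_zero Lv.resΛ_neben Lv.coverHyp_L hf hz)
  have nat := Lv.idem_spec.natural he (redk Lv) (MvPolynomial.map Lv.resΛ)
    (MvPolynomial.map_surjective _ hf) (fun P z => red_heckeActOn Lv.resΛ_neben B.G P z) hm
  refine ⟨fun y hy => ?_, fun x hx => ?_, fun x => ?_⟩
  · obtain ⟨x, hx, hxy⟩ := key.1 y hy
    exact ⟨⟨x, x, hx⟩, hxy⟩
  · refine Models.mem_smul_top_of_coe_mem _ ?_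
    rw [← Lv.ker_resΛ]
    exact (key.2 _ (Lv.idem_spec.eq_of_mem_range x)).1 hx
  · rw [← nat, Lv.idem_spec.eq_of_mem_range x]

end Reduction

variable {O : Type} [CommRing O] [IsDomain O] [IsDiscreteValuationRing O]
  [IsAdicComplete (maximalIdeal O) O] [Finite (ResidueField O)] [CharZero O]
  {p : ℕ} [Fact p.Prime] {B : NodeBase O p} {q : ℕ}

namespace NodeBelow

variable (Bl : NodeBelow B q) {r n : ℕ} (Lv : NodeLevel B r n)

/-- The two transfers to the level without `q`. -/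
def tr : Fin 2 → (Lv.H1 →ₗ[Lv.Λ] (Bl.level Lv).H1) :=
  ![(degCores (neben Lv.θ) (Bl.level Lv).N_dvd_L Bl.prime (Bl.not_dvd_level Lv)
        (Bl.bezout Lv)).opH1 ∘ₗ (Bl.cast Lv).toLinearMap,
    degCores' (neben Lv.θ) (Bl.level Lv).N_dvd_L Bl.prime (Bl.not_dvd_level Lv)
        (Bl.bezout Lv) ∘ₗ (Bl.cast Lv).toLinearMap]

theorem tr_heckeOp (j : Fin 2) {ℓ : Nat.Primes} (hℓ : (ℓ : ℕ) ≠ q) (x : Lv.H1) :
    Bl.tr Lv j (heckeOp (neben Lv.θ) Lv.N_dvd_L ℓ x) =
      heckeOp (neben Lv.θ) (Bl.level Lv).N_dvd_L ℓ (Bl.tr Lv j x) := by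
  fin_cases j
  · show (degCores (neben Lv.θ) _ _ _ _).opH1 (Bl.cast Lv _) = _
    rw [Bl.cast_heckeOp]
    exact degCores_comm _ Bl.prime (Bl.not_dvd_level Lv) _ ℓ hℓ _
  · show degCores' (neben Lv.θ) _ _ _ _ (Bl.cast Lv _) = _
    rw [Bl.cast_heckeOp]
    exact degCores'_comm _ Bl.prime (Bl.not_dvd_level Lv) _ ℓ hℓ _

theorem tr_twOp (j : Fin 2) {ℓ : Nat.Primes} (hℓ : (ℓ : ℕ) ≠ q) (x : Lv.H1) :
    Bl.tr Lv j (twOp Lv.θ Lv.N_dvd_L ℓ x) =
      twOp (Bl.level Lv).θ (Bl.level Lv).N_dvd_L ℓ (Bl.tr Lv j x) := by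
  rw [twOp, twOp, LinearMap.smul_apply, LinearMap.smul_apply, map_smul, Bl.tr_heckeOp Lv j hℓ]
  rfl

theorem tr_heckeActOn (j : Fin 2) (P : HeckePoly Lv.Λ) (x : Lv.H1) :
    Bl.tr Lv j (heckeActOn (neben Lv.θ) Lv.N_dvd_L B.G P x) =
      heckeActOn (neben Lv.θ) (Bl.level Lv).N_dvd_L Bl.base.G P (Bl.tr Lv j x) := by
  rw [Bl.G_eq]
  exact heckeActOn_intertwine (Bl.tr Lv j) (fun ℓ hℓ => Bl.tr_heckeOp Lv j (Bl.ne_of_mem_G hℓ)) P x

theorem tr_idem (j : Fin 2) (x : Lv.H1) :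
    Bl.tr Lv j (Lv.idem x) = (Bl.level Lv).idem (Bl.tr Lv j x) := by
  haveI := finite_heckeH1 (Φ := neben (Bl.level Lv).θ) (Bl.level Lv).N_dvd_L
    (Bl.level Lv).coverHyp_L
  exact Lv.idem_spec.natural (Bl.level Lv).idem_spec (σ := RingHom.id Lv.Λ) (Bl.tr Lv j)
    (RingHom.id (HeckePoly Lv.Λ)) Function.surjective_id (Bl.tr_heckeActOn Lv j)
    (fun P => by rw [Bl.m_eq]; exact Iff.rfl) x

theorem tr_mem_part (j : Fin 2) {x : Lv.H1} (hx : x ∈ Lv.part) :
    Bl.tr Lv j x ∈ (Bl.level Lv).part := by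
  obtain ⟨y, rfl⟩ := hx
  exact ⟨Bl.tr Lv j y, (Bl.tr_idem Lv j y).symm⟩

/-- The transfers between the parts. -/
def trPart (j : Fin 2) : Lv.part →ₗ[Lv.Λ] (Bl.level Lv).part :=
  (Bl.tr Lv j).restrict fun _ => Bl.tr_mem_part Lv j

theorem coe_trPart (j : Fin 2) (x : Lv.part) :
    (Bl.trPart Lv j x : (Bl.level Lv).H1) = Bl.tr Lv j x := rfl

theorem trPart_twOp (j : Fin 2) {ℓ : Nat.Primes} (hℓ : (ℓ : ℕ) ≠ q) (x : Lv.part) :
    Bl.trPart Lv j ⟨_, Lv.twOp_mem_part ℓ x.2⟩ =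
      ⟨_, (Bl.level Lv).twOp_mem_part ℓ (Bl.trPart Lv j x).2⟩ :=
  Subtype.ext (Bl.tr_twOp Lv j hℓ x)

theorem redk_tr_zero (x : Lv.H1) :
    redk (Bl.level Lv) (Bl.tr Lv 0 x) =
      (degCores (1 : MulChar (ZMod 1) (ResidueField O)) (one_dvd (Bl.level Lv).L) Bl.prime
        (Bl.not_dvd_level Lv) (Bl.bezout Lv)).opH1
        (levelCast (1 : MulChar (ZMod 1) (ResidueField O)) (Bl.level_L Lv).symm (one_dvd Lv.L)
          ((one_dvd (Bl.level Lv).L).mul_right q) (redk Lv x)) := by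
  refine (red_opH1 (Bl.level Lv).resΛ_neben _ (degCores ((neben Lv.θ).ringHomComp Lv.resΛ)
    (Bl.level Lv).N_dvd_L Bl.prime (Bl.not_dvd_level Lv) (Bl.bezout Lv))
    (degCores (1 : MulChar (ZMod 1) (ResidueField O)) (one_dvd (Bl.level Lv).L) Bl.prime
      (Bl.not_dvd_level Lv) (Bl.bezout Lv))
    (fun _ => rfl) (fun _ => rfl) (Bl.cast Lv x)).trans ?_
  exact congrArg _ (red_levelCast Lv.resΛ_neben (Bl.level_L Lv).symm Lv.N_dvd_L _ _ _ x)

theorem redk_tr_one (x : Lv.H1) :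
    redk (Bl.level Lv) (Bl.tr Lv 1 x) =
      degCores' (1 : MulChar (ZMod 1) (ResidueField O)) (one_dvd (Bl.level Lv).L) Bl.prime
        (Bl.not_dvd_level Lv) (Bl.bezout Lv)
        (levelCast (1 : MulChar (ZMod 1) (ResidueField O)) (Bl.level_L Lv).symm (one_dvd Lv.L)
          ((one_dvd (Bl.level Lv).L).mul_right q) (redk Lv x)) := by
  refine (red_opH1 (Bl.level Lv).resΛ_neben _ (degCores ((neben Lv.θ).ringHomComp Lv.resΛ)
    (Bl.level Lv).N_dvd_L Bl.prime (Bl.not_dvd_level Lv) (Bl.bezout Lv))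
    (degCores (1 : MulChar (ZMod 1) (ResidueField O)) (one_dvd (Bl.level Lv).L) Bl.prime
      (Bl.not_dvd_level Lv) (Bl.bezout Lv))
    (fun _ => rfl) (fun _ => rfl) _).trans (congrArg _ ?_)
  refine (red_opH1 Lv.resΛ_neben _ (degInvol ((neben Lv.θ).ringHomComp Lv.resΛ)
    (Bl.level Lv).N_dvd_L Bl.prime (Bl.bezout Lv))
    (degInvol (1 : MulChar (ZMod 1) (ResidueField O)) (one_dvd (Bl.level Lv).L) Bl.prime
      (Bl.bezout Lv))
    (fun _ => rfl) (fun _ => rfl) (Bl.cast Lv x)).trans ?_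
  exact congrArg _ (red_levelCast Lv.resΛ_neben (Bl.level_L Lv).symm Lv.N_dvd_L _ _ _ x)

/-- The residual parts: a residual class with given transfers. -/
theorem exists_redk (y : Fin 2 → (Bl.level Lv).part) :
    ∃ x : Lv.part, ∀ j, redk (Bl.level Lv) (Bl.trPart Lv j x) = redk (Bl.level Lv) (y j) := by
  haveI hchar : CharP (ResidueField O) p := (CharP.charP_iff_prime_eq_zero Fact.out).2 (by
    rw [← map_natCast (residue O)]; exact (residue_eq_zero_iff _).2 B.hpO)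
  have hd : (Bl.level Lv).L * q = Lv.L := Bl.level_L Lv
  haveI : NeZero ((Bl.level Lv).L * q) := ⟨hd ▸ Lv.L_ne_zero⟩
  have hcov₀ : CoverHyp (ResidueField O) (Bl.level Lv).L :=
    (Bl.level Lv).coverHyp_L.map (Bl.level Lv).resΛ
  have hcov₁ : CoverHyp (ResidueField O) ((Bl.level Lv).L * q) :=
    hcov₀.mono (dvd_mul_right _ q)
  have hcov₂ : CoverHyp (ResidueField O) Lv.L := Lv.coverHyp_L.map Lv.resΛ
  haveI := finite_heckeH1 (Φ := (1 : MulChar (ZMod 1) (ResidueField O)))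
    (one_dvd (Bl.level Lv).L) hcov₀
  haveI := finite_heckeH1 (Φ := (1 : MulChar (ZMod 1) (ResidueField O)))
    ((one_dvd (Bl.level Lv).L).mul_right q) hcov₁
  haveI := finite_heckeH1 (Φ := (1 : MulChar (ZMod 1) (ResidueField O))) (one_dvd Lv.L) hcov₂
  haveI hmax := residualIdeal_isMaximal (RingHom.id (ResidueField O)) Function.surjective_id Lv.aLv
  obtain ⟨e₀, he₀⟩ := exists_isLocalIdem
    (heckeActOn (1 : MulChar (ZMod 1) (ResidueField O)) (one_dvd (Bl.level Lv).L) B.G)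
    (residualIdeal (RingHom.id (ResidueField O)) Lv.aLv)
  obtain ⟨e₁, he₁⟩ := exists_isLocalIdem
    (heckeActOn (1 : MulChar (ZMod 1) (ResidueField O)) (one_dvd Lv.L) B.G)
    (residualIdeal (RingHom.id (ResidueField O)) Lv.aLv)
  obtain ⟨e₂, he₂⟩ := exists_isLocalIdem
    (heckeActOn (1 : MulChar (ZMod 1) (ResidueField O)) ((one_dvd (Bl.level Lv).L).mul_right q) B.G)
    (residualIdeal (RingHom.id (ResidueField O)) Lv.aLv)
  have he₀' : IsLocalIdem (heckeActOn (1 : MulChar (ZMod 1) (ResidueField O))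
      (one_dvd (Bl.level Lv).L) Bl.base.G)
      (residualIdeal (RingHom.id (ResidueField O)) (Bl.level Lv).aLv) e₀ := by
    rw [Bl.G_eq, Bl.aLv_eq]; exact he₀
  have hfix := (redk_part (Bl.level Lv) he₀').2.2
  obtain ⟨ℓ, hℓ, hG, hℓ1, -, hne⟩ := Lv.exists_nonEis
  have hdvd : (Bl.level Lv).L ∣ Lv.L * Lv.N := by
    rw [← hd]; exact (dvd_mul_right _ q).mul_right _
  have hEis : NonEisAt (Bl.level Lv).L B.G Lv.aLv := ⟨ℓ, hG, by
    have := congrArg (ZMod.castHom hdvd (ZMod (Bl.level Lv).L)) hℓ1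
    rwa [map_natCast, map_one] at this, by rwa [Lv.aLv_of_good hℓ hG]⟩
  obtain ⟨x₂, hx₂, hx₂1, hx₂2⟩ := transfers_surjective (p := p) B.hp2 Bl.prime
    (Bl.not_dvd_level Lv) (fun l hl => Bl.ne_of_mem_G hl) hcov₀ hEis
    (Bl.bezout Lv) he₀ he₂ (hfix (y 0)) (hfix (y 1))
  set c := levelCast (1 : MulChar (ZMod 1) (ResidueField O)) (Bl.level_L Lv).symm (one_dvd Lv.L)
    ((one_dvd (Bl.level Lv).L).mul_right q) with hc
  have hx₁ : e₁ (c.symm x₂) = c.symm x₂ := by
    refine c.injective ?_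
    have h := he₁.natural he₂ (σ := RingHom.id (ResidueField O)) c.toLinearMap
      (RingHom.id (HeckePoly (ResidueField O))) Function.surjective_id
      (fun P x => heckeActOn_intertwine c.toLinearMap
        (fun l _ z => levelCast_heckeOp _ _ _ _ l z) P x)
      (fun _ => Iff.rfl) (c.symm x₂)
    rw [LinearEquiv.coe_coe] at h
    rw [h, LinearEquiv.apply_symm_apply, hx₂]
  obtain ⟨x, hx⟩ := (redk_part Lv he₁).1 _ hx₁
  refine ⟨x, Fin.forall_fin_two.2 ⟨?_, ?_⟩⟩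
  · refine (Bl.redk_tr_zero Lv x).trans ?_
    rw [hx, ← hc, LinearEquiv.apply_symm_apply]
    exact hx₂1
  · refine (Bl.redk_tr_one Lv x).trans ?_
    rw [hx, ← hc, LinearEquiv.apply_symm_apply]
    exact hx₂2

/-- The transfers are jointly surjective on the parts. -/
theorem trPart_surjective (y : Fin 2 → (Bl.level Lv).part) :
    ∃ x : Lv.part, ∀ j, Bl.trPart Lv j x = y j := by
  let T : Lv.part →ₗ[Lv.Λ] (Fin 2 → (Bl.level Lv).part) := LinearMap.pi (Bl.trPart Lv)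
  suffices hT : LinearMap.range T = ⊤ by
    obtain ⟨x, hx⟩ := (LinearMap.range_eq_top.1 hT) y
    exact ⟨x, fun j => congrFun hx j⟩
  haveI : Module.Finite Lv.Λ (Bl.level Lv).part := (Bl.level Lv).free_part.2
  haveI := finite_heckeH1 (Φ := (1 : MulChar (ZMod 1) (ResidueField O)))
    (one_dvd (Bl.level Lv).L) ((Bl.level Lv).coverHyp_L.map (Bl.level Lv).resΛ)
  haveI := residualIdeal_isMaximal (RingHom.id (ResidueField O)) Function.surjective_id
    (Bl.level Lv).aLv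
  obtain ⟨e₀, he₀⟩ := exists_isLocalIdem
    (heckeActOn (1 : MulChar (ZMod 1) (ResidueField O)) (one_dvd (Bl.level Lv).L) Bl.base.G)
    (residualIdeal (RingHom.id (ResidueField O)) (Bl.level Lv).aLv)
  refine eq_top_iff.2 (Submodule.le_of_le_smul_of_le_jacobson_bot Module.Finite.fg_top
    (maximalIdeal_le_jacobson ⊥) fun z _ => ?_)
  obtain ⟨x, hx⟩ := Bl.exists_redk Lv z
  refine Submodule.mem_sup.2 ⟨T x, LinearMap.mem_range_self _ _, z - T x, ?_,
    add_sub_cancel _ _⟩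
  have hcoord : ∀ j, (z - T x) j ∈
      maximalIdeal Lv.Λ • (⊤ : Submodule Lv.Λ (Bl.level Lv).part) := fun j =>
    (redk_part (Bl.level Lv) he₀).2.1 (z j - Bl.trPart Lv j x)
      (by rw [Submodule.coe_sub, map_sub, hx, sub_self])
  rw [← Finset.univ_sum_single (z - T x)]
  refine Submodule.sum_mem _ fun j _ => ?_
  have := Submodule.mem_map_of_mem
    (f := LinearMap.single Lv.Λ (fun _ : Fin 2 => (Bl.level Lv).part) j) (hcoord j)
  rw [Submodule.map_smul''] at this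
  exact Submodule.smul_mono le_rfl le_top this

/-- The classes of the part killed by the two transfers. -/
def pNew : Submodule Lv.Λ Lv.part := LinearMap.ker (LinearMap.pi (Bl.trPart Lv))

theorem mem_pNew {x : Lv.part} : x ∈ Bl.pNew Lv ↔ ∀ j, Bl.trPart Lv j x = 0 := by
  rw [pNew, LinearMap.mem_ker, funext_iff]
  rfl

theorem twOp_mem_pNew {ℓ : Nat.Primes} (hℓ : (ℓ : ℕ) ≠ q) {x : Lv.part} (hx : x ∈ Bl.pNew Lv) :
    (⟨_, Lv.twOp_mem_part ℓ x.2⟩ : Lv.part) ∈ Bl.pNew Lv := by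
  rw [mem_pNew] at hx ⊢
  intro j
  refine (Bl.trPart_twOp Lv j hℓ x).trans (Subtype.ext ?_)
  show twOp (Bl.level Lv).θ (Bl.level Lv).N_dvd_L ℓ (Bl.trPart Lv j x : (Bl.level Lv).H1) = 0
  rw [hx j, Submodule.coe_zero, map_zero]

/-- The kernel is a free direct summand; its rank is the rank of the part less twice the rank
below. -/
theorem free_pNew : Module.Free Lv.Λ (Bl.pNew Lv) ∧ Module.Finite Lv.Λ (Bl.pNew Lv) ∧
    Module.finrank Lv.Λ (Bl.pNew Lv) + 2 * Module.finrank Lv.Λ (Bl.level Lv).part =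
      Module.finrank Lv.Λ Lv.part := by
  haveI := Lv.free_part.1
  haveI := Lv.free_part.2
  haveI := (Bl.level Lv).free_part.1
  haveI := (Bl.level Lv).free_part.2
  let T : Lv.part →ₗ[Lv.Λ] (Fin 2 → (Bl.level Lv).part) := LinearMap.pi (Bl.trPart Lv)
  obtain ⟨g, hg⟩ := Module.projective_lifting_property T LinearMap.id fun y => by
    obtain ⟨x, hx⟩ := Bl.trPart_surjective Lv y
    exact ⟨x, funext hx⟩
  have hTg : ∀ y, T (g y) = y := fun y => LinearMap.congr_fun hg y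
  let π : Lv.part →ₗ[Lv.Λ] Bl.pNew Lv := (LinearMap.id - g ∘ₗ T).codRestrict _ fun x => by
    show T (x - g (T x)) = 0
    rw [map_sub, hTg, sub_self]
  have hπ : ∀ x : Bl.pNew Lv, π x = x := fun x => Subtype.ext (by
    show (x : Lv.part) - g (T x) = x
    rw [show T (x : Lv.part) = 0 from x.2, map_zero, sub_zero])
  haveI : Module.Finite Lv.Λ (Bl.pNew Lv) :=
    Module.Finite.of_surjective π fun x => ⟨x, hπ x⟩
  haveI : Module.Projective Lv.Λ (Bl.pNew Lv) :=
    Module.Projective.of_split (Bl.pNew Lv).subtype π (LinearMap.ext hπ)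
  haveI : Module.Free Lv.Λ (Bl.pNew Lv) :=
    Module.free_of_flat_of_isLocalRing (R := Lv.Λ) (P := Bl.pNew Lv)
  refine ⟨inferInstance, inferInstance, ?_⟩
  let E : Lv.part ≃ₗ[Lv.Λ] (Bl.pNew Lv × (Fin 2 → (Bl.level Lv).part)) :=
    LinearEquiv.ofLinear (π.prod T) ((Bl.pNew Lv).subtype.coprod g)
      (LinearMap.ext fun ⟨x, y⟩ => Prod.ext (Subtype.ext (by
        show (x : Lv.part) + g y - g (T ((x : Lv.part) + g y)) = x
        rw [map_add, show T (x : Lv.part) = 0 from x.2, hTg, zero_add, add_sub_cancel_right])) (by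
        show T ((x : Lv.part) + g y) = y
        rw [map_add, show T (x : Lv.part) = 0 from x.2, hTg, zero_add]))
      (LinearMap.ext fun x => show x - g (T x) + g (T x) = x from sub_add_cancel _ _)
  rw [E.finrank_eq, Module.finrank_prod, Module.finrank_pi_fintype]
  simp

end NodeBelow

end Fermat.Agent.Lifting.Models

end
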