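import Fermat.Agent.Lifting.Models.PNewPeriods
import Fermat.Agent.Lifting.Models.Residual
import Fermat.Agent.Lifting.Models.CrossPrime
import Fermat.Agent.Lifting.Squarefree.RaiseData

/-!
# A residual class new at `p` at the level of the base times the auxiliary primes

The class killed by the two transfers at `p` at the level of the base is raised through the
auxiliary primes by a degeneracy map, which commutes with the transfers.
-/

set_option autoImplicit false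
set_option linter.style.haveILetI false

noncomputable section

namespace Fermat.Agent.Lifting.Models

open scoped MatrixGroups
open CongruenceSubgroup IsLocalRing Periods
open RT.TW RT.Systems

section Generic

variable {k : Type} [Field k]

local notation "Φ₁" => (1 : MulChar (ZMod 1) k)

/-- An eigen class of level `M q` killed by the two transfers to level `M`. -/
def KilledClass (q M : ℕ) (S : Finset ℕ) (a : Nat.Primes → k) : Prop :=
  ∃ (_ : NeZero M) (y : heckeH1 Φ₁ (M * q) ((one_dvd M).mul_right q)), y ≠ 0 ∧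
    (∀ ℓ : Nat.Primes, (ℓ : ℕ) ∉ S → heckeOp Φ₁ ((one_dvd M).mul_right q) ℓ y = a ℓ • y) ∧
    ∀ (hq : q.Prime) (hqM : ¬ q ∣ M) (Bz : AddPrimeBezout M q),
      (degCores Φ₁ (one_dvd M) hq hqM Bz).opH1 y = 0 ∧
        degCores' Φ₁ (one_dvd M) hq hqM Bz y = 0

theorem KilledClass.mono {q M : ℕ} {S S' : Finset ℕ} {a a' : Nat.Primes → k}
    (h : KilledClass q M S a) (hS : S ⊆ S')
    (ha : ∀ ℓ : Nat.Primes, (ℓ : ℕ) ∉ S' → a ℓ = a' ℓ) : KilledClass q M S' a' := by
  obtain ⟨hM, y, hy0, hy, hk⟩ := h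
  exact ⟨hM, y, hy0, fun ℓ hℓ => by rw [hy ℓ fun h => hℓ (hS h), ha ℓ hℓ], hk⟩

/-- A killed class occurs at the level times an auxiliary prime. -/
theorem KilledClass.mul_prime {q M t : ℕ} {S : Finset ℕ} {a : Nat.Primes → k}
    (h : KilledClass q M S a) (hq : q.Prime) (ht : t.Prime) (hqt : q ≠ t) (hqM : ¬ q ∣ M)
    (htM : ¬ t ∣ M) (htS : t ∉ S) (hat : a ⟨t, ht⟩ ^ 2 ≠ ((t : k) + 1) ^ 2) :
    KilledClass q (M * t) (insert t S) a := by
  obtain ⟨hM, x, hx0, hx, hk⟩ := h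
  haveI : NeZero (M * t) := ⟨mul_ne_zero (NeZero.ne M) ht.ne_zero⟩
  haveI : NeZero (M * q) := ⟨mul_ne_zero (NeZero.ne M) hq.ne_zero⟩
  obtain ⟨Bq⟩ := exists_addPrimeBezout hq hqM
  obtain ⟨Bt⟩ := exists_addPrimeBezout ht (not_dvd_mul_of_ne ht hq hqt.symm htM)
  obtain ⟨k1, k2⟩ := hk hq hqM Bq
  simp only [degCores', LinearMap.comp_apply] at k2
  let c := levelCast Φ₁ (mul_right_comm M q t)
    (((one_dvd M).mul_right q).mul_right t) (((one_dvd M).mul_right t).mul_right q)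
  have key : ∀ i : heckeH1 Φ₁ (M * q) ((one_dvd M).mul_right q) →ₗ[k]
      heckeH1 Φ₁ (M * q * t) (((one_dvd M).mul_right q).mul_right t),
      (∀ (ℓ : Nat.Primes), (ℓ : ℕ) ≠ t → ∀ y,
        heckeOp Φ₁ (((one_dvd M).mul_right q).mul_right t) ℓ (i y) =
          i (heckeOp Φ₁ ((one_dvd M).mul_right q) ℓ y)) →
      (∀ (hqM' : ¬ q ∣ M * t) (Bz : AddPrimeBezout (M * t) q),
        (degCores Φ₁ (one_dvd (M * t)) hq hqM' Bz).opH1 (c (i x)) = 0 ∧
          degCores' Φ₁ (one_dvd (M * t)) hq hqM' Bz (c (i x)) = 0) →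
      i x ≠ 0 → KilledClass q (M * t) (insert t S) a := by
    intro i hi hkill h0
    refine ⟨inferInstance, c (i x), c.map_ne_zero_iff.2 h0, fun ℓ hℓ => ?_,
      fun _ hqM' Bz => hkill hqM' Bz⟩
    rw [Finset.mem_insert, not_or] at hℓ
    refine (levelCast_heckeOp _ _ _ _ ℓ (i x)).symm.trans ?_
    rw [hi ℓ hℓ.1, hx ℓ hℓ.2, map_smul, map_smul]
  by_cases ht1 : (t : k) + 1 = 0
  · refine key (degDiag Φ₁ ((one_dvd M).mul_right q) ht
      (not_dvd_mul_of_ne ht hq hqt.symm htM)).opH1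
      (fun ℓ hℓ y => opH1_degDiag_comm _ ht _ ℓ hℓ y) (fun hqM' Bz => ⟨?_, ?_⟩) fun h0 => ?_
    · refine (degCores_degDiag_cross (one_dvd M) hqt hqM htM Bq Bz x).trans ?_
      rw [k1, map_zero]
    · simp only [degCores', LinearMap.comp_apply]
      rw [degInvol_degDiag_cross (one_dvd M) hqt htM Bq Bz x]
      refine (degCores_degDiag_cross (one_dvd M) hqt hqM htM Bq Bz _).trans ?_
      rw [k2, map_zero]
    · have h1 := degCores_degDiag ((one_dvd M).mul_right q) ht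
        (not_dvd_mul_of_ne ht hq hqt.symm htM) Bt x
      rw [h0, map_zero, hx ⟨t, ht⟩ htS] at h1
      refine hat ?_
      rw [(smul_eq_zero.1 h1.symm).resolve_right hx0, ht1]
  · refine key (degRes t Φ₁ ((one_dvd M).mul_right q)).opH1
      (fun ℓ hℓ y => opH1_degRes_comm _ ht ℓ hℓ y) (fun hqM' Bz => ⟨?_, ?_⟩) fun h0 => ?_
    · refine (degCores_degRes_cross (ht := ht) (one_dvd M) hqt hqM Bq Bz x).trans ?_
      rw [k1, map_zero]
    · simp only [degCores', LinearMap.comp_apply]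
      rw [degInvol_degRes_cross (one_dvd M) hqt Bq Bz x]
      refine (degCores_degRes_cross (ht := ht) (one_dvd M) hqt hqM Bq Bz _).trans ?_
      rw [k2, map_zero]
    · have h1 := degCores_degRes ((one_dvd M).mul_right q) ht
        (not_dvd_mul_of_ne ht hq hqt.symm htM) Bt x
      rw [h0, map_zero] at h1
      exact ht1 ((smul_eq_zero.1 h1.symm).resolve_right hx0)

/-- A killed class occurs at the level times auxiliary primes. -/
theorem KilledClass.mul_prod {q M : ℕ} {S : Finset ℕ} {a : Nat.Primes → k}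
    (h : KilledClass q M S a) (hq : q.Prime) (hqM : ¬ q ∣ M) (T : Finset ℕ)
    (hT : ∀ t ∈ T, t ≠ q ∧ ¬ t ∣ M ∧ t ∉ S ∧
      ∃ ht : t.Prime, a ⟨t, ht⟩ ^ 2 ≠ ((t : k) + 1) ^ 2) :
    KilledClass q (M * ∏ t ∈ T, t) (S ∪ T) a := by
  induction T using Finset.induction_on with
  | empty => rwa [Finset.prod_empty, mul_one, Finset.union_empty]
  | insert t T htT ih =>
    obtain ⟨htq, htM, htS, ht, hat⟩ := hT t (Finset.mem_insert_self t T)
    have ih' := ih fun s hs => hT s (Finset.mem_insert_of_mem hs)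
    have hnd : ∀ x : ℕ, x.Prime → ¬ x ∣ M → x ∉ T → ¬ x ∣ M * ∏ s ∈ T, s := by
      intro x hx hxM hxT hd
      rcases hx.dvd_mul.1 hd with h | h
      · exact hxM h
      · obtain ⟨s, hs, hxs⟩ := (Prime.dvd_finsetProd_iff hx.prime _).1 h
        obtain ⟨-, -, -, hs', -⟩ := hT s (Finset.mem_insert_of_mem hs)
        rw [(Nat.prime_dvd_prime_iff_eq hx hs').1 hxs] at hxT
        exact hxT hs
    have hqT : q ∉ T := fun hqT => (hT q (Finset.mem_insert_of_mem hqT)).1 rfl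
    have h2 := ih'.mul_prime hq ht htq.symm (hnd q hq hqM hqT) (hnd t ht htM htT)
      (Finset.notMem_union.2 ⟨htS, htT⟩) hat
    rwa [Finset.prod_insert htT, mul_comm t, ← mul_assoc, Finset.union_insert]

/-- A homomorphism with values in the prime field gives a killed class. -/
theorem killedClass_of_hom {p q M : ℕ} [Fact p.Prime] [NeZero M] (ι : ZMod p →+* k) (hq : q.Prime)
    (hqM : ¬ q ∣ M) {φ : Additive (Gamma0 (M * q)) →+ ZMod p} (hφ0 : φ ≠ 0) (S : Finset ℕ)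
    (c : Nat.Primes → ℤ)
    (hc : ∀ ℓ : Nat.Primes, (ℓ : ℕ) ∉ S → heckeHom ℤ (ZMod p) ℓ.2 φ = c ℓ • φ)
    (h1 : LevelRaise.degTr M (ZMod p) hq hqM φ = 0)
    (h2 : LevelRaise.degTr' M (ZMod p) hq hqM φ = 0) :
    KilledClass q M S fun ℓ => (c ℓ : k) := by
  refine ⟨inferInstance, homClass (ι.toAddMonoidHom.comp φ), fun h0 => hφ0 ?_, fun ℓ hℓ => ?_,
    fun _ _ Bz => ⟨?_, ?_⟩⟩
  · rw [← homClass_zero] at h0
    have h := homClass_inj h0
    refine AddMonoidHom.ext fun g => ι.injective ?_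
    rw [AddMonoidHom.zero_apply, map_zero]
    exact DFunLike.congr_fun h g
  · show heckeOp Φ₁ (one_dvd (M * q)) ℓ _ = _
    rw [heckeOp_homToCocycle, Periods.heckeHom_comp (R := ℤ) ℓ.2 ι.toAddMonoidHom φ, hc ℓ hℓ,
      ← homClass_smul]
    refine congrArg homClass (AddMonoidHom.ext fun g => ?_)
    simp
  · rw [degCores_homToCocycle, LevelRaise.degTr_comp, h1, AddMonoidHom.comp_zero, homClass_zero]
  · rw [degCores'_homToCocycle, LevelRaise.degTr'_comp, h2, AddMonoidHom.comp_zero, homClass_zero]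

end Generic

variable {W : WeierstrassCurve ℤ} {hΔ : W.Δ ≠ 0} {p L : ℕ} [hp : Fact p.Prime]
  {O : Type} [CommRing O] [IsDomain O] [IsDiscreteValuationRing O]
  [IsAdicComplete (maximalIdeal O) O] [Finite (ResidueField O)] [CharZero O]

/-- **The residual class new at `p` of the base.** -/
theorem killedClass_raiseData (hb : IsRaisingBase W p L) (hpL : p ∣ L)
    (B : RaiseData W hΔ p L O) :
    KilledClass (k := ResidueField O) p (L / p * B.r₀) (raiseExcluded W p B.r₀) B.a := by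
  obtain ⟨M, hM⟩ := hpL
  rw [mul_comm] at hM
  subst hM
  rw [Nat.mul_div_cancel M hp.out.pos]
  haveI : NeZero M := ⟨left_ne_zero_of_mul hb.pos.ne'⟩
  have hr0 : B.r₀ ≠ 0 := right_ne_zero_of_mul B.squarefree.ne_zero
  have hpM : ¬ p ∣ M := fun hd =>
    hp.out.ne_one (Nat.isUnit_iff.1 (hb.squarefree p (mul_dvd_mul_right hd p)))
  obtain ⟨g, 𝔪, hg, hmax, hpm, hcong⟩ := hb.newform
  have hgood : ∀ ℓ : ℕ, ℓ.Prime → ℓ ∉ raiseExcluded W p 1 →
      W.IsGoodPrimeFor ℓ ∧ ¬ ℓ ∣ M * p ∧ ℓ ≠ p := by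
    intro ℓ hℓ h
    obtain ⟨hℓp, hG, -⟩ := (not_mem_raiseExcluded_iff hΔ one_ne_zero hℓ).1 h
    exact ⟨hG, fun hd => hG (hb.dvd_bad ℓ hℓ hd), hℓp⟩
  obtain ⟨φ, hφ0, hφ, h1, h2⟩ := exists_modp_class_killed (p := p) hp.out hp.out hpM hg.1
    (hg.2 M (dvd_mul_right M p) fun h =>
      hp.out.ne_one (mul_left_cancel₀ (NeZero.ne M) (h.symm.trans (mul_one M).symm)))
    hmax hpm {ℓ | ℓ ∉ raiseExcluded W p 1} (fun ℓ => W.apOfModel ℓ)
    fun ℓ h hℓ => hcong ℓ hℓ (hgood ℓ hℓ h).1 (hgood ℓ hℓ h).2.1 (hgood ℓ hℓ h).2.2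
  have h0 := killedClass_of_hom B.ι hp.out hpM hφ0 (raiseExcluded W p 1)
    (fun ℓ => W.apOfModel ℓ) (fun ℓ hℓ => hφ ℓ hℓ ℓ.2) h1 h2
  have h3 := h0.mul_prod hp.out hpM B.r₀.primeFactors fun t ht => by
    obtain ⟨htp, htd, -⟩ := Nat.mem_primeFactors.1 ht
    obtain ⟨hne, hG, hnL, hneq⟩ := B.aux t htp htd
    refine ⟨hne, fun hd => hnL (hd.mul_right p),
      (not_mem_raiseExcluded_iff hΔ one_ne_zero htp).2 ⟨hne, hG, htp.not_dvd_one⟩, htp, fun h => ?_⟩
    refine hneq (B.ι.injective ?_)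
    rw [map_pow, map_pow, map_add, map_natCast, map_one, map_intCast]
    exact h
  rw [Nat.prod_primeFactors_of_squarefree (B.squarefree.of_mul_right)] at h3
  refine h3.mono ?_ fun ℓ hℓ => (B.a_eq ℓ hℓ).symm
  intro x hx
  simp only [raiseExcluded, Finset.mem_union, Finset.mem_insert, Nat.primeFactors_one,
    Finset.notMem_empty, or_false] at hx ⊢
  tauto

end Fermat.Agent.Lifting.Models

end
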