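import Fermat.Agent.LevelP.PNew
import Fermat.Agent.LevelRaise.Eigen

/-!
# An eigen class modulo `p` killed by the two transfers

The periods of an eigenform of level `M q` whose system does not occur at level `M` are killed by
the two transfers to level `M`; the integral classes all of whose Hecke translates are killed by
them form a saturated stable lattice, and its reduction contains an eigen class congruent to the
form.
-/

set_option autoImplicit false
set_option linter.style.haveILetI false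

noncomputable section

open CongruenceSubgroup ModularCurve ModularCurve.Period ModularFormClass
open Fermat.Agent.Periods
open scoped MatrixGroups IsMulCommutative

namespace Fermat.Agent.Lifting.Models

variable {M q : ℕ} [NeZero M]

/-- The periods of a form new at `q` are killed by the two transfers. -/
theorem degTr_periods_eq_zero (hq : q.Prime) (hqM : ¬ q ∣ M)
    {f : CuspForm (Gamma0 (M * q)) 2} (hf : f.IsNormalizedEigenform)
    (hold : ¬ f.GoodEigensystemOccursAt M) [NeZero (M * q)] :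
    LevelRaise.degTr M ℂ hq hqM (periodHomPair (M * q) (f, 0)) = 0 ∧
      LevelRaise.degTr' M ℂ hq hqM (periodHomPair (M * q) (f, 0)) = 0 := by
  set φ := periodHomPair (M * q) (f, 0)
  have hmem : φ ∈ eigenHoms (M * q) (fun n => qCoeff f n) :=
    periodHomPair_mem_eigenHoms_iff.mpr
      ⟨isEigen_of_isNormalizedEigenform hf, ⟨fun _ _ _ => by simp, fun _ _ _ => by simp⟩⟩
  have hc : φ ∈ cuspidalHoms ℤ (Gamma0 (M * q)) ℂ := by
    rw [← parabolicHoms_eq_cuspidalHoms]; exact hmem.1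
  have key : ∀ y ∈ cuspidalHoms ℤ (Gamma0 M) ℂ,
      (∀ (ℓ : ℕ) (hℓ : ℓ.Prime), ¬ ℓ ∣ M * q → heckeHom ℂ ℂ hℓ y = qCoeff f ℓ • y) → y = 0 := by
    intro y hy hT
    by_contra h0
    exact hold (LevelP.exists_eigenform_of_good_class (M * q) _
      (by rw [parabolicHoms_eq_cuspidalHoms]; exact hy) h0 (fun _ hℓ => hℓ.mul_right q) hT)
  have hsmul : ∀ c : ℂ, c • φ = (AddMonoidHom.mulLeft c).comp φ := fun _ => rfl
  refine ⟨key _ (LevelRaise.degTr_mem_cuspidalHoms hq hqM hc) fun ℓ hℓ hn => ?_,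
    key _ (LevelRaise.degTr'_mem_cuspidalHoms hq hqM hc) fun ℓ hℓ hn => ?_⟩
  · rw [← LevelP.heckeHom_int_eq, ← LevelRaise.degTr_heckeHom hq hqM hℓ
      (fun e => hn (e ▸ dvd_mul_left q M)), LevelP.heckeHom_int_eq, hmem.2 ℓ hℓ, hsmul,
      LevelRaise.degTr_comp]
    rfl
  · rw [← LevelP.heckeHom_int_eq, ← LevelRaise.degTr'_heckeHom hq hqM hℓ
      (fun e => hn (e ▸ dvd_mul_left q M)), LevelP.heckeHom_int_eq, hmem.2 ℓ hℓ, hsmul,
      LevelRaise.degTr'_comp]
    rfl

/-- An eigenvector of the generators is one of the whole algebra. -/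
theorem apply_eq_char_smul {N : ℕ} [NeZero N] {f : CuspForm (Gamma0 N) 2}
    {χ : CuspForm.heckeAlgebra N 2 ∅ →+* ℂ}
    (hT : ∀ (ℓ : ℕ) (hℓ : ℓ.Prime) (hℓN : ¬ ℓ ∣ N),
      CuspForm.heckeTLin 2 hℓ hℓN f =
        χ (CuspForm.heckeAlgebra.T hℓ hℓN (Set.notMem_empty ℓ)) • f)
    (hU : ∀ (ℓ : ℕ) (hℓ : ℓ.Prime) (hℓN : ℓ ∣ N),
      ((CuspForm.heckeAlgebra.U hℓ hℓN (Set.notMem_empty ℓ) : CuspForm.heckeAlgebra N 2 ∅) :
          Module.End ℂ _) f =
        χ (CuspForm.heckeAlgebra.U hℓ hℓN (Set.notMem_empty ℓ)) • f)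
    (t : CuspForm.heckeAlgebra N 2 ∅) : (t : Module.End ℂ _) f = χ t • f := by
  obtain ⟨t, ht⟩ := t
  induction ht using Algebra.adjoin_induction with
  | mem T hmem =>
    rcases hmem with ⟨ℓ, hℓ, hℓN, -, rfl⟩ | ⟨ℓ, hℓN, hℓ, -, rfl⟩
    · exact hT ℓ hℓ hℓN
    · exact hU ℓ hℓ hℓN
  | algebraMap n =>
    show (algebraMap ℤ (Module.End ℂ _) n) f = χ (algebraMap ℤ _ n) • f
    rw [Algebra.algebraMap_eq_smul_one, Algebra.algebraMap_eq_smul_one, map_zsmul, map_one,
      zsmul_eq_mul (1 : ℂ), mul_one, Int.cast_smul_eq_zsmul]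
    rfl
  | add a b ha hb iha ihb =>
    show (a + b) f = χ (⟨a, ha⟩ + ⟨b, hb⟩) • f
    rw [LinearMap.add_apply, iha, ihb, map_add, add_smul]
  | mul a b ha hb iha ihb =>
    show (a * b) f = χ (⟨a, ha⟩ * ⟨b, hb⟩) • f
    rw [Module.End.mul_apply, ihb, map_smul, iha, map_mul, smul_smul, mul_comm]

/-- **An eigen class modulo `p` killed by the two transfers.** -/
theorem exists_modp_class_killed {p : ℕ} (hp : p.Prime) (hq : q.Prime) (hqM : ¬ q ∣ M)
    {f : CuspForm (Gamma0 (M * q)) 2} (hf : f.IsNormalizedEigenform)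
    (hold : ¬ f.GoodEigensystemOccursAt M)
    {𝔪 : Ideal (integralClosure ℤ ℂ)} (hmax : 𝔪.IsMaximal) (hpm : (p : integralClosure ℤ ℂ) ∈ 𝔪)
    (G : Set ℕ) (c : ℕ → ℤ)
    (hc : ∀ ℓ ∈ G, ℓ.Prime → ∃ a : integralClosure ℤ ℂ,
      (a : ℂ) = qCoeff f ℓ ∧ a - (c ℓ : integralClosure ℤ ℂ) ∈ 𝔪) :
    ∃ φ : Additive (Gamma0 (M * q)) →+ ZMod p, φ ≠ 0 ∧
      (∀ ℓ ∈ G, ∀ hℓ : ℓ.Prime, heckeHom ℤ (ZMod p) hℓ φ = c ℓ • φ) ∧
      LevelRaise.degTr M (ZMod p) hq hqM φ = 0 ∧ LevelRaise.degTr' M (ZMod p) hq hqM φ = 0 := by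
  classical
  haveI : NeZero (M * q) := ⟨mul_ne_zero (NeZero.ne M) hq.ne_zero⟩
  haveI : NeZero p := ⟨hp.ne_zero⟩
  obtain ⟨χ, hχT, hχU⟩ := LevelRaise.exists_hecke_char hf
  let T := CuspForm.heckeAlgebra (M * q) 2 (∅ : Set ℕ)
  let χℂ : T →+* ℂ := (integralClosure ℤ ℂ).toSubring.subtype.comp χ
  have heig := isEigen_of_isNormalizedEigenform hf
  have hχ : ∀ t : T, (t : Module.End ℂ _) f = χℂ t • f := apply_eq_char_smul
    (fun ℓ hℓ hℓN => by
      show _ = (χ _ : ℂ) • f
      rw [hχT]; exact heig.1 ℓ hℓ hℓN)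
    (fun ℓ hℓ hℓN => by
      show _ = (χ _ : ℂ) • f
      rw [hχU, CuspForm.heckeAlgebra.coe_U]; exact heig.2 ℓ hℓN hℓ)
  let V := cuspidalHoms ℤ (Gamma0 (M * q)) ℤ
  let τ : T →+* Module.End ℤ V :=
    (LevelRaise.opAlg (M * q)).val.toRingHom.comp (LevelRaise.toOpAlg (M * q))
  -- the classes all of whose translates are killed
  let K : Submodule ℤ V :=
    { carrier := {v | ∀ t : T,
        LevelRaise.degTr M ℤ hq hqM ((τ t v : V) : Additive (Gamma0 (M * q)) →+ ℤ) = 0 ∧
        LevelRaise.degTr' M ℤ hq hqM ((τ t v : V) : Additive (Gamma0 (M * q)) →+ ℤ) = 0}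
      zero_mem' := fun t => by simp
      add_mem' := fun ha hb t => by
        simp [(ha t).1, (ha t).2, (hb t).1, (hb t).2]
      smul_mem' := fun n v hv t => by simp [(hv t).1, (hv t).2] }
  have hstab : ∀ s : T, ∀ v ∈ K, τ s v ∈ K := fun s v hv t => by
    rw [← Module.End.mul_apply, ← map_mul]
    exact hv (t * s)
  let σ : T →+* Module.End ℤ K :=
    { toFun := fun t => (τ t).restrict (hstab t)
      map_one' := LinearMap.ext fun v => Subtype.ext (by
        show τ 1 (v : V) = _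
        rw [map_one]; rfl)
      map_mul' := fun s t => LinearMap.ext fun v => Subtype.ext (by
        show τ (s * t) (v : V) = τ s (τ t (v : V))
        rw [map_mul]; rfl)
      map_zero' := LinearMap.ext fun v => Subtype.ext (by
        show τ 0 (v : V) = _
        rw [map_zero]; rfl)
      map_add' := fun s t => LinearMap.ext fun v => Subtype.ext (by
        show τ (s + t) (v : V) = τ s (v : V) + τ t (v : V)
        rw [map_add]; rfl) }
  letI : Module T K := Module.compHom K σ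
  have hsmul : ∀ (t : T) (v : K), ((t • v : K) : V) = τ t v := fun _ _ => rfl
  -- the periods in integral classes
  set φ₀ := periodHomPair (M * q) (f, 0) with hφ₀
  obtain ⟨γ, e, he, -, hexp⟩ := exists_cuspidalBasis.{0} (M * q)
  have hφc : φ₀ ∈ cuspidalHoms ℤ (Gamma0 (M * q)) ℂ := by
    have h : φ₀ ∈ parabolicHoms ℂ (Gamma0 (M * q)) ℂ := by
      rw [← range_periodHomPair]
      exact LinearMap.mem_range_self _ _
    rw [← parabolicHoms_eq_cuspidalHoms]
    exact h
  let S : Submodule ℤ ℂ := Submodule.span ℤ (Set.range fun i => φ₀ (Additive.ofMul (γ i)))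
  haveI : Module.Finite ℤ S := Module.Finite.span_of_finite ℤ (Set.finite_range _)
  haveI : Module.Free ℤ S := Module.free_of_finite_type_torsion_free'
  let b := Module.Free.chooseBasis ℤ S
  have hS : ∀ g, φ₀ g ∈ S := fun g => by
    rw [hexp ℂ φ₀ hφc g]
    exact Submodule.sum_mem _ fun i _ => Submodule.smul_mem _ _ (Submodule.subset_span ⟨i, rfl⟩)
  let φS : Additive (Gamma0 (M * q)) →+ S :=
    φ₀.codRestrict S.toAddSubgroup hS
  let u : Module.Free.ChooseBasisIndex ℤ S → V := fun j =>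
    ⟨(b.coord j).toAddMonoidHom.comp φS, fun g hg => by
      show b.coord j (φS (Additive.ofMul g)) = 0
      rw [show φS (Additive.ofMul g) = 0 from Subtype.ext (hφc g hg), map_zero]⟩
  have hsum : φ₀ = ∑ j, ((b j : S) : ℂ) •
      (Int.castAddHom ℂ).comp (u j : Additive (Gamma0 (M * q)) →+ ℤ) := by
    refine AddMonoidHom.ext fun g => ?_
    have h := congrArg Subtype.val (b.sum_repr (φS g))
    rw [Submodule.coe_sum] at h
    rw [AddMonoidHom.finsetSum_apply]
    refine h.symm.trans (Finset.sum_congr rfl fun j _ => ?_)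
    rw [Submodule.coe_smul, zsmul_eq_mul, mul_comm]
    rfl
  choose x hx using fun j => LevelRaise.exists_periods (u j)
  have hf0 : ((f, 0) : CuspForm (Gamma0 (M * q)) 2 × CuspForm (Gamma0 (M * q)) 2) =
      ∑ j, ((b j : S) : ℂ) • x j := periodHomPair_injective (M * q) (by
    rw [map_sum, ← hφ₀, hsum]
    exact Finset.sum_congr rfl fun j _ => by rw [map_smul, hx j])
  have htrans : ∀ t : T, χℂ t • φ₀ = ∑ j, ((b j : S) : ℂ) •
      (Int.castAddHom ℂ).comp ((τ t (u j) : V) : Additive (Gamma0 (M * q)) →+ ℤ) := fun t => by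
    have h1 := congrArg (fun z : CuspForm (Gamma0 (M * q)) 2 × CuspForm (Gamma0 (M * q)) 2 =>
      ((t : Module.End ℂ _).prodMap (t : Module.End ℂ _)) z) hf0
    simp only [map_sum, map_smul] at h1
    rw [LinearMap.prodMap_apply, map_zero, hχ t] at h1
    have h2 := congrArg (periodHomPair (M * q)) h1
    rw [map_sum, show ((χℂ t • f, 0) : CuspForm (Gamma0 (M * q)) 2 × CuspForm (Gamma0 (M * q)) 2) =
      χℂ t • (f, 0) by rw [Prod.smul_mk, smul_zero], map_smul, ← hφ₀] at h2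
    refine h2.trans (Finset.sum_congr rfl fun j _ => ?_)
    rw [map_smul, LinearMap.prodMap_apply, LevelRaise.shadow_shadowOf t (x j) (u j) (hx j)]
    rfl
  have hindep : ∀ n : Module.Free.ChooseBasisIndex ℤ S → ℤ,
      (∑ j, (n j : ℂ) * ((b j : S) : ℂ)) = 0 → ∀ j, n j = 0 := fun n hn => by
    refine Fintype.linearIndependent_iff.1 b.linearIndependent n (Subtype.ext ?_)
    rw [Submodule.coe_sum, Submodule.coe_zero, ← hn]
    exact Finset.sum_congr rfl fun j _ => by rw [Submodule.coe_smul, zsmul_eq_mul]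
  have hK : ∀ j, u j ∈ K := by
    obtain ⟨k1, k2⟩ := degTr_periods_eq_zero hq hqM hf hold
    intro j t
    have key : ∀ D : (Additive (Gamma0 (M * q)) →+ ℂ) →ₗ[ℤ] (Additive (Gamma0 M) →+ ℂ),
        D φ₀ = 0 → ∀ D₀ : (Additive (Gamma0 (M * q)) →+ ℤ) →ₗ[ℤ] (Additive (Gamma0 M) →+ ℤ),
        (∀ (h : ℤ →+ ℂ) (v : Additive (Gamma0 (M * q)) →+ ℤ), D (h.comp v) = h.comp (D₀ v)) →
        (∀ (h : ℂ →+ ℂ) (v : Additive (Gamma0 (M * q)) →+ ℂ), D (h.comp v) = h.comp (D v)) →
        D₀ ((τ t (u j) : V) : Additive (Gamma0 (M * q)) →+ ℤ) = 0 := by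
      intro D hD D₀ hc₁ hc₂
      have e := congrArg D (htrans t)
      rw [map_sum, show χℂ t • φ₀ = (AddMonoidHom.mulLeft (χℂ t)).comp φ₀ from rfl, hc₂, hD,
        AddMonoidHom.comp_zero] at e
      refine AddMonoidHom.ext fun g => hindep
        (fun i => D₀ ((τ t (u i) : V) : Additive (Gamma0 (M * q)) →+ ℤ) g) ?_ j
      have e' := DFunLike.congr_fun e g
      rw [AddMonoidHom.zero_apply, AddMonoidHom.finsetSum_apply] at e'
      refine (Finset.sum_congr rfl fun i _ => ?_).trans e'.symm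
      rw [show ((b i : S) : ℂ) • (Int.castAddHom ℂ).comp
          ((τ t (u i) : V) : Additive (Gamma0 (M * q)) →+ ℤ) =
        (AddMonoidHom.mulLeft ((b i : S) : ℂ)).comp ((Int.castAddHom ℂ).comp
          ((τ t (u i) : V) : Additive (Gamma0 (M * q)) →+ ℤ)) from rfl, hc₂, hc₁]
      exact mul_comm _ _
    exact ⟨key _ k1 _ (fun h v => LevelRaise.degTr_comp hq hqM h v)
        (fun h v => LevelRaise.degTr_comp hq hqM h v),
      key _ k2 _ (fun h v => LevelRaise.degTr'_comp hq hqM h v)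
        (fun h v => LevelRaise.degTr'_comp hq hqM h v)⟩
  -- finiteness
  haveI : Module.Finite ℤ V := (LevelRaise.free_finite_cuspidalHoms_int (M * q)).2
  haveI hKfin : Module.Finite ℤ K := Module.Finite.of_injective K.subtype Subtype.val_injective
  haveI : Module.Finite T K := by
    obtain ⟨s, hs⟩ := hKfin.fg_top
    refine ⟨⟨s, eq_top_iff.mpr fun v hv0 => ?_⟩⟩
    clear hv0
    have hv : v ∈ Submodule.span ℤ (s : Set K) := by rw [hs]; trivial
    induction hv using Submodule.span_induction with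
    | mem x hx => exact Submodule.subset_span hx
    | zero => exact zero_mem _
    | add x y _ _ hx hy => exact add_mem hx hy
    | smul n x _ hx => exact zsmul_mem hx n
  let Q : Ideal T := 𝔪.comap χ
  -- `Q K ≠ K`
  have hQK : Q • (⊤ : Submodule T K) ≠ ⊤ := fun h => by
    obtain ⟨t, ht1, ht⟩ := Submodule.exists_sub_one_mem_and_smul_eq_zero_of_fg_of_le_smul Q
      (⊤ : Submodule T K) Module.Finite.fg_top h.ge
    have h0 : χℂ t • φ₀ = 0 := (htrans t).trans (Finset.sum_eq_zero fun j _ => by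
      rw [show τ t (u j) = 0 from congrArg Subtype.val (ht ⟨u j, hK j⟩ trivial),
        Submodule.coe_zero, AddMonoidHom.comp_zero, smul_zero])
    have hne : φ₀ ≠ 0 := fun e0 => hf.ne_zero (congrArg Prod.fst
      (periodHomPair_injective (M * q) (e0.trans (map_zero (periodHomPair (M * q))).symm)))
    have h1 : χ (t - 1) ∈ 𝔪 := ht1
    rw [map_sub, show χ t = 0 from Subtype.ext ((smul_eq_zero.1 h0).resolve_right hne), map_one,
      zero_sub, Submodule.neg_mem_iff] at h1
    exact hmax.ne_top ((Ideal.eq_top_iff_one 𝔪).mpr h1)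
  let P : Submodule T K :=
    { carrier := {v | ∃ w : K, v = (p : ℤ) • w}
      zero_mem' := ⟨0, (smul_zero _).symm⟩
      add_mem' := by
        rintro a b ⟨w, rfl⟩ ⟨w', rfl⟩
        exact ⟨w + w', (smul_add _ _ _).symm⟩
      smul_mem' := by
        rintro t _ ⟨w, rfl⟩
        exact ⟨t • w, smul_comm _ _ _⟩ }
  have hpQ : (p : T) ∈ Q := by
    show χ (p : T) ∈ 𝔪
    rwa [map_natCast]
  haveI : Finite (K ⧸ P) := by
    have : AddGroup.FG (K ⧸ P) := by
      have : AddGroup.FG K := Module.Finite.iff_addGroup_fg.mp hKfin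
      exact AddGroup.fg_of_surjective (f := P.mkQ.toAddMonoidHom) P.mkQ_surjective
    refine AddCommGroup.finite_of_fg_isAddTorsion _ fun x => ?_
    obtain ⟨v, rfl⟩ := P.mkQ_surjective x
    refine isOfFinAddOrder_iff_nsmul_eq_zero.mpr ⟨p, hp.pos, ?_⟩
    rw [← map_nsmul]
    exact (Submodule.Quotient.mk_eq_zero P).mpr ⟨v, (natCast_zsmul v p).symm⟩
  obtain ⟨w, hw0, hw⟩ := LevelRaise.exists_ne_zero_killed (W := K ⧸ P) Q fun h => hQK (by
    refine eq_top_iff.mpr fun v _ => ?_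
    have hv : P.mkQ v ∈ Submodule.map P.mkQ (Q • (⊤ : Submodule T K)) := by
      rw [Submodule.map_smul'', Submodule.map_top, Submodule.range_mkQ, h]; trivial
    obtain ⟨z, hz, hzv⟩ := hv
    obtain ⟨y, hy⟩ : v - z ∈ P := (Submodule.Quotient.eq P).mp hzv.symm
    rw [← sub_add_cancel v z, hy]
    refine add_mem ?_ hz
    have := Submodule.smul_mem_smul hpQ (Submodule.mem_top (R := T) (x := y))
    rwa [Nat.cast_smul_eq_nsmul T, ← natCast_zsmul] at this)
  obtain ⟨v, rfl⟩ := P.mkQ_surjective w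
  let red : (Additive (Gamma0 (M * q)) →+ ℤ) → Additive (Gamma0 (M * q)) →+ ZMod p :=
    fun z => (Int.castAddHom (ZMod p)).comp z
  have hP : ∀ z : K, z ∈ P → red ((z : V) : Additive (Gamma0 (M * q)) →+ ℤ) = 0 := by
    rintro z ⟨y, rfl⟩
    ext g
    simp [red]
  refine ⟨red ((v : V) : Additive (Gamma0 (M * q)) →+ ℤ), fun h0 => hw0 ?_,
    fun ℓ hℓG hℓ => ?_, ?_, ?_⟩
  · obtain ⟨z, hz⟩ := LevelRaise.exists_eq_smul_of_cast_eq_zero (v : V) h0
    refine (Submodule.Quotient.mk_eq_zero P).mpr ⟨⟨z, fun t => ?_⟩, Subtype.ext hz⟩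
    have hv := v.2 t
    rw [hz, map_zsmul, Submodule.coe_smul_of_tower, map_zsmul, map_zsmul] at hv
    have hp0 : (p : ℤ) ≠ 0 := by exact_mod_cast hp.ne_zero
    constructor
    · refine AddMonoidHom.ext fun g => ?_
      have := DFunLike.congr_fun hv.1 g
      exact (smul_eq_zero.1 this).resolve_left hp0
    · refine AddMonoidHom.ext fun g => ?_
      have := DFunLike.congr_fun hv.2 g
      exact (smul_eq_zero.1 this).resolve_left hp0
  · obtain ⟨t, ht, htχ⟩ : ∃ t : T,
        (LevelRaise.toOpAlg (M * q) t : Module.End ℤ V) = LevelRaise.heckeOp (M * q) hℓ ∧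
          (χ t : ℂ) = qCoeff f ℓ := by
      by_cases hℓN : ℓ ∣ M * q
      · exact ⟨_, LevelRaise.shadowOf_U hℓ hℓN, hχU ℓ hℓ hℓN⟩
      · exact ⟨_, LevelRaise.shadowOf_T hℓ hℓN, hχT ℓ hℓ hℓN⟩
    obtain ⟨a, ha, ham⟩ := hc ℓ hℓG hℓ
    have htQ : t - (c ℓ : T) ∈ Q := by
      show χ (t - (c ℓ : T)) ∈ 𝔪
      rw [map_sub, map_intCast, show χ t = a from Subtype.ext (htχ.trans ha.symm)]
      exact ham
    have h := hP _ ((Submodule.Quotient.mk_eq_zero P).mp
      ((Submodule.Quotient.mk_smul P _ v).trans (hw _ htQ)))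
    rw [sub_smul, Int.cast_smul_eq_zsmul] at h
    refine (LevelRaise.intCast_comp_heckeOp_zmod hℓ (v : V)).trans (AddMonoidHom.ext fun g => ?_)
    have hg := DFunLike.congr_fun h g
    simp only [red, AddMonoidHom.comp_apply, AddMonoidHom.smul_apply, AddMonoidHom.zero_apply,
      Submodule.coe_sub, Submodule.coe_smul_of_tower, AddMonoidHom.sub_apply, map_sub, map_zsmul,
      sub_eq_zero, hsmul, τ, RingHom.comp_apply, AlgHom.toRingHom_eq_coe, RingHom.coe_coe,
      Subalgebra.coe_val, ht] at hg ⊢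
    exact hg
  · have h1 : τ 1 (v : V) = v := by rw [map_one]; rfl
    show LevelRaise.degTr M (ZMod p) hq hqM ((Int.castAddHom (ZMod p)).comp _) = 0
    rw [LevelRaise.degTr_comp, ← h1, (v.2 1).1, AddMonoidHom.comp_zero]
  · have h1 : τ 1 (v : V) = v := by rw [map_one]; rfl
    show LevelRaise.degTr' M (ZMod p) hq hqM ((Int.castAddHom (ZMod p)).comp _) = 0
    rw [LevelRaise.degTr'_comp, ← h1, (v.2 1).2, AddMonoidHom.comp_zero]

end Fermat.Agent.Lifting.Models

end
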