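import Fermat.Agent.Lifting.Models.PNewRank
import Fermat.Agent.Lifting.Models.PNewClass

/-!
# The classes killed by the two transfers are not zero

A residual eigen class killed by the two transfers is the reduction of a class of the part killed
by them, as the transfers are jointly surjective.
-/

set_option autoImplicit false
set_option linter.style.haveILetI false

noncomputable section

open IsLocalRing MvPolynomial

namespace Fermat.Agent.Lifting.Models

open RT.Diamond RT.TW RT.Assembly RT.Systems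

/-- An eigen class of the system lies in its part. -/
theorem eq_of_eigen {A : Type} [Field A] {M : ℕ} {G : Set Nat.Primes} {a : Nat.Primes → A}
    (haG : ∀ ℓ, ℓ ∉ G → a ℓ = 0)
    {e : Module.End A (heckeH1 (1 : MulChar (ZMod 1) A) M (one_dvd M))}
    (he : IsLocalIdem (heckeActOn (1 : MulChar (ZMod 1) A) (one_dvd M) G)
      (residualIdeal (RingHom.id A) a) e)
    {y : heckeH1 (1 : MulChar (ZMod 1) A) M (one_dvd M)}
    (hy : ∀ ℓ ∈ G, heckeOp (1 : MulChar (ZMod 1) A) (one_dvd M) ℓ y = a ℓ • y) : e y = y := by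
  have hact : ∀ P, heckeActOn (1 : MulChar (ZMod 1) A) (one_dvd M) G P y = eval a P • y :=
    fun P => by
    induction P using MvPolynomial.induction_on with
    | C v => rw [heckeActOn_C, eval_C]; rfl
    | add P Q hP hQ => rw [map_add, LinearMap.add_apply, hP, hQ, map_add, add_smul]
    | mul_X P ℓ hP =>
      by_cases hℓ : ℓ ∈ G
      · rw [map_mul, Module.End.mul_apply, heckeActOn_X _ hℓ, hy ℓ hℓ, map_smul, hP, smul_smul,
          map_mul, eval_X]
        exact congrArg (· • y) (mul_comm _ _)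
      · rw [map_mul, Module.End.mul_apply, map_mul, eval_X, haG ℓ hℓ, mul_zero, zero_smul,
          heckeActOn_apply (G := G) (P := (X ℓ : HeckePoly A)), killOff_X_of_notMem hℓ, map_zero,
          LinearMap.zero_apply, map_zero]
  obtain ⟨s, hs, hid⟩ := he.compl
  obtain ⟨P, hP⟩ := he.mem
  have hs0 : eval a s = 0 := hs
  have h : heckeActOn (1 : MulChar (ZMod 1) A) (one_dvd M) G s (y - eval a P • y) =
      y - eval a P • y := by
    have h1 := LinearMap.congr_fun hid y
    rwa [Module.End.mul_apply, LinearMap.sub_apply, Module.End.one_apply, ← hP, hact P] at h1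
  rw [map_sub, map_smul, hact s, hs0, zero_smul, smul_zero, sub_zero] at h
  rw [← hP, hact P]
  exact (sub_eq_zero.1 h.symm).symm

variable {O : Type} [CommRing O] [IsDomain O] [IsDiscreteValuationRing O]
  [IsAdicComplete (maximalIdeal O) O] [Finite (ResidueField O)] [CharZero O]
  {p : ℕ} [Fact p.Prime] {B : NodeBase O p} {q : ℕ}

theorem redk_eq_zero_of_mem_smul {r n : ℕ} (Lv : NodeLevel B r n) {x : Lv.part}
    (hx : x ∈ maximalIdeal Lv.Λ • (⊤ : Submodule Lv.Λ Lv.part)) : redk Lv x = 0 := by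
  refine Submodule.smul_induction_on hx (fun a ha z _ => ?_) fun y z hy hz => ?_
  · have h0 : Lv.resΛ a = 0 := by rwa [← RingHom.mem_ker, Lv.ker_resΛ]
    rw [Submodule.coe_smul, LinearMap.map_smulₛₗ, h0, zero_smul]
  · rw [Submodule.coe_add, map_add, hy, hz, add_zero]

namespace NodeBelow

variable (Bl : NodeBelow B q)

theorem finrank_pNew_pos_of_redk {r n : ℕ} (Lv : NodeLevel B r n)
    {y : heckeH1 (1 : MulChar (ZMod 1) (ResidueField O)) Lv.L (one_dvd Lv.L)} (hy0 : y ≠ 0)
    (hy : ∀ ℓ ∈ B.G, heckeOp (1 : MulChar (ZMod 1) (ResidueField O)) (one_dvd Lv.L) ℓ y =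
      Lv.aLv ℓ • y)
    (h1 : (degCores (1 : MulChar (ZMod 1) (ResidueField O)) (one_dvd (Bl.level Lv).L) Bl.prime
      (Bl.not_dvd_level Lv) (Bl.bezout Lv)).opH1
        (levelCast (1 : MulChar (ZMod 1) (ResidueField O)) (Bl.level_L Lv).symm (one_dvd Lv.L)
          ((one_dvd (Bl.level Lv).L).mul_right q) y) = 0)
    (h2 : degCores' (1 : MulChar (ZMod 1) (ResidueField O)) (one_dvd (Bl.level Lv).L) Bl.prime
      (Bl.not_dvd_level Lv) (Bl.bezout Lv)
        (levelCast (1 : MulChar (ZMod 1) (ResidueField O)) (Bl.level_L Lv).symm (one_dvd Lv.L)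
          ((one_dvd (Bl.level Lv).L).mul_right q) y) = 0) :
    0 < Module.finrank Lv.Λ (Bl.pNew Lv) := by
  haveI := (Bl.free_pNew Lv).1
  haveI := (Bl.free_pNew Lv).2.1
  haveI := finite_heckeH1 (Φ := (1 : MulChar (ZMod 1) (ResidueField O))) (one_dvd Lv.L)
    (Lv.coverHyp_L.map Lv.resΛ)
  haveI := finite_heckeH1 (Φ := (1 : MulChar (ZMod 1) (ResidueField O)))
    (one_dvd (Bl.level Lv).L) ((Bl.level Lv).coverHyp_L.map (Bl.level Lv).resΛ)
  haveI := residualIdeal_isMaximal (RingHom.id (ResidueField O)) Function.surjective_id Lv.aLv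
  haveI := residualIdeal_isMaximal (RingHom.id (ResidueField O)) Function.surjective_id
    (Bl.level Lv).aLv
  obtain ⟨e, he⟩ := exists_isLocalIdem
    (heckeActOn (1 : MulChar (ZMod 1) (ResidueField O)) (one_dvd Lv.L) B.G)
    (residualIdeal (RingHom.id (ResidueField O)) Lv.aLv)
  obtain ⟨e₀, he₀⟩ := exists_isLocalIdem
    (heckeActOn (1 : MulChar (ZMod 1) (ResidueField O)) (one_dvd (Bl.level Lv).L) Bl.base.G)
    (residualIdeal (RingHom.id (ResidueField O)) (Bl.level Lv).aLv)
  obtain ⟨x, hx⟩ := (redk_part Lv he).1 y (eq_of_eigen Lv.aLv_of_notMem he hy)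
  have ht : ∀ j, Bl.trPart Lv j x ∈
      maximalIdeal Lv.Λ • (⊤ : Submodule Lv.Λ (Bl.level Lv).part) := by
    refine Fin.forall_fin_two.2 ⟨(redk_part (Bl.level Lv) he₀).2.1 (Bl.trPart Lv 0 x) ?_,
      (redk_part (Bl.level Lv) he₀).2.1 (Bl.trPart Lv 1 x) ?_⟩
    · refine (Bl.redk_tr_zero Lv x).trans ?_
      rw [hx]; exact h1
    · refine (Bl.redk_tr_one Lv x).trans ?_
      rw [hx]; exact h2
  let T : Lv.part →ₗ[Lv.Λ] (Fin 2 → (Bl.level Lv).part) := LinearMap.pi (Bl.trPart Lv)
  have hT : LinearMap.range T = ⊤ := LinearMap.range_eq_top.2 fun z => by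
    obtain ⟨w, hw⟩ := Bl.trPart_surjective Lv z
    exact ⟨w, funext hw⟩
  have hmem : T x ∈
      maximalIdeal Lv.Λ • (⊤ : Submodule Lv.Λ (Fin 2 → (Bl.level Lv).part)) := by
    rw [← Finset.univ_sum_single (T x)]
    refine Submodule.sum_mem _ fun j _ => ?_
    have := Submodule.mem_map_of_mem
      (f := LinearMap.single Lv.Λ (fun _ : Fin 2 => (Bl.level Lv).part) j) (ht j)
    rw [Submodule.map_smul''] at this
    exact Submodule.smul_mono le_rfl le_top this
  have e' : maximalIdeal Lv.Λ • (⊤ : Submodule Lv.Λ (Fin 2 → (Bl.level Lv).part)) =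
      Submodule.map T (maximalIdeal Lv.Λ • (⊤ : Submodule Lv.Λ Lv.part)) := by
    rw [Submodule.map_smul'', Submodule.map_top, hT]
  rw [e'] at hmem
  obtain ⟨z, hz, hzx⟩ := hmem
  refine (Module.finrank_pos_iff_of_free (R := Lv.Λ) (M := Bl.pNew Lv)).2
    (nontrivial_of_ne (⟨x - z, ?_⟩ : Bl.pNew Lv) 0 fun h0 => hy0 ?_)
  · show T (x - z) = 0
    rw [map_sub, hzx, sub_self]
  · have h : (x : Lv.H1) = z := congrArg Subtype.val (sub_eq_zero.1 (congrArg Subtype.val h0))
    rw [← hx, h, redk_eq_zero_of_mem_smul Lv hz]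

include Bl in
/-- A killed residual class at the level of the node makes the rank of the node more than twice
that of the node below. -/
theorem two_mul_baseRank_lt
    (h : KilledClass (k := ResidueField O) q Bl.base.M B.omitted B.a) :
    2 * Bl.base.baseRank < B.baseRank := by
  let Lv : NodeLevel B 0 0 :=
    { qv := Fin.elim0
      inj := fun i => i.elim0
      not_mem := fun i => i.elim0
      not_omitted := fun i => i.elim0
      e := Fin.elim0
      le_e := fun i => i.elim0
      pos_e := fun i => i.elim0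
      dvd_sub := fun i => i.elim0
      e_max := fun i => i.elim0
      α := Fin.elim0
      root := fun i => i.elim0
      distinct := fun i => i.elim0 }
  have hL : (Bl.level Lv).L = Bl.base.M := by
    show Bl.base.M * _ = _
    rw [Fin.prod_univ_zero, mul_one]
  rw [← hL] at h
  obtain ⟨hne, y, hy0, hy, hk⟩ := h
  set c := levelCast (1 : MulChar (ZMod 1) (ResidueField O)) (Bl.level_L Lv).symm (one_dvd Lv.L)
    ((one_dvd (Bl.level Lv).L).mul_right q) with hc
  have hy' : ∀ ℓ ∈ B.G, heckeOp (1 : MulChar (ZMod 1) (ResidueField O)) (one_dvd Lv.L) ℓ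
      (c.symm y) = Lv.aLv ℓ • c.symm y := fun ℓ hℓ => by
    refine c.injective ?_
    rw [hc, levelCast_heckeOp, ← hc, LinearEquiv.apply_symm_apply, hy ℓ hℓ, map_smul,
      LinearEquiv.apply_symm_apply, Lv.aLv_of_forall (fun i => i.elim0), B.a₀_of_mem hℓ]
  have hpos := Bl.finrank_pNew_pos_of_redk Lv (c.symm.map_ne_zero_iff.2 hy0)
    hy' (by rw [← hc, LinearEquiv.apply_symm_apply]; exact (hk _ _ _).1)
    (by rw [← hc, LinearEquiv.apply_symm_apply]; exact (hk _ _ _).2)
  have := Bl.finrank_pNew_add Lv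
  omega

end NodeBelow

end Fermat.Agent.Lifting.Models

end
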