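import Fermat.Agent.Lifting.Models.NodeRank
import Fermat.Agent.Lifting.Models.PNew

/-!
# The rank of the classes killed by the two transfers

It is the rank of the node less twice the rank of the node below, for all Taylor–Wiles levels.
-/

set_option autoImplicit false

noncomputable section

open IsLocalRing

namespace Fermat.Agent.Lifting.Models

variable {O : Type} [CommRing O] [IsDomain O] [IsDiscreteValuationRing O]
  [IsAdicComplete (maximalIdeal O) O] [Finite (ResidueField O)] [CharZero O]
  {p : ℕ} [Fact p.Prime] {B : NodeBase O p} {q : ℕ}

namespace NodeBelow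

variable (Bl : NodeBelow B q) {r n : ℕ} (Lv : NodeLevel B r n)

include Bl in
theorem finrank_pNew_add :
    Module.finrank Lv.Λ (Bl.pNew Lv) + 2 * Bl.base.baseRank = B.baseRank := by
  have h := (Bl.free_pNew Lv).2.2
  rwa [(Bl.level Lv).finrank_part, Lv.finrank_part] at h

theorem finrank_pNew :
    Module.finrank Lv.Λ (Bl.pNew Lv) = B.baseRank - 2 * Bl.base.baseRank := by
  have h := Bl.finrank_pNew_add Lv
  omega

end NodeBelow

end Fermat.Agent.Lifting.Models

end
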