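import Fermat.Agent.Lifting.Models.PNewAug
import Fermat.Agent.Lifting.Models.PNewModel
import Fermat.Agent.Lifting.Models.PNewRaise
import Fermat.Agent.Lifting.Models.RaiseBelow
import Fermat.Agent.Lifting.Models.SummandSubOp
import Fermat.Agent.Lifting.Models.TopClass

/-!
# The matrices at the augmentation of the summands of the top node

`map_pNewSummand_op`, `map_full_op`: the models of the summands reduce to `newOp`, resp. `baseOp`;
`exists_peuTopHom`, `newRank_zero_pos`: the two conditions on the ranks and the top at a peu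
ramifiée `p`.
-/

set_option autoImplicit false
set_option linter.style.haveILetI false

noncomputable section

open IsLocalRing

namespace Fermat.Agent.Lifting.Models

open RT.Diamond RT.TW RT.Assembly
open Raise (RaiseFrames RaiseLevel Peu)

theorem apply_coe_eq_sum {R H : Type*} [CommRing R] [AddCommGroup H] [Module R H]
    {P : Submodule R H} {N : Submodule R P} {D : ℕ} (b : Module.Basis (Fin D) R N) (t : H → H)
    (M : Matrix (Fin D) (Fin D) R)
    (h : ∀ x, t ((b.equivFun.symm x : P) : H) = ((b.equivFun.symm (M.mulVec x) : P) : H))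
    (a : Fin D) : t ((b a : P) : H) = ∑ i, M i a • ((b i : P) : H) := by
  classical
  have h1 : b.equivFun.symm (Pi.single a 1) = b a := by
    rw [LinearEquiv.symm_apply_eq]
    funext j
    simp [Pi.single_apply, eq_comm]
  have h2 : b.equivFun.symm (M.mulVec (Pi.single a 1)) = ∑ i, M i a • b i := by
    rw [Module.Basis.equivFun_symm_apply]
    exact Finset.sum_congr rfl fun i _ => by rw [Matrix.mulVec_single_one]; rfl
  rw [← h1, h, h2, coe_coe_sum_smul]

variable {O : Type} [CommRing O] [IsDomain O] [IsDiscreteValuationRing O]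
  [IsAdicComplete (maximalIdeal O) O] [Finite (ResidueField O)] [CharZero O]
  {p : ℕ} [Fact p.Prime] {B : NodeBase O p} {q : ℕ} {r n D : ℕ} (Lv : NodeLevel B r n)

namespace NodeBelow

variable (Bl : NodeBelow B q)

theorem twOp_pNewSummand_basis (b : Module.Basis (Fin D) Lv.Λ (Bl.pNew Lv)) {ℓ : Nat.Primes}
    (hℓ : (ℓ : ℕ) ∉ Lv.S') (a : Fin D) :
    twOp Lv.θ Lv.N_dvd_L ℓ ((b a : Lv.part) : Lv.H1) =
      ∑ i, (Bl.pNewSummand Lv b).op ℓ i a • ((b i : Lv.part) : Lv.H1) :=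
  apply_coe_eq_sum b (fun z => twOp Lv.θ Lv.N_dvd_L ℓ z) ((Bl.pNewSummand Lv b).op ℓ)
    (fun x => (Bl.pNewSummand Lv b).twOp_incl hℓ x) a

theorem map_pNewSummand_op {b : Module.Basis (Fin Bl.newRank) Lv.Λ (Bl.pNew Lv)}
    (hb : ∀ i, Bl.augNew Lv (b i) = Bl.newBasis i) {ℓ : Nat.Primes} (hℓ : (ℓ : ℕ) ∉ Lv.S') :
    ((Bl.pNewSummand Lv b).op ℓ).map (aug O (ppow p Lv.e)) = Bl.newOp ℓ :=
  Bl.map_eq_newOp Lv hb hℓ (Bl.ne_of_good Lv hℓ) _ (Bl.twOp_pNewSummand_basis Lv b hℓ)

end NodeBelow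

theorem map_full_op {b : Module.Basis (Fin B.baseRank) Lv.Λ Lv.part}
    (hb : ∀ ℓ : Nat.Primes, (ℓ : ℕ) ∉ Lv.S' → (Lv.opMat b ℓ).map (aug O (ppow p Lv.e)) = B.baseOp ℓ)
    {ℓ : Nat.Primes} (hℓ : (ℓ : ℕ) ∉ Lv.S') :
    ((Summand.full b).op ℓ).map (aug O (ppow p Lv.e)) = B.baseOp ℓ := by
  rw [Summand.full_op b hℓ]; exact hb ℓ hℓ

variable {W : WeierstrassCurve ℤ} {hΔ : W.Δ ≠ 0} {L : ℕ} {B : RaiseData W hΔ p L O}
  (F : RaiseFrames B)

/-- An eigenvector at the peu ramifiée top gives an eigen class of the top level. -/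
theorem exists_peuTopHom (hP : Peu W p L) (c : Nat.Primes → O)
    (w : Fin (offBelow F hP.1 (Fin.last F.m : Fin (F.m + 1))).newRank → O) (hw : w ≠ 0)
    (h : ∀ ℓ : Nat.Primes, (ℓ : ℕ) ∉ raiseExcluded W p B.r₀ →
          ((offBelow F hP.1 (Fin.last F.m : Fin (F.m + 1))).newOp ℓ).mulVec w = c ℓ • w) :
    ∃ φ : Additive (CongruenceSubgroup.Gamma0 F.topLevel) →+ FractionRing O, φ ≠ 0 ∧
      ∀ (ℓ : ℕ) (hℓ : ℓ.Prime), ℓ ∉ raiseExcluded W p B.r₀ → ∀ x,
        Periods.heckeHom ℤ (FractionRing O) hℓ φ x =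
          algebraMap O (FractionRing O) (c ⟨ℓ, hℓ⟩) * φ x := by
  obtain ⟨w', hw', h'⟩ := (offBelow F hP.1 (Fin.last F.m : Fin (F.m + 1))).exists_eigen_of_new
    (raiseExcluded W p B.r₀) c w hw (mem_raiseExcluded_self (W := W)) h
  exact exists_topHom F c w' hw' h'

/-- The summand of node `0` at a peu ramifiée `p` is nonzero. -/
theorem newRank_zero_pos (hb : IsRaisingBase W p L) (hP : Peu W p L) :
    0 < (offBelow F hP.1 0).newRank := by
  have h1 := (offBelow F hP.1 0).newRank_add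
  have h2 := two_mul_baseRank_lt_raise F hb hP.1
  have h3 : (offBelow F hP.1 0).base.baseRank = (nodeBaseOff F 0).baseRank := rfl
  omega

end Fermat.Agent.Lifting.Models

end
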